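import Mathlib
import Fermat.Prelude.Def_EllipticCurve_FrobeniusTrace
import Fermat.Agent.QbarInst
import Fermat.Agent.FrobExists

/-!
# Frobenius and inertia at a valuation subring: element-wise descriptions and conjugation
-/

set_option autoImplicit false

open Pointwise

namespace Fermat.Agent.TWP.Place

section General

variable {K L : Type*} [Field K] [Field L] [Algebra K L]

lemma smul_mem_smul (A : ValuationSubring L) (g : L ≃ₐ[K] L) {x : L} :
    g x ∈ g • A ↔ x ∈ A :=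
  ValuationSubring.smul_mem_pointwise_smul_iff (g := g) (S := A) (x := x)

lemma mem_smul_iff (A : ValuationSubring L) (g : L ≃ₐ[K] L) {x : L} :
    x ∈ g • A ↔ g⁻¹ x ∈ A :=
  ValuationSubring.mem_pointwise_smul_iff_inv_smul_mem (g := g) (S := A) (x := x)

lemma apply_mem_nonunits_smul (A : ValuationSubring L) (g : L ≃ₐ[K] L) {x : L} :
    g x ∈ (g • A).nonunits ↔ x ∈ A.nonunits := by
  rw [ValuationSubring.mem_nonunits_iff_or, ValuationSubring.mem_nonunits_iff_or, ← map_inv₀,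
    smul_mem_smul, map_eq_zero]

lemma mem_nonunits_iff' (A : ValuationSubring L) (x : A) :
    (x : L) ∈ A.nonunits ↔ IsLocalRing.residue A x = 0 := by
  rw [ValuationSubring.coe_mem_nonunits_iff, IsLocalRing.residue_eq_zero_iff]

/-- Element-wise description of Frobenius elements. -/
theorem isFrobeniusAt_iff (A : ValuationSubring L) (σ : L ≃ₐ[K] L) (q : ℕ) :
    A.IsFrobeniusAt σ q ↔ σ • A = A ∧ ∀ x ∈ A, σ x - x ^ q ∈ A.nonunits := by
  constructor
  · rintro ⟨hσ, h⟩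
    refine ⟨hσ, fun x hx => ?_⟩
    have h1 := h (IsLocalRing.residue A ⟨x, hx⟩)
    rw [← IsLocalRing.ResidueField.residue_smul, ← map_pow, ← sub_eq_zero, ← map_sub,
      ← mem_nonunits_iff'] at h1
    exact h1
  · rintro ⟨hσ, h⟩
    refine ⟨hσ, fun x => ?_⟩
    obtain ⟨⟨x, hx⟩, rfl⟩ := IsLocalRing.residue_surjective x
    rw [← IsLocalRing.ResidueField.residue_smul, ← map_pow, ← sub_eq_zero, ← map_sub,
      ← mem_nonunits_iff']
    exact h x hx

/-- Element-wise description of the inertia group. -/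
theorem mem_inertiaSubgroupIn_iff (A : ValuationSubring L) (σ : L ≃ₐ[K] L) :
    σ ∈ A.inertiaSubgroupIn K ↔ σ • A = A ∧ ∀ x ∈ A, σ x - x ∈ A.nonunits := by
  constructor
  · rintro ⟨τ, hτ, rfl⟩
    refine ⟨τ.2, fun x hx => ?_⟩
    have h1 : τ • IsLocalRing.residue A ⟨x, hx⟩ = IsLocalRing.residue A ⟨x, hx⟩ :=
      congrArg (fun e : RingAut (IsLocalRing.ResidueField A) =>
        e (IsLocalRing.residue A ⟨x, hx⟩)) hτ
    rw [← IsLocalRing.ResidueField.residue_smul, ← sub_eq_zero, ← map_sub,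
      ← mem_nonunits_iff'] at h1
    exact h1
  · rintro ⟨hσ, h⟩
    refine ⟨⟨σ, hσ⟩, ?_, rfl⟩
    rw [SetLike.mem_coe, ValuationSubring.inertiaSubgroup, MonoidHom.mem_ker]
    ext x
    obtain ⟨⟨x, hx⟩, rfl⟩ := IsLocalRing.residue_surjective x
    change (⟨σ, hσ⟩ : A.decompositionSubgroup K) • IsLocalRing.residue A ⟨x, hx⟩ =
      IsLocalRing.residue A ⟨x, hx⟩
    rw [← IsLocalRing.ResidueField.residue_smul, ← sub_eq_zero, ← map_sub,
      ← mem_nonunits_iff']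
    exact h x hx

theorem isFrobeniusAt_conj {A : ValuationSubring L} {σ : L ≃ₐ[K] L} {q : ℕ} (g : L ≃ₐ[K] L)
    (h : A.IsFrobeniusAt σ q) : (g • A).IsFrobeniusAt (g * σ * g⁻¹) q := by
  rw [isFrobeniusAt_iff] at h ⊢
  obtain ⟨h1, h2⟩ := h
  refine ⟨by rw [mul_smul, mul_smul, inv_smul_smul, h1], fun x hx => ?_⟩
  have h3 := h2 (g⁻¹ x) ((mem_smul_iff A g).mp hx)
  rw [← apply_mem_nonunits_smul A g, map_sub, map_pow] at h3
  have h4 : g (g⁻¹ x) = x := g.apply_symm_apply x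
  rw [h4] at h3
  exact h3

theorem mem_inertia_conj {A : ValuationSubring L} {σ : L ≃ₐ[K] L} (g : L ≃ₐ[K] L)
    (h : σ ∈ A.inertiaSubgroupIn K) : g * σ * g⁻¹ ∈ (g • A).inertiaSubgroupIn K := by
  rw [mem_inertiaSubgroupIn_iff] at h ⊢
  obtain ⟨h1, h2⟩ := h
  refine ⟨by rw [mul_smul, mul_smul, inv_smul_smul, h1], fun x hx => ?_⟩
  have h3 := h2 (g⁻¹ x) ((mem_smul_iff A g).mp hx)
  rw [← apply_mem_nonunits_smul A g, map_sub] at h3
  have h4 : g (g⁻¹ x) = x := g.apply_symm_apply x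
  rw [h4] at h3
  exact h3

theorem decomposition_conj {A : ValuationSubring L} {σ : L ≃ₐ[K] L} (g : L ≃ₐ[K] L)
    (h : σ ∈ A.decompositionSubgroup K) : g * σ * g⁻¹ ∈ (g • A).decompositionSubgroup K := by
  change (g * σ * g⁻¹) • (g • A) = g • A
  rw [mul_smul, mul_smul, inv_smul_smul, show σ • A = A from h]

/-- Two Frobenius elements at the same place differ by an element of inertia. -/
theorem inv_mul_mem_inertia {A : ValuationSubring L} {σ τ : L ≃ₐ[K] L} {q : ℕ}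
    (hσ : A.IsFrobeniusAt σ q) (hτ : A.IsFrobeniusAt τ q) : σ⁻¹ * τ ∈ A.inertiaSubgroupIn K := by
  rw [isFrobeniusAt_iff] at hσ hτ
  rw [mem_inertiaSubgroupIn_iff]
  refine ⟨by rw [mul_smul, hτ.1, inv_smul_eq_iff, hσ.1], fun x hx => ?_⟩
  have h1 := hσ.2 x hx
  have h2 := hτ.2 x hx
  have h3 : τ x - σ x ∈ A.nonunits := by
    have hσx : σ x ∈ A := by
      have := (smul_mem_smul A σ (x := x)).mpr hx
      rwa [hσ.1] at this
    have hτx : τ x ∈ A := by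
      have := (smul_mem_smul A τ (x := x)).mpr hx
      rwa [hτ.1] at this
    have e1 := (mem_nonunits_iff' A (⟨σ x, hσx⟩ - ⟨x, hx⟩ ^ q)).mp h1
    have e2 := (mem_nonunits_iff' A (⟨τ x, hτx⟩ - ⟨x, hx⟩ ^ q)).mp h2
    have e3 := (mem_nonunits_iff' A (⟨τ x, hτx⟩ - ⟨σ x, hσx⟩)).mpr (by
      rw [show (⟨τ x, hτx⟩ - ⟨σ x, hσx⟩ : A) = (⟨τ x, hτx⟩ - ⟨x, hx⟩ ^ q) -
        (⟨σ x, hσx⟩ - ⟨x, hx⟩ ^ q) by ring, map_sub, e1, e2, sub_zero])
    exact e3
  have h4 := (apply_mem_nonunits_smul (σ⁻¹ • A) σ (x := (σ⁻¹ * τ) x - x)).mp ?_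
  · rwa [show σ⁻¹ • A = A by rw [inv_smul_eq_iff, hσ.1]] at h4
  · rw [smul_inv_smul, map_sub]
    convert h3 using 2
    exact σ.apply_symm_apply (τ x)

end General

section Qbar

local notation "Γℚ" => (AlgebraicClosure ℚ ≃ₐ[ℚ] AlgebraicClosure ℚ)

/-- All Frobenius elements above `ℓ` are conjugate modulo inertia. -/
theorem exists_conj_mul_inertia {ℓ : ℕ} (hℓ : ℓ.Prime)
    {A B : ValuationSubring (AlgebraicClosure ℚ)} (hA : A.LiesOverPrime ℓ) (hB : B.LiesOverPrime ℓ)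
    {σ τ : Γℚ} (hσ : A.IsFrobeniusAt σ ℓ) (hτ : B.IsFrobeniusAt τ ℓ) :
    ∃ g : Γℚ, ∃ i ∈ B.inertiaSubgroupIn ℚ, τ = g * σ * g⁻¹ * i := by
  obtain ⟨g, rfl⟩ := FrobExists.exists_smul_eq A B hℓ hA hB
  refine ⟨g, (g * σ * g⁻¹)⁻¹ * τ, inv_mul_mem_inertia (isFrobeniusAt_conj g hσ) hτ, ?_⟩
  group

end Qbar

end Fermat.Agent.TWP.Place
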