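import Fermat.Agent.TWP.ArtinStar

/-!
# Artin induction for additive functions
-/

set_option autoImplicit false

namespace Fermat.Agent.TWP.ArtinInd

open Module

section Free

variable {Γ : Type} [Group Γ] {p : ℕ} [Fact p.Prime] (E : AddFn (ZMod p) Γ)

open Polynomial in
theorem sub_one_pow_pred (p : ℕ) [Fact p.Prime] {R : Type} [Ring R] [Algebra (ZMod p) R] (S : R) :
    (S - 1) ^ (p - 1) = ∑ i ∈ Finset.range p, S ^ i := by
  have h1 : ((X : (ZMod p)[X]) - 1) ^ (p - 1) = ∑ i ∈ Finset.range p, X ^ i := by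
    have h2 : ((X : (ZMod p)[X]) - 1) ≠ 0 := by
      rw [← C_1]
      exact X_sub_C_ne_zero 1
    apply mul_right_cancel₀ h2
    rw [geom_sum_mul, ← pow_succ, Nat.sub_add_cancel (Fact.out : p.Prime).one_le,
      sub_pow_char, one_pow]
  have h3 := congrArg (aeval S) h1
  simpa using h3

open Polynomial in
theorem sub_one_pow_char (p : ℕ) [Fact p.Prime] {R : Type} [Ring R] [Algebra (ZMod p) R] (S : R) :
    (S - 1) ^ p = S ^ p - 1 := by
  have h1 : ((X : (ZMod p)[X]) - 1) ^ p = X ^ p - 1 := by
    rw [sub_pow_char, one_pow]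
  have h3 := congrArg (aeval S) h1
  simpa using h3

theorem AddFn.perm_free {X' X : Type} [Finite X'] [Finite X] [MulAction Γ X'] [MulAction Γ X]
    (σ : X' → X') (q : X' → X) (hσ : ∀ (g : Γ) x, σ (g • x) = g • σ x)
    (hq : ∀ (g : Γ) x, q (g • x) = g • q x) (hsurj : Function.Surjective q)
    (hqσ : ∀ x, q (σ x) = q x) (hσp : ∀ x, σ^[p] x = x)
    (hfib : ∀ x y, q x = q y → ∃! i, i < p ∧ σ^[i] x = y) :
    E.e (perm (ZMod p) X' : Representation (ZMod p) Γ _) =
      p * E.e (perm (ZMod p) X : Representation (ZMod p) Γ _) := by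
  classical
  let S : (X' → ZMod p) →ₗ[ZMod p] (X' → ZMod p) := LinearMap.funLeft (ZMod p) (ZMod p) σ
  have hSi : ∀ (i : ℕ) (f : X' → ZMod p) (x : X'), (S ^ i) f x = f (σ^[i] x) := by
    intro i
    induction i with
    | zero => intro f x; rfl
    | succ i ih =>
      intro f x
      rw [pow_succ, Module.End.mul_apply, ih, Function.iterate_succ_apply']
      rfl
  let T : (X' → ZMod p) →ₗ[ZMod p] (X' → ZMod p) := S - 1
  have hTf : ∀ (f : X' → ZMod p) (x : X'), T f x = f (σ x) - f x := fun f x => rfl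
  have hT : ∀ (g : Γ) (v : X' → ZMod p), T (perm (ZMod p) X' g v) = perm (ZMod p) X' g (T v) := by
    intro g v
    ext x
    rw [hTf, perm_apply, perm_apply, perm_apply, hTf, hσ]
  have h0 : T ^ p = 0 := by
    change (S - 1) ^ p = 0
    rw [sub_one_pow_char p S, sub_eq_zero]
    refine LinearMap.ext fun f => funext fun x => ?_
    rw [hSi, hσp]
    rfl
  have hkerT : ∀ f : X' → ZMod p, f ∈ LinearMap.ker T ↔ ∀ x, f (σ x) = f x := by
    intro f
    rw [LinearMap.mem_ker]
    constructor
    · intro h x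
      exact sub_eq_zero.mp (congrFun h x)
    · intro h
      ext x
      rw [hTf, h, sub_self]
      rfl
  have hiter : ∀ f : X' → ZMod p, (∀ x, f (σ x) = f x) → ∀ i x, f (σ^[i] x) = f x := by
    intro f hf i
    induction i with
    | zero => intro x; rfl
    | succ i ih =>
      intro x
      rw [Function.iterate_succ_apply', hf, ih]
  have hqiter : ∀ i x, q (σ^[i] x) = q x := by
    intro i
    induction i with
    | zero => intro x; rfl
    | succ i ih =>
      intro x
      rw [Function.iterate_succ_apply', hqσ, ih]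
  have hker : LinearMap.ker T ≤ LinearMap.range (T ^ (p - 1)) := by
    intro w hw
    rw [hkerT] at hw
    obtain ⟨s, hs⟩ := hsurj.hasRightInverse
    refine ⟨fun x => if x = s (q x) then w x else 0, ?_⟩
    change ((S - 1) ^ (p - 1)) _ = w
    rw [sub_one_pow_pred p S]
    ext x
    rw [LinearMap.sum_apply, Finset.sum_apply]
    obtain ⟨i, ⟨hi, hix⟩, huniq⟩ := hfib x (s (q x)) (hs (q x)).symm
    rw [Finset.sum_eq_single i]
    · rw [hSi, hqiter, if_pos hix, hiter w hw]
    · intro j hj hji
      rw [hSi, hqiter, if_neg]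
      intro h
      exact hji (huniq j ⟨Finset.mem_range.mp hj, h⟩)
    · intro h
      exact absurd (Finset.mem_range.mpr hi) h
  rw [E.nilp (perm (ZMod p) X') T hT h0 hker]
  congr 1
  symm
  refine E.congr (LinearEquiv.ofBijective
    { toFun := fun f => ⟨fun x => f (q x), (hkerT _).mpr fun x => by rw [hqσ]⟩
      map_add' := fun _ _ => rfl
      map_smul' := fun _ _ => rfl } ⟨?_, ?_⟩) ?_
  · intro f f' h
    ext x
    obtain ⟨x, rfl⟩ := hsurj x
    exact congrFun (congrArg Subtype.val h) x
  · rintro ⟨w, hw⟩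
    obtain ⟨s, hs⟩ := hsurj.hasRightInverse
    refine ⟨fun x => w (s x), Subtype.ext ?_⟩
    ext x
    change w (s (q x)) = w x
    obtain ⟨i, ⟨hi, hix⟩, -⟩ := hfib x (s (q x)) (hs (q x)).symm
    rw [← hix, hiter w ((hkerT w).mp hw)]
  · intro g f
    refine Subtype.ext ?_
    ext x
    change f (g⁻¹ • q x) = f (q (g⁻¹ • x))
    rw [hq]

end Free

section Quot

variable {Γ : Type} [Group Γ] [Finite Γ] {p : ℕ} [Fact p.Prime] (E : AddFn (ZMod p) Γ)

theorem AddFn.cyclic_step (c : Γ) (hc : p ∣ orderOf c)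
    (h : E.e (perm (ZMod p) (Γ ⧸ Subgroup.zpowers (c ^ p)) : Representation (ZMod p) Γ _) = 0) :
    E.e (perm (ZMod p) (Γ ⧸ Subgroup.zpowers c) : Representation (ZMod p) Γ _) = 0 := by
  have hp : p.Prime := Fact.out
  have hle : Subgroup.zpowers (c ^ p) ≤ Subgroup.zpowers c := by
    rw [Subgroup.zpowers_le]
    exact Subgroup.npow_mem_zpowers c p
  let σ : Γ ⧸ Subgroup.zpowers (c ^ p) → Γ ⧸ Subgroup.zpowers (c ^ p) :=
    Quotient.map' (fun g => g * c) (by
      intro a b hab
      rw [QuotientGroup.leftRel_apply] at hab ⊢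
      obtain ⟨m, hm⟩ := Subgroup.mem_zpowers_iff.mp hab
      have : (a * c)⁻¹ * (b * c) = a⁻¹ * b := by
        have h1 : (a * c)⁻¹ * (b * c) = c⁻¹ * (a⁻¹ * b) * c := by group
        rw [h1, ← hm]
        group
      rw [this]
      exact hab)
  have hσ0 : ∀ g : Γ, σ (g : Γ ⧸ Subgroup.zpowers (c ^ p)) =
      ((g * c : Γ) : Γ ⧸ Subgroup.zpowers (c ^ p)) := fun g => rfl
  have hσi : ∀ (i : ℕ) (g : Γ), σ^[i] (g : Γ ⧸ Subgroup.zpowers (c ^ p)) =
      ((g * c ^ i : Γ) : Γ ⧸ Subgroup.zpowers (c ^ p)) := by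
    intro i
    induction i with
    | zero => intro g; simp
    | succ i ih =>
      intro g
      rw [Function.iterate_succ_apply', ih, hσ0, mul_assoc, ← pow_succ]
  have hfree := E.perm_free (p := p) (Γ := Γ) σ (Subgroup.quotientMapOfLE hle)
    (by
      intro g x
      induction x using QuotientGroup.induction_on with | H x =>
      change ((g * x * c : Γ) : Γ ⧸ Subgroup.zpowers (c ^ p)) = ((g * (x * c) : Γ) : _)
      rw [mul_assoc])
    (by
      intro g x
      induction x using QuotientGroup.induction_on with | H x =>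
      rfl)
    (by
      intro x
      induction x using QuotientGroup.induction_on with | H x =>
      exact ⟨(x : Γ ⧸ Subgroup.zpowers (c ^ p)), rfl⟩)
    (by
      intro x
      induction x using QuotientGroup.induction_on with | H x =>
      change ((x * c : Γ) : Γ ⧸ Subgroup.zpowers c) = (x : Γ ⧸ Subgroup.zpowers c)
      rw [eq_comm, QuotientGroup.eq]
      simp)
    (by
      intro x
      induction x using QuotientGroup.induction_on with | H x =>
      rw [hσi, eq_comm, QuotientGroup.eq]
      simp)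
    (by
      intro x y hxy
      induction x using QuotientGroup.induction_on with | H x =>
      induction y using QuotientGroup.induction_on with | H y =>
      change (x : Γ ⧸ Subgroup.zpowers c) = (y : Γ ⧸ Subgroup.zpowers c) at hxy
      rw [QuotientGroup.eq] at hxy
      obtain ⟨n, hn⟩ := Subgroup.mem_zpowers_iff.mp hxy
      have hy : y = x * c ^ n := by rw [hn]; group
      have key : ∀ j : ℕ, σ^[j] (x : Γ ⧸ Subgroup.zpowers (c ^ p)) = (y : Γ ⧸ _) ↔
          (p : ℤ) ∣ n - j := by
        intro j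
        rw [hσi, QuotientGroup.eq, hy]
        have e1 : (x * c ^ j)⁻¹ * (x * c ^ n) = c ^ (n - j) := by
          rw [mul_inv_rev, mul_assoc, inv_mul_cancel_left, ← zpow_natCast, ← zpow_neg,
            ← zpow_add]
          congr 1
          ring
        rw [e1, Subgroup.mem_zpowers_iff]
        constructor
        · rintro ⟨m, hm⟩
          rw [← zpow_natCast, ← zpow_mul] at hm
          have e2 : c ^ (n - (j : ℤ) - p * m) = 1 := by
            rw [zpow_sub, ← hm]
            simp
          have e3 : (p : ℤ) ∣ n - j - p * m :=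
            (Int.natCast_dvd_natCast.mpr hc).trans (orderOf_dvd_iff_zpow_eq_one.mpr e2)
          exact (dvd_sub_left (dvd_mul_right _ _)).mp e3
        · rintro ⟨m, hm⟩
          exact ⟨m, by rw [hm, ← zpow_natCast, ← zpow_mul]⟩
      have hp0 : (p : ℤ) ≠ 0 := Nat.cast_ne_zero.mpr hp.ne_zero
      have hnn : 0 ≤ n % p := Int.emod_nonneg _ hp0
      have hlt : n % p < p := Int.emod_lt_of_pos _ (by exact_mod_cast hp.pos)
      refine ⟨(n % p).toNat, ⟨by omega, ?_⟩, ?_⟩
      · rw [key, Int.toNat_of_nonneg hnn]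
        exact Int.dvd_self_sub_emod
      · rintro j ⟨hj, hjx⟩
        rw [key] at hjx
        have e4 : (p : ℤ) ∣ n - n % p := Int.dvd_self_sub_emod
        have e5 : (p : ℤ) ∣ (n % p) - j := by
          have := dvd_sub hjx e4
          have e6 : n - (j : ℤ) - (n - n % p) = n % p - j := by ring
          rwa [e6] at this
        have e7 : (n % p - (j : ℤ)) = 0 := by
          refine Int.eq_zero_of_abs_lt_dvd e5 ?_
          rw [abs_lt]
          constructor <;> omega
        omega)
  rw [h] at hfree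
  have hp0 : (p : ℤ) ≠ 0 := Nat.cast_ne_zero.mpr hp.ne_zero
  exact (mul_eq_zero.mp hfree.symm).resolve_left hp0

theorem AddFn.cyclic_zero (hE : ∀ H : Subgroup Γ, IsCyclic H → ¬ p ∣ Nat.card H →
    E.e (perm (ZMod p) (Γ ⧸ H) : Representation (ZMod p) Γ _) = 0) :
    ∀ (n : ℕ) (c : Γ), orderOf c = n →
      E.e (perm (ZMod p) (Γ ⧸ Subgroup.zpowers c) : Representation (ZMod p) Γ _) = 0 := by
  intro n
  induction n using Nat.strong_induction_on with
  | _ n ih =>
    intro c hc
    by_cases hp : p ∣ orderOf c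
    · refine E.cyclic_step c hp (ih (orderOf (c ^ p)) ?_ _ rfl)
      rw [orderOf_pow_of_dvd (Fact.out : p.Prime).ne_zero hp, hc]
      exact Nat.div_lt_self (hc ▸ orderOf_pos c) (Fact.out : p.Prime).one_lt
    · exact hE _ inferInstance (by rwa [Nat.card_zpowers])

end Quot

section Orbits

variable {Γ : Type} [Group Γ] {p : ℕ} [Fact p.Prime]

theorem card_fixedBy_sum {X Y : Type} [MulAction Γ X] [MulAction Γ Y] [Finite X] [Finite Y]
    (g : Γ) : Nat.card (MulAction.fixedBy (X ⊕ Y) g) =
      Nat.card (MulAction.fixedBy X g) + Nat.card (MulAction.fixedBy Y g) := by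
  rw [← Nat.card_sum]
  refine Nat.card_congr (Equiv.trans (Equiv.subtypeSum (p := fun z => g • z = z))
    (Equiv.sumCongr (Equiv.subtypeEquivRight fun x => ?_) (Equiv.subtypeEquivRight fun y => ?_)))
  · rw [MulAction.mem_fixedBy, Sum.smul_inl, Sum.inl.injEq]
  · rw [MulAction.mem_fixedBy, Sum.smul_inr, Sum.inr.injEq]

theorem card_fixedBy_prod {X Y : Type} [MulAction Γ X] [MulAction Γ Y] [Finite X] [Finite Y]
    (g : Γ) : Nat.card (MulAction.fixedBy (X × Y) g) =
      Nat.card (MulAction.fixedBy X g) * Nat.card (MulAction.fixedBy Y g) := by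
  rw [← Nat.card_prod]
  refine Nat.card_congr (Equiv.trans (Equiv.subtypeEquivRight fun z => ?_)
    (Equiv.subtypeProdEquivProd (p := fun x : X => g • x = x) (q := fun y : Y => g • y = y)))
  rw [MulAction.mem_fixedBy, Prod.ext_iff]
  rfl

/-- the class of a permutation module -/
abbrev cls (E : AddFn (ZMod p) Γ) (X : Type) [Finite X] [MulAction Γ X] : ℤ :=
  E.e (perm (ZMod p) X : Representation (ZMod p) Γ _)

theorem cls_sum (E : AddFn (ZMod p) Γ) (X Y : Type) [Finite X] [MulAction Γ X] [Finite Y]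
    [MulAction Γ Y] : cls E (X ⊕ Y) = cls E X + cls E Y := by
  rw [cls, cls, cls, ← E.prod]
  exact E.congr (LinearEquiv.sumArrowLequivProdArrow X Y (ZMod p) (ZMod p)) fun g f => rfl

theorem cls_congr (E : AddFn (ZMod p) Γ) {X Y : Type} [Finite X] [MulAction Γ X] [Finite Y]
    [MulAction Γ Y] (φ : X ≃ Y) (h : ∀ (g : Γ) x, φ (g • x) = g • φ x) : cls E X = cls E Y := by
  symm
  refine E.congr (LinearEquiv.funCongrLeft (ZMod p) (ZMod p) φ) fun g f => ?_
  ext x
  change f (g⁻¹ • φ x) = f (φ (g⁻¹ • x))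
  rw [h]

theorem cls_orbits [Finite Γ] (E : AddFn (ZMod p) Γ)
    (hE : ∀ c : Γ, cls E (Γ ⧸ Subgroup.zpowers c) = 0) :
    ∀ (n : ℕ) (X : Type) [Finite X] [MulAction Γ X], Nat.card X = n →
      (∀ x : X, IsCyclic (MulAction.stabilizer Γ x)) → cls E X = 0 := by
  intro n
  induction n using Nat.strong_induction_on with
  | _ n ih =>
    intro X _ _ hn hX
    by_cases hne : IsEmpty X
    · exact E.zero _
    rw [not_isEmpty_iff] at hne
    obtain ⟨x⟩ := hne
    let X' : SubMulAction Γ X :=
      { carrier := {y | y ∉ MulAction.orbit Γ x}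
        smul_mem' := by
          intro g y hy h
          apply hy
          obtain ⟨t, ht⟩ := h
          exact ⟨g⁻¹ * t, by
            change (g⁻¹ * t) • x = y
            have ht' : t • x = g • y := ht
            rw [mul_smul, ht', inv_smul_smul]⟩ }
    let f : (Γ ⧸ MulAction.stabilizer Γ x) ⊕ X' → X :=
      Sum.elim (MulAction.ofQuotientStabilizer Γ x) (fun y => y)
    have hf : Function.Bijective f := by
      constructor
      · rintro (a | a) (b | b) hab
        · congr 1
          exact MulAction.injective_ofQuotientStabilizer Γ x hab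
        · exfalso
          apply b.2
          have hab' : MulAction.ofQuotientStabilizer Γ x a = b := hab
          rw [← hab']
          exact MulAction.ofQuotientStabilizer_mem_orbit Γ x a
        · exfalso
          apply a.2
          have hab' : (a : X) = MulAction.ofQuotientStabilizer Γ x b := hab
          rw [hab']
          exact MulAction.ofQuotientStabilizer_mem_orbit Γ x b
        · congr 1
          exact Subtype.ext hab
      · intro y
        by_cases hy : y ∈ MulAction.orbit Γ x
        · obtain ⟨t, rfl⟩ := hy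
          exact ⟨Sum.inl (t : Γ ⧸ MulAction.stabilizer Γ x), rfl⟩
        · exact ⟨Sum.inr ⟨y, hy⟩, rfl⟩
    have h1 : cls E ((Γ ⧸ MulAction.stabilizer Γ x) ⊕ X') = cls E X :=
      cls_congr E (Equiv.ofBijective f hf) (by
        rintro g (a | a)
        · exact MulAction.ofQuotientStabilizer_smul Γ x g a
        · rfl)
    have h2 : cls E (Γ ⧸ MulAction.stabilizer Γ x) = 0 := by
      obtain ⟨c, hc⟩ := (Subgroup.isCyclic_iff_exists_zpowers_eq_top _).mp (hX x)
      have : ∀ H : Subgroup Γ, Subgroup.zpowers c = H → cls E (Γ ⧸ H) = 0 := by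
        rintro _ rfl
        exact hE c
      exact this _ hc
    have h3 : Nat.card X' < n := by
      rw [← hn, ← Nat.card_congr (Equiv.ofBijective f hf), Nat.card_sum]
      have : 0 < Nat.card (Γ ⧸ MulAction.stabilizer Γ x) := Nat.card_pos
      omega
    have h4 : cls E X' = 0 := ih _ h3 X' rfl (by
      intro y
      have e : MulAction.stabilizer Γ y = MulAction.stabilizer Γ (y : X) := by
        ext g
        rw [MulAction.mem_stabilizer_iff, MulAction.mem_stabilizer_iff]
        exact Subtype.ext_iff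
      rw [e]
      exact hX y)
    rw [← h1, cls_sum, h2, h4, add_zero]

end Orbits

section Artin

variable (Γ : Type) [Group Γ]

/-- Differences of fixed point functions of `Γ`-sets with cyclic stabilisers. -/
def cycMarks : AddSubgroup (Γ → ℤ) where
  carrier := {u | ∃ (X Y : Type) (_ : MulAction Γ X) (_ : MulAction Γ Y) (_ : Finite X)
    (_ : Finite Y), (∀ x : X, IsCyclic (MulAction.stabilizer Γ x)) ∧
      (∀ y : Y, IsCyclic (MulAction.stabilizer Γ y)) ∧
      ∀ g, u g = (Nat.card (MulAction.fixedBy X g) : ℤ) - Nat.card (MulAction.fixedBy Y g)}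
  zero_mem' := by
    let _ : MulAction Γ Empty :=
      { smul := fun _ e => e.elim
        one_smul := fun e => e.elim
        mul_smul := fun _ _ e => e.elim }
    exact ⟨Empty, Empty, inferInstance, inferInstance, inferInstance, inferInstance,
      fun x => x.elim, fun x => x.elim, fun g => by simp⟩
  add_mem' := by
    rintro u u' ⟨X, Y, _, _, _, _, hX, hY, hu⟩ ⟨X', Y', _, _, _, _, hX', hY', hu'⟩
    have key : ∀ (X X' : Type) [MulAction Γ X] [MulAction Γ X'],
        (∀ x : X, IsCyclic (MulAction.stabilizer Γ x)) →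
        (∀ x : X', IsCyclic (MulAction.stabilizer Γ x)) →
        ∀ z : X ⊕ X', IsCyclic (MulAction.stabilizer Γ z) := by
      rintro X X' _ _ h h' (z | z)
      · have : MulAction.stabilizer Γ (Sum.inl z : X ⊕ X') = MulAction.stabilizer Γ z := by
          ext g
          rw [MulAction.mem_stabilizer_iff, MulAction.mem_stabilizer_iff, Sum.smul_inl,
            Sum.inl.injEq]
        rw [this]
        exact h z
      · have : MulAction.stabilizer Γ (Sum.inr z : X ⊕ X') = MulAction.stabilizer Γ z := by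
          ext g
          rw [MulAction.mem_stabilizer_iff, MulAction.mem_stabilizer_iff, Sum.smul_inr,
            Sum.inr.injEq]
        rw [this]
        exact h' z
    refine ⟨X ⊕ X', Y ⊕ Y', inferInstance, inferInstance, inferInstance, inferInstance,
      key X X' hX hX', key Y Y' hY hY', fun g => ?_⟩
    rw [Pi.add_apply, hu, hu', card_fixedBy_sum, card_fixedBy_sum]
    push_cast
    ring
  neg_mem' := by
    rintro u ⟨X, Y, _, _, _, _, hX, hY, hu⟩
    refine ⟨Y, X, inferInstance, inferInstance, inferInstance, inferInstance, hY, hX,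
      fun g => ?_⟩
    rw [Pi.neg_apply, hu]
    ring

variable {Γ}

theorem cycMarks_of (X : Type) [MulAction Γ X] [Finite X]
    (hX : ∀ x : X, IsCyclic (MulAction.stabilizer Γ x)) :
    (fun g : Γ => (Nat.card (MulAction.fixedBy X g) : ℤ)) ∈ cycMarks Γ := by
  let _ : MulAction Γ Empty :=
    { smul := fun _ e => e.elim
      one_smul := fun e => e.elim
      mul_smul := fun _ _ e => e.elim }
  exact ⟨X, Empty, inferInstance, inferInstance, inferInstance, inferInstance,
    hX, fun x => x.elim, fun g => by simp⟩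

theorem cycMarks_mul {u u' : Γ → ℤ} (h : u ∈ cycMarks Γ) (h' : u' ∈ cycMarks Γ) :
    u * u' ∈ cycMarks Γ := by
  obtain ⟨X, Y, _, _, _, _, hX, hY, hu⟩ := h
  obtain ⟨X', Y', _, _, _, _, hX', hY', hu'⟩ := h'
  have key : ∀ (X X' : Type) [MulAction Γ X] [MulAction Γ X'] [Finite X] [Finite X'],
      (∀ x : X, IsCyclic (MulAction.stabilizer Γ x)) →
      (fun g : Γ => (Nat.card (MulAction.fixedBy X g) * Nat.card (MulAction.fixedBy X' g) : ℤ)) ∈
        cycMarks Γ := by
    intro X X' _ _ _ _ h
    have := cycMarks_of (Γ := Γ) (X × X') (by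
      rintro ⟨x, x'⟩
      have hle : MulAction.stabilizer Γ (x, x') ≤ MulAction.stabilizer Γ x := by
        intro g hg
        exact congrArg Prod.fst (MulAction.mem_stabilizer_iff.mp hg)
      have := h x
      exact Subgroup.isCyclic_of_le hle)
    simpa only [card_fixedBy_prod, Nat.cast_mul] using this
  have e : u * u' =
      (fun g : Γ => (Nat.card (MulAction.fixedBy X g) * Nat.card (MulAction.fixedBy X' g) : ℤ)) -
      (fun g : Γ => (Nat.card (MulAction.fixedBy X g) * Nat.card (MulAction.fixedBy Y' g) : ℤ)) -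
      (fun g : Γ => (Nat.card (MulAction.fixedBy Y g) * Nat.card (MulAction.fixedBy X' g) : ℤ)) +
      (fun g : Γ => (Nat.card (MulAction.fixedBy Y g) * Nat.card (MulAction.fixedBy Y' g) : ℤ))
      := by
    ext g
    simp only [Pi.mul_apply, Pi.add_apply, Pi.sub_apply, hu, hu']
    ring
  rw [e]
  exact AddSubgroup.add_mem _ (AddSubgroup.sub_mem _ (AddSubgroup.sub_mem _ (key X X' hX)
    (key X Y' hX)) (key Y X' hY)) (key Y Y' hY)

variable [Finite Γ]

/-- Artin's theorem: a nonzero constant function is a difference of fixed point functions of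
`Γ`-sets with cyclic stabilisers. -/
theorem exists_const_mem : ∃ n : ℕ, n ≠ 0 ∧ (fun _ : Γ => (n : ℤ)) ∈ cycMarks Γ := by
  classical
  have := Fintype.ofFinite Γ
  let Z := Σ c : Γ, Γ ⧸ Subgroup.zpowers c
  have hZ : ∀ z : Z, IsCyclic (MulAction.stabilizer Γ z) := by
    rintro ⟨c, x⟩
    induction x using QuotientGroup.induction_on with | H x =>
    let f : MulAction.stabilizer Γ (⟨c, (x : Γ ⧸ Subgroup.zpowers c)⟩ : Z) →*
        Subgroup.zpowers c :=
      { toFun := fun h => ⟨x⁻¹ * h * x, by
          have h1 := MulAction.mem_stabilizer_iff.mp h.2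
          have h2 : ((h : Γ) • (x : Γ ⧸ Subgroup.zpowers c)) = x := by
            have := (Sigma.mk.inj_iff.mp h1).2
            exact eq_of_heq this
          change ((h * x : Γ) : Γ ⧸ Subgroup.zpowers c) = x at h2
          rw [eq_comm, QuotientGroup.eq] at h2
          rwa [mul_assoc]⟩
        map_one' := Subtype.ext (by simp)
        map_mul' := fun a b => Subtype.ext (by simp [mul_assoc]) }
    exact isCyclic_of_injective f (fun a b hab => by
      have h1 : x⁻¹ * (a : Γ) * x = x⁻¹ * b * x := congrArg Subtype.val hab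
      exact Subtype.ext (by simpa using h1))
  let f : Γ → ℤ := fun g : Γ => (Nat.card (MulAction.fixedBy Z g) : ℤ)
  have hf : f ∈ cycMarks Γ := cycMarks_of (Γ := Γ) Z hZ
  have hpos : ∀ g : Γ, 0 < Nat.card (MulAction.fixedBy Z g) := by
    intro g
    have : Nonempty (MulAction.fixedBy Z g) := by
      refine ⟨⟨⟨g, ((1 : Γ) : Γ ⧸ Subgroup.zpowers g)⟩, ?_⟩⟩
      rw [MulAction.mem_fixedBy, Sigma.smul_mk]
      congr 1
      change ((g * 1 : Γ) : Γ ⧸ Subgroup.zpowers g) = ((1 : Γ) : Γ ⧸ Subgroup.zpowers g)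
      rw [eq_comm, QuotientGroup.eq]
      simp
    exact Nat.card_pos
  have key : ∀ s : Finset Γ, ∃ u ∈ cycMarks Γ, ∀ h, ∏ g ∈ s, (f g - f h) =
      ∏ g ∈ s, f g - u h := by
    intro s
    induction s using Finset.induction_on with
    | empty => exact ⟨0, zero_mem _, fun h => by simp⟩
    | insert g s hg ih =>
      obtain ⟨u, hu, huh⟩ := ih
      refine ⟨f g • u + (∏ g ∈ s, f g) • f - f * u, ?_, fun h => ?_⟩
      · exact AddSubgroup.sub_mem _ (AddSubgroup.add_mem _ (AddSubgroup.zsmul_mem _ hu _)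
          (AddSubgroup.zsmul_mem _ hf _)) (cycMarks_mul hf hu)
      · rw [Finset.prod_insert hg, Finset.prod_insert hg, huh]
        simp only [Pi.add_apply, Pi.sub_apply, Pi.smul_apply, Pi.mul_apply, smul_eq_mul]
        ring
  obtain ⟨u, hu, huh⟩ := key Finset.univ
  refine ⟨∏ g : Γ, Nat.card (MulAction.fixedBy Z g),
    Finset.prod_ne_zero_iff.mpr fun g _ => (hpos g).ne', ?_⟩
  have e : (fun _ : Γ => ((∏ g : Γ, Nat.card (MulAction.fixedBy Z g) : ℕ) : ℤ)) = u := by
    ext h
    have h1 := huh h
    rw [Finset.prod_eq_zero (Finset.mem_univ h) (sub_self _)] at h1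
    rw [Nat.cast_prod]
    exact sub_eq_zero.mp h1.symm
  rw [e]
  exact hu

end Artin

section Final

variable {Γ : Type} [Group Γ] {p : ℕ} [Fact p.Prime]

/-- `n` points with trivial action -/
abbrev Pts (n : ℕ) : Type := Σ _ : Fin n, PUnit.{1}

theorem card_fixedBy_pts (n : ℕ) (g : Γ) : Nat.card (MulAction.fixedBy (Pts n) g) = n := by
  have : MulAction.fixedBy (Pts n) g = Set.univ := by
    ext x
    rw [MulAction.mem_fixedBy]
    exact ⟨fun _ => trivial, fun _ => rfl⟩
  rw [this, Nat.card_univ, Nat.card_eq_fintype_card]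
  simp

theorem cls_pts [Finite Γ] (E : AddFn (ZMod p) Γ) (n : ℕ) :
    cls E (Pts n) = n * cls E PUnit.{1} := by
  induction n with
  | zero =>
    have : IsEmpty (Pts 0) := ⟨fun x => x.1.elim0⟩
    have : cls E (Pts 0) = 0 := E.zero _
    rw [this]
    simp
  | succ n ih =>
    have h1 : cls E (Pts (n + 1)) = cls E (Pts n ⊕ PUnit.{1}) := by
      refine E.perm_eq_of_marks fun g => ?_
      rw [card_fixedBy_sum, card_fixedBy_pts, card_fixedBy_pts]
      have : MulAction.fixedBy PUnit.{1} g = Set.univ := by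
        ext x
        rw [MulAction.mem_fixedBy]
        exact ⟨fun _ => trivial, fun _ => rfl⟩
      rw [this, Nat.card_univ, Nat.card_eq_fintype_card]
      simp
    rw [h1, cls_sum, ih]
    push_cast
    ring

theorem cls_pt_eq_zero [Finite Γ] (E : AddFn (ZMod p) Γ)
    (hE : ∀ H : Subgroup Γ, IsCyclic H → ¬ p ∣ Nat.card H → cls E (Γ ⧸ H) = 0) :
    cls E PUnit.{1} = 0 := by
  have h1 : ∀ c : Γ, cls E (Γ ⧸ Subgroup.zpowers c) = 0 := fun c => E.cyclic_zero hE _ c rfl
  obtain ⟨n, hn, X, Y, _, _, _, _, hX, hY, h⟩ := exists_const_mem (Γ := Γ)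
  have h2 := cls_orbits E h1 _ X rfl hX
  have h3 := cls_orbits E h1 _ Y rfl hY
  have h4 : cls E (Pts n ⊕ Y) = cls E X := by
    refine E.perm_eq_of_marks fun g => ?_
    rw [card_fixedBy_sum, card_fixedBy_pts]
    have := h g
    simp only at this
    omega
  rw [cls_sum, h2, h3, add_zero, cls_pts] at h4
  exact (mul_eq_zero.mp h4).resolve_left (Nat.cast_ne_zero.mpr hn)

/-- **Artin induction for additive functions.** -/
theorem AddFn.eq_zero_of_cyclic {k : Type} [Field k] [CharP k p] [Finite Γ] (E : AddFn k Γ)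
    {V : Type} [AddCommGroup V] [Module k V] [FiniteDimensional k V] (ρ : Representation k Γ V)
    (hE : ∀ H : Subgroup Γ, IsCyclic H → ¬ p ∣ Nat.card H →
      E.e (CFT.LC.funRep (MulAction.toPermHom Γ (Γ ⧸ H)) ρ) = 0) : E.e ρ = 0 := by
  have h1 := cls_pt_eq_zero (E.tens ρ (p := p)) (fun H h h' => by
    rw [cls, E.tens_perm]
    exact hE H h h')
  rw [cls, E.tens_perm] at h1
  rw [← h1]
  symm
  refine E.congr (LinearEquiv.funUnique PUnit.{1} k V) fun g f => ?_
  rfl

end Final

end Fermat.Agent.TWP.ArtinInd
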