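import Mathlib
import Fermat.Agent.FrobExists
import Fermat.Agent.LOC.Multiplicative
import Fermat.Agent.TWP.Place

set_option autoImplicit false
set_option linter.unusedSectionVars false
set_option linter.style.haveILetI false

/-!
# Tame inertia: the image of inertia at `q` in a group of exponent `p ≠ q` is cyclic
-/

open Pointwise NumberField

namespace Fermat.Agent.TWP.Tame

local notation "Qb" => AlgebraicClosure ℚ
local notation "Γ" => (AlgebraicClosure ℚ ≃ₐ[ℚ] AlgebraicClosure ℚ)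

section DVR

/-- The restriction of a place above `ℓ` to a number field is a discrete valuation ring. -/
theorem isDiscreteValuationRing_of_liesOver (K : Type*) [Field K] [NumberField K]
    (B : ValuationSubring K) {ℓ : ℕ} (hℓ0 : ℓ ≠ 0) (hℓ : (ℓ : K) ∈ B.nonunits) :
    IsDiscreteValuationRing B := by
  let ι : 𝓞 K →+* B :=
    (algebraMap (𝓞 K) K).codRestrict B.toSubring
      (fun x => FrobExists.mem_of_isIntegral B (RingOfIntegers.isIntegral_coe x))
  have hι : ∀ x : 𝓞 K, ((ι x : B) : K) = x := fun x => rfl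
  let P : Ideal (𝓞 K) := (IsLocalRing.maximalIdeal B).comap ι
  have hPmem : ∀ x : 𝓞 K, x ∈ P ↔ (x : K) ∈ B.nonunits := fun x => by
    rw [Ideal.mem_comap, ← hι x, ValuationSubring.coe_mem_nonunits_iff]
  have hP : P ≠ ⊥ := by
    intro h
    have h1 : ((ℓ : 𝓞 K)) ∈ P := by
      rw [hPmem]; simpa using hℓ
    rw [h, Ideal.mem_bot] at h1
    exact hℓ0 (by exact_mod_cast h1)
  haveI : P.IsPrime := Ideal.IsPrime.comap _
  letI : Algebra (𝓞 K) B := ι.toAlgebra
  haveI : IsLocalization.AtPrime B P := by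
    refine ⟨?_, ?_, ?_⟩
    · rintro ⟨y, hy⟩
      have h1 : ¬ (ι y) ∈ IsLocalRing.maximalIdeal B := hy
      rw [IsLocalRing.mem_maximalIdeal, mem_nonunits_iff, not_not] at h1
      exact h1
    · intro z
      obtain ⟨a, b, hb, hab⟩ := FrobExists.key_numberField K B hℓ0 hℓ z.2
      have hb' : b ∈ P.primeCompl := by
        intro h
        exact hb ((hPmem b).mp h)
      exact ⟨⟨a, ⟨b, hb'⟩⟩, Subtype.ext hab⟩
    · intro x y hxy
      refine ⟨1, ?_⟩
      have h1 : (x : K) = y := congrArg (fun b : B => (b : K)) hxy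
      have h2 : x = y := RingOfIntegers.ext h1
      rw [h2]
  exact IsLocalization.AtPrime.isDiscreteValuationRing_of_dedekind_domain (𝓞 K) hP B

theorem exists_uniformizer (A : ValuationSubring Qb) {q : ℕ} (hq : q.Prime)
    (hA : A.LiesOverPrime q) (L : IntermediateField ℚ Qb) [FiniteDimensional ℚ L] :
    ∃ π : Qb, π ∈ L ∧ π ≠ 0 ∧ ∀ y ∈ L, y ≠ 0 → ∃ n : ℤ, A.valuation y = A.valuation π ^ n := by
  haveI : NumberField L :=
    { to_charZero := inferInstance
      to_finiteDimensional := by convert! (inferInstance : FiniteDimensional ℚ L) }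
  set B : ValuationSubring L := A.comap (algebraMap L Qb) with hB
  have hqB : (q : L) ∈ B.nonunits := by
    rw [hB, FrobExists.mem_nonunits_comap, map_natCast]; exact hA
  haveI := isDiscreteValuationRing_of_liesOver L B hq.ne_zero hqB
  obtain ⟨ϖ, hϖ⟩ := IsDiscreteValuationRing.exists_irreducible B
  have hunit : ∀ u : Bˣ, A.valuation ((u : B) : L) = 1 := by
    intro u
    have h1 : A.valuation ((u : B) : L) ≤ 1 := by
      rw [A.valuation_le_one_iff]; exact (u : B).2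
    have h2 : A.valuation (((u⁻¹ : Bˣ) : B) : L) ≤ 1 := by
      rw [A.valuation_le_one_iff]; exact ((u⁻¹ : Bˣ) : B).2
    have h3 : A.valuation ((u : B) : L) * A.valuation (((u⁻¹ : Bˣ) : B) : L) = 1 := by
      rw [← map_mul]
      have h4 : (((u : B) : L) : Qb) * ((((u⁻¹ : Bˣ) : B) : L) : Qb) = 1 :=
        congrArg (fun x : B => ((x : L) : Qb)) (Units.mul_inv u)
      rw [h4, map_one]
    exact le_antisymm h1 (by
      by_contra hlt
      push Not at hlt
      have : A.valuation ((u : B) : L) * A.valuation (((u⁻¹ : Bˣ) : B) : L) < 1 :=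
        mul_lt_one_of_lt_of_le hlt h2
      rw [h3] at this
      exact lt_irrefl _ this)
  have hnat : ∀ y : B, y ≠ 0 → ∃ n : ℕ, A.valuation ((y : L) : Qb) = A.valuation ((ϖ : L) : Qb) ^ n := by
    intro y hy
    obtain ⟨n, u, hnu⟩ := IsDiscreteValuationRing.eq_unit_mul_pow_irreducible hy hϖ
    refine ⟨n, ?_⟩
    have : ((y : L) : Qb) = ((((u : B) : L)) : Qb) * ((ϖ : L) : Qb) ^ n := by
      have := congrArg (fun x : B => ((x : L) : Qb)) hnu
      simpa using this
    rw [this, map_mul, hunit, one_mul, map_pow]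
  refine ⟨((ϖ : L) : Qb), (ϖ : L).2, ?_, ?_⟩
  · intro h
    apply hϖ.ne_zero
    exact Subtype.ext (Subtype.ext h)
  · intro y hyL hy0
    rcases B.mem_or_inv_mem ⟨y, hyL⟩ with h | h
    · obtain ⟨n, hn⟩ := hnat ⟨⟨y, hyL⟩, h⟩ (fun h0 => hy0 (congrArg (fun x : B => ((x : L) : Qb)) h0))
      exact ⟨n, by rw [zpow_natCast]; exact hn⟩
    · obtain ⟨n, hn⟩ := hnat ⟨(⟨y, hyL⟩ : L)⁻¹, h⟩ (fun h0 => by
        have h1 := congrArg (fun x : B => ((x : L) : Qb)) h0
        exact hy0 (inv_eq_zero.mp h1))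
      refine ⟨-n, ?_⟩
      have h2 : A.valuation (y⁻¹) = A.valuation ((ϖ : L) : Qb) ^ n := hn
      rw [map_inv₀] at h2
      rw [zpow_neg, zpow_natCast, ← h2, inv_inv]

end DVR

section TT

variable (A : ValuationSubring Qb)

/-- `σ` moves `y` by a principal unit -/
def TT (σ : Γ) (y : Qb) : Prop := A.valuation (σ y - y) < A.valuation y

variable {A} {σ τ : Γ}

theorem val_inertia (hσ : σ ∈ A.inertiaSubgroupIn ℚ) (x : Qb) :
    A.valuation (σ x) = A.valuation x :=
  LOC.decomposition_valuation A (LOC.mem_decomposition_of_inertia A hσ) x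

theorem val_sub_lt_one (hσ : σ ∈ A.inertiaSubgroupIn ℚ) {x : Qb} (hx : x ∈ A) :
    A.valuation (σ x - x) < 1 := by
  rw [← ValuationSubring.mem_nonunits_iff]
  exact ((Place.mem_inertiaSubgroupIn_iff A σ).mp hσ).2 x hx

theorem TT.of_unit (hσ : σ ∈ A.inertiaSubgroupIn ℚ) {u : Qb} (hu : A.valuation u = 1) :
    TT A σ u := by
  rw [TT, hu]
  exact val_sub_lt_one hσ ((A.valuation_le_one_iff u).mp hu.le)

theorem TT.ne_zero {y : Qb} (h : TT A σ y) : y ≠ 0 := by
  rintro rfl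
  simp [TT] at h

theorem TT.mul (hσ : σ ∈ A.inertiaSubgroupIn ℚ) {x y : Qb} (hx : TT A σ x) (hy : TT A σ y) :
    TT A σ (x * y) := by
  have e : σ (x * y) - x * y = σ x * (σ y - y) + (σ x - x) * y := by rw [map_mul]; ring
  have hx0 : 0 < A.valuation x := (A.valuation).pos_iff.mpr hx.ne_zero
  have hy0 : 0 < A.valuation y := (A.valuation).pos_iff.mpr hy.ne_zero
  rw [TT, e, map_mul]
  refine lt_of_le_of_lt (Valuation.map_add _ _ _) (max_lt ?_ ?_)
  · rw [map_mul, val_inertia hσ]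
    exact mul_lt_mul_of_pos_left hy hx0
  · rw [map_mul]
    exact mul_lt_mul_of_pos_right hx hy0

theorem TT.inv (hσ : σ ∈ A.inertiaSubgroupIn ℚ) {x : Qb} (hx : TT A σ x) : TT A σ x⁻¹ := by
  have hx0 := hx.ne_zero
  have hσx0 : σ x ≠ 0 := by simpa using hx0
  have hvx : 0 < A.valuation x := (A.valuation).pos_iff.mpr hx0
  have e : σ x⁻¹ - x⁻¹ = -((σ x - x) * ((σ x)⁻¹ * x⁻¹)) := by
    rw [map_inv₀]; field_simp; ring
  rw [TT, e, Valuation.map_neg, map_mul, map_mul, map_inv₀, map_inv₀, val_inertia hσ]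
  have h1 : A.valuation (σ x - x) * ((A.valuation x)⁻¹ * (A.valuation x)⁻¹) <
      A.valuation x * ((A.valuation x)⁻¹ * (A.valuation x)⁻¹) :=
    mul_lt_mul_of_pos_right hx (mul_pos (inv_pos.mpr hvx) (inv_pos.mpr hvx))
  rwa [← mul_assoc (A.valuation x), mul_inv_cancel₀ hvx.ne', one_mul] at h1

theorem TT.pow (hσ : σ ∈ A.inertiaSubgroupIn ℚ) {x : Qb} (hx : TT A σ x) (n : ℕ) :
    TT A σ (x ^ n) := by
  induction n with
  | zero => rw [pow_zero]; exact TT.of_unit hσ (map_one _)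
  | succ n ih => rw [pow_succ]; exact ih.mul hσ hx

theorem TT.zpow (hσ : σ ∈ A.inertiaSubgroupIn ℚ) {x : Qb} (hx : TT A σ x) (n : ℤ) :
    TT A σ (x ^ n) := by
  cases n with
  | ofNat n => rw [Int.ofNat_eq_natCast, zpow_natCast]; exact hx.pow hσ n
  | negSucc n => rw [zpow_negSucc]; exact (hx.pow hσ (n + 1)).inv hσ

theorem TT.comp (hσ : σ ∈ A.inertiaSubgroupIn ℚ) {x : Qb} (h1 : TT A σ x) (h2 : TT A τ x) :
    TT A (σ * τ) x := by
  have e : (σ * τ) x - x = σ (τ x - x) + (σ x - x) := by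
    rw [AlgEquiv.mul_apply, map_sub]; ring
  rw [TT, e]
  refine lt_of_le_of_lt (Valuation.map_add _ _ _) (max_lt ?_ h1)
  rw [val_inertia hσ]
  exact h2

theorem TT.pow_left (hσ : σ ∈ A.inertiaSubgroupIn ℚ) {x : Qb} (h : TT A σ x) (n : ℕ) :
    TT A (σ ^ n) x := by
  induction n with
  | zero =>
    rw [pow_zero, TT, AlgEquiv.one_apply, sub_self, map_zero]
    exact (A.valuation).pos_iff.mpr h.ne_zero
  | succ n ih => rw [pow_succ']; exact h.comp hσ ih

/-- no elements of order prime to `q` in wild inertia -/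
theorem pow_apply_ne {q : ℕ} (hA : A.LiesOverPrime q)
    (hσ : σ ∈ A.inertiaSubgroupIn ℚ) {x : Qb} (hx : TT A σ (σ x - x)) {n : ℕ}
    (hn : n.Coprime q) : (σ ^ n) x ≠ x := by
  set y := σ x - x with hy
  have hy0 : 0 < A.valuation y := (A.valuation).pos_iff.mpr hx.ne_zero
  have key : ∀ n : ℕ, ∃ e : Qb, A.valuation e < A.valuation y ∧ (σ ^ n) x - x = n * y + e := by
    intro n
    induction n with
    | zero => exact ⟨0, by rw [map_zero]; exact hy0, by simp⟩
    | succ n ih =>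
      obtain ⟨e, he, h1⟩ := ih
      refine ⟨e + ((σ ^ n) y - y), ?_, ?_⟩
      · refine lt_of_le_of_lt (Valuation.map_add _ _ _) (max_lt he ?_)
        exact hx.pow_left hσ n
      · have h2 : (σ ^ (n + 1)) x - x = ((σ ^ n) x - x) + (σ ^ n) y := by
          rw [pow_succ, AlgEquiv.mul_apply, hy, map_sub]; ring
        rw [h2, h1]
        push_cast
        ring
  have hvn : A.valuation (n : Qb) = 1 := by
    have hn1 : A.valuation (n : Qb) ≤ 1 := (A.valuation_le_one_iff _).mpr (natCast_mem A n)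
    refine le_antisymm hn1 ?_
    by_contra hlt
    push Not at hlt
    have hqv : A.valuation (q : Qb) < 1 := (ValuationSubring.mem_nonunits_iff _).mp hA
    -- Bezout
    have hb : ((n : ℤ) * Nat.gcdA n q + (q : ℤ) * Nat.gcdB n q) = 1 := by
      rw [← Nat.gcd_eq_gcd_ab, hn]; rfl
    have hb' : (n : Qb) * (Nat.gcdA n q : ℤ) + (q : Qb) * (Nat.gcdB n q : ℤ) = 1 := by
      exact_mod_cast congrArg (fun z : ℤ => (z : Qb)) hb
    have hint : ∀ z : ℤ, A.valuation (z : Qb) ≤ 1 := fun z =>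
      (A.valuation_le_one_iff _).mpr (intCast_mem A z)
    have h3 : A.valuation ((n : Qb) * (Nat.gcdA n q : ℤ) + (q : Qb) * (Nat.gcdB n q : ℤ)) < 1 := by
      refine lt_of_le_of_lt (Valuation.map_add _ _ _) (max_lt ?_ ?_)
      · rw [map_mul]; exact mul_lt_one_of_lt_of_le hlt (hint _)
      · rw [map_mul]; exact mul_lt_one_of_lt_of_le hqv (hint _)
    rw [hb', map_one] at h3
    exact lt_irrefl _ h3
  intro hfix
  obtain ⟨e, he, h1⟩ := key n
  rw [hfix, sub_self] at h1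
  have h2 : e = -((n : Qb) * y) := by linear_combination -h1
  rw [h2, Valuation.map_neg, map_mul, hvn, one_mul] at he
  exact lt_irrefl _ he

theorem unit_div {x : Qb} (hσ : σ ∈ A.inertiaSubgroupIn ℚ) (hx : x ≠ 0) :
    A.valuation (σ x / x) = 1 := by
  rw [map_div₀, val_inertia hσ, div_self ((A.valuation).ne_zero_iff.mpr hx)]

/-- the residue class of `σ x / x` -/
noncomputable def th (x : Qb) (hx : x ≠ 0) (σ : A.inertiaSubgroupIn ℚ) :
    IsLocalRing.ResidueField A :=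
  IsLocalRing.residue A ⟨σ.1 x / x, (A.valuation_le_one_iff _).mp (unit_div σ.2 hx).le⟩

theorem th_mul (x : Qb) (hx : x ≠ 0) (σ τ : A.inertiaSubgroupIn ℚ) :
    th x hx (σ * τ) = th x hx σ * th x hx τ := by
  have hu : A.valuation (τ.1 x / x) = 1 := unit_div τ.2 hx
  have hσu : A.valuation (σ.1 (τ.1 x / x)) = 1 := by rw [val_inertia σ.2, hu]
  have h1 : IsLocalRing.residue A ⟨σ.1 (τ.1 x / x), (A.valuation_le_one_iff _).mp hσu.le⟩ =
      th x hx τ := by
    rw [th, ← sub_eq_zero, ← map_sub, IsLocalRing.residue_eq_zero_iff,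
      ← ValuationSubring.coe_mem_nonunits_iff, ValuationSubring.mem_nonunits_iff]
    exact val_sub_lt_one σ.2 ((A.valuation_le_one_iff _).mp hu.le)
  rw [← h1, th, th, ← map_mul]
  congr 1
  apply Subtype.ext
  show (σ.1 * τ.1) x / x = (σ.1 x / x) * σ.1 (τ.1 x / x)
  have hσx : σ.1 x ≠ 0 := by simpa using hx
  rw [AlgEquiv.mul_apply, map_div₀]
  field_simp

theorem th_eq_one_iff (x : Qb) (hx : x ≠ 0) (σ : A.inertiaSubgroupIn ℚ) :
    th x hx σ = 1 ↔ TT A σ.1 x := by
  rw [th, ← map_one (IsLocalRing.residue A), ← sub_eq_zero, ← map_sub,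
    IsLocalRing.residue_eq_zero_iff, ← ValuationSubring.coe_mem_nonunits_iff,
    ValuationSubring.mem_nonunits_iff, TT]
  have e : ((⟨σ.1 x / x, (A.valuation_le_one_iff _).mp (unit_div σ.2 hx).le⟩ - 1 : A) : Qb) =
      (σ.1 x - x) / x := by
    show σ.1 x / x - 1 = _
    field_simp
  rw [e, map_div₀, div_lt_one₀ ((A.valuation).pos_iff.mpr hx)]

/-- the tame character -/
noncomputable def thHom (x : Qb) (hx : x ≠ 0) :
    A.inertiaSubgroupIn ℚ →* (IsLocalRing.ResidueField A)ˣ :=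
  MonoidHom.toHomUnits
    { toFun := th x hx
      map_one' := by
        rw [th_eq_one_iff, TT, OneMemClass.coe_one, AlgEquiv.one_apply, sub_self, map_zero]
        exact (A.valuation).pos_iff.mpr hx
      map_mul' := th_mul x hx }

theorem thHom_eq_one_iff (x : Qb) (hx : x ≠ 0) (σ : A.inertiaSubgroupIn ℚ) :
    thHom x hx σ = 1 ↔ TT A σ.1 x := by
  rw [← th_eq_one_iff x hx, Units.ext_iff]
  rfl

/-- **Tame inertia is procyclic**: the image of inertia in a group of exponent `p ≠ q` is cyclic. -/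
theorem exists_tame_generator {q : ℕ} (hq : q.Prime) (hA : A.LiesOverPrime q)
    {H : Type*} [Group H] (f : Γ →* H)
    (hf : ∃ L : IntermediateField ℚ Qb, FiniteDimensional ℚ L ∧
      ∀ σ : Γ, (∀ x ∈ L, σ x = x) → f σ = 1) {p : ℕ} (hpq : p.Coprime q)
    (hexp : ∀ σ ∈ A.inertiaSubgroupIn ℚ, f σ ^ p = 1) :
    ∃ τ ∈ A.inertiaSubgroupIn ℚ, ∀ σ ∈ A.inertiaSubgroupIn ℚ, ∃ n : ℕ, f σ = f τ ^ n := by
  classical
  obtain ⟨L₀, hL₀, hf₀⟩ := hf
  -- normal closure
  haveI := hL₀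
  let L : IntermediateField ℚ Qb := IntermediateField.normalClosure ℚ L₀ Qb
  haveI : FiniteDimensional ℚ L := normalClosure.is_finiteDimensional ℚ L₀ Qb
  haveI : Normal ℚ L := normalClosure.normal ℚ L₀ Qb
  have hL₀L : L₀ ≤ L := IntermediateField.le_normalClosure L₀
  have hfL : ∀ σ : Γ, (∀ x ∈ L, σ x = x) → f σ = 1 := fun σ h => hf₀ σ fun x hx => h x (hL₀L hx)
  have hstab : ∀ (σ : Γ) (x : Qb), x ∈ L → σ x ∈ L := by
    intro σ x hx
    have := (σ.restrictNormal L ⟨x, hx⟩).2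
    have e : ((σ.restrictNormal L ⟨x, hx⟩ : L) : Qb) = σ x :=
      AlgEquiv.restrictNormal_commutes σ L ⟨x, hx⟩
    rwa [e] at this
  obtain ⟨π, hπL, hπ0, hπ⟩ := exists_uniformizer A hq hA L
  -- order of an automorphism of `L`
  have hord : ∀ σ : Γ, ∃ N : ℕ, 0 < N ∧ ∀ x ∈ L, (σ ^ N) x = x := by
    intro σ
    obtain ⟨N, hN, hN'⟩ := (isOfFinOrder_of_finite (σ.restrictNormal L)).exists_pow_eq_one
    refine ⟨N, hN, fun x hx => ?_⟩
    have e : ((((σ ^ N).restrictNormal L) ⟨x, hx⟩ : L) : Qb) = (σ ^ N) x :=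
      AlgEquiv.restrictNormal_commutes (σ ^ N) L ⟨x, hx⟩
    have e2 : (σ ^ N).restrictNormal L = (σ.restrictNormal L) ^ N :=
      map_pow (AlgEquiv.restrictNormalHom L) σ N
    rw [← e, e2, hN']
    rfl
  -- elements in the kernel of the tame character are killed by f
  have hker : ∀ σ ∈ A.inertiaSubgroupIn ℚ, TT A σ π → f σ = 1 := by
    intro σ hσ hTT
    have hall : ∀ y ∈ L, y ≠ 0 → TT A σ y := by
      intro y hy hy0
      obtain ⟨n, hn⟩ := hπ y hy hy0
      have hu : A.valuation (y * (π ^ n)⁻¹) = 1 := by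
        rw [map_mul, map_inv₀, map_zpow₀, hn]
        exact mul_inv_cancel₀ (zpow_ne_zero _ ((A.valuation).ne_zero_iff.mpr hπ0))
      have h1 := (TT.of_unit hσ hu).mul hσ (hTT.zpow hσ n)
      have e : y * (π ^ n)⁻¹ * π ^ n = y := by
        rw [mul_assoc, inv_mul_cancel₀ (zpow_ne_zero _ hπ0), mul_one]
      rwa [e] at h1
    obtain ⟨N, hN, hN'⟩ := hord σ
    obtain ⟨a, m, hm, hNm⟩ := Nat.exists_eq_pow_mul_and_not_dvd hN.ne' q hq.ne_one
    have hmq : m.Coprime q := ((Nat.Prime.coprime_iff_not_dvd hq).mpr hm).symm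
    have hτ : σ ^ (q ^ a) ∈ A.inertiaSubgroupIn ℚ := pow_mem hσ _
    have htriv : ∀ x ∈ L, (σ ^ (q ^ a)) x = x := by
      intro x hx
      by_contra hne
      have hy0 : (σ ^ (q ^ a)) x - x ≠ 0 := sub_ne_zero.mpr hne
      have hyL : (σ ^ (q ^ a)) x - x ∈ L := L.sub_mem (hstab _ _ hx) hx
      have h1 : TT A (σ ^ (q ^ a)) ((σ ^ (q ^ a)) x - x) :=
        (hall _ hyL hy0).pow_left hσ _
      apply pow_apply_ne hA hτ h1 hmq
      rw [← pow_mul, ← hNm]
      exact hN' x hx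
    have h1 : f σ ^ (q ^ a) = 1 := by rw [← map_pow]; exact hfL _ htriv
    have h2 := hexp σ hσ
    have hcop : Nat.Coprime (q ^ a) p := (Nat.Coprime.pow_left a hpq.symm)
    have h3 : orderOf (f σ) ∣ Nat.gcd (q ^ a) p :=
      Nat.dvd_gcd (orderOf_dvd_of_pow_eq_one h1) (orderOf_dvd_of_pow_eq_one h2)
    rw [hcop] at h3
    exact orderOf_eq_one_iff.mp (Nat.dvd_one.mp h3)
  -- the image of the tame character is finite, hence cyclic
  let θ := thHom (A := A) π hπ0
  haveI : Finite θ.range := by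
    let r : A.inertiaSubgroupIn ℚ → L ≃ₐ[ℚ] L := fun σ => σ.1.restrictNormal L
    have hr : ∀ σ τ, r σ = r τ → θ σ = θ τ := by
      intro σ τ h
      apply Units.ext
      show th π hπ0 σ = th π hπ0 τ
      have : σ.1 π = τ.1 π := by
        have e1 : ((r σ ⟨π, hπL⟩ : L) : Qb) = σ.1 π := AlgEquiv.restrictNormal_commutes σ.1 L ⟨π, hπL⟩
        have e2 : ((r τ ⟨π, hπL⟩ : L) : Qb) = τ.1 π := AlgEquiv.restrictNormal_commutes τ.1 L ⟨π, hπL⟩
        rw [← e1, ← e2, h]
      simp only [th, this]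
    have : Set.Finite (Set.range θ) := by
      have h1 : Set.range θ ⊆ (fun e : L ≃ₐ[ℚ] L => if h : ∃ σ, r σ = e then θ h.choose else 1) ''
          Set.univ := by
        rintro _ ⟨σ, rfl⟩
        refine ⟨r σ, Set.mem_univ _, ?_⟩
        have hex : ∃ σ', r σ' = r σ := ⟨σ, rfl⟩
        beta_reduce
        rw [dif_pos hex]
        exact hr _ _ hex.choose_spec
      exact (Set.toFinite _).subset h1
    exact this
  haveI : IsCyclic θ.range := isCyclic_subgroup_units _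
  obtain ⟨⟨_, ⟨τ, rfl⟩⟩, hτ⟩ := IsCyclic.exists_generator (α := θ.range)
  refine ⟨τ.1, τ.2, fun σ hσ => ?_⟩
  obtain ⟨n, hn⟩ := (mem_powers_iff_mem_zpowers.mpr (hτ ⟨θ ⟨σ, hσ⟩, ⟨_, rfl⟩⟩))
  refine ⟨n, ?_⟩
  have hn' : θ τ ^ n = θ ⟨σ, hσ⟩ := congrArg Subtype.val hn
  -- σ = τ^n w
  let w : A.inertiaSubgroupIn ℚ := (τ ^ n)⁻¹ * ⟨σ, hσ⟩
  have hw : θ w = 1 := by rw [map_mul, map_inv, map_pow, hn', inv_mul_cancel]
  have h1 := hker w.1 w.2 ((thHom_eq_one_iff π hπ0 w).mp hw)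
  have h2 : σ = (τ.1 ^ n) * w.1 := by
    show σ = τ.1 ^ n * ((τ ^ n)⁻¹ * ⟨σ, hσ⟩ : A.inertiaSubgroupIn ℚ).1
    simp
  rw [h2, map_mul, h1, mul_one, map_pow]

end TT

end Fermat.Agent.TWP.Tame
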