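import Mathlib

/-!
# Irreducibility of the adjoint representation, existence of elements with distinct eigenvalues

Elementary group theory used for the choice of Taylor--Wiles primes. Everything is for an arbitrary
group `G` acting linearly on a two-dimensional vector space `V`.
-/

set_option autoImplicit false

open scoped TensorProduct
open Module Matrix

namespace Fermat.Agent.TWP

section Schur

variable {G : Type*} [Group G] {k : Type*} [Field k] {V : Type*} [AddCommGroup V] [Module k V]
  (ρ : G →* Module.End k V)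

/-- Irreducibility over the algebraic closure of the restriction of `ρ` to a set of elements. -/
def AbsIrrOn (s : Set G) : Prop :=
  ∀ W : Submodule (AlgebraicClosure k) (AlgebraicClosure k ⊗[k] V),
    (∀ g ∈ s, ∀ x ∈ W, (ρ g).baseChange (AlgebraicClosure k) x ∈ W) → W = ⊥ ∨ W = ⊤

variable {ρ}

lemma AbsIrrOn.mono {s t : Set G} (h : AbsIrrOn ρ s) (hst : s ⊆ t) : AbsIrrOn ρ t :=
  fun W hW => h W fun g hg => hW g (hst hg)

/-- Schur's lemma for trace zero endomorphisms. -/
lemma eq_zero_of_commute {s : Set G} (hV : finrank k V = 2) (h2 : (2 : k) ≠ 0)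
    (h : AbsIrrOn ρ s) {X : Module.End k V} (hX : ∀ g ∈ s, ρ g * X = X * ρ g)
    (htr : LinearMap.trace k V X = 0) : X = 0 := by
  have hfin : Module.Finite k V := Module.finite_of_finrank_eq_succ hV
  have hnt : Nontrivial V := Module.nontrivial_of_finrank_eq_succ hV
  set K := AlgebraicClosure k
  obtain ⟨c, hc⟩ := Module.End.exists_eigenvalue (X.baseChange K)
  have h1 : Module.End.eigenspace (X.baseChange K) c = ⊤ := by
    refine (h _ ?_).resolve_left hc
    intro g hg x hx
    rw [Module.End.mem_eigenspace_iff] at hx ⊢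
    have h3 : (ρ g).baseChange K * X.baseChange K = X.baseChange K * (ρ g).baseChange K := by
      rw [← LinearMap.baseChange_mul, hX g hg, LinearMap.baseChange_mul]
    have h4 := LinearMap.congr_fun h3 x
    simp only [Module.End.mul_apply] at h4
    rw [← h4, hx, map_smul]
  have h5 : X.baseChange K = c • 1 := by
    ext x
    have : (1 : K) ⊗ₜ[k] x ∈ Module.End.eigenspace (X.baseChange K) c := by rw [h1]; trivial
    rw [Module.End.mem_eigenspace_iff] at this
    simpa using this
  have h6 : LinearMap.trace K (K ⊗[k] V) (X.baseChange K) = 0 := by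
    rw [LinearMap.trace_baseChange, htr, map_zero]
  rw [h5, map_smul, Module.End.one_eq_id, LinearMap.trace_id, Module.finrank_baseChange, hV] at h6
  have h7 : c = 0 := by
    have h2' : (2 : K) ≠ 0 := by
      have := (algebraMap k K).injective.ne h2
      rwa [map_zero, map_ofNat] at this
    simpa [h2'] using h6
  rw [h7, zero_smul] at h5
  ext x
  have h8 := LinearMap.congr_fun h5 ((1 : K) ⊗ₜ[k] x)
  rw [LinearMap.baseChange_tmul, LinearMap.zero_apply] at h8
  have h9 := Module.FaithfullyFlat.tensorProduct_mk_injective (A := k) (B := K) V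
  refine h9 ?_
  simpa using h8

/-- Absolute irreducibility implies that no line is stable. -/
lemma not_stable_line {s : Set G} (hV : finrank k V = 2)
    (h : AbsIrrOn ρ s) {v : V} (hv : v ≠ 0) (hs : ∀ g ∈ s, ∃ c : k, ρ g v = c • v) : False := by
  have hfin : Module.Finite k V := Module.finite_of_finrank_eq_succ hV
  set K := AlgebraicClosure k
  have h9 := Module.FaithfullyFlat.tensorProduct_mk_injective (A := k) (B := K) V
  have hv' : (1 : K) ⊗ₜ[k] v ≠ 0 := fun h0 => hv (h9 (by simpa using h0))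
  rcases h (Submodule.span K {(1 : K) ⊗ₜ[k] v}) (by
    intro g hg x hx
    obtain ⟨a, rfl⟩ := Submodule.mem_span_singleton.mp hx
    obtain ⟨c, hc⟩ := hs g hg
    rw [map_smul, LinearMap.baseChange_tmul, hc, TensorProduct.tmul_smul,
      ← algebraMap_smul K c, Submodule.mem_span_singleton]
    exact ⟨a * algebraMap k K c, by rw [mul_smul]⟩) with h1 | h1
  · exact hv' (Submodule.span_singleton_eq_bot.mp h1)
  · have h2 : finrank K (K ⊗[k] V) ≤ 1 := by
      rw [← finrank_top K (K ⊗[k] V), ← h1]
      exact finrank_span_singleton hv' |>.le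
    rw [Module.finrank_baseChange, hV] at h2
    omega

end Schur

section MatrixForm

variable {G : Type*} [Group G] {k : Type*} [Field k]

lemma cayley (A : Matrix (Fin 2) (Fin 2) k) : A * A = A.trace • A - A.det • 1 := by
  ext i j
  fin_cases i <;> fin_cases j <;>
    simp [Matrix.mul_apply, Fin.sum_univ_two, Matrix.trace_fin_two, Matrix.det_fin_two] <;> ring

/-- The group-theoretic consequences of absolute irreducibility (and of absolute irreducibility of
the restriction to subgroups of index two), in matrix form. -/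
structure AdjHyp (r : G →* Matrix (Fin 2) (Fin 2) k) : Prop where
  two_ne : (2 : k) ≠ 0
  irr : ∀ v : Fin 2 → k, v ≠ 0 → ¬ ∀ g, ∃ c : k, r g *ᵥ v = c • v
  schur : ∀ H : Subgroup G, (H = ⊤ ∨ H.index = 2) → ∀ X : Matrix (Fin 2) (Fin 2) k,
    X.trace = 0 → (∀ g ∈ H, r g * X = X * r g) → X = 0

variable {r : G →* Matrix (Fin 2) (Fin 2) k}

lemma exists_mulVec_ne {X : Matrix (Fin 2) (Fin 2) k} (hX : X ≠ 0) : ∃ w, X *ᵥ w ≠ 0 := by
  by_contra! h
  exact hX (Matrix.ext_of_mulVec_single fun i => by rw [h, Matrix.zero_mulVec])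

/-- A line of endomorphisms spanned by a nilpotent one is not stable. -/
lemma AdjHyp.no_nilpotent (h : AdjHyp r) {X : Matrix (Fin 2) (Fin 2) k} (hX : X ≠ 0)
    (hXX : X * X = 0) (hc : ∀ g, ∃ c : k, r g * X = c • (X * r g)) : False := by
  obtain ⟨w, hw⟩ := exists_mulVec_ne hX
  refine h.irr (X *ᵥ w) hw fun g => ?_
  obtain ⟨c, hc⟩ := hc g
  -- `X (r g w)` is a multiple of `X w`, since `X` has rank one
  have h1 : ∀ u : Fin 2 → k, ∃ a : k, X *ᵥ u = a • (X *ᵥ w) := by
    intro u
    have hdet : X.det = 0 := by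
      have : X.det * X.det = 0 := by rw [← Matrix.det_mul, hXX, Matrix.det_zero]
      simpa using this
    rw [Matrix.det_fin_two] at hdet
    have hw' : X 0 0 * w 0 + X 0 1 * w 1 ≠ 0 ∨ X 1 0 * w 0 + X 1 1 * w 1 ≠ 0 := by
      by_contra! h0
      apply hw
      ext i
      fin_cases i <;> simp [Matrix.mulVec, dotProduct, Fin.sum_univ_two, h0.1, h0.2]
    rcases hw' with h0 | h0
    · refine ⟨(X 0 0 * u 0 + X 0 1 * u 1) / (X 0 0 * w 0 + X 0 1 * w 1), ?_⟩
      ext i
      fin_cases i
      · simp [Matrix.mulVec, dotProduct, Fin.sum_univ_two]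
        field_simp
      · simp [Matrix.mulVec, dotProduct, Fin.sum_univ_two]
        field_simp
        linear_combination (u 1 * w 0 - u 0 * w 1) * hdet
    · refine ⟨(X 1 0 * u 0 + X 1 1 * u 1) / (X 1 0 * w 0 + X 1 1 * w 1), ?_⟩
      ext i
      fin_cases i
      · simp [Matrix.mulVec, dotProduct, Fin.sum_univ_two]
        field_simp
        linear_combination (u 0 * w 1 - u 1 * w 0) * hdet
      · simp [Matrix.mulVec, dotProduct, Fin.sum_univ_two]
        field_simp
  obtain ⟨a, ha⟩ := h1 (r g *ᵥ w)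
  refine ⟨c * a, ?_⟩
  rw [Matrix.mulVec_mulVec, hc, Matrix.smul_mulVec, ← Matrix.mulVec_mulVec, ha, smul_smul]

/-- No line of trace zero endomorphisms is stable under conjugation. -/
lemma AdjHyp.no_line (h : AdjHyp r) {X : Matrix (Fin 2) (Fin 2) k} (hX : X ≠ 0)
    (htr : X.trace = 0) (hc : ∀ g, ∃ c : k, r g * X = c • (X * r g)) : False := by
  have hXX : X * X = -X.det • 1 := by rw [cayley, htr, zero_smul, zero_sub, neg_smul]
  by_cases hd : X.det = 0
  · exact h.no_nilpotent hX (by rw [hXX, hd]; simp) hc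
  have hrdet : ∀ g, (r g).det ≠ 0 := fun g => by
    have : (r g).det * (r g⁻¹).det = 1 := by
      rw [← Matrix.det_mul, ← map_mul, mul_inv_cancel, map_one, Matrix.det_one]
    exact left_ne_zero_of_mul_eq_one this
  have hc2 : ∀ g, r g * X = X * r g ∨ r g * X = - (X * r g) := by
    intro g
    obtain ⟨c, hc⟩ := hc g
    have h1 : (r g).det * X.det = c ^ 2 * (X.det * (r g).det) := by
      have := congrArg Matrix.det hc
      simpa [Matrix.det_smul] using this
    have h2 : c ^ 2 = 1 := by
      have h3 : (r g).det * X.det ≠ 0 := mul_ne_zero (hrdet g) hd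
      have h4 : (c ^ 2 - 1) * ((r g).det * X.det) = 0 := by linear_combination -h1
      rcases mul_eq_zero.mp h4 with h5 | h5
      · linear_combination h5
      · exact absurd h5 h3
    have h5 : (c - 1) * (c + 1) = 0 := by linear_combination h2
    rcases mul_eq_zero.mp h5 with h6 | h6
    · left; rw [hc, sub_eq_zero.mp h6, one_smul]
    · right; rw [hc, eq_neg_of_add_eq_zero_left h6, neg_smul, one_smul]
  let H : Subgroup G :=
    { carrier := {g | r g * X = X * r g}
      mul_mem' := fun {a b} ha hb => by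
        simp only [Set.mem_ofPred_eq] at ha hb ⊢
        rw [map_mul, mul_assoc, hb, ← mul_assoc, ha, mul_assoc]
      one_mem' := by simp
      inv_mem' := fun {a} ha => by
        simp only [Set.mem_ofPred_eq] at ha ⊢
        have h1 : r a⁻¹ * r a = 1 := by rw [← map_mul, inv_mul_cancel, map_one]
        have h1' : r a * r a⁻¹ = 1 := by rw [← map_mul, mul_inv_cancel, map_one]
        calc r a⁻¹ * X = r a⁻¹ * (X * (r a * r a⁻¹)) := by rw [h1', mul_one]
          _ = r a⁻¹ * (X * r a) * r a⁻¹ := by simp only [mul_assoc]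
          _ = r a⁻¹ * (r a * X) * r a⁻¹ := by rw [ha]
          _ = (r a⁻¹ * r a) * X * r a⁻¹ := by simp only [mul_assoc]
          _ = X * r a⁻¹ := by rw [h1, one_mul] }
  have hHmem : ∀ g, g ∈ H ↔ r g * X = X * r g := fun g => Iff.rfl
  refine hX (h.schur H ?_ X htr fun g hg => hg)
  by_cases hH : H = ⊤
  · exact Or.inl hH
  right
  obtain ⟨a, ha⟩ : ∃ a, a ∉ H := by
    by_contra! hcon
    exact hH (eq_top_iff.mpr fun g _ => hcon g)
  have ha' := (hc2 a).resolve_left ha
  rw [Subgroup.index_eq_two_iff]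
  refine ⟨a, fun b => ?_⟩
  have hne : ∀ g, ¬ (r g * X = X * r g ∧ r g * X = -(X * r g)) := by
    rintro g ⟨h1, h2⟩
    have h3 : (2 : k) • (X * r g) = 0 := by
      rw [two_smul]; nth_rewrite 1 [← h1]; rw [h2, neg_add_cancel]
    have h4 : X * r g = 0 := (smul_eq_zero.mp h3).resolve_left h.two_ne
    apply hX
    have h1' : r g * r g⁻¹ = 1 := by rw [← map_mul, mul_inv_cancel, map_one]
    rw [← mul_one X, ← h1', ← mul_assoc, h4, zero_mul]
  rcases hc2 b with hb | hb
  · refine Or.inr ⟨hb, fun hba => ?_⟩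
    apply hne (b * a)
    refine ⟨hba, ?_⟩
    rw [map_mul, mul_assoc, ha', mul_neg, ← mul_assoc, hb, mul_assoc]
  · refine Or.inl ⟨?_, fun hb' => hne b ⟨hb', hb⟩⟩
    rw [hHmem, map_mul, mul_assoc, ha', mul_neg, ← mul_assoc, hb, neg_mul, neg_neg, mul_assoc]

/-- **Irreducibility of `ad⁰`**: a nonzero subspace of the trace zero endomorphisms which is stable
under conjugation contains all trace zero endomorphisms. -/
theorem AdjHyp.adjoint_irreducible (h : AdjHyp r) (W : Submodule k (Matrix (Fin 2) (Fin 2) k))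
    (hW0 : ∀ X ∈ W, X.trace = 0) (hW : ∀ g, ∀ X ∈ W, r g * X * r g⁻¹ ∈ W) (hne : W ≠ ⊥)
    (X : Matrix (Fin 2) (Fin 2) k) (hX : X.trace = 0) : X ∈ W := by
  classical
  have hinv : ∀ g, r g⁻¹ * r g = 1 := fun g => by rw [← map_mul, inv_mul_cancel, map_one]
  let sl : Submodule k (Matrix (Fin 2) (Fin 2) k) := LinearMap.ker (Matrix.traceLinearMap (Fin 2) k k)
  have hle : W ≤ sl := fun Y hY => by
    rw [LinearMap.mem_ker, Matrix.traceLinearMap_apply]; exact hW0 Y hY
  have hsl : finrank k sl = 3 := by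
    have h1 := LinearMap.finrank_range_add_finrank_ker (Matrix.traceLinearMap (Fin 2) k k)
    have h2 : LinearMap.range (Matrix.traceLinearMap (Fin 2) k k) = ⊤ := by
      rw [LinearMap.range_eq_top]
      intro c
      refine ⟨!![c, 0; 0, 0], ?_⟩
      simp [Matrix.trace_fin_two]
    rw [h2, finrank_top, finrank_self, Module.finrank_matrix] at h1
    have h3 : finrank k sl = finrank k (LinearMap.ker (Matrix.traceLinearMap (Fin 2) k k)) := rfl
    simp only [Fintype.card_fin, finrank_self] at h1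
    omega
  have hWle : finrank k W ≤ 3 := hsl ▸ Submodule.finrank_mono hle
  have hWpos : 0 < finrank k W := Submodule.one_le_finrank_iff.mpr hne
  -- dimension one
  have hcase1 : finrank k W ≠ 1 := by
    intro h1
    obtain ⟨Y, hY0, hY⟩ := finrank_eq_one_iff'.mp h1
    refine h.no_line (X := (Y : Matrix (Fin 2) (Fin 2) k)) (by simpa using hY0) (hW0 _ Y.2) ?_
    intro g
    obtain ⟨c, hc⟩ := hY ⟨_, hW g Y Y.2⟩
    refine ⟨c, ?_⟩
    have h3 := congrArg Subtype.val hc
    simp only [SetLike.val_smul] at h3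
    calc r g * (Y : Matrix (Fin 2) (Fin 2) k) = (r g * Y * r g⁻¹) * r g := by
          rw [mul_assoc _ (r g⁻¹), hinv, mul_one]
      _ = _ := by rw [← h3, smul_mul_assoc]
  -- dimension two
  have hcase2 : finrank k W ≠ 2 := by
    intro h1
    let b := Module.finBasisOfFinrankEq k W h1
    obtain ⟨Y₀, hY₀⟩ : ∃ Y : Matrix (Fin 2) (Fin 2) k, Y = ((b 0 : W) : Matrix (Fin 2) (Fin 2) k) :=
      ⟨_, rfl⟩
    obtain ⟨Y₁, hY₁⟩ : ∃ Y : Matrix (Fin 2) (Fin 2) k, Y = ((b 1 : W) : Matrix (Fin 2) (Fin 2) k) :=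
      ⟨_, rfl⟩
    have htr0 : Y₀.trace = 0 := hY₀ ▸ hW0 _ (b 0).2
    have htr1 : Y₁.trace = 0 := hY₁ ▸ hW0 _ (b 1).2
    have hli : LinearIndependent k ![Y₀, Y₁] := by
      have := b.linearIndependent.map' W.subtype (Submodule.ker_subtype W)
      have e : ![Y₀, Y₁] = W.subtype ∘ b := by
        ext i : 1
        fin_cases i
        · exact hY₀
        · exact hY₁
      rw [e]
      exact this
    rw [LinearIndependent.pair_iff] at hli
    have hspan : ∀ Z ∈ W, ∃ a c : k, Z = a • Y₀ + c • Y₁ := by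
      intro Z hZ
      refine ⟨b.repr ⟨Z, hZ⟩ 0, b.repr ⟨Z, hZ⟩ 1, ?_⟩
      have h5 := congrArg Subtype.val (b.sum_repr ⟨Z, hZ⟩)
      rw [Fin.sum_univ_two] at h5
      rw [hY₀, hY₁]
      exact h5.symm
    -- the commutator
    refine h.no_line (X := Y₀ * Y₁ - Y₁ * Y₀) ?_ ?_ ?_
    · intro h0
      rw [Matrix.trace_fin_two] at htr0 htr1
      have e1 := congrFun (congrFun h0 0) 0
      have e2 := congrFun (congrFun h0 0) 1
      have e3 := congrFun (congrFun h0 1) 0
      simp only [Matrix.sub_apply, Matrix.mul_apply, Fin.sum_univ_two, Matrix.zero_apply] at e1 e2 e3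
      have d0 : Y₀ 1 1 = - Y₀ 0 0 := by linear_combination htr0
      have d1 : Y₁ 1 1 = - Y₁ 0 0 := by linear_combination htr1
      rw [d0, d1] at e2 e3
      have f2 : Y₀ 0 0 * Y₁ 0 1 - Y₁ 0 0 * Y₀ 0 1 = 0 := by
        have : 2 * (Y₀ 0 0 * Y₁ 0 1 - Y₁ 0 0 * Y₀ 0 1) = 0 := by linear_combination e2
        exact (mul_eq_zero.mp this).resolve_left h.two_ne
      have f3 : Y₀ 1 0 * Y₁ 0 0 - Y₁ 1 0 * Y₀ 0 0 = 0 := by
        have : 2 * (Y₀ 1 0 * Y₁ 0 0 - Y₁ 1 0 * Y₀ 0 0) = 0 := by linear_combination e3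
        exact (mul_eq_zero.mp this).resolve_left h.two_ne
      have f1 : Y₀ 0 1 * Y₁ 1 0 - Y₁ 0 1 * Y₀ 1 0 = 0 := by linear_combination e1
      have key : ∀ c d : k, (c * Y₀ 0 0 + d * Y₁ 0 0 = 0) → (c * Y₀ 0 1 + d * Y₁ 0 1 = 0) →
          (c * Y₀ 1 0 + d * Y₁ 1 0 = 0) → c = 0 ∧ d = 0 := by
        intro c d g1 g2 g3
        apply hli c d
        ext i j
        fin_cases i <;> fin_cases j
        · simpa using g1
        · simpa using g2
        · simpa using g3
        · simp only [Matrix.add_apply, Matrix.smul_apply, smul_eq_mul, Matrix.zero_apply,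
            Fin.mk_one, d0, d1]
          linear_combination -g1
      have k1 := key (Y₁ 0 0) (-Y₀ 0 0) (by ring) (by linear_combination -f2)
        (by linear_combination f3)
      have k2 := key (Y₁ 0 1) (-Y₀ 0 1) (by linear_combination f2) (by ring)
        (by linear_combination -f1)
      have k3 := key (Y₁ 1 0) (-Y₀ 1 0) (by linear_combination -f3) (by linear_combination f1)
        (by ring)
      have := key 1 1 (by rw [k1.1, neg_eq_zero.mp k1.2]; ring)
        (by rw [k2.1, neg_eq_zero.mp k2.2]; ring) (by rw [k3.1, neg_eq_zero.mp k3.2]; ring)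
      exact one_ne_zero this.1
    · rw [Matrix.trace_sub, Matrix.trace_mul_comm, sub_self]
    · intro g
      obtain ⟨a, b', hab⟩ := hspan _ (hW g Y₀ (hY₀ ▸ (b 0).2))
      obtain ⟨c, d, hcd⟩ := hspan _ (hW g Y₁ (hY₁ ▸ (b 1).2))
      refine ⟨a * d - b' * c, ?_⟩
      have e0 : r g * Y₀ = (a • Y₀ + b' • Y₁) * r g := by
        rw [← hab, mul_assoc _ (r g⁻¹), hinv, mul_one]
      have e1 : r g * Y₁ = (c • Y₀ + d • Y₁) * r g := by
        rw [← hcd, mul_assoc _ (r g⁻¹), hinv, mul_one]
      rw [mul_sub, ← mul_assoc, ← mul_assoc, e0, e1, mul_assoc _ (r g), mul_assoc _ (r g), e0, e1]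
      simp only [add_mul, mul_add, sub_mul, smul_sub, smul_mul_assoc, mul_smul_comm, smul_add,
        smul_smul, mul_assoc]
      module
  have h3 : finrank k W = finrank k sl := by omega
  have h4 : W = sl := Submodule.eq_of_le_of_finrank_eq hle h3
  rw [h4, LinearMap.mem_ker, Matrix.traceLinearMap_apply]
  exact hX

/-- If all elements of a normal subgroup `N` have a double eigenvalue, they are scalar. -/
lemma AdjHyp.scalar_of_disc_eq_zero (h : AdjHyp r) (N : Subgroup G) [N.Normal]
    (hN : ∀ g ∈ N, (r g).trace ^ 2 = 4 * (r g).det) (g : G) (hg : g ∈ N) :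
    r g = ((r g).trace / 2) • 1 := by
  have hrdet : ∀ g, (r g).det ≠ 0 := fun g => by
    have : (r g).det * (r g⁻¹).det = 1 := by
      rw [← Matrix.det_mul, ← map_mul, mul_inv_cancel, map_one, Matrix.det_one]
    exact left_ne_zero_of_mul_eq_one this
  have h2 := h.two_ne
  have htr : ∀ g ∈ N, (r g).trace ≠ 0 := fun g hg h0 => by
    have := hN g hg
    rw [h0] at this
    have h4 : (4 : k) ≠ 0 := by
      have : (4 : k) = 2 * 2 := by norm_num
      rw [this]; exact mul_ne_zero h2 h2
    simp [h4, hrdet g] at this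
  -- half the trace is multiplicative on `N`
  have hmul : ∀ g ∈ N, ∀ g' ∈ N, 2 * (r (g * g')).trace = (r g).trace * (r g').trace := by
    intro g hg g' hg'
    have e1 := hN _ (N.mul_mem hg hg')
    have e2 := hN _ (N.mul_mem (N.mul_mem hg hg) hg')
    have e3 : (r (g * g * g')).trace = (r g).trace * (r (g * g')).trace -
        (r g).det * (r g').trace := by
      rw [map_mul, map_mul, cayley, sub_mul, smul_mul_assoc, smul_mul_assoc, one_mul,
        Matrix.trace_sub, Matrix.trace_smul, Matrix.trace_smul, ← map_mul, smul_eq_mul, smul_eq_mul]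
    have e4 := hN g hg
    have e5 := hN g' hg'
    rw [map_mul, Matrix.det_mul] at e1
    rw [e3, map_mul, map_mul, map_mul, Matrix.det_mul, Matrix.det_mul] at e2
    rw [map_mul]
    set a := (r g).trace
    set b := (r g').trace
    set x := (r g * r g').trace
    set d := (r g).det
    set d' := (r g').det
    have ha : a ≠ 0 := htr g hg
    have hb : b ≠ 0 := htr g' hg'
    -- e1 : x^2 = 4 d d', e2 : (a x - d b)^2 = 4 d d d', a^2 = 4 d, b^2 = 4 d'
    have e6 : a ^ 3 * b * (2 * x - a * b) = 0 := by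
      have f1 : 16 * x ^ 2 = 4 * (a ^ 2 * b ^ 2) := by rw [e4, e5, e1]; ring
      have f2 : (4 * a * x - a ^ 2 * b) ^ 2 = a ^ 4 * b ^ 2 := by
        have : (4 * a * x - a ^ 2 * b) = 4 * (a * x - d * b) := by rw [e4]; ring
        rw [this, mul_pow, e2]
        have : a ^ 4 * b ^ 2 = (a ^ 2) ^ 2 * b ^ 2 := by ring
        rw [this, e4, e5]; ring
      have f3 : 4 * (a ^ 3 * b * (2 * x - a * b)) = 0 := by
        linear_combination a ^ 2 * f1 - f2
      have h4 : (4 : k) ≠ 0 := by
        have : (4 : k) = 2 * 2 := by norm_num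
        rw [this]; exact mul_ne_zero h2 h2
      exact (mul_eq_zero.mp f3).resolve_left h4
    rcases mul_eq_zero.mp e6 with h7 | h7
    · exact absurd h7 (mul_ne_zero (pow_ne_zero 3 ha) hb)
    · linear_combination h7
  -- nilpotent parts
  let n : G → Matrix (Fin 2) (Fin 2) k := fun g => r g - ((r g).trace / 2) • 1
  have hntr : ∀ g, (n g).trace = 0 := by
    intro g
    simp only [n, Matrix.trace_sub, Matrix.trace_smul, Matrix.trace_one, Fintype.card_fin,
      smul_eq_mul]
    push_cast
    field_simp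
    ring
  have hnn : ∀ g ∈ N, n g * n g = 0 := by
    intro g hg
    have := hN g hg
    simp only [n, sub_mul, mul_sub, cayley (r g), smul_mul_assoc, mul_smul_comm, one_mul, mul_one]
    ext i j
    simp only [Matrix.sub_apply, Matrix.smul_apply, smul_eq_mul, Matrix.zero_apply]
    have e : (r g).det = (r g).trace ^ 2 / 4 := by
      have h4 : (4 : k) ≠ 0 := by
        have : (4 : k) = 2 * 2 := by norm_num
        rw [this]; exact mul_ne_zero h2 h2
      field_simp
      linear_combination -this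
    rw [e]
    have h4 : (4 : k) = 2 * 2 := by norm_num
    rw [h4]
    field_simp
    ring
  have hnm : ∀ g ∈ N, ∀ g' ∈ N, (n g * n g').trace = 0 := by
    intro g hg g' hg'
    have := hmul g hg g' hg'
    rw [map_mul] at this
    simp only [n, sub_mul, mul_sub, smul_mul_assoc, mul_smul_comm, one_mul, mul_one,
      Matrix.trace_sub, Matrix.trace_smul, Matrix.trace_one, smul_eq_mul, Fintype.card_fin]
    push_cast
    field_simp
    linear_combination this
  -- the nilpotent parts annihilate each other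
  have hzero : ∀ g ∈ N, ∀ g' ∈ N, n g * n g' = 0 := by
    intro g hg g' hg'
    have hsum : (n g + n g') * (n g + n g') = 0 := by
      rw [cayley]
      have t1 : (n g + n g').trace = 0 := by rw [Matrix.trace_add, hntr, hntr, add_zero]
      have t2 : (n g + n g').det = 0 := by
        have e1 : ((n g + n g') * (n g + n g')).trace = 0 := by
          simp only [add_mul, mul_add, Matrix.trace_add, hnn g hg, hnn g' hg', hnm g hg g' hg',
            hnm g' hg' g hg, Matrix.trace_zero, add_zero]
        rw [cayley, t1, zero_smul, zero_sub, Matrix.trace_neg, Matrix.trace_smul, Matrix.trace_one,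
          Fintype.card_fin, neg_eq_zero, smul_eq_mul] at e1
        exact (mul_eq_zero.mp e1).resolve_right (by exact_mod_cast h2)
      rw [t1, t2, zero_smul, zero_smul, sub_zero]
    have hanti : n g * n g' = - (n g' * n g) := by
      simp only [add_mul, mul_add, hnn g hg, hnn g' hg', zero_add, add_zero] at hsum
      exact eq_neg_of_add_eq_zero_left (by rw [add_comm]; exact hsum)
    -- entrywise
    have a0 := hnn g hg
    have b0 := hnn g' hg'
    have ta := hntr g
    have tb := hntr g'
    obtain ⟨A, hA⟩ : ∃ A, A = n g := ⟨_, rfl⟩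
    obtain ⟨B, hB⟩ : ∃ B, B = n g' := ⟨_, rfl⟩
    rw [← hA] at a0 ta hanti ⊢
    rw [← hB] at b0 tb hanti ⊢
    rw [Matrix.trace_fin_two] at ta tb
    have a00 := congrFun (congrFun a0 0) 0
    have b00 := congrFun (congrFun b0 0) 0
    have h00 := congrFun (congrFun hanti 0) 0
    simp only [Matrix.mul_apply, Fin.sum_univ_two, Matrix.zero_apply, Matrix.neg_apply]
      at a00 b00 h00
    have ea : A 1 1 = - A 0 0 := by linear_combination ta
    have eb : B 1 1 = - B 0 0 := by linear_combination tb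
    -- a² + bc = 0, a'² + b'c' = 0, 2aa' + bc' + b'c = 0  ⟹ the products vanish
    have k1 : (A 0 0 * B 0 1 - A 0 1 * B 0 0) ^ 2 = 0 := by
      linear_combination (B 0 1) ^ 2 * a00 + (A 0 1) ^ 2 * b00 - A 0 1 * B 0 1 * h00
    have k2 : (A 0 0 * B 1 0 - A 1 0 * B 0 0) ^ 2 = 0 := by
      linear_combination (B 1 0) ^ 2 * a00 + (A 1 0) ^ 2 * b00 - A 1 0 * B 1 0 * h00
    have k1' := pow_eq_zero_iff (two_ne_zero) |>.mp k1
    have k2' := pow_eq_zero_iff (two_ne_zero) |>.mp k2
    have k3 : (A 0 0 * B 0 0 + A 0 1 * B 1 0) ^ 2 = 0 := by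
      linear_combination (A 0 1 * B 1 0) * h00 - (B 0 1 * B 1 0) * a00 + (A 0 0) ^ 2 * b00
    have k3' := pow_eq_zero_iff (two_ne_zero) |>.mp k3
    ext i j
    fin_cases i <;> fin_cases j <;>
      simp only [Matrix.mul_apply, Fin.sum_univ_two, Matrix.zero_apply, Fin.mk_one, Fin.zero_eta,
        ea, eb]
    · linear_combination k3'
    · linear_combination k1'
    · linear_combination -k2'
    · linear_combination -k3' + h00
  by_contra hne
  have hX : n g ≠ 0 := fun h0 => hne (sub_eq_zero.mp h0)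
  refine h.no_nilpotent hX (hnn g hg) fun x => ?_
  -- the conjugate of `n g` is a multiple of `n g`
  have hxg : x * g * x⁻¹ ∈ N := Subgroup.Normal.conj_mem inferInstance g hg x
  have hinv : ∀ g, r g⁻¹ * r g = 1 := fun g => by rw [← map_mul, inv_mul_cancel, map_one]
  have hinv' : ∀ g, r g * r g⁻¹ = 1 := fun g => by rw [← map_mul, mul_inv_cancel, map_one]
  have hconj : n (x * g * x⁻¹) = r x * n g * r x⁻¹ := by
    simp only [n, map_mul, mul_sub, sub_mul]
    rw [Matrix.trace_mul_comm, ← mul_assoc, hinv, one_mul, mul_smul_comm, smul_mul_assoc, mul_one,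
      hinv']
  have hz1 := hzero _ hg _ hxg
  have hz2 := hzero _ hxg _ hg
  have hb := hnn _ hxg
  have ha := hnn _ hg
  have ta := hntr g
  have tb := hntr (x * g * x⁻¹)
  suffices hsuf : ∃ c : k, n (x * g * x⁻¹) = c • n g by
    obtain ⟨c, hc⟩ := hsuf
    refine ⟨c, ?_⟩
    rw [hconj] at hc
    calc r x * n g = (r x * n g * r x⁻¹) * r x := by rw [mul_assoc _ (r x⁻¹), hinv, mul_one]
      _ = _ := by rw [hc, smul_mul_assoc]
  obtain ⟨A, hA⟩ : ∃ A, A = n g := ⟨_, rfl⟩
  obtain ⟨B, hB⟩ : ∃ B, B = n (x * g * x⁻¹) := ⟨_, rfl⟩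
  rw [← hA] at ha ta hX hz1 hz2 ⊢
  rw [← hB] at hb tb hz1 hz2 ⊢
  rw [Matrix.trace_fin_two] at ta tb
  have ea : A 1 1 = - A 0 0 := by linear_combination ta
  have eb : B 1 1 = - B 0 0 := by linear_combination tb
  have a00 := congrFun (congrFun ha 0) 0
  have b00 := congrFun (congrFun hb 0) 0
  have z00 := congrFun (congrFun hz1 0) 0
  have z01 := congrFun (congrFun hz1 0) 1
  have z10 := congrFun (congrFun hz1 1) 0
  have z11 := congrFun (congrFun hz1 1) 1
  have y00 := congrFun (congrFun hz2 0) 0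
  simp only [Matrix.mul_apply, Fin.sum_univ_two, Matrix.zero_apply, ea, eb]
    at a00 b00 z00 z01 z10 z11 y00
  by_cases hb01 : A 0 1 = 0
  · have h00 : A 0 0 = 0 := by
      have : A 0 0 ^ 2 = 0 := by linear_combination a00 - A 1 0 * hb01
      exact pow_eq_zero_iff two_ne_zero |>.mp this
    have h10 : A 1 0 ≠ 0 := by
      intro h10
      apply hX
      ext i j
      fin_cases i <;> fin_cases j <;> simp [ea, h00, hb01, h10]
    have hB00 : B 0 0 = 0 := by
      rw [h00] at z10
      have : A 1 0 * B 0 0 = 0 := by linear_combination z10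
      exact (mul_eq_zero.mp this).resolve_left h10
    have hB01 : B 0 1 = 0 := by
      rw [h00] at z11
      have : A 1 0 * B 0 1 = 0 := by linear_combination z11
      exact (mul_eq_zero.mp this).resolve_left h10
    refine ⟨B 1 0 / A 1 0, ?_⟩
    ext i j
    fin_cases i <;> fin_cases j <;> simp [ea, eb, h00, hb01, hB00, hB01, h10]
  · refine ⟨B 0 1 / A 0 1, ?_⟩
    ext i j
    fin_cases i <;> fin_cases j <;>
      simp only [Matrix.smul_apply, smul_eq_mul, Fin.mk_one, Fin.zero_eta, ea, eb]
    · field_simp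
      linear_combination -z01
    · field_simp
    · field_simp
      linear_combination z00 - y00
    · field_simp
      linear_combination z01

/-- **Existence of regular elements**: if `G / N` is cyclic, then some element of `N` has two
distinct eigenvalues. -/
theorem AdjHyp.exists_disc_ne (h : AdjHyp r) (N : Subgroup G) [N.Normal] [IsCyclic (G ⧸ N)] :
    ∃ g ∈ N, (r g).trace ^ 2 ≠ 4 * (r g).det := by
  by_contra! hcon
  have hsc := h.scalar_of_disc_eq_zero N hcon
  obtain ⟨g₀, hg₀⟩ := IsCyclic.exists_generator (α := G ⧸ N)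
  obtain ⟨g₀, rfl⟩ := QuotientGroup.mk_surjective g₀
  have hcomm : ∀ x, r x * r g₀ = r g₀ * r x := by
    intro x
    obtain ⟨i, hi⟩ := Subgroup.mem_zpowers_iff.mp (hg₀ (x : G ⧸ N))
    have h1 : (g₀ ^ i)⁻¹ * x ∈ N := by
      rw [← QuotientGroup.eq, ← hi, QuotientGroup.mk_zpow]
    have h2 : x = g₀ ^ i * ((g₀ ^ i)⁻¹ * x) := by group
    have h3 : r (g₀ ^ i) * r g₀ = r g₀ * r (g₀ ^ i) := by
      rw [← map_mul, ← map_mul]
      congr 1
      exact (Commute.zpow_self g₀ i).eq
    rw [h2, map_mul, hsc _ h1, mul_smul_comm, smul_mul_assoc, mul_one, mul_smul_comm, h3]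
  have h4 : r g₀ = ((r g₀).trace / 2) • 1 := by
    rw [← sub_eq_zero]
    refine h.schur ⊤ (Or.inl rfl) _ ?_ fun g _ => ?_
    · have := h.two_ne
      simp only [Matrix.trace_sub, Matrix.trace_smul, Matrix.trace_one, Fintype.card_fin,
        smul_eq_mul]
      push_cast
      field_simp
      ring
    · rw [mul_sub, sub_mul, hcomm, mul_smul_comm, smul_mul_assoc, mul_one, one_mul]
  have hall : ∀ x, ∀ X : Matrix (Fin 2) (Fin 2) k, r x * X = X * r x := by
    intro x X
    obtain ⟨i, hi⟩ := Subgroup.mem_zpowers_iff.mp (hg₀ (x : G ⧸ N))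
    have h1 : (g₀ ^ i)⁻¹ * x ∈ N := by
      rw [← QuotientGroup.eq, ← hi, QuotientGroup.mk_zpow]
    have h2 : x = g₀ ^ i * ((g₀ ^ i)⁻¹ * x) := by group
    have h5 : Commute X ((r.toHomUnits g₀ : (Matrix (Fin 2) (Fin 2) k)ˣ) :
        Matrix (Fin 2) (Fin 2) k) := by
      change X * r g₀ = r g₀ * X
      rw [h4, mul_smul_comm, smul_mul_assoc, mul_one, one_mul]
    have h6 := h5.units_zpow_right i
    rw [← map_zpow] at h6
    have h7 : X * r (g₀ ^ i) = r (g₀ ^ i) * X := h6
    rw [h2, map_mul, hsc _ h1, mul_smul_comm, smul_mul_assoc, mul_one, mul_smul_comm, h7]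
  have h8 : (!![0, 1; 0, 0] : Matrix (Fin 2) (Fin 2) k) = 0 :=
    h.schur ⊤ (Or.inl rfl) _ (by simp [Matrix.trace_fin_two]) fun g _ => hall g _
  have h9 := congrFun (congrFun h8 0) 1
  simp at h9

end MatrixForm

section Bridge

variable {G : Type*} [Group G] {k : Type*} [Field k] {V : Type*} [AddCommGroup V] [Module k V]

/-- The matrix form of a representation in a given basis. -/
noncomputable def matRep (b : Basis (Fin 2) k V) (ρ : G →* Module.End k V) :
    G →* Matrix (Fin 2) (Fin 2) k :=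
  ((LinearMap.toMatrixAlgEquiv b : Module.End k V →ₐ[k] Matrix (Fin 2) (Fin 2) k) :
    Module.End k V →* Matrix (Fin 2) (Fin 2) k).comp ρ

lemma matRep_apply (b : Basis (Fin 2) k V) (ρ : G →* Module.End k V) (g : G) :
    matRep b ρ g = LinearMap.toMatrix b b (ρ g) := rfl

theorem AdjHyp.of_absIrrOn (b : Basis (Fin 2) k V) (ρ : G →* Module.End k V) (h2 : (2 : k) ≠ 0)
    (h1 : AbsIrrOn ρ Set.univ) (hTW : ∀ H : Subgroup G, H.index = 2 → AbsIrrOn ρ (H : Set G)) :
    AdjHyp (matRep b ρ) := by
  have hV : finrank k V = 2 := by rw [Module.finrank_eq_card_basis b, Fintype.card_fin]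
  refine ⟨h2, ?_, ?_⟩
  · intro v hv hall
    refine not_stable_line (ρ := ρ) hV h1 (v := b.equivFun.symm v)
      (fun h0 => hv (b.equivFun.symm.injective (h0.trans (map_zero _).symm))) fun g _ => ?_
    obtain ⟨c, hc⟩ := hall g
    refine ⟨c, ?_⟩
    rw [matRep_apply] at hc
    have h3 := LinearMap.toMatrix_mulVec_repr b b (ρ g) (b.equivFun.symm v)
    have h4 : (b.repr (b.equivFun.symm v) : Fin 2 → k) = v := b.equivFun.apply_symm_apply v
    rw [h4, hc] at h3
    apply b.equivFun.injective
    rw [map_smul, LinearEquiv.apply_symm_apply]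
    exact h3.symm
  · intro H hH X htr hX
    have hs : AbsIrrOn ρ (H : Set G) := by
      rcases hH with rfl | hH
      · simpa using h1
      · exact hTW H hH
    have h3 : LinearMap.toMatrix b b (Matrix.toLin b b X) = X := LinearMap.toMatrix_toLin b b X
    have h4 : Matrix.toLin b b X = 0 := by
      refine eq_zero_of_commute hV h2 hs (fun g hg => ?_) ?_
      · apply (LinearMap.toMatrix b b).injective
        rw [LinearMap.toMatrix_mul, LinearMap.toMatrix_mul, h3]
        exact hX g hg
      · rw [LinearMap.trace_eq_matrix_trace k b, h3, htr]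
    rw [← h3, h4, map_zero]

end Bridge

end Fermat.Agent.TWP
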