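import Mathlib
import Fermat.Agent.FrobeniusDensity
import Fermat.Agent.Lib.Cyclotomic
import Fermat.Agent.TWP.AdjointIrred
import Fermat.Agent.TWP.Place

/-!
# Choice of Taylor--Wiles primes

Given a finite dimensional space `Z` of continuous cocycles in `ad⁰ ⊗ det` such that each nonzero
`ψ ∈ Z` is non-trivial at some regular element `σ` fixing the `p ^ (n + 1)`-th roots of unity, we
find `dim Z` primes `q ≡ 1 mod p ^ (n + 1)`, at which the representation has distinct Frobenius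
eigenvalues, and such that no nonzero element of `Z` is locally trivial at all of them.
-/

set_option autoImplicit false

open Module Matrix Pointwise

namespace Fermat.Agent.TWP

section TwistedCocycle

variable {G : Type*} [Group G] {k : Type*} [Field k] (r : G →* Matrix (Fin 2) (Fin 2) k)

/-- The action of `g` on `ad ⊗ det`. -/
def tw (g : G) (X : Matrix (Fin 2) (Fin 2) k) : Matrix (Fin 2) (Fin 2) k :=
  (r g).det • (r g * X * r g⁻¹)

lemma r_mul_inv (g : G) : r g * r g⁻¹ = 1 := by rw [← map_mul, mul_inv_cancel, map_one]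

lemma r_inv_mul (g : G) : r g⁻¹ * r g = 1 := by rw [← map_mul, inv_mul_cancel, map_one]

lemma tw_one (X : Matrix (Fin 2) (Fin 2) k) : tw r 1 X = X := by
  simp [tw]

lemma tw_mul (g h : G) (X : Matrix (Fin 2) (Fin 2) k) : tw r (g * h) X = tw r g (tw r h X) := by
  simp only [tw, map_mul, Matrix.det_mul, _root_.mul_inv_rev, mul_smul_comm, smul_mul_assoc, smul_smul,
    mul_assoc]

lemma tw_add (g : G) (X Y : Matrix (Fin 2) (Fin 2) k) : tw r g (X + Y) = tw r g X + tw r g Y := by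
  simp only [tw, mul_add, add_mul, smul_add]

lemma tw_neg (g : G) (X : Matrix (Fin 2) (Fin 2) k) : tw r g (-X) = - tw r g X := by
  simp only [tw, mul_neg, neg_mul, smul_neg]

lemma tw_sub (g : G) (X Y : Matrix (Fin 2) (Fin 2) k) : tw r g (X - Y) = tw r g X - tw r g Y := by
  rw [sub_eq_add_neg, tw_add, tw_neg, sub_eq_add_neg]

lemma tw_smul (g : G) (c : k) (X : Matrix (Fin 2) (Fin 2) k) :
    tw r g (c • X) = c • tw r g X := by
  simp only [tw, mul_smul_comm, smul_mul_assoc, smul_comm c]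

lemma trace_tw (g : G) (X : Matrix (Fin 2) (Fin 2) k) :
    (tw r g X).trace = (r g).det * X.trace := by
  rw [tw, Matrix.trace_smul, Matrix.trace_mul_comm, ← mul_assoc, r_inv_mul, one_mul, smul_eq_mul]

variable {r} in
lemma tw_congr {a b : G} (h : r a = r b) (X : Matrix (Fin 2) (Fin 2) k) : tw r a X = tw r b X := by
  have h1 : r a⁻¹ = r b⁻¹ := by
    calc r a⁻¹ = r a⁻¹ * (r b * r b⁻¹) := by rw [r_mul_inv, mul_one]
      _ = (r a⁻¹ * r a) * r b⁻¹ := by rw [← h, mul_assoc]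
      _ = r b⁻¹ := by rw [r_inv_mul, one_mul]
  rw [tw, tw, h, h1]

lemma pow_disc {B : Matrix (Fin 2) (Fin 2) k} (h2 : (2 : k) ≠ 0)
    (h : B.trace ^ 2 = 4 * B.det) (m : ℕ) : (B ^ m).trace ^ 2 = 4 * (B ^ m).det := by
  have key : ∀ m : ℕ, 2 ^ m * (B ^ m).trace = 2 * B.trace ^ m ∧
      2 ^ (m + 1) * (B ^ (m + 1)).trace = 2 * B.trace ^ (m + 1) := by
    intro m
    induction m with
    | zero => simp [Matrix.trace_one]
    | succ m ih =>
      refine ⟨ih.2, ?_⟩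
      have e : (B ^ (m + 1 + 1)).trace = B.trace * (B ^ (m + 1)).trace - B.det * (B ^ m).trace := by
        rw [show B ^ (m + 1 + 1) = (B * B) * B ^ m by rw [pow_succ', pow_succ', mul_assoc],
          cayley, sub_mul, smul_mul_assoc, smul_mul_assoc, one_mul, ← pow_succ', Matrix.trace_sub,
          Matrix.trace_smul, Matrix.trace_smul, smul_eq_mul, smul_eq_mul]
      rw [e]
      linear_combination (2 * B.trace) * ih.2 - 4 * B.det * ih.1 + 2 * B.trace ^ m * h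
  have h3 := (key m).1
  rw [Matrix.det_pow]
  have h4 : (2 ^ m * 2 ^ m : k) * ((B ^ m).trace ^ 2 - 4 * B.det ^ m) = 0 := by
    have h5 : (2 ^ m * 2 ^ m : k) * (4 * B.det ^ m) = 4 * (4 * B.det) ^ m := by
      rw [mul_pow, ← mul_pow]
      norm_num
      ring
    rw [mul_sub, h5, ← h]
    linear_combination (2 ^ m * (B ^ m).trace + 2 * B.trace ^ m) * h3
  rcases mul_eq_zero.mp h4 with h5 | h5
  · exact absurd h5 (mul_ne_zero (pow_ne_zero _ h2) (pow_ne_zero _ h2))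
  · exact sub_eq_zero.mp h5

/-- Cocycles with values in the trace zero part of `ad ⊗ det`. -/
structure TwCocycle (ψ : G → Matrix (Fin 2) (Fin 2) k) : Prop where
  trace_eq : ∀ g, (ψ g).trace = 0
  map_mul : ∀ g h, ψ (g * h) = ψ g + tw r g (ψ h)

/-- The restriction of `ψ` to the cyclic group generated by `g` is a coboundary. -/
def CobAt (ψ : G → Matrix (Fin 2) (Fin 2) k) (g : G) : Prop :=
  ∃ X : Matrix (Fin 2) (Fin 2) k, X.trace = 0 ∧ ψ g = tw r g X - X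

variable {r}

lemma TwCocycle.map_one {ψ : G → Matrix (Fin 2) (Fin 2) k} (h : TwCocycle r ψ) : ψ 1 = 0 := by
  have := h.map_mul 1 1
  rw [mul_one, tw_one] at this
  simpa using this

lemma TwCocycle.map_inv {ψ : G → Matrix (Fin 2) (Fin 2) k} (h : TwCocycle r ψ) (g : G) :
    ψ g⁻¹ = - tw r g⁻¹ (ψ g) := by
  have := h.map_mul g⁻¹ g
  rw [inv_mul_cancel, h.map_one] at this
  exact eq_neg_of_add_eq_zero_left this.symm

lemma TwCocycle.pow {ψ : G → Matrix (Fin 2) (Fin 2) k} (h : TwCocycle r ψ) {g : G}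
    {X : Matrix (Fin 2) (Fin 2) k} (hg : ψ g = tw r g X - X) (m : ℕ) :
    ψ (g ^ m) = tw r (g ^ m) X - X := by
  induction m with
  | zero => rw [pow_zero, h.map_one, tw_one, sub_self]
  | succ m ih => rw [pow_succ, h.map_mul, ih, hg, tw_sub, ← tw_mul]; abel

lemma TwCocycle.cobAt_pow {ψ : G → Matrix (Fin 2) (Fin 2) k} (h : TwCocycle r ψ) {g : G}
    (hg : CobAt r ψ g) (m : ℕ) : CobAt r ψ (g ^ m) := by
  obtain ⟨X, hX, hg⟩ := hg
  exact ⟨X, hX, h.pow hg m⟩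

lemma TwCocycle.conj {ψ : G → Matrix (Fin 2) (Fin 2) k} (h : TwCocycle r ψ) {g : G}
    {X : Matrix (Fin 2) (Fin 2) k} (hg : ψ g = tw r g X - X) (x : G) :
    ψ (x * g * x⁻¹) = tw r (x * g * x⁻¹) (tw r x X - ψ x) - (tw r x X - ψ x) := by
  have h1 : tw r (x * g * x⁻¹) (tw r x X) = tw r (x * g) X := by
    rw [← tw_mul, inv_mul_cancel_right]
  rw [h.map_mul, h.map_mul, h.map_inv, hg, tw_sub, tw_neg, ← tw_mul, ← tw_mul, tw_sub, h1]
  abel

lemma TwCocycle.cobAt_conj {ψ : G → Matrix (Fin 2) (Fin 2) k} (h : TwCocycle r ψ) {g : G}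
    (hg : CobAt r ψ g) (x : G) : CobAt r ψ (x * g * x⁻¹) := by
  obtain ⟨X, hX, hg⟩ := hg
  refine ⟨tw r x X - ψ x, ?_, h.conj hg x⟩
  rw [Matrix.trace_sub, trace_tw, hX, mul_zero, h.trace_eq, sub_zero]

/-- For a regular element of determinant one, being a coboundary is one linear condition. -/
lemma cobAt_iff {ψ : G → Matrix (Fin 2) (Fin 2) k} {g : G} (htr : (ψ g).trace = 0)
    (hdet : (r g).det = 1) (hdisc : (r g).trace ^ 2 ≠ 4 * (r g).det) :
    CobAt r ψ g ↔ (r g * ψ g).trace = 0 := by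
  constructor
  · rintro ⟨X, -, hX⟩
    rw [hX, tw, hdet, one_smul, mul_sub, Matrix.trace_sub, ← mul_assoc, ← mul_assoc,
      Matrix.trace_mul_comm, ← mul_assoc, ← mul_assoc, r_inv_mul, one_mul, sub_self]
  · intro h
    obtain ⟨A, hA⟩ : ∃ A, A = r g := ⟨_, rfl⟩
    obtain ⟨Y, hY⟩ : ∃ Y, Y = ψ g := ⟨_, rfl⟩
    have hinv := r_mul_inv r g
    rw [← hA] at hdet hdisc h hinv
    rw [← hY] at htr h
    have hd : A.trace ^ 2 - 4 * A.det ≠ 0 := sub_ne_zero.mpr hdisc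
    rw [Matrix.trace_fin_two] at htr
    have hd' := hd
    rw [Matrix.trace_fin_two, Matrix.det_fin_two] at hd'
    have hY11 : Y 1 1 = - Y 0 0 := by linear_combination htr
    simp only [Matrix.trace_fin_two, Matrix.mul_apply, Fin.sum_univ_two] at h
    refine ⟨(A.trace ^ 2 - 4 * A.det)⁻¹ • (Y * ((2 * A.det) • 1 - A.trace • A)), ?_, ?_⟩
    · rw [Matrix.trace_smul]
      have : (Y * ((2 * A.det) • 1 - A.trace • A)).trace = 0 := by
        simp only [Matrix.trace_fin_two, Matrix.mul_apply, Fin.sum_univ_two, Matrix.sub_apply,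
          Matrix.smul_apply, smul_eq_mul, Matrix.one_apply, Matrix.det_fin_two, hY11] at h ⊢
        simp
        linear_combination (-(A 0 0) - A 1 1) * h
      rw [this, smul_zero]
    · -- `A * X - X * A = Y * A`
      set X := (A.trace ^ 2 - 4 * A.det)⁻¹ • (Y * ((2 * A.det) • 1 - A.trace • A)) with hX
      have key : A * X = (Y + X) * A := by
        rw [hX, mul_smul_comm]
        have hAY : A * Y = A.trace • Y - Y * A := by
          ext i j
          fin_cases i <;> fin_cases j <;>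
          simp only [Matrix.trace_fin_two, Matrix.mul_apply, Fin.sum_univ_two, Matrix.sub_apply,
            Matrix.smul_apply, smul_eq_mul, hY11, Fin.mk_one, Fin.zero_eta] at h ⊢
          · linear_combination h
          · ring
          · ring
          · linear_combination h
        have : A * (Y * ((2 * A.det) • 1 - A.trace • A)) =
            (A.trace ^ 2 - 4 * A.det) • (Y * A) + (Y * ((2 * A.det) • 1 - A.trace • A)) * A := by
          rw [← mul_assoc, hAY]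
          simp only [sub_mul, mul_sub, smul_mul_assoc, mul_smul_comm, mul_one, mul_assoc, cayley A]
          module
        rw [this, smul_add, smul_smul, inv_mul_cancel₀ hd, one_smul, add_mul, smul_mul_assoc]
      rw [tw, ← hA, ← hY, hdet, one_smul, key, add_mul, add_mul, mul_assoc, mul_assoc, hinv,
        mul_one, mul_one, add_sub_cancel_right]

end TwistedCocycle

section Primes

local notation "Γℚ" => (AlgebraicClosure ℚ ≃ₐ[ℚ] AlgebraicClosure ℚ)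

variable {k : Type*} [Field k] (r : Γℚ →* Matrix (Fin 2) (Fin 2) k)

/-- A function on `G_ℚ` is right-invariant under an open subgroup. -/
def LocConst {X : Type*} (f : Γℚ → X) : Prop :=
  ∃ L : IntermediateField ℚ (AlgebraicClosure ℚ), FiniteDimensional ℚ L ∧
    ∀ g s : Γℚ, (∀ x ∈ L, s x = x) → f (g * s) = f g

/-- One prime. -/
theorem exists_one_prime (hk : (2 : k) ≠ 0) {p : ℕ} [Fact p.Prime] (n : ℕ)
    (hr : LocConst (fun g => r g))
    (S : Finset ℕ) {ψ : Γℚ → Matrix (Fin 2) (Fin 2) k} (hψ : TwCocycle r ψ) (hc : LocConst ψ)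
    {σ : Γℚ} (h1 : Cyclotomic.cyc (p ^ (n + 1)) σ = 1) (h2 : (r σ).trace ^ 2 ≠ 4 * (r σ).det)
    (h3 : ¬ CobAt r ψ σ) :
    ∃ ℓ : ℕ, ℓ.Prime ∧ ℓ ∉ S ∧ ∃ (A : ValuationSubring (AlgebraicClosure ℚ)) (τ : Γℚ),
      A.LiesOverPrime ℓ ∧ A.IsFrobeniusAt τ ℓ ∧ Cyclotomic.cyc (p ^ (n + 1)) τ = 1 ∧
      (r τ).trace ^ 2 ≠ 4 * (r τ).det ∧ ¬ CobAt r ψ τ := by
  obtain ⟨L₁, hL₁, hr⟩ := hr
  obtain ⟨L₂, hL₂, hc⟩ := hc
  obtain ⟨L₃, hL₃, h4⟩ := Cyclotomic.cyc_finite_level (p ^ (n + 1))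
  obtain ⟨ℓ, hℓ, hℓS, A, τ, hA, hτ, ⟨i, hi⟩, ⟨j, hj⟩⟩ :=
    FrobDensity.frobenius_density (L₁ ⊔ L₂ ⊔ L₃) S σ
  have key : ∀ {a b : Γℚ}, (∀ x ∈ L₁ ⊔ L₂ ⊔ L₃, a x = b x) → r a = r b ∧ ψ a = ψ b ∧
      Cyclotomic.cyc (p ^ (n + 1)) a = Cyclotomic.cyc (p ^ (n + 1)) b := by
    intro a b hab
    have h5 : a = b * (b⁻¹ * a) := by group
    have h6 : ∀ x ∈ L₁ ⊔ L₂ ⊔ L₃, (b⁻¹ * a) x = x := by
      intro x hx
      change b⁻¹ (a x) = x
      rw [hab x hx]
      exact b.symm_apply_apply x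
    refine ⟨?_, ?_, ?_⟩
    · rw [h5]; exact hr _ _ fun x hx => h6 x ((le_sup_left.trans le_sup_left : L₁ ≤ _) hx)
    · rw [h5, hc _ _ fun x hx => h6 x ((le_sup_right.trans le_sup_left : L₂ ≤ _) hx)]
    · rw [h5, map_mul, h4 _ fun x hx => h6 x ((le_sup_right : L₃ ≤ _) hx), mul_one]
  obtain ⟨hi1, hi2, hi3⟩ := key hi
  obtain ⟨hj1, hj2, hj3⟩ := key hj
  refine ⟨ℓ, hℓ, hℓS, A, τ, hA, hτ, ?_, ?_, ?_⟩
  · rw [hj3, map_pow, h1, one_pow]
  · -- if `τ` had a double eigenvalue, so would `σ = τ ^ i`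
    intro h
    apply h2
    rw [hi1, map_pow]
    exact pow_disc hk h i
  · intro h
    apply h3
    obtain ⟨X, hX, h5⟩ := hψ.cobAt_pow h i
    refine ⟨X, hX, ?_⟩
    rw [hi2, h5, tw_congr hi1]

theorem exists_primes_aux (hk : (2 : k) ≠ 0) {p : ℕ} [Fact p.Prime] (n : ℕ)
    (hr : LocConst (fun g => r g))
    (hdet : ∀ σ : Γℚ, Cyclotomic.cyc (p ^ (n + 1)) σ = 1 → (r σ).det = 1) (d : ℕ) :
    ∀ (Z : Submodule k (Γℚ → Matrix (Fin 2) (Fin 2) k)), Module.Finite k Z → finrank k Z = d →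
      (∀ ψ ∈ Z, TwCocycle r ψ) → (∀ ψ ∈ Z, LocConst ψ) →
      (∀ ψ ∈ Z, ψ ≠ 0 → ∃ σ : Γℚ, Cyclotomic.cyc (p ^ (n + 1)) σ = 1 ∧
        (r σ).trace ^ 2 ≠ 4 * (r σ).det ∧ ¬ CobAt r ψ σ) →
      ∀ S : Finset ℕ, ∃ (qv : Fin d → ℕ) (A : Fin d → ValuationSubring (AlgebraicClosure ℚ))
        (τ : Fin d → Γℚ), Function.Injective qv ∧ (∀ i, (qv i).Prime ∧ qv i ∉ S ∧
          (A i).LiesOverPrime (qv i) ∧ (A i).IsFrobeniusAt (τ i) (qv i) ∧
          Cyclotomic.cyc (p ^ (n + 1)) (τ i) = 1 ∧ (r (τ i)).trace ^ 2 ≠ 4 * (r (τ i)).det) ∧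
        ∀ ψ ∈ Z, (∀ i, CobAt r ψ (τ i)) → ψ = 0 := by
  induction d with
  | zero =>
    intro Z hfin hZ _ _ _ S
    refine ⟨Fin.elim0, Fin.elim0, Fin.elim0, fun i => i.elim0, fun i => i.elim0, ?_⟩
    intro ψ hψ _
    rw [Submodule.finrank_eq_zero.mp hZ] at hψ
    exact (Submodule.mem_bot k).mp hψ
  | succ d ih =>
    intro Z hfin hZ hcoc hlc hex S
    obtain ⟨ψ₀, hψ₀, hne⟩ : ∃ ψ ∈ Z, ψ ≠ 0 := by
      by_contra! h
      have : Z = ⊥ := (Submodule.eq_bot_iff Z).mpr h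
      rw [this, finrank_bot] at hZ
      omega
    obtain ⟨σ, h1, h2, h3⟩ := hex ψ₀ hψ₀ hne
    obtain ⟨ℓ, hℓ, hℓS, A₀, τ₀, hA₀, hτ₀, hcyc, hdisc, hcob⟩ :=
      exists_one_prime r hk n hr S (hcoc ψ₀ hψ₀) (hlc ψ₀ hψ₀) h1 h2 h3
    let f : (Γℚ → Matrix (Fin 2) (Fin 2) k) →ₗ[k] k :=
      (Matrix.traceLinearMap (Fin 2) k k) ∘ₗ (LinearMap.mulLeft k (r τ₀)) ∘ₗ (LinearMap.proj τ₀)
    have hf : ∀ ψ, f ψ = (r τ₀ * ψ τ₀).trace := fun ψ => rfl
    have hfcob : ∀ ψ ∈ Z, (CobAt r ψ τ₀ ↔ f ψ = 0) := fun ψ hψ => by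
      rw [hf]; exact cobAt_iff ((hcoc ψ hψ).trace_eq τ₀) (hdet τ₀ hcyc) hdisc
    let Z' : Submodule k (Γℚ → Matrix (Fin 2) (Fin 2) k) := Z ⊓ LinearMap.ker f
    have hZ'le : Z' ≤ Z := inf_le_left
    have hfin' : Module.Finite k Z' := Submodule.finiteDimensional_of_le hZ'le
    have hZ' : finrank k Z' = d := by
      have e1 := LinearMap.finrank_range_add_finrank_ker (f.domRestrict Z)
      have e2 : LinearMap.range (f.domRestrict Z) = ⊤ := by
        rw [LinearMap.range_eq_top]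
        refine LinearMap.surjective ?_
        intro h0
        apply hcob
        rw [hfcob ψ₀ hψ₀]
        exact LinearMap.congr_fun h0 ⟨ψ₀, hψ₀⟩
      have e3 : finrank k (LinearMap.ker (f.domRestrict Z)) = finrank k Z' := by
        have : Z' = (LinearMap.ker (f.domRestrict Z)).map Z.subtype := by
          rw [LinearMap.domRestrict, LinearMap.ker_comp, Submodule.map_comap_subtype]
        rw [this]
        exact (Submodule.finrank_map_subtype_eq _ _).symm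
      rw [e2, finrank_top, finrank_self, hZ, e3] at e1
      omega
    obtain ⟨qv, A, τ, hinj, hprop, hker⟩ := ih Z' hfin' hZ' (fun ψ hψ => hcoc ψ (hZ'le hψ))
      (fun ψ hψ => hlc ψ (hZ'le hψ)) (fun ψ hψ => hex ψ (hZ'le hψ)) (insert ℓ S)
    refine ⟨Fin.cons ℓ qv, Fin.cons A₀ A, Fin.cons τ₀ τ, ?_, ?_, ?_⟩
    · rw [Fin.cons_injective_iff]
      refine ⟨?_, hinj⟩
      rintro ⟨i, hi⟩
      exact (hprop i).2.1 (by rw [hi]; exact Finset.mem_insert_self _ _)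
    · intro i
      refine Fin.cases ?_ (fun i => ?_) i
      · exact ⟨hℓ, hℓS, hA₀, hτ₀, hcyc, hdisc⟩
      · obtain ⟨g1, g2, g3, g4, g5, g6⟩ := hprop i
        exact ⟨g1, fun h => g2 (Finset.mem_insert_of_mem h), g3, g4, g5, g6⟩
    · intro ψ hψ hall
      have h0 := hall 0
      rw [Fin.cons_zero] at h0
      refine hker ψ ⟨hψ, (hfcob ψ hψ).mp h0⟩ fun i => ?_
      have := hall i.succ
      rwa [Fin.cons_succ] at this

/-- **Choice of Taylor--Wiles primes.** -/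
theorem exists_primes (hk : (2 : k) ≠ 0) {p : ℕ} [Fact p.Prime] (n : ℕ)
    (hr : LocConst (fun g => r g))
    (hdet : ∀ σ : Γℚ, Cyclotomic.cyc (p ^ (n + 1)) σ = 1 → (r σ).det = 1)
    (S : Finset ℕ) (hpS : p ∈ S)
    (hunr : ∀ q : ℕ, q.Prime → q ∉ S → ∀ P : ValuationSubring (AlgebraicClosure ℚ),
      P.LiesOverPrime q → ∀ σ ∈ P.inertiaSubgroupIn ℚ, r σ = 1)
    (Z : Submodule k (Γℚ → Matrix (Fin 2) (Fin 2) k)) [Module.Finite k Z]
    (hcoc : ∀ ψ ∈ Z, TwCocycle r ψ) (hlc : ∀ ψ ∈ Z, LocConst ψ)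
    (hex : ∀ ψ ∈ Z, ψ ≠ 0 → ∃ σ : Γℚ, Cyclotomic.cyc (p ^ (n + 1)) σ = 1 ∧
        (r σ).trace ^ 2 ≠ 4 * (r σ).det ∧ ¬ CobAt r ψ σ) :
    ∃ qv : Fin (finrank k Z) → ℕ, Function.Injective qv ∧
      (∀ i, (qv i).Prime ∧ qv i ∉ S ∧ p ^ (n + 1) ∣ qv i - 1) ∧
      (∀ i, ∀ P : ValuationSubring (AlgebraicClosure ℚ), P.LiesOverPrime (qv i) →
        ∀ φ : Γℚ, P.IsFrobeniusAt φ (qv i) → (r φ).trace ^ 2 ≠ 4 * (r φ).det) ∧
      (∀ ψ ∈ Z, (∀ i, ∃ P : ValuationSubring (AlgebraicClosure ℚ), P.LiesOverPrime (qv i) ∧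
        ∃ X : Matrix (Fin 2) (Fin 2) k, X.trace = 0 ∧ ∀ φ ∈ P.decompositionSubgroup ℚ,
          ψ φ = tw r φ X - X) → ψ = 0) := by
  obtain ⟨qv, A, τ, hinj, hprop, hker⟩ := exists_primes_aux r hk n hr hdet (finrank k Z) Z
    inferInstance rfl hcoc hlc hex S
  refine ⟨qv, hinj, ?_, ?_, ?_⟩
  · intro i
    obtain ⟨g1, g2, g3, g4, g5, g6⟩ := hprop i
    refine ⟨g1, g2, ?_⟩
    have hne : ¬ qv i ∣ p ^ (n + 1) := by
      intro h
      have := (Nat.prime_dvd_prime_iff_eq g1 Fact.out).mp (g1.dvd_of_dvd_pow h)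
      exact g2 (this ▸ hpS)
    have h1 := Cyclotomic.cyc_frobenius (n := p ^ (n + 1)) g1 hne (A i) g3 g4
    rw [g5, Units.val_one] at h1
    have h2 : ((qv i - 1 : ℕ) : ZMod (p ^ (n + 1))) = 0 := by
      rw [Nat.cast_sub g1.one_le, ← h1, Nat.cast_one, sub_self]
    exact (ZMod.natCast_eq_zero_iff _ _).mp h2
  · intro i P hP φ hφ
    obtain ⟨g1, g2, g3, g4, g5, g6⟩ := hprop i
    obtain ⟨g, j, hj, rfl⟩ := Place.exists_conj_mul_inertia g1 g3 hP g4 hφ
    rw [map_mul, hunr _ g1 g2 P hP j hj, mul_one, map_mul, map_mul, Matrix.det_mul, Matrix.det_mul,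
      Matrix.trace_mul_comm, ← mul_assoc, r_inv_mul, one_mul]
    have h1 : (r g).det * (r g⁻¹).det = 1 := by
      rw [← Matrix.det_mul, r_mul_inv, Matrix.det_one]
    rw [show (r g).det * (r (τ i)).det * (r g⁻¹).det = (r (τ i)).det by
      linear_combination (r (τ i)).det * h1]
    exact g6
  · intro ψ hψ hall
    refine hker ψ hψ fun i => ?_
    obtain ⟨g1, g2, g3, g4, g5, g6⟩ := hprop i
    obtain ⟨P, hP, X, hX, hXX⟩ := hall i
    obtain ⟨g, hg⟩ := FrobExists.exists_smul_eq P (A i) g1 hP g3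
    have h1 : g⁻¹ * τ i * g ∈ P.decompositionSubgroup ℚ := by
      have := Place.decomposition_conj (K := ℚ) (A := A i) g⁻¹ g4.mem_decompositionSubgroup
      rw [hg, inv_smul_smul, inv_inv] at this
      exact this
    have h2 : CobAt r ψ (g⁻¹ * τ i * g) := ⟨X, hX, hXX _ h1⟩
    have h3 := (hcoc ψ hψ).cobAt_conj h2 g
    rwa [show g * (g⁻¹ * τ i * g) * g⁻¹ = τ i by group] at h3

end Primes

end Fermat.Agent.TWP
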