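import Mathlib
import Fermat.Agent.TWP.PrimeChoice

/-!
# Existence of good elements for the choice of Taylor--Wiles primes

From the vanishing of `H¹(ρ(Γ), ad⁰ ⊗ det)`, every cocycle which is not a coboundary is non-trivial
at some regular element in the kernel of a given character with cyclic target.
-/

set_option autoImplicit false

open Module Matrix

namespace Fermat.Agent.TWP

variable {G : Type*} [Group G] {k : Type*} [Field k] (r : G →* Matrix (Fin 2) (Fin 2) k)

/-- The space of coboundaries with values in the trace zero part of `ad ⊗ det`. -/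
def twCobound : Submodule k (G → Matrix (Fin 2) (Fin 2) k) where
  carrier := {ψ | ∃ X : Matrix (Fin 2) (Fin 2) k, X.trace = 0 ∧ ∀ g, ψ g = tw r g X - X}
  zero_mem' := ⟨0, by simp, fun g => by simp [tw]⟩
  add_mem' := by
    rintro a b ⟨X, hX, hX'⟩ ⟨Y, hY, hY'⟩
    refine ⟨X + Y, by rw [Matrix.trace_add, hX, hY, add_zero], fun g => ?_⟩
    rw [Pi.add_apply, hX', hY', tw_add]
    abel
  smul_mem' := by
    rintro c a ⟨X, hX, hX'⟩
    refine ⟨c • X, by rw [Matrix.trace_smul, hX, smul_zero], fun g => ?_⟩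
    rw [Pi.smul_apply, hX', tw_smul, smul_sub]

variable {r}

lemma mem_twCobound {ψ : G → Matrix (Fin 2) (Fin 2) k} : ψ ∈ twCobound r ↔
    ∃ X : Matrix (Fin 2) (Fin 2) k, X.trace = 0 ∧ ∀ g, ψ g = tw r g X - X := Iff.rfl

lemma TwCocycle.of_mem_twCobound {ψ : G → Matrix (Fin 2) (Fin 2) k} (h : ψ ∈ twCobound r) :
    TwCocycle r ψ := by
  obtain ⟨X, hX, hX'⟩ := h
  refine ⟨fun g => ?_, fun g h => ?_⟩
  · rw [hX', Matrix.trace_sub, trace_tw, hX, mul_zero, sub_zero]
  · rw [hX', hX', hX', tw_sub, tw_mul]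
    abel

lemma det_ne_zero' (g : G) : (r g).det ≠ 0 := by
  have : (r g).det * (r g⁻¹).det = 1 := by
    rw [← Matrix.det_mul, r_mul_inv, Matrix.det_one]
  exact left_ne_zero_of_mul_eq_one this

/-- No invariants in `ad⁰ ⊗ det`. -/
lemma AdjHyp.eq_zero_of_invariant (h : AdjHyp r) {X : Matrix (Fin 2) (Fin 2) k}
    (htr : X.trace = 0) (hX : ∀ g, tw r g X = X) : X = 0 := by
  by_contra hne
  refine h.no_line hne htr fun g => ⟨(r g).det⁻¹, ?_⟩
  have h1 : r g * X = (r g).det⁻¹ • (tw r g X * r g) := by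
    rw [tw, smul_mul_assoc, smul_smul, inv_mul_cancel₀ (det_ne_zero' g), one_smul, mul_assoc,
      r_inv_mul, mul_one]
  rw [h1, hX]

/-- The dimension of the space of coboundaries. -/
theorem AdjHyp.finrank_twCobound (h : AdjHyp r) : finrank k (twCobound r) = 3 := by
  let sl : Submodule k (Matrix (Fin 2) (Fin 2) k) := LinearMap.ker (Matrix.traceLinearMap (Fin 2) k k)
  have hmem : ∀ X, X ∈ sl ↔ X.trace = 0 := fun X => by
    rw [LinearMap.mem_ker, Matrix.traceLinearMap_apply]
  have hsl : finrank k sl = 3 := by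
    have h1 := LinearMap.finrank_range_add_finrank_ker (Matrix.traceLinearMap (Fin 2) k k)
    have h2 : LinearMap.range (Matrix.traceLinearMap (Fin 2) k k) = ⊤ := by
      rw [LinearMap.range_eq_top]
      intro c
      exact ⟨Matrix.of ![![c, 0], ![0, 0]], by simp [Matrix.trace_fin_two]⟩
    rw [h2, finrank_top, finrank_self, Module.finrank_matrix] at h1
    simp only [Fintype.card_fin, finrank_self] at h1
    change finrank k (LinearMap.ker (Matrix.traceLinearMap (Fin 2) k k)) = 3
    omega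
  let f : sl →ₗ[k] (G → Matrix (Fin 2) (Fin 2) k) :=
    { toFun := fun X g => tw r g X - X
      map_add' := fun X Y => by
        funext g
        simp only [Submodule.coe_add, tw_add, Pi.add_apply]
        abel
      map_smul' := fun c X => by
        funext g
        simp only [Submodule.coe_smul, tw_smul, Pi.smul_apply, RingHom.id_apply, smul_sub] }
  have hf : LinearMap.range f = twCobound r := by
    ext ψ
    constructor
    · rintro ⟨X, rfl⟩
      exact ⟨X, (hmem _).mp X.2, fun g => rfl⟩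
    · rintro ⟨X, hX, hX'⟩
      exact ⟨⟨X, (hmem _).mpr hX⟩, funext fun g => (hX' g).symm⟩
  have hinj : Function.Injective f := by
    rw [← LinearMap.ker_eq_bot, LinearMap.ker_eq_bot']
    intro X hX
    apply Subtype.ext
    refine h.eq_zero_of_invariant ((hmem _).mp X.2) fun g => ?_
    have := congrFun hX g
    exact sub_eq_zero.mp this
  rw [← hf, LinearMap.finrank_range_of_inj hinj, hsl]

/-- **Existence of a good element.** -/
theorem AdjHyp.exists_element (h : AdjHyp r) {C : Type*} [CommGroup C] [IsCyclic C] (χ : G →* C)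
    (hχ : ∀ g, χ g = 1 → (r g).det = 1)
    (hH1 : ∀ ψ : G → Matrix (Fin 2) (Fin 2) k, TwCocycle r ψ → (∀ g, r g = 1 → ψ g = 0) →
      ψ ∈ twCobound r)
    {ψ : G → Matrix (Fin 2) (Fin 2) k} (hψ : TwCocycle r ψ) (hnc : ψ ∉ twCobound r) :
    ∃ σ, χ σ = 1 ∧ (r σ).trace ^ 2 ≠ 4 * (r σ).det ∧ ¬ CobAt r ψ σ := by
  -- the conjugation formula on the kernel of `r`
  have htw : ∀ g, r g = 1 → ∀ X, tw r g X = X := by
    intro g hg X
    have h1 : r g⁻¹ = 1 := by
      have := r_mul_inv r g
      rwa [hg, one_mul] at this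
    rw [tw, hg, h1, Matrix.det_one, one_smul, one_mul, mul_one]
  have hconj : ∀ g x, r g = 1 → ψ (x * g * x⁻¹) = tw r x (ψ g) := by
    intro g x hg
    have h1 : tw r (x * g) (tw r x⁻¹ (ψ x)) = ψ x := by
      rw [← tw_mul]
      have h2 : r (x * g * x⁻¹) = 1 := by
        rw [map_mul, map_mul, hg, mul_one, r_mul_inv]
      exact htw _ h2 _
    rw [hψ.map_mul, hψ.map_mul, hψ.map_inv, tw_neg, h1]
    abel
  -- `ψ` is nonzero on `ker r ⊓ ker χ`
  have hne : ∃ g, r g = 1 ∧ χ g = 1 ∧ ψ g ≠ 0 := by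
    by_contra! hcon
    refine hnc (hH1 ψ hψ fun g hg => ?_)
    refine h.eq_zero_of_invariant (hψ.trace_eq g) fun x => ?_
    rw [← hconj g x hg]
    have h1 : x * g * x⁻¹ = (x * g * x⁻¹ * g⁻¹) * g := by group
    have hginv : r g⁻¹ = 1 := by
      have := r_mul_inv r g
      rwa [hg, one_mul] at this
    have h2 : r (x * g * x⁻¹ * g⁻¹) = 1 := by
      rw [map_mul, map_mul, map_mul, hg, mul_one, r_mul_inv, hginv, one_mul]
    have h3 : χ (x * g * x⁻¹ * g⁻¹) = 1 := by
      rw [map_mul, map_mul, map_mul, map_inv, map_inv, mul_comm (χ x), mul_inv_cancel_right,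
        mul_inv_cancel]
    rw [h1, hψ.map_mul, hcon _ h2 h3, htw _ h2, zero_add]
  -- the span of its values is everything
  let W : Submodule k (Matrix (Fin 2) (Fin 2) k) :=
    Submodule.span k {Y | ∃ g, r g = 1 ∧ χ g = 1 ∧ ψ g = Y}
  have hW0 : ∀ X ∈ W, X.trace = 0 := by
    intro X hX
    induction hX using Submodule.span_induction with
    | mem X hX =>
      obtain ⟨g, -, -, rfl⟩ := hX
      exact hψ.trace_eq g
    | zero => simp
    | add X Y _ _ hX hY => rw [Matrix.trace_add, hX, hY, add_zero]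
    | smul c X _ hX => rw [Matrix.trace_smul, hX, smul_zero]
  have hWs : ∀ g, ∀ X ∈ W, r g * X * r g⁻¹ ∈ W := by
    intro x X hX
    induction hX using Submodule.span_induction with
    | mem X hX =>
      obtain ⟨g, hg, hg', rfl⟩ := hX
      have h1 : r x * ψ g * r x⁻¹ = (r x).det⁻¹ • ψ (x * g * x⁻¹) := by
        rw [hconj g x hg, tw, smul_smul, inv_mul_cancel₀ (det_ne_zero' x), one_smul]
      rw [h1]
      refine Submodule.smul_mem _ _ (Submodule.subset_span ⟨_, ?_, ?_, rfl⟩)
      · rw [map_mul, map_mul, hg, mul_one, r_mul_inv]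
      · rw [map_mul, map_mul, hg', mul_one, ← map_mul, mul_inv_cancel, map_one]
    | zero => simp
    | add X Y _ _ hX hY => rw [mul_add, add_mul]; exact Submodule.add_mem _ hX hY
    | smul c X _ hX =>
      rw [mul_smul_comm, smul_mul_assoc]; exact Submodule.smul_mem _ _ hX
  have hWne : W ≠ ⊥ := by
    obtain ⟨g, hg, hg', hg''⟩ := hne
    intro h0
    have : ψ g ∈ W := Submodule.subset_span ⟨g, hg, hg', rfl⟩
    rw [h0, Submodule.mem_bot] at this
    exact hg'' this
  have hW := h.adjoint_irreducible W hW0 hWs hWne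
  -- a regular element
  haveI : IsCyclic (G ⧸ χ.ker) := by
    have : IsCyclic χ.range := inferInstance
    exact isCyclic_of_surjective (QuotientGroup.quotientKerEquivRange χ).symm.toMonoidHom
      (QuotientGroup.quotientKerEquivRange χ).symm.surjective
  obtain ⟨σ₀, hσ₀, hdisc⟩ := h.exists_disc_ne χ.ker
  rw [MonoidHom.mem_ker] at hσ₀
  by_cases hc : CobAt r ψ σ₀
  swap
  · exact ⟨σ₀, hσ₀, hdisc, hc⟩
  have hdet := hχ _ hσ₀
  rw [cobAt_iff (hψ.trace_eq _) hdet hdisc] at hc
  -- find `τ`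
  have hτ : ∃ τ, r τ = 1 ∧ χ τ = 1 ∧ (r σ₀ * ψ τ).trace ≠ 0 := by
    by_contra! hcon
    have h1 : ∀ X ∈ W, (r σ₀ * X).trace = 0 := by
      intro X hX
      induction hX using Submodule.span_induction with
      | mem X hX =>
        obtain ⟨g, hg, hg', rfl⟩ := hX
        exact hcon g hg hg'
      | zero => simp
      | add X Y _ _ hX hY => rw [mul_add, Matrix.trace_add, hX, hY, add_zero]
      | smul c X _ hX => rw [mul_smul_comm, Matrix.trace_smul, hX, smul_zero]
    have e1 := h1 _ (hW !![0, 1; 0, 0] (by simp [Matrix.trace_fin_two]))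
    have e2 := h1 _ (hW !![0, 0; 1, 0] (by simp [Matrix.trace_fin_two]))
    have e3 := h1 _ (hW !![1, 0; 0, -1] (by simp [Matrix.trace_fin_two]))
    simp only [Matrix.trace_fin_two, Matrix.mul_apply, Fin.sum_univ_two, Matrix.of_apply,
      Matrix.cons_val_zero, Matrix.cons_val_one, Matrix.cons_val', Matrix.cons_val_fin_one,
      mul_zero, mul_one, zero_add, add_zero, mul_neg] at e1 e2 e3
    apply hdisc
    rw [Matrix.trace_fin_two, Matrix.det_fin_two, e1, e2]
    linear_combination (r σ₀ 0 0 - r σ₀ 1 1) * e3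
  obtain ⟨τ, hτ1, hτ2, hτ3⟩ := hτ
  have hr : r (τ * σ₀) = r σ₀ := by rw [map_mul, hτ1, one_mul]
  refine ⟨τ * σ₀, by rw [map_mul, hτ2, hσ₀, one_mul], by rw [hr]; exact hdisc, ?_⟩
  rw [cobAt_iff (hψ.trace_eq _) (by rw [hr]; exact hdet) (by rw [hr]; exact hdisc), hr,
    hψ.map_mul, htw _ hτ1, mul_add, Matrix.trace_add, hc, add_zero]
  exact hτ3

end Fermat.Agent.TWP
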