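import Fermat.Agent.TWP.AdCoh
import Fermat.Agent.TWP.PrimeChoice

/-!
# Existence of a good element for a non-trivial class in `H¹(G, ad⁰ ⊗ det)`

Combines the vanishing of `H¹(r(G), ad⁰ ⊗ det)`, the irreducibility of `ad⁰` and the existence of
regular elements.
-/

set_option autoImplicit false

open Module Matrix

namespace Fermat.Agent.TWP

section

variable {G : Type*} [Group G] {k : Type*} [Field k] {r : G →* Matrix (Fin 2) (Fin 2) k}

lemma tw_eq_act (g : G) (X : Matrix (Fin 2) (Fin 2) k) : tw r g X = AdCoh.act (r g) X :=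
  (AdCoh.act_eq_smul (r.toHomUnits g) X).symm

lemma tw_of_eq_one {g : G} (hg : r g = 1) (X : Matrix (Fin 2) (Fin 2) k) : tw r g X = X := by
  rw [tw_eq_act, hg, AdCoh.act_one]

lemma TwCocycle.conj_of_eq_one {ψ : G → Matrix (Fin 2) (Fin 2) k} (h : TwCocycle r ψ) {t : G}
    (ht : r t = 1) (g : G) : ψ (g * t * g⁻¹) = tw r g (ψ t) := by
  have h1 : r (g * t) = r g := by rw [_root_.map_mul, ht, mul_one]
  have h2 : ψ g + tw r g (ψ g⁻¹) = 0 := by
    have := h.map_mul g g⁻¹
    rwa [mul_inv_cancel, h.map_one, eq_comm] at this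
  rw [h.map_mul, h.map_mul, tw_congr h1, add_right_comm, h2, zero_add]

/-- **Existence of a good element.** -/
theorem exists_TW_element [Finite k] {p : ℕ} [Fact p.Prime] [CharP k p] (hp2 : p ≠ 2)
    (h : AdjHyp r) (N : Subgroup G) [N.Normal] [IsCyclic (G ⧸ N)] (hN : ∀ g ∈ N, (r g).det = 1)
    (hdet1 : ∃ g, (r g).det ≠ 1) (hdet5 : p = 5 → ∃ g, (r g).det ≠ 1 ∧ (r g).det ≠ -1)
    {ψ : G → Matrix (Fin 2) (Fin 2) k} (hψ : TwCocycle r ψ)
    (hnc : ¬ ∃ X : Matrix (Fin 2) (Fin 2) k, X.trace = 0 ∧ ∀ g, ψ g = tw r g X - X) :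
    ∃ s ∈ N, (r s).trace ^ 2 ≠ 4 * (r s).det ∧ ¬ CobAt r ψ s := by
  obtain ⟨s, hs, hdisc⟩ := h.exists_disc_ne N
  by_contra! hcon
  have hdet0 : ∀ g, (r g).det ≠ 0 := fun g => by
    have : (r g).det * (r g⁻¹).det = 1 := by
      rw [← Matrix.det_mul, r_mul_inv, Matrix.det_one]
    exact left_ne_zero_of_mul_eq_one this
  -- `ψ` does not vanish on `N ⊓ ker r`
  have hK : ∃ t ∈ N, r t = 1 ∧ ψ t ≠ 0 := by
    by_contra! hv
    apply hnc
    have key : ∀ t, r t = 1 → ψ t = 0 := by
      intro t ht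
      by_contra hne
      refine h.no_line hne (hψ.trace_eq t) (fun g => ⟨(r g).det⁻¹, ?_⟩)
      have h1 : tw r g (ψ t) = ψ t := by
        have hcomm : g * t * g⁻¹ * t⁻¹ ∈ N := by
          have hc : ∀ a b : G ⧸ N, a * b = b * a := by
            intro a b
            let _ := IsCyclic.commGroup (α := G ⧸ N)
            exact mul_comm a b
          rw [← QuotientGroup.eq_one_iff, QuotientGroup.mk_mul, QuotientGroup.mk_mul,
            QuotientGroup.mk_mul, hc (g : G ⧸ N) t, mul_assoc (t : G ⧸ N), QuotientGroup.mk_inv,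
            mul_inv_cancel, mul_one, QuotientGroup.mk_inv, mul_inv_cancel]
        have hr : r (g * t * g⁻¹ * t⁻¹) = 1 := by
          have ht' : r t⁻¹ = 1 := by
            have := r_mul_inv r t
            rwa [ht, one_mul] at this
          rw [map_mul, map_mul, map_mul, ht, ht', mul_one, mul_one, r_mul_inv]
        have h2 := hψ.map_mul (g * t * g⁻¹ * t⁻¹) t
        rw [inv_mul_cancel_right, hψ.conj_of_eq_one ht, hv _ hcomm hr, zero_add,
          tw_of_eq_one hr] at h2
        exact h2
      calc r g * ψ t = (r g).det⁻¹ • (tw r g (ψ t)) * r g := by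
            rw [tw, smul_smul, inv_mul_cancel₀ (hdet0 g), one_smul, mul_assoc, r_inv_mul, mul_one]
        _ = (r g).det⁻¹ • (ψ t * r g) := by rw [h1, smul_mul_assoc]
    obtain ⟨X, hX, hcob⟩ := AdCoh.exists_cob_of_ker hp2 r.toHomUnits (by
        intro v hv'
        have := h.irr v hv'
        push Not at this
        exact this) hdet1 hdet5 ψ hψ.trace_eq (by
        intro g g'
        rw [hψ.map_mul, tw_eq_act]
        rfl) (by
        intro g hg
        exact key g (congrArg Units.val hg))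
    refine ⟨X, hX, fun g => ?_⟩
    rw [hcob g, tw_eq_act]
    rfl
  obtain ⟨t₁, ht₁, hr₁, hne⟩ := hK
  -- the span of `ψ (N ⊓ ker r)` is everything
  let W : Submodule k (Matrix (Fin 2) (Fin 2) k) :=
    Submodule.span k {X | ∃ t ∈ N, r t = 1 ∧ ψ t = X}
  have hW : ∀ X : Matrix (Fin 2) (Fin 2) k, X.trace = 0 → X ∈ W := by
    refine h.adjoint_irreducible W ?_ ?_ ?_
    · intro X hX
      have hle : W ≤ LinearMap.ker (Matrix.traceLinearMap (Fin 2) k k) := by
        refine Submodule.span_le.mpr ?_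
        rintro _ ⟨t, _, _, rfl⟩
        exact hψ.trace_eq t
      exact hle hX
    · intro g X hX
      induction hX using Submodule.span_induction with
      | mem X hX =>
        obtain ⟨t, ht, hrt, rfl⟩ := hX
        have e1 : r g * ψ t * r g⁻¹ = (r g).det⁻¹ • ψ (g * t * g⁻¹) := by
          rw [hψ.conj_of_eq_one hrt, tw, smul_smul, inv_mul_cancel₀ (hdet0 g), one_smul]
        rw [e1]
        refine Submodule.smul_mem _ _ (Submodule.subset_span ⟨_, ?_, ?_, rfl⟩)
        · exact (inferInstance : N.Normal).conj_mem t ht g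
        · rw [map_mul, map_mul, hrt, mul_one, r_mul_inv]
      | zero => rw [mul_zero, zero_mul]; exact W.zero_mem
      | add X Y _ _ hX hY => rw [mul_add, add_mul]; exact W.add_mem hX hY
      | smul a X _ hX => rw [mul_smul_comm, smul_mul_assoc]; exact W.smul_mem a hX
    · intro h0
      apply hne
      have : ψ t₁ ∈ W := Submodule.subset_span ⟨t₁, ht₁, hr₁, rfl⟩
      rw [h0] at this
      exact (Submodule.mem_bot k).mp this
  have hvan : ∀ X : Matrix (Fin 2) (Fin 2) k, X.trace = 0 → (r s * X).trace = 0 := by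
    intro X hX'
    have hX := hW X hX'
    clear hX'
    induction hX using Submodule.span_induction with
    | mem X hX =>
      obtain ⟨t, ht, hrt, rfl⟩ := hX
      have e0 : r (t * s) = r s := by rw [map_mul, hrt, one_mul]
      have e1 := (cobAt_iff (hψ.trace_eq s) (hN s hs) hdisc).mp (hcon s hs hdisc)
      have hts : t * s ∈ N := N.mul_mem ht hs
      have e2 := (cobAt_iff (hψ.trace_eq (t * s)) (hN _ hts) (by rwa [e0])).mp
        (hcon _ hts (by rwa [e0]))
      rw [e0, hψ.map_mul, tw_of_eq_one hrt, mul_add, Matrix.trace_add, e1, add_zero] at e2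
      exact e2
    | zero => rw [mul_zero, Matrix.trace_zero]
    | add X Y _ _ hX hY => rw [mul_add, Matrix.trace_add, hX, hY, add_zero]
    | smul a X _ hX => rw [mul_smul_comm, Matrix.trace_smul, hX, smul_zero]
  apply hdisc
  have e1 := hvan !![0, 1; 0, 0] (by simp [Matrix.trace_fin_two])
  have e2 := hvan !![0, 0; 1, 0] (by simp [Matrix.trace_fin_two])
  have e3 := hvan !![1, 0; 0, -1] (by simp [Matrix.trace_fin_two])
  simp only [Matrix.trace_fin_two, Matrix.mul_apply, Fin.sum_univ_two, Matrix.of_apply,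
    Matrix.cons_val', Matrix.cons_val_zero, Matrix.cons_val_one, Matrix.cons_val_fin_one,
    mul_zero, mul_one, zero_add, add_zero, mul_neg] at e1 e2 e3
  rw [Matrix.trace_fin_two, Matrix.det_fin_two]
  linear_combination (r s 0 0 - r s 1 1) * e3 + 4 * r s 0 1 * e1

end

end Fermat.Agent.TWP
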