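import Mathlib
import Fermat.Prelude.Def_GaloisRep_LocalConditions
import Fermat.Agent.DefRing.Dictionary
import Fermat.Agent.TWP.ExistsElement
import Fermat.Agent.TWP.TWElement

/-!
# Taylor--Wiles primes for a residual representation

The final form of the choice of Taylor--Wiles primes: given a finite dimensional space `W` of
cocycles with values in `ad⁰ ⊗ det` which contains all coboundaries, there are `dim W - 3` primes
with the usual properties at which every element of `W` that is locally a coboundary is a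
coboundary.
-/

set_option autoImplicit false
set_option linter.style.haveILetI false

open Module Matrix Polynomial

namespace Fermat.Agent.TWP

open Fermat.Agent.UDef (GalQ IsModelR)

section Models

variable {k : Type} [Field k] {ρbar : ResidualGaloisRep k}
  {M : GalQ →* Matrix (Fin 2) (Fin 2) k}

lemma locConst_of_isModelR (hM : IsModelR ρbar M) : LocConst (fun g => M g) := by
  obtain ⟨b, hb⟩ := hM
  obtain ⟨L, hL, h⟩ := ρbar.factorsThroughFiniteLevel
  refine ⟨L, hL, fun g s hs => ?_⟩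
  change M (g * s) = M g
  rw [map_mul, ← hb s, h s hs, LinearMap.toMatrix_one, mul_one]

lemma unramified_of_isModelR (hM : IsModelR ρbar M) {q : ℕ} (h : ρbar.IsUnramifiedAt q)
    (P : ValuationSubring (AlgebraicClosure ℚ)) (hP : P.LiesOverPrime q) (σ : GalQ)
    (hσ : σ ∈ P.inertiaSubgroupIn ℚ) : M σ = 1 := by
  obtain ⟨b, hb⟩ := hM
  rw [← hb, h P hP σ hσ, LinearMap.toMatrix_one]

lemma det_of_isModelR (hM : IsModelR ρbar M) (σ : GalQ) :
    LinearMap.det (ρbar.ρ σ) = (M σ).det := by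
  obtain ⟨b, hb⟩ := hM
  rw [← hb, LinearMap.det_toMatrix]

lemma charpoly_of_isModelR (hM : IsModelR ρbar M) (σ : GalQ) :
    LinearMap.charpoly (ρbar.ρ σ) = (M σ).charpoly := by
  obtain ⟨b, hb⟩ := hM
  rw [← hb, LinearMap.charpoly_toMatrix]

/-- Distinct eigenvalues from the non-vanishing of the discriminant. -/
lemma exists_ne_of_disc {A : Matrix (Fin 2) (Fin 2) k} {α β : k}
    (h : A.charpoly = (X - C α) * (X - C β)) (hd : A.trace ^ 2 ≠ 4 * A.det) : α ≠ β := by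
  rintro rfl
  apply hd
  have h1 := Matrix.charpoly_fin_two A
  rw [h] at h1
  have h2 : (X - C α) * (X - C α) = X ^ 2 - C (2 * α) * X + C (α * α) := by
    rw [C_mul, C_mul, C_ofNat]; ring
  rw [h2] at h1
  have e0 := congrArg (fun P : k[X] => P.coeff 0) h1
  have e1 := congrArg (fun P : k[X] => P.coeff 1) h1
  simp [coeff_X] at e0 e1
  rw [← e0, ← e1]
  ring

variable {p : ℕ} [Fact p.Prime]

/-- The determinant is the mod `p` cyclotomic character. -/
lemma det_eq_cyc (hM : IsModelR ρbar M)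
    (hdet : (GaloisRepAdic.ofResidualGaloisRep ρbar).DetIsCyclotomic p) (σ : GalQ) (a : ℕ)
    (ha : (Cyclotomic.cyc p σ : ZMod p) = a) : (M σ).det = a := by
  have hp : (p : k) = 0 := by
    have := hdet.1
    rwa [IsLocalRing.maximalIdeal_eq_bot, Ideal.mem_bot] at this
  have h1 := hdet.2 1 σ a (fun μ hμ => by
    rw [pow_one] at hμ
    rw [Cyclotomic.cyc_spec p σ hμ, ha, Cyclotomic.pow_val_natCast p hμ])
  rw [pow_one, hp, Ideal.span_singleton_eq_bot.mpr rfl, Ideal.mem_bot, sub_eq_zero] at h1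
  rw [← h1, ← det_of_isModelR hM]
  rfl

lemma cyc_eq_one_of_pow {n : ℕ} {σ : GalQ} (h : Cyclotomic.cyc (p ^ (n + 1)) σ = 1) :
    Cyclotomic.cyc p σ = 1 := by
  obtain ⟨ζ, hζ⟩ := Cyclotomic.exists_primitiveRoot p
  refine Cyclotomic.cyc_eq_one_of_fixes p σ hζ ?_
  have h1 : ζ ^ (p ^ (n + 1)) = 1 := by rw [pow_succ', pow_mul, hζ.pow_eq_one, one_pow]
  rw [Cyclotomic.cyc_spec (p ^ (n + 1)) σ h1, h, Units.val_one]
  have h2 : Fact (1 < p ^ (n + 1)) := ⟨Nat.one_lt_pow (by omega) (Fact.out : p.Prime).one_lt⟩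
  rw [ZMod.val_one, pow_one]

lemma det_eq_one (hM : IsModelR ρbar M)
    (hdet : (GaloisRepAdic.ofResidualGaloisRep ρbar).DetIsCyclotomic p) {n : ℕ} {σ : GalQ}
    (h : Cyclotomic.cyc (p ^ (n + 1)) σ = 1) : (M σ).det = 1 := by
  rw [det_eq_cyc hM hdet σ 1, Nat.cast_one]
  rw [cyc_eq_one_of_pow h, Units.val_one, Nat.cast_one]

/-- The determinant takes all values prime to `p`. -/
lemma exists_det_eq (hM : IsModelR ρbar M)
    (hdet : (GaloisRepAdic.ofResidualGaloisRep ρbar).DetIsCyclotomic p) (a : ZMod p) (ha : a ≠ 0) :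
    ∃ σ, (M σ).det = (a.val : k) ∧ (Cyclotomic.cyc p σ : ZMod p) = a := by
  obtain ⟨ℓ, hℓp, hℓ, hℓa⟩ := Nat.forall_exists_prime_gt_and_eq_mod (IsUnit.mk0 a ha) p
  obtain ⟨A, hA⟩ := FrobExists.exists_liesOverPrime (AlgebraicClosure ℚ) hℓ
  obtain ⟨φ, hφ⟩ := FrobExists.exists_isFrobeniusAt A hℓ hA
  have h1 : (Cyclotomic.cyc p φ : ZMod p) = a := by
    rw [Cyclotomic.cyc_frobenius hℓ (fun h => ?_) A hA hφ, hℓa]
    have := (Nat.prime_dvd_prime_iff_eq hℓ (Fact.out : p.Prime)).mp h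
    omega
  refine ⟨φ, det_eq_cyc hM hdet φ _ ?_, h1⟩
  rw [h1, ZMod.natCast_zmod_val]

lemma det_pow_eq_one (hM : IsModelR ρbar M)
    (hdet : (GaloisRepAdic.ofResidualGaloisRep ρbar).DetIsCyclotomic p) (σ : GalQ) :
    (M σ).det ^ (p - 1) = 1 := by
  have hp : (p : k) = 0 := by
    have := hdet.1
    rwa [IsLocalRing.maximalIdeal_eq_bot, Ideal.mem_bot] at this
  haveI : CharP k p := (CharP.charP_iff_prime_eq_zero (Fact.out : p.Prime)).mpr hp
  have h0 : ((Cyclotomic.cyc p σ : ZMod p).val : ZMod p) = Cyclotomic.cyc p σ :=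
    ZMod.natCast_zmod_val _
  rw [det_eq_cyc hM hdet σ _ h0.symm]
  have h1 : (Cyclotomic.cyc p σ : ZMod p) ^ (p - 1) = 1 :=
    ZMod.pow_card_sub_one_eq_one (Units.ne_zero _)
  have h2 := congrArg (ZMod.castHom (dvd_refl p) k) h1
  rw [map_pow, map_one, ZMod.castHom_apply, ← ZMod.natCast_val] at h2
  exact h2

/-- The hypotheses of the group theory lemmas hold for a Taylor--Wiles representation. -/
theorem adjHyp_of_isModelR (hM : IsModelR ρbar M) (h2 : (2 : k) ≠ 0)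
    (habs : ρbar.IsAbsolutelyIrreducible)
    (hTW : ∀ (K : Type) [Field K] [Algebra k K]
      (G : Subgroup (AlgebraicClosure ℚ ≃ₐ[ℚ] AlgebraicClosure ℚ)), G.index = 2 →
      ∀ V : Submodule K (ρbar.baseChange K).V,
        (∀ σ ∈ G, ∀ x ∈ V, (ρbar.baseChange K).ρ σ x ∈ V) → V = ⊥ ∨ V = ⊤) : AdjHyp M := by
  obtain ⟨b, hb⟩ := hM
  have h1 : M = matRep b ρbar.ρ := by
    ext1 σ
    rw [matRep_apply, hb]
  rw [h1]
  refine AdjHyp.of_absIrrOn b ρbar.ρ h2 ?_ ?_
  · intro W hW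
    exact habs W fun σ x hx => hW σ (Set.mem_univ _) x hx
  · intro H hH W hW
    exact hTW (AlgebraicClosure k) H hH W hW

end Models

section Main

variable {k : Type} [Field k]

/-- **Taylor--Wiles primes.** -/
theorem exists_taylorWiles_primes [Finite k] {p : ℕ} [Fact p.Prime] (hp2 : p ≠ 2)
    {ρbar : ResidualGaloisRep k}
    {M : GalQ →* Matrix (Fin 2) (Fin 2) k} (hM : IsModelR ρbar M)
    (hadj : AdjHyp M) (hdet : (GaloisRepAdic.ofResidualGaloisRep ρbar).DetIsCyclotomic p)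
    (hsplit : ∀ σ : GalQ, ∃ α β : k, LinearMap.charpoly (ρbar.ρ σ) = (X - C α) * (X - C β))
    (S : Finset ℕ) (hpS : p ∈ S) (hunr : ∀ q : ℕ, q.Prime → q ∉ S → ρbar.IsUnramifiedAt q)
    (W : Submodule k (GalQ → Matrix (Fin 2) (Fin 2) k)) [Module.Finite k W]
    (hcoc : ∀ ψ ∈ W, TwCocycle M ψ) (hlc : ∀ ψ ∈ W, LocConst ψ) (hB : twCobound M ≤ W)
    (r : ℕ) (hr : finrank k W = r + 3) (n : ℕ) :
    ∃ qv : Fin r → ℕ, Function.Injective qv ∧
      (∀ i, (qv i).Prime ∧ qv i ∉ S ∧ p ^ (n + 1) ∣ qv i - 1) ∧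
      (∀ i, ∀ P : ValuationSubring (AlgebraicClosure ℚ), P.LiesOverPrime (qv i) →
        ∀ φ : GalQ, P.IsFrobeniusAt φ (qv i) →
          ∃ α β : k, α ≠ β ∧ LinearMap.charpoly (ρbar.ρ φ) = (X - C α) * (X - C β)) ∧
      (∀ ψ ∈ W, (∀ i, ∃ P : ValuationSubring (AlgebraicClosure ℚ), P.LiesOverPrime (qv i) ∧
        ∃ X : Matrix (Fin 2) (Fin 2) k, X.trace = 0 ∧ ∀ φ ∈ P.decompositionSubgroup ℚ,
          ψ φ = tw M φ X - X) → ψ ∈ twCobound M) := by
  have hp : (p : k) = 0 := by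
    have := hdet.1
    rwa [IsLocalRing.maximalIdeal_eq_bot, Ideal.mem_bot] at this
  haveI : CharP k p := (CharP.charP_iff_prime_eq_zero (Fact.out : p.Prime)).mpr hp
  have h2k := hadj.two_ne
  have hp3 : 3 ≤ p := by
    have := (Fact.out : p.Prime).two_le
    omega
  have hdet2 : ∃ g, (M g).det = 2 := by
    haveI : Fact (2 < p) := ⟨hp3⟩
    obtain ⟨σ, hσ, -⟩ := exists_det_eq hM hdet (2 : ZMod p) (by
      intro h0
      have h1 : ((2 : ℕ) : ZMod p) = 0 := by exact_mod_cast h0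
      rw [ZMod.natCast_eq_zero_iff] at h1
      have := Nat.le_of_dvd (by norm_num) h1
      omega)
    refine ⟨σ, ?_⟩
    rw [hσ, show ((2 : ZMod p)) = ((2 : ℕ) : ZMod p) by norm_cast, ZMod.val_natCast,
      Nat.mod_eq_of_lt hp3]
    norm_cast
  have hdet1 : ∃ g, (M g).det ≠ 1 := by
    obtain ⟨g, hg⟩ := hdet2
    refine ⟨g, fun h => ?_⟩
    rw [hg] at h
    have : (1 : k) = 0 := by linear_combination h
    exact one_ne_zero this
  have hdet5 : p = 5 → ∃ g, (M g).det ≠ 1 ∧ (M g).det ≠ -1 := by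
    intro hp5
    obtain ⟨g, hg⟩ := hdet2
    refine ⟨g, fun h => ?_, fun h => ?_⟩
    · rw [hg] at h
      have : (1 : k) = 0 := by linear_combination h
      exact one_ne_zero this
    · rw [hg] at h
      have h3 : ((3 : ℕ) : k) = 0 := by push_cast; linear_combination h
      rw [CharP.cast_eq_zero_iff k p] at h3
      have := Nat.le_of_dvd (by norm_num) h3
      omega
  -- a complement of the coboundaries
  set B := twCobound M with hBdef
  obtain ⟨Z', hZ'⟩ := Submodule.exists_isCompl (B.comap W.subtype)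
  let Z : Submodule k (GalQ → Matrix (Fin 2) (Fin 2) k) := Z'.map W.subtype
  have hZW : Z ≤ W := Submodule.map_subtype_le W Z'
  haveI hZfin : Module.Finite k Z := Submodule.finiteDimensional_of_le hZW
  have hZB : ∀ ψ ∈ Z, ψ ∈ B → ψ = 0 := by
    rintro _ ⟨z, hz, rfl⟩ hb
    have h1 : z ∈ B.comap W.subtype ⊓ Z' := ⟨hb, hz⟩
    rw [hZ'.inf_eq_bot, Submodule.mem_bot] at h1
    rw [h1, map_zero]
  have hdec : ∀ ψ ∈ W, ∃ b ∈ B, ∃ z ∈ Z, b + z = ψ := by
    intro ψ hψ
    have h1 : (⟨ψ, hψ⟩ : W) ∈ B.comap W.subtype ⊔ Z' := by rw [hZ'.sup_eq_top]; trivial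
    obtain ⟨b, hb, z, hz, h2⟩ := Submodule.mem_sup.mp h1
    exact ⟨b, hb, z, ⟨z, hz, rfl⟩, congrArg Subtype.val h2⟩
  have hfr : finrank k Z = r := by
    have h1 := Submodule.finrank_add_eq_of_isCompl hZ'
    have h2 : finrank k (B.comap W.subtype) = 3 := by
      rw [← hadj.finrank_twCobound]
      have h3 : (B.comap W.subtype).map W.subtype = B := by
        rw [Submodule.map_comap_subtype, inf_eq_right.mpr hB]
      have h4 := Submodule.finrank_map_subtype_eq W (B.comap W.subtype)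
      rw [h3] at h4
      exact h4.symm
    have h3 : finrank k Z = finrank k Z' := Submodule.finrank_map_subtype_eq W Z'
    omega
  haveI : IsCyclic (ZMod (p ^ (n + 1)))ˣ :=
    ZMod.isCyclic_units_of_prime_pow p Fact.out hp2 (n + 1)
  subst hfr
  obtain ⟨qv, h1, h2, h3, h4⟩ := exists_primes M hadj.two_ne n (locConst_of_isModelR hM)
    (fun σ hσ => det_eq_one hM hdet hσ) S hpS
    (fun q hq hqS P hP σ hσ => unramified_of_isModelR hM (hunr q hq hqS) P hP σ hσ) Z
    (fun ψ hψ => hcoc ψ (hZW hψ)) (fun ψ hψ => hlc ψ (hZW hψ))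
    (fun ψ hψ hne => by
      haveI : IsCyclic (GalQ ⧸ (Cyclotomic.cyc (p ^ (n + 1))).ker) :=
        isCyclic_of_surjective
          (QuotientGroup.quotientKerEquivRange (Cyclotomic.cyc (p ^ (n + 1)))).symm.toMonoidHom
          (QuotientGroup.quotientKerEquivRange (Cyclotomic.cyc (p ^ (n + 1)))).symm.surjective
      obtain ⟨s, hs, hs1, hs2⟩ := exists_TW_element hp2 hadj (Cyclotomic.cyc (p ^ (n + 1))).ker
        (fun σ hσ => det_eq_one hM hdet ((MonoidHom.mem_ker).mp hσ)) hdet1 hdet5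
        (hcoc ψ (hZW hψ)) (fun h => hne (hZB ψ hψ h))
      exact ⟨s, (MonoidHom.mem_ker).mp hs, hs1, hs2⟩)
  refine ⟨qv, h1, h2, fun i P hP φ hφ => ?_, fun ψ hψ hall => ?_⟩
  · obtain ⟨α, β, hαβ⟩ := hsplit φ
    refine ⟨α, β, ?_, hαβ⟩
    rw [charpoly_of_isModelR hM] at hαβ
    exact exists_ne_of_disc hαβ (h3 i P hP φ hφ)
  · obtain ⟨b, hb, z, hz, rfl⟩ := hdec ψ hψ
    have hz0 : z = 0 := by
      refine h4 z hz fun i => ?_
      obtain ⟨P, hP, X, hX, hX'⟩ := hall i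
      obtain ⟨Y, hY, hY'⟩ := hb
      refine ⟨P, hP, X - Y, by rw [Matrix.trace_sub, hX, hY, sub_zero], fun φ hφ => ?_⟩
      have e1 := hX' φ hφ
      rw [Pi.add_apply, hY'] at e1
      rw [tw_sub]
      have : z φ = (tw M φ X - X) - (tw M φ Y - Y) := by rw [← e1]; abel
      rw [this]
      abel
    rw [hz0, add_zero]
    exact hb

end Main

end Fermat.Agent.TWP
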