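import Mathlib
import Fermat.Agent.TW.PowerSeriesSurj

set_option autoImplicit false
set_option linter.style.haveILetI false
set_option linter.unusedSectionVars false

/-!
A complete local `𝒪`-algebra with at most `|k| ^ r` tangent vectors is a quotient of a power series
ring in `r` variables.
-/

namespace Fermat.Agent.TWP

open IsLocalRing
open scoped DualNumber

section card

variable {𝒪 R : Type*} [CommRing 𝒪] [IsLocalRing 𝒪] [CommRing R] [IsLocalRing R] [Algebra 𝒪 R]

/-- `m² + m_𝒪 R` -/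
def tanIdeal (𝒪 R : Type*) [CommRing 𝒪] [IsLocalRing 𝒪] [CommRing R] [IsLocalRing R]
    [Algebra 𝒪 R] : Ideal R :=
  (maximalIdeal 𝒪).map (algebraMap 𝒪 R) ⊔ maximalIdeal R ^ 2

/-- first order representation of an element -/
def FirstOrder {e : ℕ} (x : Fin e → R) (t : R) (o : 𝒪) (u : Fin e → 𝒪) : Prop :=
  t - (algebraMap 𝒪 R o + ∑ i, algebraMap 𝒪 R (u i) * x i) ∈ tanIdeal 𝒪 R

/-- a generating family modulo the tangent ideal -/
structure TanGen {e : ℕ} (x : Fin e → R) : Prop where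
  mem : ∀ i, x i ∈ maximalIdeal R
  gen : maximalIdeal R ≤ Ideal.span (Set.range x) ⊔ tanIdeal 𝒪 R

theorem tanIdeal_le [IsLocalHom (algebraMap 𝒪 R)] : tanIdeal 𝒪 R ≤ maximalIdeal R :=
  sup_le (((IsLocalRing.local_hom_TFAE (algebraMap 𝒪 R)).out 0 2).mp ‹_›)
    (Ideal.pow_le_self two_ne_zero)

theorem algebraMap_mem_tanIdeal {a : 𝒪} (ha : a ∈ maximalIdeal 𝒪) :
    algebraMap 𝒪 R a ∈ tanIdeal 𝒪 R :=
  Ideal.mem_sup_left (Ideal.mem_map_of_mem _ ha)

theorem exists_firstOrder (hres : Function.Surjective (residue R ∘ algebraMap 𝒪 R)) {e : ℕ}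
    {x : Fin e → R} (hx : TanGen (𝒪 := 𝒪) x) (t : R) : ∃ o u, FirstOrder (𝒪 := 𝒪) x t o u := by
  have hsur : ∀ t : R, ∃ o : 𝒪, t - algebraMap 𝒪 R o ∈ maximalIdeal R := by
    intro t
    obtain ⟨o, ho⟩ := hres (residue R t)
    refine ⟨o, ?_⟩
    rw [← residue_eq_zero_iff, map_sub, sub_eq_zero]
    exact ho.symm
  obtain ⟨o, ho⟩ := hsur t
  obtain ⟨s, hs, w, hw, hsw⟩ := Submodule.mem_sup.mp (hx.gen ho)
  have key : ∃ u : Fin e → 𝒪, s - ∑ i, algebraMap 𝒪 R (u i) * x i ∈ tanIdeal 𝒪 R := by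
    obtain ⟨c, hc⟩ := (Submodule.mem_span_range_iff_exists_fun R).mp hs
    choose v hv using fun i => hsur (c i)
    refine ⟨v, ?_⟩
    rw [← hc, ← Finset.sum_sub_distrib]
    refine Ideal.sum_mem _ fun i _ => ?_
    rw [smul_eq_mul, ← sub_mul]
    refine Ideal.mem_sup_right ?_
    rw [pow_two]
    exact Ideal.mul_mem_mul (hv i) (hx.mem i)
  obtain ⟨u, hu⟩ := key
  refine ⟨o, u, ?_⟩
  have : t - (algebraMap 𝒪 R o + ∑ i, algebraMap 𝒪 R (u i) * x i) =
      (s - ∑ i, algebraMap 𝒪 R (u i) * x i) + w := by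
    have h1 : t = s + w + algebraMap 𝒪 R o := by rw [hsw]; ring
    rw [h1]; ring
  rw [FirstOrder, this]
  exact Ideal.add_mem _ hu hw

theorem mem_of_algebraMap_mem [IsLocalHom (algebraMap 𝒪 R)] {a : 𝒪}
    (ha : algebraMap 𝒪 R a ∈ maximalIdeal R) : a ∈ maximalIdeal 𝒪 := by
  rw [mem_maximalIdeal, mem_nonunits_iff] at ha ⊢
  exact fun h => ha (h.map _)

/-- minimality -/
def TanMin {e : ℕ} (x : Fin e → R) : Prop :=
  ∀ u : Fin e → 𝒪, ∑ i, algebraMap 𝒪 R (u i) * x i ∈ tanIdeal 𝒪 R → ∀ i, u i ∈ maximalIdeal 𝒪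

theorem exists_tanMin [IsNoetherianRing R] [IsLocalHom (algebraMap 𝒪 R)] :
    ∃ (e : ℕ) (x : Fin e → R), TanGen (𝒪 := 𝒪) x ∧ TanMin (𝒪 := 𝒪) x := by
  classical
  have hex : ∃ (e : ℕ) (x : Fin e → R), TanGen (𝒪 := 𝒪) x := by
    obtain ⟨s, hs⟩ := IsNoetherian.noetherian (maximalIdeal R)
    refine ⟨s.card, fun i => (s.equivFin.symm i : R), ⟨fun i => ?_, ?_⟩⟩
    · rw [← hs]
      exact Submodule.subset_span (s.equivFin.symm i).2
    · rw [← hs]
      refine le_trans (Submodule.span_mono ?_) le_sup_left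
      intro a ha
      exact ⟨s.equivFin ⟨a, ha⟩, by simp⟩
  obtain ⟨x, hx⟩ := Nat.find_spec hex
  refine ⟨_, x, hx, ?_⟩
  intro u hu i
  by_contra hi
  have hunit : IsUnit (algebraMap 𝒪 R (u i)) := by
    rw [mem_maximalIdeal, mem_nonunits_iff, not_not] at hi
    exact hi.map _
  -- remove `x i`
  have hpos : 0 < Nat.find hex := lt_of_le_of_lt (Nat.zero_le _) i.2
  obtain ⟨e, he⟩ : ∃ e, Nat.find hex = e + 1 := ⟨Nat.find hex - 1, by omega⟩
  have hlt : e < Nat.find hex := by omega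
  refine Nat.find_min hex hlt ?_
  let c : Fin e → Fin (Nat.find hex) := fun j => Fin.cast he.symm ((Fin.cast he i).succAbove j)
  refine ⟨fun j => x (c j), ⟨fun j => hx.mem _, ?_⟩⟩
  have hxi : x i ∈ Ideal.span (Set.range fun j => x (c j)) ⊔ tanIdeal 𝒪 R := by
    rw [← Ideal.unit_mul_mem_iff_mem _ hunit]
    have h1 : algebraMap 𝒪 R (u i) * x i = (∑ j, algebraMap 𝒪 R (u j) * x j) -
        ∑ j ∈ Finset.univ.erase i, algebraMap 𝒪 R (u j) * x j := by
      rw [← Finset.add_sum_erase _ _ (Finset.mem_univ i)]; ring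
    rw [h1]
    refine Ideal.sub_mem _ (Ideal.mem_sup_right hu) (Ideal.mem_sup_left ?_)
    refine Ideal.sum_mem _ fun j hj => Ideal.mul_mem_left _ _ (Ideal.subset_span ?_)
    have hji : Fin.cast he j ≠ Fin.cast he i := by
      intro h
      exact (Finset.mem_erase.mp hj).1 (Fin.ext (by simpa using congrArg Fin.val h))
    obtain ⟨j', hj'⟩ := Fin.exists_succAbove_eq hji
    exact ⟨j', by simp [c, hj']⟩
  refine hx.gen.trans (sup_le ?_ le_sup_right)
  rw [Ideal.span_le]
  rintro _ ⟨j, rfl⟩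
  by_cases hji : j = i
  · rw [hji]; exact hxi
  · have hji' : Fin.cast he j ≠ Fin.cast he i := by
      intro h
      exact hji (Fin.ext (by simpa using congrArg Fin.val h))
    obtain ⟨j', hj'⟩ := Fin.exists_succAbove_eq hji'
    exact Ideal.mem_sup_left (Ideal.subset_span ⟨j', by simp [c, hj']⟩)

theorem firstOrder_unique [IsLocalHom (algebraMap 𝒪 R)] {e : ℕ}
    {x : Fin e → R} (hx : TanGen (𝒪 := 𝒪) x) (hm : TanMin (𝒪 := 𝒪) x) {t : R} {o o' : 𝒪}
    {u u' : Fin e → 𝒪} (h : FirstOrder x t o u) (h' : FirstOrder x t o' u') :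
    residue 𝒪 o = residue 𝒪 o' ∧ ∀ i, residue 𝒪 (u i) = residue 𝒪 (u' i) := by
  have h1 := Ideal.sub_mem _ h' h
  have h2 : t - (algebraMap 𝒪 R o' + ∑ i, algebraMap 𝒪 R (u' i) * x i) -
      (t - (algebraMap 𝒪 R o + ∑ i, algebraMap 𝒪 R (u i) * x i)) =
      algebraMap 𝒪 R (o - o') + ∑ i, algebraMap 𝒪 R (u i - u' i) * x i := by
    simp only [map_sub, sub_mul, Finset.sum_sub_distrib]; ring
  rw [h2] at h1
  have h3 : algebraMap 𝒪 R (o - o') ∈ maximalIdeal R := by
    have h4 := tanIdeal_le h1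
    have h5 : ∑ i, algebraMap 𝒪 R (u i - u' i) * x i ∈ maximalIdeal R :=
      Ideal.sum_mem _ fun i _ => Ideal.mul_mem_left _ _ (hx.mem i)
    simpa using Ideal.sub_mem _ h4 h5
  have h4 := mem_of_algebraMap_mem h3
  have h5 : ∑ i, algebraMap 𝒪 R (u i - u' i) * x i ∈ tanIdeal 𝒪 R := by
    simpa using Ideal.sub_mem _ h1 (algebraMap_mem_tanIdeal (R := R) h4)
  refine ⟨?_, fun i => ?_⟩
  · rw [← sub_eq_zero, ← map_sub, residue_eq_zero_iff]; exact h4
  · rw [← sub_eq_zero, ← map_sub, residue_eq_zero_iff]; exact hm _ h5 i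

/-- the tangent vector attached to `c` -/
noncomputable def tanVec [IsLocalHom (algebraMap 𝒪 R)]
    (hres : Function.Surjective (residue R ∘ algebraMap 𝒪 R)) {e : ℕ}
    {x : Fin e → R} (hx : TanGen (𝒪 := 𝒪) x) (_hm : TanMin (𝒪 := 𝒪) x)
    (c : Fin e → ResidueField 𝒪) (t : R) : (ResidueField 𝒪)[ε] :=
  TrivSqZeroExt.inl (residue 𝒪 (exists_firstOrder hres hx t).choose) +
    TrivSqZeroExt.inr (∑ i, residue 𝒪 ((exists_firstOrder hres hx t).choose_spec.choose i) * c i)

theorem tanVec_eq [IsLocalHom (algebraMap 𝒪 R)]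
    (hres : Function.Surjective (residue R ∘ algebraMap 𝒪 R)) {e : ℕ}
    {x : Fin e → R} (hx : TanGen (𝒪 := 𝒪) x) (hm : TanMin (𝒪 := 𝒪) x)
    (c : Fin e → ResidueField 𝒪) {t : R} {o : 𝒪} {u : Fin e → 𝒪} (h : FirstOrder x t o u) :
    tanVec hres hx hm c t = TrivSqZeroExt.inl (residue 𝒪 o) +
      TrivSqZeroExt.inr (∑ i, residue 𝒪 (u i) * c i) := by
  obtain ⟨h1, h2⟩ := firstOrder_unique hx hm (exists_firstOrder hres hx t).choose_spec.choose_spec h
  rw [tanVec, h1]
  congr 2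
  exact Finset.sum_congr rfl fun i _ => by rw [h2]

/-- the algebra hom attached to `c` -/
noncomputable def tanHom [IsLocalHom (algebraMap 𝒪 R)]
    (hres : Function.Surjective (residue R ∘ algebraMap 𝒪 R)) {e : ℕ}
    {x : Fin e → R} (hx : TanGen (𝒪 := 𝒪) x) (hm : TanMin (𝒪 := 𝒪) x)
    (c : Fin e → ResidueField 𝒪) : R →ₐ[𝒪] (ResidueField 𝒪)[ε] where
  toFun := tanVec hres hx hm c
  map_one' := by
    rw [tanVec_eq hres hx hm c (o := 1) (u := 0) (by simp [FirstOrder])]
    ext <;> simp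
  map_zero' := by
    rw [tanVec_eq hres hx hm c (o := 0) (u := 0) (by simp [FirstOrder])]
    ext <;> simp
  map_add' t t' := by
    obtain ⟨o, u, h⟩ := exists_firstOrder hres hx t
    obtain ⟨o', u', h'⟩ := exists_firstOrder hres hx t'
    have h'' : FirstOrder x (t + t') (o + o') (u + u') := by
      have h3 := Ideal.add_mem _ h h'
      have e : t + t' - (algebraMap 𝒪 R (o + o') + ∑ i, algebraMap 𝒪 R ((u + u') i) * x i) =
          t - (algebraMap 𝒪 R o + ∑ i, algebraMap 𝒪 R (u i) * x i) +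
          (t' - (algebraMap 𝒪 R o' + ∑ i, algebraMap 𝒪 R (u' i) * x i)) := by
        simp only [map_add, Pi.add_apply, add_mul, Finset.sum_add_distrib]; ring
      rw [FirstOrder, e]
      exact h3
    rw [tanVec_eq hres hx hm c h, tanVec_eq hres hx hm c h', tanVec_eq hres hx hm c h'']
    ext
    · simp
    · simp [add_mul, Finset.sum_add_distrib]
  map_mul' t t' := by
    obtain ⟨o, u, h⟩ := exists_firstOrder hres hx t
    obtain ⟨o', u', h'⟩ := exists_firstOrder hres hx t'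
    have h'' : FirstOrder x (t * t') (o * o') (fun i => o * u' i + o' * u i) := by
      set A := algebraMap 𝒪 R o with hA
      set A' := algebraMap 𝒪 R o' with hA'
      set U := ∑ i, algebraMap 𝒪 R (u i) * x i with hU
      set U' := ∑ i, algebraMap 𝒪 R (u' i) * x i with hU'
      have hUm : U ∈ maximalIdeal R := Ideal.sum_mem _ fun i _ => Ideal.mul_mem_left _ _ (hx.mem i)
      have hUm' : U' ∈ maximalIdeal R := Ideal.sum_mem _ fun i _ => Ideal.mul_mem_left _ _ (hx.mem i)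
      have hUU : U * U' ∈ tanIdeal 𝒪 R := by
        refine Ideal.mem_sup_right ?_
        rw [pow_two]
        exact Ideal.mul_mem_mul hUm hUm'
      have hs : ∑ i, algebraMap 𝒪 R (o * u' i + o' * u i) * x i = A * U' + A' * U := by
        simp only [hU, hU', hA, hA', Finset.mul_sum, ← Finset.sum_add_distrib, map_add, map_mul]
        exact Finset.sum_congr rfl fun i _ => by ring
      have e : t * t' - (algebraMap 𝒪 R (o * o') + ∑ i, algebraMap 𝒪 R (o * u' i + o' * u i) * x i) =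
          (t - (A + U)) * t' + (A + U) * (t' - (A' + U')) + U * U' := by
        rw [hs, map_mul, ← hA, ← hA']; ring
      rw [FirstOrder, e]
      exact Ideal.add_mem _ (Ideal.add_mem _ (Ideal.mul_mem_right _ _ h)
        (Ideal.mul_mem_left _ _ h')) hUU
    rw [tanVec_eq hres hx hm c h, tanVec_eq hres hx hm c h', tanVec_eq hres hx hm c h'']
    ext
    · simp
    · simp only [map_mul, map_add, add_mul, Finset.sum_add_distrib, TrivSqZeroExt.snd_add,
        TrivSqZeroExt.snd_inl, TrivSqZeroExt.snd_inr, zero_add, TrivSqZeroExt.snd_mul,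
        TrivSqZeroExt.fst_add, TrivSqZeroExt.fst_inl, TrivSqZeroExt.fst_inr, add_zero,
        MulOpposite.smul_eq_mul_unop, MulOpposite.unop_op, smul_eq_mul, Finset.mul_sum,
        Finset.sum_mul, zero_mul, Finset.sum_const_zero]
      congr 1
      · exact Finset.sum_congr rfl fun i _ => by ring
      · exact Finset.sum_congr rfl fun i _ => by ring
  commutes' o := by
    rw [tanVec_eq hres hx hm c (o := o) (u := 0) (by simp [FirstOrder])]
    ext
    · simp [TrivSqZeroExt.algebraMap_eq_inl']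
    · simp [TrivSqZeroExt.algebraMap_eq_inl']

theorem tanHom_apply_x [IsLocalHom (algebraMap 𝒪 R)]
    (hres : Function.Surjective (residue R ∘ algebraMap 𝒪 R)) {e : ℕ}
    {x : Fin e → R} (hx : TanGen (𝒪 := 𝒪) x) (hm : TanMin (𝒪 := 𝒪) x)
    (c : Fin e → ResidueField 𝒪) (i : Fin e) :
    tanHom hres hx hm c (x i) = TrivSqZeroExt.inr (c i) := by
  classical
  show tanVec hres hx hm c (x i) = _
  rw [tanVec_eq hres hx hm c (o := 0) (u := Pi.single i 1)
    (by simp [FirstOrder, Pi.single_apply, apply_ite (algebraMap 𝒪 R)])]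
  ext
  · simp
  · simp [Pi.single_apply, apply_ite (residue 𝒪)]

/-- Main theorem: a bound on the number of tangent vectors gives a power series presentation. -/
theorem exists_mvPowerSeries_surjective_of_card [IsAdicComplete (maximalIdeal 𝒪) 𝒪]
    [Finite (ResidueField 𝒪)] [IsNoetherianRing R]
    [IsAdicComplete (maximalIdeal R) R] [IsLocalHom (algebraMap 𝒪 R)]
    (hres : Function.Surjective (residue R ∘ algebraMap 𝒪 R)) {r : ℕ} {W : Type*} [Finite W]
    (hW : Nat.card W ≤ Nat.card (ResidueField 𝒪) ^ r)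
    (f : (R →ₐ[𝒪] (ResidueField 𝒪)[ε]) → W) (hf : Function.Injective f) :
    ∃ γ : MvPowerSeries (Fin r) 𝒪 →ₐ[𝒪] R, Function.Surjective γ := by
  obtain ⟨e, x, hx, hm⟩ := exists_tanMin (𝒪 := 𝒪) (R := R)
  have hinj : Function.Injective (fun c : Fin e → ResidueField 𝒪 => f (tanHom hres hx hm c)) := by
    refine hf.comp fun c c' h => ?_
    funext i
    have h1 := DFunLike.congr_fun h (x i)
    simp only [tanHom_apply_x] at h1
    exact TrivSqZeroExt.inr_injective h1
  have hcard := Nat.card_le_card_of_injective _ hinj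
  rw [Nat.card_fun, Nat.card_fin] at hcard
  have h2 : 1 < Nat.card (ResidueField 𝒪) := Finite.one_lt_card
  have her : e ≤ r := (Nat.pow_le_pow_iff_right h2).mp (hcard.trans hW)
  refine TW.exists_mvPowerSeries_surjective_of_le_sup_sq hres
    (fun i : Fin r => if h : (i : ℕ) < e then x ⟨i, h⟩ else 0) ?_ ?_
  · intro i
    split_ifs with h
    · exact hx.mem _
    · exact Ideal.zero_mem _
  · refine hx.gen.trans ?_
    rw [sup_assoc, tanIdeal]
    refine sup_le_sup (Ideal.span_mono ?_) le_rfl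
    rintro _ ⟨i, rfl⟩
    refine ⟨⟨i, lt_of_lt_of_le i.2 her⟩, ?_⟩
    simp

end card

end Fermat.Agent.TWP
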