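import Mathlib
import Fermat.Agent.DefRing.Tangent
import Fermat.Agent.TWP.TangentCard

set_option autoImplicit false
set_option linter.style.haveILetI false
set_option linter.unusedSectionVars false

/-!
Tangent vectors of a universal deformation ring and adjoint cocycles.
-/

namespace Fermat.Agent.TWP

open IsLocalRing Matrix
open Fermat.Agent.UDef (GalQ IsModel IsModelR MCont ofMatrix isModel_ofMatrix mapRep Dual dmk dfst
  dsnd CoefAlg toK dual_ext)

section cocycle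

variable {k : Type} [Field k] (M : GalQ →* Matrix (Fin 2) (Fin 2) k)

/-- The submodule of `1`-cocycles for the adjoint representation. -/
noncomputable def adCocycle : Submodule k (GalQ → Matrix (Fin 2) (Fin 2) k) where
  carrier := {a | ∀ σ τ, a (σ * τ) = a σ + M σ * a τ * M σ⁻¹}
  zero_mem' := fun σ τ => by simp
  add_mem' := fun {a b} ha hb σ τ => by
    simp only [Pi.add_apply, ha σ τ, hb σ τ, mul_add, add_mul]
    abel
  smul_mem' := fun c a ha σ τ => by
    simp only [Pi.smul_apply, ha σ τ, smul_add, Matrix.mul_smul, Matrix.smul_mul]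

theorem mem_adCocycle {a : GalQ → Matrix (Fin 2) (Fin 2) k} :
    a ∈ adCocycle M ↔ ∀ σ τ, a (σ * τ) = a σ + M σ * a τ * M σ⁻¹ := Iff.rfl

/-- The coboundary map. -/
noncomputable def adBoundary : Matrix (Fin 2) (Fin 2) k →ₗ[k] (GalQ → Matrix (Fin 2) (Fin 2) k) where
  toFun X := fun σ => X - M σ * X * M σ⁻¹
  map_add' X Y := by
    funext σ
    simp only [Pi.add_apply, mul_add, add_mul]
    abel
  map_smul' c X := by
    funext σ
    simp only [Pi.smul_apply, RingHom.id_apply, smul_sub, Matrix.mul_smul, Matrix.smul_mul]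

theorem adBoundary_apply (X : Matrix (Fin 2) (Fin 2) k) (σ : GalQ) :
    adBoundary M X σ = X - M σ * X * M σ⁻¹ := rfl

/-- The space of coboundaries. -/
noncomputable def adCobound : Submodule k (GalQ → Matrix (Fin 2) (Fin 2) k) := LinearMap.range (adBoundary M)

theorem mul_inv_rep (σ : GalQ) : M σ * M σ⁻¹ = 1 := by rw [← map_mul, mul_inv_cancel, map_one]

theorem inv_mul_rep (σ : GalQ) : M σ⁻¹ * M σ = 1 := by rw [← map_mul, inv_mul_cancel, map_one]

theorem adCobound_le : adCobound M ≤ adCocycle M := by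
  rintro _ ⟨X, rfl⟩ σ τ
  simp only [adBoundary_apply]
  have h1 : M (σ * τ) * X * M (σ * τ)⁻¹ = M σ * (M τ * X * M τ⁻¹) * M σ⁻¹ := by
    rw [_root_.mul_inv_rev, map_mul, map_mul]; simp only [mul_assoc]
  rw [h1, mul_sub, sub_mul]
  abel

end cocycle

section dual

variable {𝒪 : Type} [CommRing 𝒪] [IsLocalRing 𝒪]

/-- matrices over the dual numbers from two matrices over the residue field -/
noncomputable def matMk (X Y : Matrix (Fin 2) (Fin 2) (ResidueField 𝒪)) :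
    Matrix (Fin 2) (Fin 2) (Dual 𝒪) := Matrix.of fun i j => dmk (X i j) (Y i j)

theorem matMk_mul (X Y X' Y' : Matrix (Fin 2) (Fin 2) (ResidueField 𝒪)) :
    matMk X Y * matMk X' Y' = matMk (X * X') (X * Y' + Y * X') := by
  ext i j
  simp only [matMk, Matrix.mul_apply, Matrix.of_apply, Fin.sum_univ_two, Matrix.add_apply]
  apply dual_ext
  · simp
  · simp; ring

theorem matMk_one : matMk (𝒪 := 𝒪) 1 0 = 1 := by
  ext i j
  simp only [matMk, Matrix.of_apply, Matrix.one_apply, Matrix.zero_apply]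
  split_ifs
  · exact dual_ext (by simp) (by simp)
  · exact dual_ext (by simp) (by simp)

theorem matMk_injective {X Y X' Y' : Matrix (Fin 2) (Fin 2) (ResidueField 𝒪)}
    (h : matMk X Y = matMk X' Y') : X = X' ∧ Y = Y' := by
  constructor
  · ext i j
    have := congrFun (congrFun h i) j
    simpa [matMk] using congrArg dfst this
  · ext i j
    have := congrFun (congrFun h i) j
    simpa [matMk] using congrArg dsnd this

/-- The deformation of `M` to the dual numbers attached to a cocycle. -/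
noncomputable def dualRep (M : GalQ →* Matrix (Fin 2) (Fin 2) (ResidueField 𝒪))
    (a : adCocycle M) : GalQ →* Matrix (Fin 2) (Fin 2) (Dual 𝒪) where
  toFun σ := matMk (M σ) (a.1 σ * M σ)
  map_one' := by
    have h1 := a.2 1 1
    simp only [mul_one, map_one, inv_one, one_mul] at h1
    have h2 : a.1 1 = 0 := by simpa using h1.symm
    rw [h2, zero_mul, map_one, matMk_one]
  map_mul' σ τ := by
    have h1 : a.1 (σ * τ) * M (σ * τ) = M σ * (a.1 τ * M τ) + a.1 σ * M σ * M τ := by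
      rw [a.2 σ τ, add_mul, map_mul]
      have : M σ * a.1 τ * M σ⁻¹ * (M σ * M τ) = M σ * a.1 τ * (M σ⁻¹ * M σ) * M τ := by
        simp only [mul_assoc]
      rw [this, inv_mul_rep, mul_one]
      simp only [mul_assoc]
      abel
    rw [matMk_mul, h1, map_mul]

theorem dualRep_apply (M : GalQ →* Matrix (Fin 2) (Fin 2) (ResidueField 𝒪))
    (a : adCocycle M) (σ : GalQ) : dualRep M a σ = matMk (M σ) (a.1 σ * M σ) := rfl

/-- Every lift to the dual numbers comes from a cocycle. -/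
theorem exists_cocycle (M : GalQ →* Matrix (Fin 2) (Fin 2) (ResidueField 𝒪))
    (N : GalQ →* Matrix (Fin 2) (Fin 2) (Dual 𝒪))
    (h : mapRep (toK 𝒪 (Dual 𝒪) : Dual 𝒪 →+* ResidueField 𝒪) N = M) :
    ∃ a : adCocycle M, dualRep M a = N := by
  have hN : ∀ σ, N σ = matMk (M σ) (Matrix.of fun i j => dsnd (N σ i j)) := by
    intro σ
    ext i j
    apply dual_ext
    · have h1 : dfst (N σ i j) = M σ i j := by
        rw [← h]
        exact (UDef.toK_dual _).symm
      rw [h1]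
      simp [matMk]
    · simp [matMk]
  set Y : GalQ → Matrix (Fin 2) (Fin 2) (ResidueField 𝒪) :=
    fun σ => Matrix.of fun i j => dsnd (N σ i j) with hY
  have hmul : ∀ σ τ, Y (σ * τ) = M σ * Y τ + Y σ * M τ := by
    intro σ τ
    have h1 := map_mul N σ τ
    rw [hN σ, hN τ, hN (σ * τ), matMk_mul] at h1
    exact (matMk_injective h1).2
  refine ⟨⟨fun σ => Y σ * M σ⁻¹, ?_⟩, ?_⟩
  · intro σ τ
    have e1 : M σ * Y τ * (M τ⁻¹ * M σ⁻¹) = M σ * (Y τ * M τ⁻¹) * M σ⁻¹ := by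
      simp only [mul_assoc]
    have e2 : Y σ * M τ * (M τ⁻¹ * M σ⁻¹) = Y σ * (M τ * M τ⁻¹) * M σ⁻¹ := by
      simp only [mul_assoc]
    show Y (σ * τ) * M (σ * τ)⁻¹ = Y σ * M σ⁻¹ + M σ * (Y τ * M τ⁻¹) * M σ⁻¹
    rw [hmul, _root_.mul_inv_rev, map_mul, add_mul, e1, e2, mul_inv_rep, mul_one, add_comm]
  · ext1 σ
    rw [dualRep_apply, hN σ]
    congr 1
    show Y σ * M σ⁻¹ * M σ = Y σ
    rw [mul_assoc, inv_mul_rep, mul_one]

/-- cohomologous cocycles give conjugate lifts -/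
theorem dualRep_conj (M : GalQ →* Matrix (Fin 2) (Fin 2) (ResidueField 𝒪)) (a b : adCocycle M)
    (X : Matrix (Fin 2) (Fin 2) (ResidueField 𝒪)) (h : a.1 - b.1 = adBoundary M X) :
    IsUnit (matMk (𝒪 := 𝒪) 1 X) ∧
      ∀ σ, matMk 1 X * dualRep M b σ = dualRep M a σ * matMk 1 X := by
  refine ⟨?_, fun σ => ?_⟩
  · refine isUnit_iff_exists.mpr ⟨matMk 1 (-X), ?_, ?_⟩
    · rw [matMk_mul, mul_one, one_mul, mul_one, neg_add_cancel, matMk_one]
    · rw [matMk_mul, mul_one, one_mul, mul_one, add_neg_cancel, matMk_one]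
  · rw [dualRep_apply, dualRep_apply, matMk_mul, matMk_mul]
    congr 1
    · simp
    · have h1 : a.1 σ = b.1 σ + (X - M σ * X * M σ⁻¹) := by
        have := congrFun h σ
        rw [Pi.sub_apply, adBoundary_apply] at this
        rw [← this]; abel
      rw [h1, add_mul, sub_mul, mul_one, one_mul]
      have : M σ * X * M σ⁻¹ * M σ = M σ * X := by rw [mul_assoc, inv_mul_rep, mul_one]
      rw [this]
      abel

end dual

section main

variable {𝒪 : Type} [CommRing 𝒪] [IsDomain 𝒪] [IsDiscreteValuationRing 𝒪]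
  [IsAdicComplete (maximalIdeal 𝒪) 𝒪] [Finite (ResidueField 𝒪)]
  {𝒟 : ∀ ⦃A : Type⦄ [CommRing A] [IsLocalRing A] [Algebra 𝒪 A], GaloisRepAdic A → Prop}
  {Mbar : GalQ →* Matrix (Fin 2) (Fin 2) (ResidueField 𝒪)}
  {ρbar : ResidualGaloisRep (ResidueField 𝒪)}

theorem type_baseChange (h𝒟 : GaloisRep.IsDeformationCondition 𝒪 𝒟) {R B : Type}
    [CommRing R] [IsLocalRing R] [IsNoetherianRing R] [IsAdicComplete (maximalIdeal R) R]
    [Algebra 𝒪 R] [CoefAlg 𝒪 R] [CommRing B] [IsLocalRing B] [Algebra 𝒪 B] [CoefAlg 𝒪 B]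
    [Finite B] {ρ : GaloisRepAdic R} (hρ : 𝒟 ρ) (φ : R →ₐ[𝒪] B)
    (hφ : IsLocalHom (φ : R →+* B)) : 𝒟 (ρ.baseChangeAlong (φ : R →+* B) hφ) := by
  obtain ⟨M, hM⟩ := UDef.exists_model ρ
  -- the quotient by the kernel
  let I : Ideal R := RingHom.ker φ
  have hI : I ≠ ⊤ := RingHom.ker_ne_top φ
  let ψ : (R ⧸ I) →ₐ[𝒪] B := Ideal.kerLiftAlg φ
  have hψ : Function.Injective ψ := Ideal.kerLiftAlg_injective φ
  haveI : Finite (R ⧸ I) := Finite.of_injective _ hψ
  haveI : Nontrivial (R ⧸ I) := Ideal.Quotient.nontrivial_iff.mpr hI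
  haveI : IsLocalRing (R ⧸ I) :=
    IsLocalRing.of_surjective' (Ideal.Quotient.mk I) Ideal.Quotient.mk_surjective
  haveI : CoefAlg 𝒪 (R ⧸ I) := UDef.coefAlg_of_toK ((toK 𝒪 B).comp ψ) (by
    intro a ha
    have h1 : IsUnit (ψ a) := UDef.isUnit_of_toK_ne_zero 𝒪 B _ ha
    -- a non unit would be nilpotent
    by_contra hn
    have h2 : a ∈ maximalIdeal (R ⧸ I) := (mem_maximalIdeal _).mpr hn
    obtain ⟨n, hn⟩ := (isArtinianRing_iff_isNilpotent_maximalIdeal (R ⧸ I)).mp inferInstance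
    have h3 : a ^ n ∈ maximalIdeal (R ⧸ I) ^ n := Ideal.pow_mem_pow h2 n
    rw [hn] at h3
    have h4 : a ^ n = 0 := h3
    have h5 : (ψ a) ^ n = 0 := by rw [← map_pow, h4, map_zero]
    exact (h1.pow n).ne_zero h5)
  let q : R →ₐ[𝒪] (R ⧸ I) := Ideal.Quotient.mkₐ 𝒪 I
  have hq : IsLocalHom (q : R →+* R ⧸ I) := UDef.isLocalHom_algHom q
  have hψl : IsLocalHom (ψ : (R ⧸ I) →+* B) := UDef.isLocalHom_algHom ψ
  have h1 : 𝒟 (ρ.baseChangeAlong (q : R →+* R ⧸ I) hq) :=
    (h𝒟.iff_forall_surjective CoefAlg.isLocalHom CoefAlg.residue_surjective ρ).mp hρ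
      (UDef.isArtinianTestAlgebra (R ⧸ I)) q hq (Ideal.Quotient.mkₐ_surjective 𝒪 I)
  have h2 := h𝒟.baseChangeAlong (UDef.isArtinianTestAlgebra (𝒪 := 𝒪) (R ⧸ I))
    (UDef.isArtinianTestAlgebra (𝒪 := 𝒪) B) ψ hψl h1
  refine UDef.type_of_model h𝒟 ((hM.baseChangeAlong _ hq).baseChangeAlong _ hψl) ?_ h2
  exact hM.baseChangeAlong (φ : R →+* B) hφ

/-- Reduction of the power series surjection to a bound on a Selmer space of cocycles. -/
theorem exists_surjective_of_selmer (h𝒟 : GaloisRep.IsDeformationCondition 𝒪 𝒟)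
    (hbar : IsModelR ρbar Mbar) (DQ : GaloisRep.DeformationRingData 𝒪 ρbar 𝒟)
    (Z : Submodule (ResidueField 𝒪) (GalQ → Matrix (Fin 2) (Fin 2) (ResidueField 𝒪)))
    (hZ : ∀ (a : adCocycle Mbar) (hc : MCont (dualRep Mbar a)),
      𝒟 (ofMatrix (dualRep Mbar a) hc) → a.1 ∈ Z) (r : ℕ)
    [Module.Finite (ResidueField 𝒪) (Z ⧸ (adCobound Mbar).comap Z.subtype)]
    (hr : Module.finrank (ResidueField 𝒪) (Z ⧸ (adCobound Mbar).comap Z.subtype) ≤ r) :
    ∃ γ : MvPowerSeries (Fin r) 𝒪 →ₐ[𝒪] DQ.R, Function.Surjective γ := by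
  haveI : CoefAlg 𝒪 DQ.R := ⟨inferInstance, DQ.residue_surjective⟩
  set W := Z ⧸ (adCobound Mbar).comap Z.subtype with hW
  haveI : Finite W := Module.finite_of_finite (ResidueField 𝒪)
  have hcard : Nat.card W ≤ Nat.card (ResidueField 𝒪) ^ r := by
    rw [Module.natCard_eq_pow_finrank (K := ResidueField 𝒪) (V := W)]
    exact Nat.pow_le_pow_right Nat.card_pos hr
  -- for each tangent vector choose a cocycle
  have key : ∀ φ : DQ.R →ₐ[𝒪] Dual 𝒪, ∃ a : adCocycle Mbar, ∃ hc : MCont (dualRep Mbar a),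
      𝒟 (ofMatrix (dualRep Mbar a) hc) ∧
      IsModel (DQ.ρ.baseChangeAlong (φ : DQ.R →+* Dual 𝒪) (UDef.isLocalHom_algHom φ))
        (dualRep Mbar a) := by
    intro φ
    have h1 : 𝒟 (DQ.ρ.baseChangeAlong (φ : DQ.R →+* Dual 𝒪) (UDef.isLocalHom_algHom φ)) :=
      type_baseChange h𝒟 DQ.isOfType φ _
    obtain ⟨M, hM, hMl⟩ := UDef.exists_lift_of_residual hbar DQ.residual_isEquiv
    have h2 := hM.baseChangeAlong (φ : DQ.R →+* Dual 𝒪) (UDef.isLocalHom_algHom φ)
    obtain ⟨a, ha⟩ := exists_cocycle Mbar (mapRep (φ : DQ.R →+* Dual 𝒪) M) (by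
      rw [UDef.mapRep_toK, hMl])
    rw [← ha] at h2
    refine ⟨a, h2.mcont, ?_, h2⟩
    exact UDef.type_of_model h𝒟 h2 (isModel_ofMatrix _ _) h1
  choose a hc hD hmod using key
  -- conversion between algebra structures
  let conv : (DQ.R →ₐ[𝒪] DualNumber (ResidueField 𝒪)) → (DQ.R →ₐ[𝒪] Dual 𝒪) := fun φ =>
    { toFun := fun x => φ x
      map_one' := map_one φ
      map_mul' := map_mul φ
      map_zero' := map_zero φ
      map_add' := map_add φ
      commutes' := fun c => φ.commutes c }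
  have hconv : Function.Injective conv := by
    intro φ ψ h
    ext x : 1
    exact DFunLike.congr_fun h x
  let f : (DQ.R →ₐ[𝒪] DualNumber (ResidueField 𝒪)) → W := fun φ =>
    Submodule.Quotient.mk ⟨(a (conv φ)).1, hZ _ (hc _) (hD _)⟩
  refine exists_mvPowerSeries_surjective_of_card DQ.residue_surjective hcard f ?_
  intro φ ψ h
  apply hconv
  set φ' := conv φ with hφ'
  set ψ' := conv ψ with hψ'
  have h1 : (a φ').1 - (a ψ').1 ∈ adCobound Mbar := by
    have h2 := (Submodule.Quotient.eq _).mp h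
    exact h2
  obtain ⟨X, hX⟩ := h1
  obtain ⟨hu, hconj⟩ := dualRep_conj Mbar (a φ') (a ψ') X hX.symm
  have he : (DQ.ρ.baseChangeAlong (ψ' : DQ.R →+* Dual 𝒪) (UDef.isLocalHom_algHom ψ')).IsEquiv
      (DQ.ρ.baseChangeAlong (φ' : DQ.R →+* Dual 𝒪) (UDef.isLocalHom_algHom φ')) :=
    (hmod ψ').isEquiv (hmod φ') _ hu hconj
  -- universality
  have hD' : 𝒟 (DQ.ρ.baseChangeAlong (φ' : DQ.R →+* Dual 𝒪) (UDef.isLocalHom_algHom φ')) :=
    type_baseChange h𝒟 DQ.isOfType φ' _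
  have hl : mapRep (toK 𝒪 (Dual 𝒪) : Dual 𝒪 →+* ResidueField 𝒪) (dualRep Mbar (a φ')) = Mbar := by
    ext σ i j
    show toK 𝒪 (Dual 𝒪) (matMk (Mbar σ) _ i j) = Mbar σ i j
    rw [UDef.toK_dual]
    simp [matMk]
  have hres := UDef.residual_isEquiv_of_lift hbar (hmod φ') hl
  haveI : IsLocalHom (algebraMap 𝒪 (Dual 𝒪)) := CoefAlg.isLocalHom
  obtain ⟨χ, -, hχ⟩ := DQ.universal (Dual 𝒪) CoefAlg.residue_surjective _ hD' hres
  rw [hχ φ' ⟨UDef.isLocalHom_algHom φ', ⟨GaloisRepAdic.Equiv.refl _⟩⟩,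
    hχ ψ' ⟨UDef.isLocalHom_algHom ψ', he⟩]

end main

end Fermat.Agent.TWP
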