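import Mathlib
import Fermat.Agent.TWP.TangentLift
import Fermat.Agent.TWP.Tame
import Fermat.Agent.DefRing.AbsIrr
import Fermat.Agent.DefCond.Main
import Fermat.Prelude.Def_GaloisRep_LocalConditions
import Fermat.Prelude.Def_GaloisRep_StrictOrdinary
import Fermat.Prelude.Def_GaloisRep_Flat

set_option autoImplicit false
set_option linter.style.haveILetI false
set_option linter.unusedSectionVars false
set_option linter.unusedSimpArgs false

/-!
Translation of the local deformation conditions over the dual numbers to conditions on the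
adjoint cocycle.
-/

namespace Fermat.Agent.TWP

open IsLocalRing Matrix Pointwise
open Fermat.Agent.UDef (GalQ IsModel IsModelR MCont ofMatrix isModel_ofMatrix mapRep Dual dmk dfst
  dsnd CoefAlg toK dual_ext)

section algebra

variable {k : Type} [Field k]

/-- The differential of the adjoint action at a nilpotent matrix is onto the tangent space of the
nilpotent cone. -/
theorem exists_commutator (h2 : (2 : k) ≠ 0) (N₀ N₁ : Matrix (Fin 2) (Fin 2) k) (h0 : N₀ ≠ 0)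
    (htr0 : N₀.trace = 0) (hsq : N₀ * N₀ = 0) (htr1 : N₁.trace = 0)
    (hmix : N₀ * N₁ + N₁ * N₀ = 0) : ∃ X : Matrix (Fin 2) (Fin 2) k, X.trace = 0 ∧
      X * N₀ - N₀ * X = N₁ := by
  obtain ⟨p, hp⟩ : ∃ p, N₀ 0 0 = p := ⟨_, rfl⟩
  obtain ⟨q, hq⟩ : ∃ q, N₀ 0 1 = q := ⟨_, rfl⟩
  obtain ⟨r, hr⟩ : ∃ r, N₀ 1 0 = r := ⟨_, rfl⟩
  obtain ⟨s, hs⟩ : ∃ s, N₁ 0 0 = s := ⟨_, rfl⟩
  obtain ⟨t, ht⟩ : ∃ t, N₁ 0 1 = t := ⟨_, rfl⟩
  obtain ⟨u, hu⟩ : ∃ u, N₁ 1 0 = u := ⟨_, rfl⟩
  have e0 : N₀ = !![p, q; r, -p] := by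
    rw [Matrix.trace_fin_two] at htr0
    ext i j; fin_cases i <;> fin_cases j
    · simpa using hp
    · simpa using hq
    · simpa using hr
    · simp; linear_combination htr0 - hp
  have e1 : N₁ = !![s, t; u, -s] := by
    rw [Matrix.trace_fin_two] at htr1
    ext i j; fin_cases i <;> fin_cases j
    · simpa using hs
    · simpa using ht
    · simpa using hu
    · simp; linear_combination htr1 - hs
  have hpq : p * p + q * r = 0 := by
    have := congrFun (congrFun hsq 0) 0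
    rw [e0] at this
    simpa [Matrix.mul_apply, Fin.sum_univ_two] using this
  have hm : 2 * p * s + q * u + r * t = 0 := by
    have := congrFun (congrFun hmix 0) 0
    rw [e0, e1] at this
    simp [Matrix.mul_apply, Fin.sum_univ_two] at this
    linear_combination this
  by_cases hq0 : q = 0
  · have hp0 : p = 0 := by
      have : p * p = 0 := by rw [hq0] at hpq; linear_combination hpq
      simpa using this
    have hr0 : r ≠ 0 := by
      intro h
      apply h0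
      rw [e0, hp0, hq0, h]
      ext i j; fin_cases i <;> fin_cases j <;> simp
    refine ⟨!![-u / (2 * r), s / r; 0, u / (2 * r)], ?_, ?_⟩
    · rw [Matrix.trace_fin_two]; simp; ring
    · have ht0 : t = 0 := by
        rw [hp0, hq0] at hm
        have : r * t = 0 := by linear_combination hm
        exact (mul_eq_zero.mp this).resolve_left hr0
      rw [e0, e1, hp0, hq0, ht0]
      ext i j; fin_cases i <;> fin_cases j
      · simp [Matrix.mul_apply, Fin.sum_univ_two]; field_simp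
      · simp [Matrix.mul_apply, Fin.sum_univ_two]
      · simp [Matrix.mul_apply, Fin.sum_univ_two]; field_simp; ring
      · simp [Matrix.mul_apply, Fin.sum_univ_two]; field_simp
  · refine ⟨!![t / (2 * q), 0; -s / q, -t / (2 * q)], ?_, ?_⟩
    · rw [Matrix.trace_fin_two]; simp; ring
    · rw [e0, e1]
      ext i j; fin_cases i <;> fin_cases j
      · simp [Matrix.mul_apply, Fin.sum_univ_two]; field_simp; ring
      · simp [Matrix.mul_apply, Fin.sum_univ_two]; field_simp; ring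
      · simp [Matrix.mul_apply, Fin.sum_univ_two]; field_simp
        linear_combination (-2 : k) * hm
      · simp [Matrix.mul_apply, Fin.sum_univ_two]; field_simp; ring

/-- a traceless matrix with prescribed value at a nonzero vector -/
theorem exists_traceless (u v : Fin 2 → k) (hu : u ≠ 0) :
    ∃ X : Matrix (Fin 2) (Fin 2) k, X.trace = 0 ∧ X *ᵥ u = v := by
  by_cases h0 : u 0 = 0
  · have h1 : u 1 ≠ 0 := by
      intro h
      apply hu
      ext i; fin_cases i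
      · exact h0
      · exact h
    refine ⟨!![-(v 1) / u 1, v 0 / u 1; 0, v 1 / u 1], ?_, ?_⟩
    · rw [Matrix.trace_fin_two]; simp; ring
    · ext i; fin_cases i
      · simp [Matrix.mulVec, dotProduct, Fin.sum_univ_two, h0]; field_simp
      · simp [Matrix.mulVec, dotProduct, Fin.sum_univ_two]; field_simp
  · refine ⟨!![v 0 / u 0, 0; (v 1 + v 0 / u 0 * u 1) / u 0, -(v 0) / u 0], ?_, ?_⟩
    · rw [Matrix.trace_fin_two]; simp; ring
    · ext i; fin_cases i
      · simp [Matrix.mulVec, dotProduct, Fin.sum_univ_two]; field_simp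
      · simp [Matrix.mulVec, dotProduct, Fin.sum_univ_two]; field_simp; ring

/-- a matrix which kills `u` and maps everything to the line of `u` has trace zero -/
theorem trace_eq_zero_of_line (Y : Matrix (Fin 2) (Fin 2) k) (u : Fin 2 → k) (_hu : u ≠ 0)
    (h1 : Y *ᵥ u = 0) (h2 : ∀ v, ∃ s : k, Y *ᵥ v = s • u) : Y.trace = 0 := by
  have hsq : Y * Y = 0 := by
    apply Matrix.toLin'.injective
    ext v : 1
    refine LinearMap.ext fun c => ?_
    obtain ⟨s, hs⟩ := h2 ((LinearMap.single k (fun _ => k) v) c)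
    simp only [Matrix.toLin'_mul, LinearMap.comp_apply, Matrix.toLin'_apply, hs,
      Matrix.mulVec_smul, h1, smul_zero, map_zero, LinearMap.zero_apply]
  have hnil : IsNilpotent Y := ⟨2, by rw [pow_two, hsq]⟩
  exact (Matrix.isNilpotent_trace_of_isNilpotent hnil).eq_zero

end algebra

section dualmat

variable {𝒪 : Type} [CommRing 𝒪] [IsLocalRing 𝒪]

theorem det_matMk (X a : Matrix (Fin 2) (Fin 2) (ResidueField 𝒪)) :
    (matMk X (a * X)).det = dmk X.det (a.trace * X.det) := by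
  rw [Matrix.det_fin_two, Matrix.det_fin_two, Matrix.trace_fin_two]
  apply dual_ext
  · simp [matMk, sub_eq_add_neg]
    have : ∀ x : Dual 𝒪, dfst (-x) = - dfst x := fun x => rfl
    rw [this]; simp
  · simp only [matMk, Matrix.of_apply, sub_eq_add_neg, UDef.dsnd_add]
    have : ∀ x : Dual 𝒪, dsnd (-x) = - dsnd x := fun x => rfl
    rw [this]
    simp [Matrix.mul_apply, Fin.sum_univ_two]
    ring

theorem trace_matMk (X Y : Matrix (Fin 2) (Fin 2) (ResidueField 𝒪)) :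
    (matMk X Y).trace = dmk X.trace Y.trace := by
  rw [Matrix.trace_fin_two, Matrix.trace_fin_two, Matrix.trace_fin_two]
  apply dual_ext <;> simp [matMk]

theorem matMk_sub (X Y X' Y' : Matrix (Fin 2) (Fin 2) (ResidueField 𝒪)) :
    matMk X Y - matMk X' Y' = matMk (X - X') (Y - Y') := by
  ext i j
  have h1 : ∀ x : Dual 𝒪, dfst (-x) = - dfst x := fun x => rfl
  have h2 : ∀ x : Dual 𝒪, dsnd (-x) = - dsnd x := fun x => rfl
  apply dual_ext
  · simp [matMk, sub_eq_add_neg, h1]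
  · simp [matMk, sub_eq_add_neg, h2]

theorem dmk_eq {x : Dual 𝒪} {a b : ResidueField 𝒪} (h : x = dmk a b) : dfst x = a ∧ dsnd x = b := by
  rw [h]; simp

theorem natCast_dual (n : ℕ) : ((n : ℕ) : Dual 𝒪) = dmk (n : ResidueField 𝒪) 0 := by
  induction n with
  | zero => exact dual_ext (by simp) (by simp)
  | succ n ih =>
    rw [Nat.cast_succ, ih]
    exact dual_ext (by simp) (by simp)

end dualmat

section localconds

variable {𝒪 : Type} [CommRing 𝒪] [IsLocalRing 𝒪]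
  {Mbar : GalQ →* Matrix (Fin 2) (Fin 2) (ResidueField 𝒪)} {a : adCocycle Mbar}
  {ρ : GaloisRepAdic (Dual 𝒪)}

/-- finite level of the cocycle -/
theorem level_of_mcont (hc : MCont (dualRep Mbar a)) [Finite (ResidueField 𝒪)] :
    ∃ L : IntermediateField ℚ (AlgebraicClosure ℚ), FiniteDimensional ℚ L ∧
      ∀ σ : GalQ, (∀ x ∈ L, σ x = x) → Mbar σ = 1 ∧ a.1 σ = 0 := by
  obtain ⟨L, hL, h⟩ := hc.factors
  refine ⟨L, hL, fun σ hσ => ?_⟩
  have h1 := h σ hσ
  rw [dualRep_apply, ← matMk_one] at h1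
  obtain ⟨h2, h3⟩ := matMk_injective h1
  refine ⟨h2, ?_⟩
  rwa [h2, mul_one] at h3

theorem level_right {L : IntermediateField ℚ (AlgebraicClosure ℚ)}
    (h : ∀ σ : GalQ, (∀ x ∈ L, σ x = x) → Mbar σ = 1 ∧ a.1 σ = 0) (σ τ : GalQ)
    (hτ : ∀ x ∈ L, τ x = x) : a.1 (σ * τ) = a.1 σ := by
  rw [a.2 σ τ, (h τ hτ).2]
  simp

theorem natCast_p {p : ℕ} (hp : (p : 𝒪) ∈ maximalIdeal 𝒪) : (p : ResidueField 𝒪) = 0 := by
  rw [← map_natCast (residue 𝒪), residue_eq_zero_iff]
  exact hp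

theorem two_ne_zero_of_odd {p : ℕ} (hp : p.Prime) (hp2 : p ≠ 2) (hpk : (p : ResidueField 𝒪) = 0) :
    (2 : ResidueField 𝒪) ≠ 0 := by
  intro h
  have hodd : Odd p := hp.odd_of_ne_two hp2
  obtain ⟨m, hm⟩ := hodd
  rw [hm] at hpk
  push_cast at hpk
  rw [h, zero_mul, zero_add] at hpk
  exact one_ne_zero hpk

theorem natCast_dual_eq_zero {p : ℕ} (hpk : (p : ResidueField 𝒪) = 0) : ((p : ℕ) : Dual 𝒪) = 0 := by
  rw [natCast_dual, hpk]
  exact dual_ext (by simp) (by simp)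

/-- `DetIsCyclotomic` forces the cocycle to be traceless. -/
theorem trace_eq_zero {p : ℕ} (hp : p.Prime) (hpk : (p : ResidueField 𝒪) = 0)
    (hM : IsModel ρ (dualRep Mbar a)) (hdet : ρ.DetIsCyclotomic p) (σ : GalQ) :
    (a.1 σ).trace = 0 := by
  obtain ⟨b, hb⟩ := hM
  obtain ⟨c, hc⟩ := DefCond.exists_cyc hp 1 σ
  have h1 := hdet.2 1 σ c hc
  rw [pow_one, natCast_dual_eq_zero hpk, Ideal.span_singleton_eq_bot.mpr rfl, Ideal.mem_bot,
    sub_eq_zero] at h1
  have h2 : (dualRep Mbar a σ).det = (c : Dual 𝒪) := by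
    rw [← hb, LinearMap.det_toMatrix, h1]
  rw [dualRep_apply, det_matMk, natCast_dual] at h2
  have h3 : (a.1 σ).trace * (Mbar σ).det = 0 := by
    have := congrArg dsnd h2
    simpa using this
  refine (mul_eq_zero.mp h3).resolve_right ?_
  intro h0
  have : (Mbar σ * Mbar σ⁻¹).det = 1 := by rw [mul_inv_rep, Matrix.det_one]
  rw [Matrix.det_mul, h0, zero_mul] at this
  exact zero_ne_one this

theorem rep_eq_one_of {σ : GalQ} (hM : IsModel ρ (dualRep Mbar a)) (h : ρ.ρ σ = 1) :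
    Mbar σ = 1 ∧ a.1 σ = 0 := by
  obtain ⟨b, hb⟩ := hM
  have h1 : dualRep Mbar a σ = 1 := by
    rw [← hb, h]; exact LinearMap.toMatrix_one b
  rw [dualRep_apply, ← matMk_one] at h1
  obtain ⟨h2, h3⟩ := matMk_injective h1
  exact ⟨h2, by rwa [h2, mul_one] at h3⟩

/-- Unramified deformations have cocycle vanishing on inertia. -/
theorem eq_zero_of_unramified {q : ℕ} (hM : IsModel ρ (dualRep Mbar a)) (h : ρ.IsUnramifiedAt q)
    (P : ValuationSubring (AlgebraicClosure ℚ)) (hP : P.LiesOverPrime q) (σ : GalQ)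
    (hσ : σ ∈ P.inertiaSubgroupIn ℚ) : a.1 σ = 0 :=
  (rep_eq_one_of hM (h P hP σ hσ)).2

theorem charpoly_dualRep (hM : IsModel ρ (dualRep Mbar a)) (σ : GalQ) :
    (dualRep Mbar a σ).charpoly = LinearMap.charpoly (ρ.ρ σ) := by
  obtain ⟨b, hb⟩ := hM
  rw [← hb, LinearMap.charpoly_toMatrix]

theorem sq_zero_of_charpoly {R : Type*} [CommRing R] {M : Matrix (Fin 2) (Fin 2) R}
    (h : M.charpoly = (Polynomial.X - 1) ^ 2) : (M - 1) * (M - 1) = 0 := by
  have h1 := Matrix.aeval_self_charpoly M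
  rw [h, map_pow, map_sub, Polynomial.aeval_X, map_one, pow_two] at h1
  exact h1

theorem trace_of_charpoly {R : Type*} [CommRing R] [Nontrivial R] {M : Matrix (Fin 2) (Fin 2) R}
    (h : M.charpoly = (Polynomial.X - 1) ^ 2) : M.trace = 2 := by
  rw [Matrix.charpoly_fin_two] at h
  have h1 := congrArg (fun f => Polynomial.coeff f 1) h
  have e : ((Polynomial.X - 1) ^ 2 : Polynomial R) =
      Polynomial.X ^ 2 - Polynomial.C 2 * Polynomial.X + Polynomial.C 1 := by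
    simp only [Polynomial.C_1, map_ofNat]; ring
  rw [e] at h1
  simp [Polynomial.coeff_X, Polynomial.coeff_C, Polynomial.coeff_one] at h1
  exact h1

theorem one_add_pow {R : Type*} [Ring R] (N : R) (hN : N * N = 0) (m : ℕ) :
    (1 + N) ^ m = 1 + m • N := by
  induction m with
  | zero => simp
  | succ m ih =>
    rw [pow_succ, ih, succ_nsmul]
    have : m • N * N = 0 := by rw [smul_mul_assoc, hN, smul_zero]
    rw [mul_add, mul_one, add_mul, one_mul, this, add_zero]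
    abel

/-- A cocycle which vanishes at `τ` vanishes at all powers of `τ`. -/
theorem cocycle_pow {b : GalQ → Matrix (Fin 2) (Fin 2) (ResidueField 𝒪)} (hb : b ∈ adCocycle Mbar)
    {τ : GalQ} (hτ : b τ = 0) (n : ℕ) : b (τ ^ n) = 0 := by
  have h1 : b 1 = 0 := by
    have := hb 1 1
    simp only [mul_one, map_one, inv_one, one_mul] at this
    simpa using this.symm
  induction n with
  | zero => rw [pow_zero]; exact h1
  | succ n ih => rw [pow_succ, hb, ih, hτ]; simp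

/-- Unipotent inertia forces the cocycle to be a coboundary on inertia, when the residual
representation is ramified. -/
theorem exists_coboundary_of_unipotent [Finite (ResidueField 𝒪)] {p q : ℕ} (hp : p.Prime)
    (hp2 : p ≠ 2) (hpk : (p : ResidueField 𝒪) = 0) (hq : q.Prime) (hqp : q ≠ p)
    (hM : IsModel ρ (dualRep Mbar a)) (h : ρ.IsUnipotentOnInertiaAt q)
    (hram : ¬ ∀ P : ValuationSubring (AlgebraicClosure ℚ), P.LiesOverPrime q →
      ∀ σ ∈ P.inertiaSubgroupIn ℚ, Mbar σ = 1)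
    (P : ValuationSubring (AlgebraicClosure ℚ)) (hP : P.LiesOverPrime q) :
    ∃ X : Matrix (Fin 2) (Fin 2) (ResidueField 𝒪), X.trace = 0 ∧
      ∀ σ ∈ P.inertiaSubgroupIn ℚ, a.1 σ = adBoundary Mbar X σ := by
  have h2 := two_ne_zero_of_odd (𝒪 := 𝒪) hp hp2 hpk
  have hcp : ∀ σ ∈ P.inertiaSubgroupIn ℚ, (dualRep Mbar a σ).charpoly = (Polynomial.X - 1) ^ 2 :=
    fun σ hσ => (charpoly_dualRep hM σ).trans (h P hP σ hσ)
  have hsq : ∀ σ ∈ P.inertiaSubgroupIn ℚ,
      (dualRep Mbar a σ - 1) * (dualRep Mbar a σ - 1) = 0 := fun σ hσ =>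
    sq_zero_of_charpoly (hcp σ hσ)
  let f : GalQ →* (Matrix (Fin 2) (Fin 2) (Dual 𝒪))ˣ := MonoidHom.toHomUnits (dualRep Mbar a)
  have hf : ∀ σ, ((f σ : (Matrix (Fin 2) (Fin 2) (Dual 𝒪))ˣ) : Matrix (Fin 2) (Fin 2) (Dual 𝒪)) =
      dualRep Mbar a σ := fun σ => rfl
  obtain ⟨L, hL, hLf⟩ := (hM.mcont).factors
  obtain ⟨τ, hτ, hgen⟩ := Tame.exists_tame_generator hq hP f ⟨L, hL, fun σ hσ => Units.ext (hLf σ hσ)⟩
    (p := p) ((Nat.coprime_primes hp hq).mpr (Ne.symm hqp)) (by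
      intro σ hσ
      apply Units.ext
      rw [Units.val_pow_eq_pow_val, hf, Units.val_one]
      have e : dualRep Mbar a σ = 1 + (dualRep Mbar a σ - 1) := by abel
      rw [e, one_add_pow _ (by simpa using hsq σ hσ) p, ← Nat.cast_smul_eq_nsmul (Dual 𝒪),
        natCast_dual_eq_zero hpk, zero_smul, add_zero])
  -- the generator is nontrivial residually
  have hτ1 : Mbar τ ≠ 1 := by
    intro h1
    apply hram
    intro P' hP' σ hσ
    obtain ⟨g, rfl⟩ := FrobExists.exists_smul_eq P P' hq hP hP'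
    have h3 : g⁻¹ * σ * g⁻¹⁻¹ ∈ (g⁻¹ • (g • P)).inertiaSubgroupIn ℚ := Place.mem_inertia_conj g⁻¹ hσ
    rw [inv_smul_smul] at h3
    obtain ⟨n, hn⟩ := hgen _ h3
    have h4 := congrArg Units.val hn
    rw [Units.val_pow_eq_pow_val, hf, hf, ← map_pow] at h4
    have h5 : Mbar (g⁻¹ * σ * g⁻¹⁻¹) = Mbar (τ ^ n) := by
      rw [dualRep_apply, dualRep_apply] at h4
      exact (matMk_injective h4).1
    rw [map_pow, h1, one_pow, map_mul, map_mul, inv_inv] at h5
    calc Mbar σ = (Mbar g * Mbar g⁻¹) * Mbar σ * (Mbar g * Mbar g⁻¹) := by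
          rw [mul_inv_rep, one_mul, mul_one]
      _ = Mbar g * (Mbar g⁻¹ * Mbar σ * Mbar g) * Mbar g⁻¹ := by simp only [mul_assoc]
      _ = 1 := by rw [h5, mul_one, mul_inv_rep]
  -- the nilpotent part
  set N₀ := Mbar τ - 1 with hN₀
  set N₁ := a.1 τ * Mbar τ with hN₁
  have hN : dualRep Mbar a τ - 1 = matMk N₀ N₁ := by
    rw [dualRep_apply, ← matMk_one, matMk_sub, sub_zero]
  have hNN := hsq τ hτ
  rw [hN, matMk_mul] at hNN
  have h00 : matMk (𝒪 := 𝒪) 0 0 = 0 := by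
    ext i j; exact dual_ext (by simp [matMk]) (by simp [matMk])
  rw [← h00] at hNN
  obtain ⟨hsq0, hmix⟩ := matMk_injective hNN
  have htr := trace_of_charpoly (hcp τ hτ)
  rw [dualRep_apply, trace_matMk] at htr
  have h2d : (2 : Dual 𝒪) = dmk 2 0 := by
    have := natCast_dual (𝒪 := 𝒪) 2
    exact_mod_cast this
  rw [h2d] at htr
  have htr0 : N₀.trace = 0 := by
    have := congrArg dfst htr
    simp only [UDef.dfst_dmk] at this
    rw [hN₀, Matrix.trace_sub, this, Matrix.trace_one, Fintype.card_fin]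
    norm_num
  have htr1 : N₁.trace = 0 := by
    have := congrArg dsnd htr
    simpa using this
  obtain ⟨X, hXtr, hX⟩ := exists_commutator h2 N₀ N₁ (sub_ne_zero.mpr hτ1) htr0 hsq0 htr1 hmix
  refine ⟨X, hXtr, fun σ hσ => ?_⟩
  have hb : a.1 - adBoundary Mbar X ∈ adCocycle Mbar :=
    Submodule.sub_mem _ a.2 (adCobound_le Mbar ⟨X, rfl⟩)
  have hbτ : (a.1 - adBoundary Mbar X) τ = 0 := by
    have h3 : a.1 τ * Mbar τ = X * Mbar τ - Mbar τ * X := by
      rw [← hN₁, ← hX, hN₀]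
      simp only [mul_sub, sub_mul, mul_one, one_mul]
      abel
    rw [Pi.sub_apply, adBoundary_apply]
    have h4 : a.1 τ = a.1 τ * Mbar τ * Mbar τ⁻¹ := by rw [mul_assoc, mul_inv_rep, mul_one]
    rw [h4, h3, sub_mul, mul_assoc, mul_inv_rep, mul_one, sub_self]
  obtain ⟨n, hn⟩ := hgen σ hσ
  have h4 := congrArg Units.val hn
  rw [Units.val_pow_eq_pow_val, hf, hf, ← map_pow] at h4
  rw [dualRep_apply, dualRep_apply] at h4
  obtain ⟨h5, h6⟩ := matMk_injective h4
  have h7 : a.1 σ = a.1 (τ ^ n) := by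
    rw [h5] at h6
    calc a.1 σ = a.1 σ * Mbar (τ ^ n) * Mbar (τ ^ n)⁻¹ := by rw [mul_assoc, mul_inv_rep, mul_one]
      _ = a.1 (τ ^ n) * Mbar (τ ^ n) * Mbar (τ ^ n)⁻¹ := by rw [h6]
      _ = a.1 (τ ^ n) := by rw [mul_assoc, mul_inv_rep, mul_one]
  have h8 := cocycle_pow hb hbτ n
  rw [Pi.sub_apply, sub_eq_zero, ← h7] at h8
  rw [h8, adBoundary_apply, adBoundary_apply, ← h5]
  have h9 : Mbar σ⁻¹ = Mbar (τ ^ n)⁻¹ := by
    calc Mbar σ⁻¹ = Mbar σ⁻¹ * (Mbar (τ ^ n) * Mbar (τ ^ n)⁻¹) := by rw [mul_inv_rep, mul_one]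
      _ = (Mbar σ⁻¹ * Mbar σ) * Mbar (τ ^ n)⁻¹ := by rw [← h5, mul_assoc]
      _ = Mbar (τ ^ n)⁻¹ := by rw [inv_mul_rep, one_mul]
  rw [h9]

/-- A line (spanned by `u`) for the residual representation as in the strictly ordinary
condition. -/
structure OrdLine (Mbar : GalQ →* Matrix (Fin 2) (Fin 2) (ResidueField 𝒪)) (p : ℕ)
    (P : ValuationSubring (AlgebraicClosure ℚ)) (u : Fin 2 → ResidueField 𝒪) : Prop where
  ne_zero : u ≠ 0
  inertia : ∀ σ ∈ P.inertiaSubgroupIn ℚ, ∀ v, ∃ s : ResidueField 𝒪, Mbar σ *ᵥ v - v = s • u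
  decomp : ∀ σ ∈ P.decompositionSubgroup ℚ, ∃ x z : ResidueField 𝒪, Mbar σ *ᵥ u = x • u ∧
    (∀ v, ∃ s : ResidueField 𝒪, Mbar σ *ᵥ v - z • v = s • u) ∧
    ∀ c : ℕ, (∀ μ : AlgebraicClosure ℚ, μ ^ p ^ 1 = 1 → σ μ = μ ^ c) → x = c * z

theorem mulVec_matMk (X Y : Matrix (Fin 2) (Fin 2) (ResidueField 𝒪)) (w : Fin 2 → Dual 𝒪)
    (i : Fin 2) : (matMk X Y *ᵥ w) i = dmk ((X *ᵥ (fun j => dfst (w j))) i)
      ((X *ᵥ (fun j => dsnd (w j))) i + (Y *ᵥ (fun j => dfst (w j))) i) := by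
  simp only [Matrix.mulVec, dotProduct, Fin.sum_univ_two, matMk, Matrix.of_apply]
  apply dual_ext
  · simp
  · simp; ring

theorem det_ne_zero_rep (σ : GalQ) : (Mbar σ).det ≠ 0 := by
  intro h0
  have : (Mbar σ * Mbar σ⁻¹).det = 1 := by rw [mul_inv_rep, Matrix.det_one]
  rw [Matrix.det_mul, h0, zero_mul] at this
  exact zero_ne_one this

/-- The strictly ordinary condition in terms of cocycles. -/
theorem exists_ordLine {p : ℕ} (hp : p.Prime)
    (hp2 : p ≠ 2) (hpk : (p : ResidueField 𝒪) = 0) (hM : IsModel ρ (dualRep Mbar a))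
    (h : ρ.IsStrictOrdinaryAt p) (htr : ∀ σ, (a.1 σ).trace = 0)
    (P : ValuationSubring (AlgebraicClosure ℚ)) (hP : P.LiesOverPrime p) :
    ∃ u, OrdLine Mbar p P u ∧ ∃ X : Matrix (Fin 2) (Fin 2) (ResidueField 𝒪), X.trace = 0 ∧
      ∀ σ ∈ P.decompositionSubgroup ℚ, (a.1 σ - adBoundary Mbar X σ) *ᵥ u = 0 ∧
        ∀ v, ∃ s : ResidueField 𝒪, (a.1 σ - adBoundary Mbar X σ) *ᵥ v = s • u := by
  have h2 := two_ne_zero_of_odd (𝒪 := 𝒪) hp hp2 hpk
  obtain ⟨b, hb⟩ := hM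
  obtain ⟨L, ⟨b', hL⟩, hLD, hLI, hLz⟩ := h.2 P hP
  have hact : ∀ σ v, b.equivFun (ρ.ρ σ v) = dualRep Mbar a σ *ᵥ b.equivFun v := by
    intro σ v
    rw [← hb, Module.Basis.equivFun_apply, Module.Basis.equivFun_apply]
    exact (LinearMap.toMatrix_mulVec_repr b b (ρ.ρ σ) v).symm
  set w : Fin 2 → Dual 𝒪 := b.equivFun (b' 0) with hw
  set u₀ : Fin 2 → ResidueField 𝒪 := fun i => dfst (w i) with hu₀
  set u₁ : Fin 2 → ResidueField 𝒪 := fun i => dsnd (w i) with hu₁
  have hLmem : ∀ v : ρ.V, v ∈ L ↔ ∃ s : Dual 𝒪, b.equivFun v = s • w := by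
    intro v
    rw [hL, Submodule.mem_span_singleton]
    constructor
    · rintro ⟨s, rfl⟩
      exact ⟨s, by rw [map_smul]⟩
    · rintro ⟨s, hs⟩
      exact ⟨s, b.equivFun.injective (by rw [map_smul, hs])⟩
  have hu0 : u₀ ≠ 0 := by
    intro h0
    have h1 : dmk (𝒪 := 𝒪) 0 1 • b' 0 = 0 := by
      apply b.equivFun.injective
      have e1 : b.equivFun (dmk (𝒪 := 𝒪) 0 1 • b' 0) = dmk (𝒪 := 𝒪) 0 1 • w := map_smul _ _ _
      have e2 : b.equivFun (0 : ρ.V) = 0 := LinearEquiv.map_zero _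
      rw [e1, e2]
      funext i
      have h3 : dfst (w i) = 0 := congrFun h0 i
      show dmk 0 1 * w i = 0
      apply dual_ext
      · show dfst (dmk (𝒪 := 𝒪) 0 1 * w i) = 0
        rw [UDef.dfst_mul, h3, mul_zero]
      · show dsnd (dmk (𝒪 := 𝒪) 0 1 * w i) = 0
        rw [UDef.dsnd_mul, h3]
        simp
    have h3 : dmk (𝒪 := 𝒪) 0 1 = 0 := by
      have h4 := congrArg (fun v => b'.repr v 0) h1
      have e1 : b'.repr (dmk (𝒪 := 𝒪) 0 1 • b' 0) = dmk (𝒪 := 𝒪) 0 1 • b'.repr (b' 0) :=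
        map_smul _ _ _
      have e2 : b'.repr (0 : ρ.V) = 0 := LinearEquiv.map_zero _
      simp only [e1, e2] at h4
      rw [Module.Basis.repr_self, Finsupp.smul_apply, Finsupp.single_eq_same, smul_eq_mul,
        mul_one] at h4
      exact h4
    have := congrArg dsnd h3
    rw [UDef.dsnd_dmk] at this
    exact one_ne_zero this
  -- unfold the conditions
  have hD : ∀ σ ∈ P.decompositionSubgroup ℚ, ∃ x₀ x₁ z₀ z₁ : ResidueField 𝒪,
      Mbar σ *ᵥ u₀ = x₀ • u₀ ∧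
      Mbar σ *ᵥ u₁ + (a.1 σ * Mbar σ) *ᵥ u₀ = x₀ • u₁ + x₁ • u₀ ∧
      (∀ v, ∃ s₀ s₁ : ResidueField 𝒪, Mbar σ *ᵥ v - z₀ • v = s₀ • u₀ ∧
        (a.1 σ * Mbar σ) *ᵥ v - z₁ • v = s₀ • u₁ + s₁ • u₀) ∧
      ∀ c : ℕ, (∀ μ : AlgebraicClosure ℚ, μ ^ p ^ 1 = 1 → σ μ = μ ^ c) →
        x₀ = c * z₀ ∧ x₁ = c * z₁ := by
    intro σ hσ
    obtain ⟨x, z, hx, hz, hxz⟩ := hLz σ hσ
    refine ⟨dfst x, dsnd x, dfst z, dsnd z, ?_, ?_, ?_, ?_⟩
    · have h1 := hx (b' 0) ((hLmem _).mpr ⟨1, by rw [one_smul]⟩)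
      have h3 := congrArg b.equivFun h1
      rw [hact, map_smul, dualRep_apply] at h3
      funext i
      have h4 := congrArg dfst (congrFun h3 i)
      rw [mulVec_matMk, UDef.dfst_dmk] at h4
      rw [h4]
      simp [hw, hu₀]
    · have h1 := hx (b' 0) ((hLmem _).mpr ⟨1, by rw [one_smul]⟩)
      have h3 := congrArg b.equivFun h1
      rw [hact, map_smul, dualRep_apply] at h3
      funext i
      have h4 := congrArg dsnd (congrFun h3 i)
      rw [mulVec_matMk, UDef.dsnd_dmk] at h4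
      have h5 : dsnd ((x • b.equivFun (b' 0)) i) = dfst x * u₁ i + u₀ i * dsnd x := by
        show dsnd (x * w i) = _
        simp [hu₀, hu₁]
      rw [h5] at h4
      simp only [Pi.add_apply, Pi.smul_apply, smul_eq_mul]
      rw [h4]; ring
    · intro v
      let v' : ρ.V := b.equivFun.symm (fun i => dmk (v i) 0)
      obtain ⟨s, hs⟩ := (hLmem _).mp (hz v')
      refine ⟨dfst s, dsnd s, ?_, ?_⟩
      · funext i
        have h3 := congrArg dfst (congrFun hs i)
        rw [map_sub, map_smul, hact, dualRep_apply, LinearEquiv.apply_symm_apply] at h3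
        simp only [Pi.sub_apply, Pi.smul_apply, sub_eq_add_neg, UDef.dfst_add] at h3
        rw [mulVec_matMk, UDef.dfst_dmk] at h3
        have e1 : ∀ y : Dual 𝒪, dfst (-y) = - dfst y := fun y => rfl
        rw [e1] at h3
        simpa [hu₀, sub_eq_add_neg] using h3
      · funext i
        have h3 := congrArg dsnd (congrFun hs i)
        rw [map_sub, map_smul, hact, dualRep_apply, LinearEquiv.apply_symm_apply] at h3
        simp only [Pi.sub_apply, Pi.smul_apply, sub_eq_add_neg, UDef.dsnd_add] at h3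
        rw [mulVec_matMk, UDef.dsnd_dmk] at h3
        have e1 : ∀ y : Dual 𝒪, dsnd (-y) = - dsnd y := fun y => rfl
        rw [e1] at h3
        have e2 : (Mbar σ *ᵥ fun j => dsnd (dmk (𝒪 := 𝒪) (v j) 0)) i = 0 := by
          simp [Matrix.mulVec, dotProduct]
        rw [e2] at h3
        simp only [UDef.dfst_dmk, smul_eq_mul, UDef.dsnd_mul, UDef.dsnd_dmk] at h3
        simp only [Pi.sub_apply, Pi.add_apply, Pi.smul_apply, smul_eq_mul, hu₀, hu₁]
        linear_combination h3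
    · intro c hc
      have h1 := hxz 1 c hc
      rw [pow_one, natCast_dual_eq_zero hpk, Ideal.span_singleton_eq_bot.mpr rfl, Ideal.mem_bot,
        sub_eq_zero, natCast_dual] at h1
      rw [h1]
      simp
  obtain ⟨X, hXtr, hX⟩ := exists_traceless u₀ u₁ hu0
  refine ⟨u₀, ⟨hu0, ?_, ?_⟩, X, hXtr, ?_⟩
  · intro σ hσ v
    let v' : ρ.V := b.equivFun.symm (fun i => dmk (v i) 0)
    obtain ⟨s, hs⟩ := (hLmem _).mp (hLI σ hσ v')
    refine ⟨dfst s, ?_⟩
    funext i
    have h3 := congrArg dfst (congrFun hs i)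
    rw [map_sub, hact, dualRep_apply, LinearEquiv.apply_symm_apply] at h3
    simp only [Pi.sub_apply, Pi.smul_apply, sub_eq_add_neg, UDef.dfst_add] at h3
    rw [mulVec_matMk, UDef.dfst_dmk] at h3
    have e1 : ∀ y : Dual 𝒪, dfst (-y) = - dfst y := fun y => rfl
    rw [e1] at h3
    simpa [hu₀, sub_eq_add_neg] using h3
  · intro σ hσ
    obtain ⟨x₀, x₁, z₀, z₁, h1, -, h3, h4⟩ := hD σ hσ
    refine ⟨x₀, z₀, h1, fun v => ?_, fun c hc => (h4 c hc).1⟩
    obtain ⟨s₀, -, hs, -⟩ := h3 v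
    exact ⟨s₀, hs⟩
  · intro σ hσ
    obtain ⟨x₀, x₁, z₀, z₁, h1, h1', h3, h4⟩ := hD σ hσ
    obtain ⟨c, hc⟩ := DefCond.exists_cyc hp 1 σ
    obtain ⟨h5, h6⟩ := h4 c hc
    set M := Mbar σ with hMdef
    set Y := a.1 σ - adBoundary Mbar X σ with hY
    have hYM : Y * M = a.1 σ * M + M * X - X * M := by
      rw [hY, adBoundary_apply, sub_mul, sub_mul, ← hMdef, mul_assoc (M * X), inv_mul_rep, mul_one]
      abel
    have hdet : M.det ≠ 0 := det_ne_zero_rep σ
    have hMinj : ∀ v, M *ᵥ v = 0 → v = 0 := fun v hv =>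
      Matrix.eq_zero_of_mulVec_eq_zero hdet hv
    have hx0 : x₀ ≠ 0 := by
      intro h0
      rw [h0, zero_smul] at h1
      exact hu0 (hMinj _ h1)
    have hz0 : z₀ ≠ 0 := by
      intro h0
      rw [h0, mul_zero] at h5
      exact hx0 h5
    -- action on u₀
    have hYu : Y *ᵥ u₀ = (x₁ / x₀) • u₀ := by
      have e1 : (Y * M) *ᵥ u₀ = x₁ • u₀ := by
        rw [hYM, Matrix.sub_mulVec, Matrix.add_mulVec, ← Matrix.mulVec_mulVec u₀ M X,
          ← Matrix.mulVec_mulVec u₀ X M, hX, h1, Matrix.mulVec_smul, hX]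
        have := h1'
        rw [add_comm] at this
        rw [this]
        abel
      rw [← Matrix.mulVec_mulVec, h1, Matrix.mulVec_smul] at e1
      have : Y *ᵥ u₀ = x₀⁻¹ • (x₀ • (Y *ᵥ u₀)) := by rw [smul_smul, inv_mul_cancel₀ hx0, one_smul]
      rw [this, e1, smul_smul, div_eq_inv_mul]
    have hYv : ∀ v, ∃ s : ResidueField 𝒪, Y *ᵥ v - (z₁ / z₀) • v = s • u₀ := by
      intro v
      obtain ⟨s₀, s₁, hs1, hs2⟩ := h3 v
      obtain ⟨t₀, t₁, ht1, -⟩ := h3 (X *ᵥ v)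
      have e1 : M *ᵥ v = z₀ • v + s₀ • u₀ := by rw [← hs1]; abel
      have e2 : (Y * M) *ᵥ v = z₁ • v + (s₁ + t₀) • u₀ := by
        rw [hYM, Matrix.sub_mulVec, Matrix.add_mulVec, ← Matrix.mulVec_mulVec v M X,
          ← Matrix.mulVec_mulVec v X M, e1, Matrix.mulVec_add, Matrix.mulVec_smul,
          Matrix.mulVec_smul, hX]
        have e3 : (a.1 σ * M) *ᵥ v = z₁ • v + (s₀ • u₁ + s₁ • u₀) := by rw [← hs2]; abel
        have e4 : M *ᵥ (X *ᵥ v) = z₀ • (X *ᵥ v) + t₀ • u₀ := by rw [← ht1]; abel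
        rw [e3, e4, add_smul]
        abel
      rw [← Matrix.mulVec_mulVec, e1, Matrix.mulVec_add, Matrix.mulVec_smul, Matrix.mulVec_smul,
        hYu] at e2
      refine ⟨z₀⁻¹ * (s₁ + t₀ - s₀ * (x₁ / x₀)), ?_⟩
      have e3 : z₀ • (Y *ᵥ v) = z₁ • v + (s₁ + t₀ - s₀ * (x₁ / x₀)) • u₀ := by
        rw [sub_smul, mul_smul, ← add_sub_assoc, ← e2]; abel
      have e4 : Y *ᵥ v = z₀⁻¹ • (z₀ • (Y *ᵥ v)) := by rw [smul_smul, inv_mul_cancel₀ hz0, one_smul]
      have e5 : z₁ / z₀ = z₀⁻¹ * z₁ := div_eq_inv_mul _ _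
      rw [e4, e3, smul_add, smul_smul, smul_smul, e5]
      abel
    -- the two ratios agree
    have hratio : x₁ / x₀ = z₁ / z₀ := by
      have hc0 : (c : ResidueField 𝒪) ≠ 0 := by
        intro h0; rw [h0, zero_mul] at h5; exact hx0 h5
      rw [h5, h6, mul_div_mul_left _ _ hc0]
    set t := z₁ / z₀ with ht
    rw [hratio] at hYu
    have hYtr : Y.trace = 0 := by
      rw [hY, Matrix.trace_sub, htr, adBoundary_apply, Matrix.trace_sub, Matrix.trace_mul_comm,
        ← mul_assoc, inv_mul_rep, one_mul]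
      simp
    have ht0 : t = 0 := by
      have h7 : (Y - t • (1 : Matrix (Fin 2) (Fin 2) (ResidueField 𝒪))).trace = 0 := by
        refine trace_eq_zero_of_line _ u₀ hu0 ?_ fun v => ?_
        · rw [Matrix.sub_mulVec, Matrix.smul_mulVec, Matrix.one_mulVec, hYu, sub_self]
        · obtain ⟨s, hs⟩ := hYv v
          exact ⟨s, by rw [Matrix.sub_mulVec, Matrix.smul_mulVec, Matrix.one_mulVec, hs]⟩
      rw [Matrix.trace_sub, hYtr, Matrix.trace_smul, Matrix.trace_one, Fintype.card_fin,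
        zero_sub, neg_eq_zero, smul_eq_mul] at h7
      have h8 : ((2 : ℕ) : ResidueField 𝒪) ≠ 0 := by exact_mod_cast h2
      exact (mul_eq_zero.mp h7).resolve_right h8
    rw [ht0] at hYu hYv
    refine ⟨by rw [hYu, zero_smul], fun v => ?_⟩
    obtain ⟨s, hs⟩ := hYv v
    exact ⟨s, by rw [← hs, zero_smul, sub_zero]⟩

/-- uniqueness of the ordinary line -/
theorem OrdLine.unique {p : ℕ} (hp : p.Prime) (hp2 : p ≠ 2)
    {ρbar : ResidualGaloisRep (ResidueField 𝒪)} (hbar : IsModelR ρbar Mbar)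
    (hdet : (GaloisRepAdic.ofResidualGaloisRep ρbar).DetIsCyclotomic p)
    {P : ValuationSubring (AlgebraicClosure ℚ)} (hP : P.LiesOverPrime p)
    {u u' : Fin 2 → ResidueField 𝒪} (h : OrdLine Mbar p P u) (h' : OrdLine Mbar p P u') :
    ∃ s : ResidueField 𝒪, u' = s • u := by
  obtain ⟨σ, hσ, c, hc, hc1⟩ := DefCond.inertiaCyc hp hp2 P hP
  have h1 := DefCond.isUnit_det_sub_one hp hdet hc hc1
  have h2 : (Mbar σ).det ≠ 1 := by
    intro h0
    obtain ⟨b, hb⟩ := hbar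
    have h3 : LinearMap.det ((GaloisRepAdic.ofResidualGaloisRep ρbar).ρ σ) = 1 := by
      rw [← h0, ← hb, LinearMap.det_toMatrix]; rfl
    rw [h3, sub_self] at h1
    exact not_isUnit_zero h1
  have h3 : Mbar σ ≠ 1 := by
    intro h0; rw [h0, Matrix.det_one] at h2; exact h2 rfl
  -- some vector is moved
  obtain ⟨v, hv⟩ : ∃ v, Mbar σ *ᵥ v - v ≠ 0 := by
    by_contra! hall
    apply h3
    apply Matrix.toLin'.injective
    refine LinearMap.ext fun v => ?_
    rw [Matrix.toLin'_apply, Matrix.toLin'_apply, Matrix.one_mulVec]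
    exact sub_eq_zero.mp (hall v)
  obtain ⟨s, hs⟩ := h.inertia σ hσ v
  obtain ⟨s', hs'⟩ := h'.inertia σ hσ v
  have hs'0 : s' ≠ 0 := by
    rintro rfl
    rw [zero_smul] at hs'
    exact hv hs'
  refine ⟨s'⁻¹ * s, ?_⟩
  rw [mul_smul, ← hs, hs', smul_smul, inv_mul_cancel₀ hs'0, one_smul]

end localconds

end Fermat.Agent.TWP
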