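import Mathlib
import Fermat.Agent.TWP.TangentLocal

set_option autoImplicit false
set_option linter.style.haveILetI false
set_option linter.unusedSectionVars false
set_option linter.unusedSimpArgs false

/-!
The tangent space of a deformation condition as a space of adjoint cocycles, and the
final reduction of the power series surjection to a bound for a space of cocycles.
-/

namespace Fermat.Agent.TWP

open IsLocalRing Matrix Pointwise
open Fermat.Agent.UDef (GalQ IsModel IsModelR MCont ofMatrix isModel_ofMatrix mapRep Dual dmk dfst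
  dsnd CoefAlg toK dual_ext Good FP fpFst fpSnd prodRep)

section tangent

variable {𝒪 : Type} [CommRing 𝒪] [IsLocalRing 𝒪]
  {𝒟 : ∀ ⦃A : Type⦄ [CommRing A] [IsLocalRing A] [Algebra 𝒪 A], GaloisRepAdic A → Prop}
  {Mbar : GalQ →* Matrix (Fin 2) (Fin 2) (ResidueField 𝒪)}

theorem dualRep_lift (a : adCocycle Mbar) :
    mapRep (toK 𝒪 (Dual 𝒪) : Dual 𝒪 →+* ResidueField 𝒪) (dualRep Mbar a) = Mbar := by
  ext σ i j
  show toK 𝒪 (Dual 𝒪) (matMk (Mbar σ) _ i j) = Mbar σ i j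
  rw [UDef.toK_dual]
  simp [matMk]

/-- sum of tangent directions -/
noncomputable def fpAdd : FP 𝒪 (Dual 𝒪) (Dual 𝒪) →ₐ[𝒪] Dual 𝒪 where
  toFun x := dmk (dfst (x : Dual 𝒪 × Dual 𝒪).1)
    (dsnd (x : Dual 𝒪 × Dual 𝒪).1 + dsnd (x : Dual 𝒪 × Dual 𝒪).2)
  map_one' := dual_ext (by simp) (by simp)
  map_mul' x y := by
    have hx : dfst (x : Dual 𝒪 × Dual 𝒪).1 = dfst (x : Dual 𝒪 × Dual 𝒪).2 := by
      have := UDef.mem_FP (𝒪 := 𝒪) |>.mp x.2
      rwa [UDef.toK_dual, UDef.toK_dual] at this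
    have hy : dfst (y : Dual 𝒪 × Dual 𝒪).1 = dfst (y : Dual 𝒪 × Dual 𝒪).2 := by
      have := UDef.mem_FP (𝒪 := 𝒪) |>.mp y.2
      rwa [UDef.toK_dual, UDef.toK_dual] at this
    apply dual_ext
    · simp
    · simp only [UDef.dsnd_dmk, UDef.dsnd_mul, UDef.dfst_dmk, MulMemClass.coe_mul, Prod.fst_mul,
        Prod.snd_mul]
      rw [hx, hy]; ring
  map_zero' := dual_ext (by simp) (by simp)
  map_add' x y := by
    apply dual_ext
    · simp
    · simp only [UDef.dsnd_dmk, UDef.dsnd_add, AddMemClass.coe_add, Prod.fst_add, Prod.snd_add]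
      ring
  commutes' c := by
    apply dual_ext
    · simp only [UDef.dfst_dmk, UDef.dfst_algebraMap]
      exact UDef.dfst_algebraMap c
    · simp only [UDef.dsnd_dmk, UDef.dsnd_algebraMap]
      have h1 : dsnd (algebraMap 𝒪 (Dual 𝒪) c) = 0 := UDef.dsnd_algebraMap c
      show dsnd (algebraMap 𝒪 (Dual 𝒪) c) + dsnd (algebraMap 𝒪 (Dual 𝒪) c) = 0
      rw [h1, add_zero]

/-- scaling of tangent directions -/
noncomputable def dualScale (c : ResidueField 𝒪) : Dual 𝒪 →ₐ[𝒪] Dual 𝒪 where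
  toFun x := dmk (dfst x) (c * dsnd x)
  map_one' := dual_ext (by simp) (by simp)
  map_mul' x y := dual_ext (by simp) (by simp; ring)
  map_zero' := dual_ext (by simp) (by simp)
  map_add' x y := dual_ext (by simp) (by simp; ring)
  commutes' c := dual_ext (by simp) (by simp)

/-- inclusion of the residue field -/
noncomputable def dualIncl : ResidueField 𝒪 →ₐ[𝒪] Dual 𝒪 where
  toFun x := dmk x 0
  map_one' := dual_ext (by simp) (by simp)
  map_mul' x y := dual_ext (by simp) (by simp)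
  map_zero' := dual_ext (by simp) (by simp)
  map_add' x y := dual_ext (by simp) (by simp)
  commutes' c := dual_ext (by simp) (by simp)

theorem zero_mem_adCocycle : (0 : GalQ → Matrix (Fin 2) (Fin 2) (ResidueField 𝒪)) ∈
    adCocycle Mbar := (adCocycle Mbar).zero_mem

theorem good_zero [Finite (ResidueField 𝒪)] (h𝒟 : GaloisRep.IsDeformationCondition 𝒪 𝒟)
    (h0 : Good 𝒟 Mbar Mbar) : Good 𝒟 Mbar (dualRep Mbar ⟨0, zero_mem_adCocycle⟩) := by
  have h1 := h0.map h𝒟 (dualIncl (𝒪 := 𝒪))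
  have h2 : mapRep ((dualIncl (𝒪 := 𝒪) : ResidueField 𝒪 →ₐ[𝒪] Dual 𝒪) :
      ResidueField 𝒪 →+* Dual 𝒪) Mbar = dualRep Mbar ⟨0, zero_mem_adCocycle⟩ := by
    ext1 σ
    rw [dualRep_apply]
    have e : (0 : GalQ → Matrix (Fin 2) (Fin 2) (ResidueField 𝒪)) σ * Mbar σ = 0 := by
      rw [Pi.zero_apply, zero_mul]
    rw [e]
    rfl
  rwa [h2] at h1

theorem good_fp_map {A B C : Type} [CommRing A] [IsLocalRing A] [Algebra 𝒪 A] [CoefAlg 𝒪 A]
    [CommRing B] [IsLocalRing B] [Algebra 𝒪 B] [CoefAlg 𝒪 B]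
    [CommRing C] [IsLocalRing C] [Algebra 𝒪 C] [CoefAlg 𝒪 C] [Finite A] [Finite B] [Finite C]
    (h𝒟 : GaloisRep.IsDeformationCondition 𝒪 𝒟)
    {M : GalQ →* Matrix (Fin 2) (Fin 2) A} {M' : GalQ →* Matrix (Fin 2) (Fin 2) B}
    (hM : Good 𝒟 Mbar M) (hM' : Good 𝒟 Mbar M') (f : FP 𝒪 A B →ₐ[𝒪] C)
    (N : GalQ →* Matrix (Fin 2) (Fin 2) C)
    (hN : ∀ (x : FP 𝒪 A B) (σ : GalQ) (i j : Fin 2), (x : A × B) = (M σ i j, M' σ i j) →
      f x = N σ i j) : Good 𝒟 Mbar N := by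
  haveI : Finite (FP 𝒪 A B) :=
    Finite.of_injective (fun x : FP 𝒪 A B => (x : A × B)) Subtype.val_injective
  have h0 : mapRep (toK 𝒪 A : A →+* ResidueField 𝒪) M =
      mapRep (toK 𝒪 B : B →+* ResidueField 𝒪) M' := hM.lift.trans hM'.lift.symm
  have h1 : Good (A := FP 𝒪 A B) 𝒟 Mbar (prodRep M M' h0) := Good.of_fp h𝒟 hM hM'
  have h2 := h1.map h𝒟 f
  have h3 : mapRep (f : FP 𝒪 A B →+* C) (prodRep M M' h0) = N := by
    ext σ i j
    exact hN _ σ i j rfl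
  rwa [h3] at h2

theorem good_add [Finite (ResidueField 𝒪)] (h𝒟 : GaloisRep.IsDeformationCondition 𝒪 𝒟)
    {a b : GalQ → Matrix (Fin 2) (Fin 2) (ResidueField 𝒪)} (ha : a ∈ adCocycle Mbar)
    (hb : b ∈ adCocycle Mbar) (hab : a + b ∈ adCocycle Mbar)
    (ha' : Good 𝒟 Mbar (dualRep Mbar ⟨a, ha⟩)) (hb' : Good 𝒟 Mbar (dualRep Mbar ⟨b, hb⟩)) :
    Good 𝒟 Mbar (dualRep Mbar ⟨a + b, hab⟩) := by
  refine good_fp_map h𝒟 ha' hb' (fpAdd (𝒪 := 𝒪)) _ ?_
  intro x σ i j hx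
  show dmk (dfst (x : Dual 𝒪 × Dual 𝒪).1)
    (dsnd (x : Dual 𝒪 × Dual 𝒪).1 + dsnd (x : Dual 𝒪 × Dual 𝒪).2) = _
  rw [hx, dualRep_apply, dualRep_apply, dualRep_apply]
  have e : (a + b) σ * Mbar σ = a σ * Mbar σ + b σ * Mbar σ := by
    rw [Pi.add_apply, add_mul]
  rw [e]
  apply dual_ext <;> simp [matMk]

theorem good_smul [Finite (ResidueField 𝒪)] (h𝒟 : GaloisRep.IsDeformationCondition 𝒪 𝒟)
    {a : GalQ → Matrix (Fin 2) (Fin 2) (ResidueField 𝒪)} (c : ResidueField 𝒪)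
    (ha : a ∈ adCocycle Mbar) (hca : c • a ∈ adCocycle Mbar)
    (ha' : Good 𝒟 Mbar (dualRep Mbar ⟨a, ha⟩)) :
    Good 𝒟 Mbar (dualRep Mbar ⟨c • a, hca⟩) := by
  have h2 := ha'.map h𝒟 (dualScale c)
  have h3 : mapRep ((dualScale c : Dual 𝒪 →ₐ[𝒪] Dual 𝒪) : Dual 𝒪 →+* Dual 𝒪)
      (dualRep Mbar ⟨a, ha⟩) = dualRep Mbar ⟨c • a, hca⟩ := by
    ext1 σ
    rw [dualRep_apply]
    have e : (c • a) σ * Mbar σ = c • (a σ * Mbar σ) := by
      rw [Pi.smul_apply, Matrix.smul_mul]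
    rw [e]
    ext i j
    show dmk (dfst (matMk (Mbar σ) (a σ * Mbar σ) i j))
      (c * dsnd (matMk (Mbar σ) (a σ * Mbar σ) i j)) = _
    apply dual_ext <;> simp [matMk]
  rwa [h3] at h2

/-- The tangent cocycles of a deformation condition. -/
noncomputable def tangentSpace [Finite (ResidueField 𝒪)]
    (h𝒟 : GaloisRep.IsDeformationCondition 𝒪 𝒟) (h0 : Good 𝒟 Mbar Mbar) :
    Submodule (ResidueField 𝒪) (GalQ → Matrix (Fin 2) (Fin 2) (ResidueField 𝒪)) where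
  carrier := {a | ∃ ha : a ∈ adCocycle Mbar, Good 𝒟 Mbar (dualRep Mbar ⟨a, ha⟩)}
  zero_mem' := ⟨(adCocycle Mbar).zero_mem, good_zero h𝒟 h0⟩
  add_mem' := fun ⟨ha, ha'⟩ ⟨hb, hb'⟩ =>
    ⟨(adCocycle Mbar).add_mem ha hb, good_add h𝒟 ha hb _ ha' hb'⟩
  smul_mem' := fun c _ ⟨ha, ha'⟩ => ⟨(adCocycle Mbar).smul_mem c ha, good_smul h𝒟 c ha _ ha'⟩

theorem mem_tangentSpace [Finite (ResidueField 𝒪)]
    {h𝒟 : GaloisRep.IsDeformationCondition 𝒪 𝒟} {h0 : Good 𝒟 Mbar Mbar}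
    {a : GalQ → Matrix (Fin 2) (Fin 2) (ResidueField 𝒪)} :
    a ∈ tangentSpace h𝒟 h0 ↔ ∃ ha : a ∈ adCocycle Mbar, Good 𝒟 Mbar (dualRep Mbar ⟨a, ha⟩) :=
  Iff.rfl

theorem adCobound_le_tangentSpace [Finite (ResidueField 𝒪)]
    (h𝒟 : GaloisRep.IsDeformationCondition 𝒪 𝒟) (h0 : Good 𝒟 Mbar Mbar) :
    adCobound Mbar ≤ tangentSpace h𝒟 h0 := by
  rintro _ ⟨X, rfl⟩
  have h1 : adBoundary Mbar X ∈ adCocycle Mbar := adCobound_le Mbar ⟨X, rfl⟩
  refine ⟨h1, ?_⟩
  obtain ⟨hu, hconj⟩ := dualRep_conj Mbar ⟨adBoundary Mbar X, h1⟩ ⟨0, zero_mem_adCocycle⟩ X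
    (sub_zero (adBoundary Mbar X))
  exact (good_zero h𝒟 h0).conj _ hu hconj (dualRep_lift _)

/-- the space of coboundaries of an absolutely irreducible representation has dimension `3` -/
theorem finrank_adCobound (hspan : Submodule.span (ResidueField 𝒪) (Set.range Mbar) = ⊤) :
    Module.finrank (ResidueField 𝒪) (adCobound Mbar) = 3 := by
  have h1 := LinearMap.finrank_range_add_finrank_ker (adBoundary Mbar)
  have h2 : Module.finrank (ResidueField 𝒪) (Matrix (Fin 2) (Fin 2) (ResidueField 𝒪)) = 4 := by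
    rw [Module.finrank_matrix]; simp
  have h3 : LinearMap.ker (adBoundary Mbar) =
      Submodule.span (ResidueField 𝒪) {(1 : Matrix (Fin 2) (Fin 2) (ResidueField 𝒪))} := by
    ext X
    rw [LinearMap.mem_ker, Submodule.mem_span_singleton]
    constructor
    · intro hX
      have hcomm : ∀ Y, Y * X = X * Y := by
        intro Y
        have hY : Y ∈ Submodule.span (ResidueField 𝒪) (Set.range Mbar) := by
          rw [hspan]; trivial
        induction hY using Submodule.span_induction with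
        | mem Y h =>
          obtain ⟨σ, rfl⟩ := h
          have h4 := congrFun hX σ
          rw [adBoundary_apply, Pi.zero_apply, sub_eq_zero] at h4
          calc Mbar σ * X = Mbar σ * X * (Mbar σ⁻¹ * Mbar σ) := by rw [inv_mul_rep, mul_one]
            _ = (Mbar σ * X * Mbar σ⁻¹) * Mbar σ := by simp only [mul_assoc]
            _ = X * Mbar σ := by rw [← h4]
        | zero => simp
        | add Y Z _ _ h h' => rw [add_mul, mul_add, h, h']
        | smul c Y _ h => rw [Matrix.smul_mul, Matrix.mul_smul, h]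
      refine ⟨X 0 0, ?_⟩
      have e1 := congrFun (congrFun (hcomm (Matrix.single 0 1 1)) 0) 1
      have e2 := congrFun (congrFun (hcomm (Matrix.single 0 1 1)) 0) 0
      have e3 := congrFun (congrFun (hcomm (Matrix.single 1 0 1)) 0) 0
      simp [Matrix.mul_apply, Fin.sum_univ_two, Matrix.single_apply] at e1 e2 e3
      ext i j
      fin_cases i <;> fin_cases j
      · simp
      · simp [← e3]
      · simp [e2]
      · simp [e1]
    · rintro ⟨c, rfl⟩
      funext σ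
      rw [adBoundary_apply, Matrix.mul_smul, Matrix.smul_mul, mul_one, mul_inv_rep, sub_self]
      rfl
  have h4 : Module.finrank (ResidueField 𝒪) (LinearMap.ker (adBoundary Mbar)) = 1 := by
    rw [h3]
    exact finrank_span_singleton one_ne_zero
  have h5 : Module.finrank (ResidueField 𝒪) (adCobound Mbar) =
    Module.finrank (ResidueField 𝒪) (LinearMap.range (adBoundary Mbar)) := rfl
  omega

end tangent

section main

variable {𝒪 : Type} [CommRing 𝒪] [IsDomain 𝒪] [IsDiscreteValuationRing 𝒪]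
  [IsAdicComplete (maximalIdeal 𝒪) 𝒪] [Finite (ResidueField 𝒪)]
  {𝒟 : ∀ ⦃A : Type⦄ [CommRing A] [IsLocalRing A] [Algebra 𝒪 A], GaloisRepAdic A → Prop}
  {Mbar : GalQ →* Matrix (Fin 2) (Fin 2) (ResidueField 𝒪)}
  {ρbar : ResidualGaloisRep (ResidueField 𝒪)}

/-- If a universal ring exists then the residual representation itself is of type `𝒟`. -/
theorem good_residual (h𝒟 : GaloisRep.IsDeformationCondition 𝒪 𝒟)
    (hbar : IsModelR ρbar Mbar) (DQ : GaloisRep.DeformationRingData 𝒪 ρbar 𝒟) :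
    Good 𝒟 Mbar Mbar := by
  haveI : CoefAlg 𝒪 DQ.R := ⟨inferInstance, DQ.residue_surjective⟩
  obtain ⟨M, hM, hMl⟩ := UDef.exists_lift_of_residual hbar DQ.residual_isEquiv
  have h1 : 𝒟 (DQ.ρ.baseChangeAlong (toK 𝒪 DQ.R : DQ.R →+* ResidueField 𝒪)
    (UDef.isLocalHom_algHom (toK 𝒪 DQ.R))) := type_baseChange h𝒟 DQ.isOfType (toK 𝒪 DQ.R) _
  refine ⟨?_, _, ?_, h1⟩
  · have h2 : toK 𝒪 (ResidueField 𝒪) = AlgHom.id 𝒪 (ResidueField 𝒪) :=
      (UDef.toK_unique (𝒪 := 𝒪) (A := ResidueField 𝒪) (AlgHom.id 𝒪 (ResidueField 𝒪))).symm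
    rw [h2]; rfl
  · have h2 := hM.baseChangeAlong (toK 𝒪 DQ.R : DQ.R →+* ResidueField 𝒪)
      (UDef.isLocalHom_algHom (toK 𝒪 DQ.R))
    rwa [hMl] at h2

theorem type_residual (h𝒟 : GaloisRep.IsDeformationCondition 𝒪 𝒟)
    (hbar : IsModelR ρbar Mbar) (DQ : GaloisRep.DeformationRingData 𝒪 ρbar 𝒟) :
    𝒟 (GaloisRepAdic.ofResidualGaloisRep ρbar) :=
  (good_residual h𝒟 hbar DQ).type h𝒟 hbar.toAdic

/-- Reduction of the power series surjection to a bound on the tangent space. -/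
theorem exists_surjective_of_finrank (h𝒟 : GaloisRep.IsDeformationCondition 𝒪 𝒟)
    (hbar : IsModelR ρbar Mbar) (DQ : GaloisRep.DeformationRingData 𝒪 ρbar 𝒟) (r : ℕ)
    (hr : ∀ Z : Submodule (ResidueField 𝒪) (GalQ → Matrix (Fin 2) (Fin 2) (ResidueField 𝒪)),
      adCobound Mbar ≤ Z →
      (∀ a ∈ Z, ∃ ha : a ∈ adCocycle Mbar, Good 𝒟 Mbar (dualRep Mbar ⟨a, ha⟩)) →
      Module.Finite (ResidueField 𝒪) Z ∧ Module.finrank (ResidueField 𝒪) Z ≤ r + 3) :
    ∃ γ : MvPowerSeries (Fin r) 𝒪 →ₐ[𝒪] DQ.R, Function.Surjective γ := by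
  have h0 := good_residual h𝒟 hbar DQ
  set Z := tangentSpace h𝒟 h0 with hZ
  obtain ⟨hfin, hle⟩ := hr Z (adCobound_le_tangentSpace h𝒟 h0) (fun a ha => ha)
  have hspan := UDef.span_of_absIrr hbar DQ.absIrr
  have h3 : Module.finrank (ResidueField 𝒪) ((adCobound Mbar).comap Z.subtype) = 3 := by
    rw [← finrank_adCobound hspan]
    exact LinearEquiv.finrank_eq
      (Submodule.comapSubtypeEquivOfLe (adCobound_le_tangentSpace h𝒟 h0))
  refine exists_surjective_of_selmer h𝒟 hbar DQ Z ?_ r ?_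
  · intro a hc hD
    exact ⟨a.2, dualRep_lift a, _, isModel_ofMatrix _ hc, hD⟩
  · have h4 := Submodule.finrank_quotient_add_finrank ((adCobound Mbar).comap Z.subtype)
    omega

end main

end Fermat.Agent.TWP
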