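import Mathlib
import Fermat.Agent.TWP.TangentSpace

set_option autoImplicit false
set_option linter.style.haveILetI false
set_option linter.unusedSectionVars false
set_option linter.unusedSimpArgs false

/-!
The two deformation problems of `S56`, translated to explicit Selmer conditions on cocycles.
-/

namespace Fermat.Agent.TWP

open IsLocalRing Matrix Pointwise
open Fermat.Agent.UDef (GalQ IsModel IsModelR MCont ofMatrix isModel_ofMatrix mapRep Dual dmk dfst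
  dsnd CoefAlg toK dual_ext Good)

section conds

variable {𝒪 : Type} [CommRing 𝒪] [IsLocalRing 𝒪]

/-- The conditions away from `p` for a function `a` to be in the Selmer space. -/
structure SelCond (Mbar : GalQ →* Matrix (Fin 2) (Fin 2) (ResidueField 𝒪)) (p : ℕ)
    (Smin T : Finset ℕ) (a : GalQ → Matrix (Fin 2) (Fin 2) (ResidueField 𝒪)) : Prop where
  trace : ∀ σ, (a σ).trace = 0
  cocycle : ∀ σ τ, a (σ * τ) = a σ + Mbar σ * a τ * Mbar σ⁻¹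
  level : ∃ L : IntermediateField ℚ (AlgebraicClosure ℚ), FiniteDimensional ℚ L ∧
    ∀ σ τ : GalQ, (∀ x ∈ L, τ x = x) → Mbar τ = 1 ∧ a τ = 0 ∧ a (σ * τ) = a σ
  unram : ∀ q : ℕ, q.Prime → q ∉ Smin → q ∉ T →
    ∀ P : ValuationSubring (AlgebraicClosure ℚ), P.LiesOverPrime q →
      ∀ σ ∈ P.inertiaSubgroupIn ℚ, a σ = 0
  unip : ∀ q ∈ Smin, q.Prime → q ≠ p →
    ∀ P : ValuationSubring (AlgebraicClosure ℚ), P.LiesOverPrime q →
      ∃ X : Matrix (Fin 2) (Fin 2) (ResidueField 𝒪), X.trace = 0 ∧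
        ∀ σ ∈ P.inertiaSubgroupIn ℚ, a σ = adBoundary Mbar X σ

/-- The condition at `p` in the strictly ordinary case. -/
def SelOrd (Mbar : GalQ →* Matrix (Fin 2) (Fin 2) (ResidueField 𝒪)) (p : ℕ)
    (a : GalQ → Matrix (Fin 2) (Fin 2) (ResidueField 𝒪)) : Prop :=
  ∀ P : ValuationSubring (AlgebraicClosure ℚ), P.LiesOverPrime p →
    ∀ u : Fin 2 → ResidueField 𝒪, OrdLine Mbar p P u →
      ∃ X : Matrix (Fin 2) (Fin 2) (ResidueField 𝒪), X.trace = 0 ∧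
        ∀ σ ∈ P.decompositionSubgroup ℚ, (a σ - adBoundary Mbar X σ) *ᵥ u = 0 ∧
          ∀ v, ∃ s : ResidueField 𝒪, (a σ - adBoundary Mbar X σ) *ᵥ v = s • u

/-- The condition at `p` in the flat case. -/
def SelFlat (Mbar : GalQ →* Matrix (Fin 2) (Fin 2) (ResidueField 𝒪)) (p : ℕ)
    (a : GalQ → Matrix (Fin 2) (Fin 2) (ResidueField 𝒪)) : Prop :=
  ∃ (ha : a ∈ adCocycle Mbar) (ρ : GaloisRepAdic (Dual 𝒪)),
    IsModel ρ (dualRep Mbar ⟨a, ha⟩) ∧ ρ.IsFlatAt p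

end conds

section main

variable {𝒪 : Type} [CommRing 𝒪] [IsDomain 𝒪] [IsDiscreteValuationRing 𝒪]
  [IsAdicComplete (maximalIdeal 𝒪) 𝒪] [Finite (ResidueField 𝒪)]
  {Mbar : GalQ →* Matrix (Fin 2) (Fin 2) (ResidueField 𝒪)}
  {ρbar : ResidualGaloisRep (ResidueField 𝒪)}
  {p : ℕ} {Smin T : Finset ℕ}

theorem exists_ramified (hbar : IsModelR ρbar Mbar) {q : ℕ} (h : ¬ ρbar.IsUnramifiedAt q) :
    ¬ ∀ P : ValuationSubring (AlgebraicClosure ℚ), P.LiesOverPrime q →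
      ∀ σ ∈ P.inertiaSubgroupIn ℚ, Mbar σ = 1 := by
  intro h1
  apply h
  intro P hP σ hσ
  obtain ⟨b, hb⟩ := hbar
  apply (LinearMap.toMatrix b b).injective
  rw [hb, h1 P hP σ hσ]
  exact (LinearMap.toMatrix_one b).symm

theorem selCond_of_good (hp : p.Prime) (hp2 : p ≠ 2) (hp𝒪 : (p : 𝒪) ∈ maximalIdeal 𝒪)
    (hbar : IsModelR ρbar Mbar)
    (hmin : ∀ q : ℕ, q.Prime → q ≠ p → (q ∈ Smin ↔ ¬ ρbar.IsUnramifiedAt q))
    {a : GalQ → Matrix (Fin 2) (Fin 2) (ResidueField 𝒪)} (ha : a ∈ adCocycle Mbar)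
    {ρ : GaloisRepAdic (Dual 𝒪)} (hM : IsModel ρ (dualRep Mbar ⟨a, ha⟩))
    (hdet : ρ.DetIsCyclotomic p) (hur : ∀ q : ℕ, q.Prime → q ∉ Smin ∪ T → ρ.IsUnramifiedAt q)
    (hun : ∀ q ∈ Smin, q.Prime → q ≠ p → ρ.IsUnipotentOnInertiaAt q) :
    SelCond Mbar p Smin T a where
  trace := trace_eq_zero hp (natCast_p hp𝒪) hM hdet
  cocycle := ha
  level := by
    obtain ⟨L, hL, h⟩ := level_of_mcont hM.mcont
    exact ⟨L, hL, fun σ τ hτ => ⟨(h τ hτ).1, (h τ hτ).2, level_right h σ τ hτ⟩⟩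
  unram q hq h1 h2 P hP σ hσ :=
    eq_zero_of_unramified hM (hur q hq (by rw [Finset.mem_union]; tauto)) P hP σ hσ
  unip q hqS hq hqp P hP := exists_coboundary_of_unipotent hp hp2 (natCast_p hp𝒪) hq hqp hM
    (hun q hqS hq hqp) (exists_ramified hbar ((hmin q hq hqp).mp hqS)) P hP

theorem selOrd_of_good (hp : p.Prime) (hp2 : p ≠ 2) (hp𝒪 : (p : 𝒪) ∈ maximalIdeal 𝒪)
    (hbar : IsModelR ρbar Mbar)
    (hdet0 : (GaloisRepAdic.ofResidualGaloisRep ρbar).DetIsCyclotomic p)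
    {a : GalQ → Matrix (Fin 2) (Fin 2) (ResidueField 𝒪)} (ha : a ∈ adCocycle Mbar)
    {ρ : GaloisRepAdic (Dual 𝒪)} (hM : IsModel ρ (dualRep Mbar ⟨a, ha⟩))
    (hdet : ρ.DetIsCyclotomic p) (h : ρ.IsStrictOrdinaryAt p) : SelOrd Mbar p a := by
  intro P hP u' hu'
  obtain ⟨u, hu, X, hX, hXa⟩ := exists_ordLine hp hp2 (natCast_p hp𝒪) hM h
    (trace_eq_zero hp (natCast_p hp𝒪) hM hdet) P hP
  obtain ⟨s, rfl⟩ := OrdLine.unique hp hp2 hbar hdet0 hP hu hu'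
  have hs : s ≠ 0 := by
    rintro rfl
    exact hu'.ne_zero (zero_smul _ _)
  refine ⟨X, hX, fun σ hσ => ?_⟩
  obtain ⟨h1, h2⟩ := hXa σ hσ
  refine ⟨?_, fun v => ?_⟩
  · have h3 : (a σ - adBoundary Mbar X σ) *ᵥ u = 0 := h1
    rw [Matrix.mulVec_smul, h3, smul_zero]
  · obtain ⟨t, ht⟩ := h2 v
    have h3 : (a σ - adBoundary Mbar X σ) *ᵥ v = t • u := ht
    exact ⟨t * s⁻¹, by rw [h3, smul_smul, mul_assoc, inv_mul_cancel₀ hs, mul_one]⟩

/-- The deformation type of the first half of `S56`. -/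
abbrev TypeOrd (𝒪 : Type) [CommRing 𝒪] (p : ℕ) (Smin T : Finset ℕ) :
    ∀ ⦃A : Type⦄ [CommRing A] [IsLocalRing A] [Algebra 𝒪 A], GaloisRepAdic A → Prop :=
  fun _A _ _ _ ρ => GaloisRep.strictOrdinaryCondition 𝒪 p (Smin ∪ T) ρ ∧
    ∀ q ∈ Smin, q.Prime → q ≠ p → ρ.IsUnipotentOnInertiaAt q

/-- The deformation type of the second half of `S56`. -/
abbrev TypeFlat (𝒪 : Type) [CommRing 𝒪] (p : ℕ) (Smin T : Finset ℕ) :
    ∀ ⦃A : Type⦄ [CommRing A] [IsLocalRing A] [Algebra 𝒪 A], GaloisRepAdic A → Prop :=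
  fun _A _ _ _ ρ => GaloisRep.flatCondition 𝒪 p (Smin ∪ T) ρ ∧
    ∀ q ∈ Smin, q.Prime → q ≠ p → ρ.IsUnipotentOnInertiaAt q

/-- The residual representation is of the given type as soon as the universal ring exists. -/
theorem typeOrd_residual (hp : p.Prime) (hp2 : p ≠ 2) (hbar : IsModelR ρbar Mbar)
    (DQ : GaloisRep.DeformationRingData 𝒪 ρbar (TypeOrd 𝒪 p Smin T)) :
    TypeOrd 𝒪 p Smin T (GaloisRepAdic.ofResidualGaloisRep ρbar) :=
  type_residual (DefCond.isDeformationCondition_strictOrdinary_unipotent 𝒪 (Smin ∪ T) hp hp2 Smin)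
    hbar DQ

theorem typeFlat_residual (hp : p.Prime) (hbar : IsModelR ρbar Mbar)
    (DQ : GaloisRep.DeformationRingData 𝒪 ρbar (TypeFlat 𝒪 p Smin T)) :
    TypeFlat 𝒪 p Smin T (GaloisRepAdic.ofResidualGaloisRep ρbar) :=
  type_residual (DefCond.isDeformationCondition_flat_unipotent 𝒪 (Smin ∪ T) hp Smin) hbar DQ

/-- **Reduction of the first half of `S56`** to a bound on a space of cocycles. -/
theorem exists_surjective_strictOrdinary (hp : p.Prime) (hp2 : p ≠ 2)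
    (hp𝒪 : (p : 𝒪) ∈ maximalIdeal 𝒪) (hbar : IsModelR ρbar Mbar)
    (hdet0 : (GaloisRepAdic.ofResidualGaloisRep ρbar).DetIsCyclotomic p)
    (hmin : ∀ q : ℕ, q.Prime → q ≠ p → (q ∈ Smin ↔ ¬ ρbar.IsUnramifiedAt q))
    (DQ : GaloisRep.DeformationRingData 𝒪 ρbar (TypeOrd 𝒪 p Smin T)) (r : ℕ)
    (hr : ∀ Z : Submodule (ResidueField 𝒪) (GalQ → Matrix (Fin 2) (Fin 2) (ResidueField 𝒪)),
      adCobound Mbar ≤ Z →
      (∀ a ∈ Z, SelCond Mbar p Smin T a ∧ SelOrd Mbar p a) →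
      Module.Finite (ResidueField 𝒪) Z ∧ Module.finrank (ResidueField 𝒪) Z ≤ r + 3) :
    ∃ γ : MvPowerSeries (Fin r) 𝒪 →ₐ[𝒪] DQ.R, Function.Surjective γ := by
  have h𝒟 := DefCond.isDeformationCondition_strictOrdinary_unipotent 𝒪 (Smin ∪ T) hp hp2 Smin
  refine exists_surjective_of_finrank h𝒟 hbar DQ r fun Z hZ hgood => hr Z hZ fun a ha => ?_
  obtain ⟨ha', hG⟩ := hgood a ha
  obtain ⟨ρ, hM, hD⟩ := hG.exists_type
  exact ⟨selCond_of_good hp hp2 hp𝒪 hbar hmin ha' hM hD.1.1 hD.1.2.2 hD.2,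
    selOrd_of_good hp hp2 hp𝒪 hbar hdet0 ha' hM hD.1.1 hD.1.2.1⟩

/-- **Reduction of the second half of `S56`** to a bound on a space of cocycles. -/
theorem exists_surjective_flat (hp : p.Prime) (hp2 : p ≠ 2)
    (hp𝒪 : (p : 𝒪) ∈ maximalIdeal 𝒪) (hbar : IsModelR ρbar Mbar)
    (hmin : ∀ q : ℕ, q.Prime → q ≠ p → (q ∈ Smin ↔ ¬ ρbar.IsUnramifiedAt q))
    (DQ : GaloisRep.DeformationRingData 𝒪 ρbar (TypeFlat 𝒪 p Smin T)) (r : ℕ)
    (hr : ∀ Z : Submodule (ResidueField 𝒪) (GalQ → Matrix (Fin 2) (Fin 2) (ResidueField 𝒪)),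
      adCobound Mbar ≤ Z →
      (∀ a ∈ Z, SelCond Mbar p Smin T a ∧ SelFlat Mbar p a) →
      Module.Finite (ResidueField 𝒪) Z ∧ Module.finrank (ResidueField 𝒪) Z ≤ r + 3) :
    ∃ γ : MvPowerSeries (Fin r) 𝒪 →ₐ[𝒪] DQ.R, Function.Surjective γ := by
  have h𝒟 := DefCond.isDeformationCondition_flat_unipotent 𝒪 (Smin ∪ T) hp Smin
  refine exists_surjective_of_finrank h𝒟 hbar DQ r fun Z hZ hgood => hr Z hZ fun a ha => ?_
  obtain ⟨ha', hG⟩ := hgood a ha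
  obtain ⟨ρ, hM, hD⟩ := hG.exists_type
  exact ⟨selCond_of_good hp hp2 hp𝒪 hbar hmin ha' hM hD.1.1 hD.1.2.2 hD.2,
    ha', ρ, hM, hD.1.2.1⟩

/-- unipotent residual inertia, matrix form -/
theorem charpoly_of_unipotent (hbar : IsModelR ρbar Mbar) {q : ℕ}
    (h : (GaloisRepAdic.ofResidualGaloisRep ρbar).IsUnipotentOnInertiaAt q)
    (P : ValuationSubring (AlgebraicClosure ℚ)) (hP : P.LiesOverPrime q) (σ : GalQ)
    (hσ : σ ∈ P.inertiaSubgroupIn ℚ) : (Mbar σ).charpoly = (Polynomial.X - 1) ^ 2 := by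
  obtain ⟨b, hb⟩ := hbar
  rw [← hb, LinearMap.charpoly_toMatrix]
  exact h P hP σ hσ

/-- existence of the ordinary line -/
theorem exists_residual_ordLine (hp : p.Prime) (hp2 : p ≠ 2) (hp𝒪 : (p : 𝒪) ∈ maximalIdeal 𝒪)
    (hbar : IsModelR ρbar Mbar)
    (DQ : GaloisRep.DeformationRingData 𝒪 ρbar (TypeOrd 𝒪 p Smin T))
    (P : ValuationSubring (AlgebraicClosure ℚ)) (hP : P.LiesOverPrime p) :
    ∃ u, OrdLine Mbar p P u := by
  have h𝒟 := DefCond.isDeformationCondition_strictOrdinary_unipotent 𝒪 (Smin ∪ T) hp hp2 Smin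
  have h0 := good_zero h𝒟 (good_residual h𝒟 hbar DQ)
  obtain ⟨ρ, hM, hD⟩ := h0.exists_type
  obtain ⟨u, hu, -⟩ := exists_ordLine hp hp2 (natCast_p hp𝒪) hM hD.1.2.1
    (trace_eq_zero hp (natCast_p hp𝒪) hM hD.1.1) P hP
  exact ⟨u, hu⟩

end main

end Fermat.Agent.TWP
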