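import Fermat.Agent.TWP.GW.Final

/-!
# `S56` from its arithmetic inputs
-/

set_option autoImplicit false
set_option linter.unusedSectionVars false

namespace Fermat.Agent.TWP.Wiring

open Module Matrix Pointwise Polynomial IsLocalRing Fermat.Agent.CFT Fermat.Agent.CFT.LC
  ExtCitation Fermat.Agent.TWP.GW

local notation "ℚbar" => AlgebraicClosure ℚ
local notation "ΓQ" => (AlgebraicClosure ℚ ≃ₐ[ℚ] AlgebraicClosure ℚ)

section Inputs

variable {k : Type} [Field k] [Finite k]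

/-- The inputs of the Greenberg–Wiles inequality at all levels. -/
def GWInput (p : ℕ) [Fact p.Prime] [Algebra (ZMod p) k]
    (M : ΓQ →* Matrix (Fin 2) (Fin 2) k) : Prop :=
  ∀ (_ : FiniteDimensional (ZMod p) k) (SP : Finset Nat.Primes), pPrime p ∈ SP →
    IsLC₁ (unram SP) M → Nonempty (GWI M (cycloChar p) SP (finrank (ZMod p) k))

/-- The bound at Taylor–Wiles primes. -/
def TWBound (p : ℕ) (M : ΓQ →* Matrix (Fin 2) (Fin 2) k) : Prop :=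
  ∀ q : Nat.Primes, (q : ℕ) ≠ p → p ∣ (q : ℕ) - 1 →
      (∀ P : ValuationSubring ℚbar, P.LiesOverPrime (q : ℕ) →
        ∀ σ ∈ P.inertiaSubgroupIn ℚ, M σ = 1) →
      (∀ P : ValuationSubring ℚbar, P.LiesOverPrime (q : ℕ) → ∀ φ : ΓQ, P.IsFrobeniusAt φ (q : ℕ) →
        ∃ α β : k, α ≠ β ∧ (M φ).charpoly = (X - C α) * (X - C β)) → finrank k (zD M q) ≤ 4

/-- The bound at primes of `Smin`. -/
def MinBound (p : ℕ) (M : ΓQ →* Matrix (Fin 2) (Fin 2) k) : Prop :=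
  ∀ q : Nat.Primes, (q : ℕ) ≠ p → HasLocal M q 3 (CobInertia M q)

end Inputs

section Main

variable {𝒪 : Type} [CommRing 𝒪] [IsDomain 𝒪] [IsDiscreteValuationRing 𝒪]
    [IsAdicComplete (maximalIdeal 𝒪) 𝒪] [Finite (ResidueField 𝒪)]
    {p : ℕ} [Fact p.Prime] {ρbar : ResidualGaloisRep (ResidueField 𝒪)}
    {M : ΓQ →* Matrix (Fin 2) (Fin 2) (ResidueField 𝒪)}

theorem selC_of_selCond {Smin T : Finset ℕ} {a : ΓQ → Matrix (Fin 2) (Fin 2) (ResidueField 𝒪)}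
    (h : SelCond M p Smin T a) : SelC M p Smin T a where
  trace := h.trace
  cocycle := h.cocycle
  level := by
    obtain ⟨L, hL, h⟩ := h.level
    exact locConst_iff.mp ⟨L, hL, fun g s hs => (h g s hs).2.2⟩
  unram := h.unram
  unip q hq hqp := by
    obtain ⟨X, hX, h1⟩ := h.unip q hq q.2 hqp (primeLocalPlace q) (primeLocalPlace_liesOverPrime q)
    refine ⟨-X, by rw [Matrix.trace_neg, hX, neg_zero], fun σ hσ => ?_⟩
    rw [h1 σ hσ, adBoundary_apply, adj, mul_neg, neg_mul]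
    abel

/-- First half of `S56`. -/
theorem s56_ord [Algebra (ZMod p) (ResidueField 𝒪)] (hp2 : p ≠ 2)
    (hp𝒪 : (p : 𝒪) ∈ maximalIdeal 𝒪) (hM : UDef.IsModelR ρbar M) (hadj : AdjHyp M)
    (hdet : (GaloisRepAdic.ofResidualGaloisRep ρbar).DetIsCyclotomic p)
    (hsplit : ∀ σ : ΓQ, ∃ α β : ResidueField 𝒪,
      LinearMap.charpoly (ρbar.ρ σ) = (X - C α) * (X - C β))
    (S Smin : Finset ℕ) (hpSmin : p ∈ Smin) (hSmin : Smin ⊆ S)
    (hmin : ∀ q : ℕ, q.Prime → q ≠ p → (q ∈ Smin ↔ ¬ ρbar.IsUnramifiedAt q))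
    (hGW : GWInput p M) (hTWb : TWBound p M) (hMin : MinBound p M)
    (hOrd : ∀ u, OrdLine M p (primeLocalPlace (pPrime p)) u →
      HasLocal M (pPrime p) 4 (SelOrd M p)) :
    ∃ r : ℕ, ∀ n : ℕ, ∃ qv : Fin r → ℕ, Function.Injective qv ∧
      (∀ i, (qv i).Prime ∧ qv i ∉ S ∧ p ^ (n + 1) ∣ qv i - 1) ∧
      (∀ i, ∀ P : ValuationSubring (AlgebraicClosure ℚ), P.LiesOverPrime (qv i) →
        ∀ φ : AlgebraicClosure ℚ ≃ₐ[ℚ] AlgebraicClosure ℚ, P.IsFrobeniusAt φ (qv i) →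
          ∃ α β : ResidueField 𝒪, α ≠ β ∧ LinearMap.charpoly (ρbar.ρ φ) = (X - C α) * (X - C β)) ∧
      ∀ DQ : GaloisRep.DeformationRingData 𝒪 ρbar (fun _A _ _ _ ρ =>
          GaloisRep.strictOrdinaryCondition 𝒪 p (Smin ∪ Finset.univ.image qv) ρ ∧
            ∀ q ∈ Smin, q.Prime → q ≠ p → ρ.IsUnipotentOnInertiaAt q),
        ∃ γ : MvPowerSeries (Fin r) 𝒪 →ₐ[𝒪] DQ.R, Function.Surjective γ := by
  have hp : p.Prime := Fact.out
  have : FiniteDimensional (ZMod p) (ResidueField 𝒪) := Module.Finite.of_finite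
  by_cases hline : ∃ u, OrdLine M p (primeLocalPlace (pPrime p)) u
  · obtain ⟨u, hu⟩ := hline
    obtain ⟨r, hr⟩ := exists_TW hp2 hM hadj hdet hsplit S Smin hpSmin hSmin hmin
      (hGW inferInstance) hTWb hMin (SelOrd M p) (hOrd u hu)
    refine ⟨r, fun n => ?_⟩
    obtain ⟨qv, h1, h2, h3, h4⟩ := hr n
    refine ⟨qv, h1, h2, h3, fun DQ => ?_⟩
    exact exists_surjective_strictOrdinary hp hp2 hp𝒪 hM hdet hmin DQ r fun Z _ hZ =>
      h4 Z fun a ha => ⟨selC_of_selCond (hZ a ha).1, (hZ a ha).2⟩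
  · refine ⟨0, fun n => ⟨Fin.elim0, fun i => i.elim0, fun i => i.elim0, fun i => i.elim0,
      fun DQ => ?_⟩⟩
    exact absurd (exists_residual_ordLine hp hp2 hp𝒪 hM DQ (primeLocalPlace (pPrime p))
      (primeLocalPlace_liesOverPrime (pPrime p))) hline

/-- Second half of `S56`. -/
theorem s56_flat [Algebra (ZMod p) (ResidueField 𝒪)] (hp2 : p ≠ 2)
    (hp𝒪 : (p : 𝒪) ∈ maximalIdeal 𝒪) (hM : UDef.IsModelR ρbar M) (hadj : AdjHyp M)
    (hdet : (GaloisRepAdic.ofResidualGaloisRep ρbar).DetIsCyclotomic p)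
    (hsplit : ∀ σ : ΓQ, ∃ α β : ResidueField 𝒪,
      LinearMap.charpoly (ρbar.ρ σ) = (X - C α) * (X - C β))
    (S Smin : Finset ℕ) (hpSmin : p ∈ Smin) (hSmin : Smin ⊆ S)
    (hmin : ∀ q : ℕ, q.Prime → q ≠ p → (q ∈ Smin ↔ ¬ ρbar.IsUnramifiedAt q))
    (hGW : GWInput p M) (hTWb : TWBound p M) (hMin : MinBound p M)
    (hFlat : (GaloisRepAdic.ofResidualGaloisRep ρbar).IsFlatAt p →
      HasLocal M (pPrime p) 4 (SelFlat M p)) :
    ∃ r : ℕ, ∀ n : ℕ, ∃ qv : Fin r → ℕ, Function.Injective qv ∧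
      (∀ i, (qv i).Prime ∧ qv i ∉ S ∧ p ^ (n + 1) ∣ qv i - 1) ∧
      (∀ i, ∀ P : ValuationSubring (AlgebraicClosure ℚ), P.LiesOverPrime (qv i) →
        ∀ φ : AlgebraicClosure ℚ ≃ₐ[ℚ] AlgebraicClosure ℚ, P.IsFrobeniusAt φ (qv i) →
          ∃ α β : ResidueField 𝒪, α ≠ β ∧ LinearMap.charpoly (ρbar.ρ φ) = (X - C α) * (X - C β)) ∧
      ∀ DQ : GaloisRep.DeformationRingData 𝒪 ρbar (fun _A _ _ _ ρ =>
          GaloisRep.flatCondition 𝒪 p (Smin ∪ Finset.univ.image qv) ρ ∧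
            ∀ q ∈ Smin, q.Prime → q ≠ p → ρ.IsUnipotentOnInertiaAt q),
        ∃ γ : MvPowerSeries (Fin r) 𝒪 →ₐ[𝒪] DQ.R, Function.Surjective γ := by
  have hp : p.Prime := Fact.out
  have : FiniteDimensional (ZMod p) (ResidueField 𝒪) := Module.Finite.of_finite
  by_cases hflat : (GaloisRepAdic.ofResidualGaloisRep ρbar).IsFlatAt p
  · obtain ⟨r, hr⟩ := exists_TW hp2 hM hadj hdet hsplit S Smin hpSmin hSmin hmin
      (hGW inferInstance) hTWb hMin (SelFlat M p) (hFlat hflat)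
    refine ⟨r, fun n => ?_⟩
    obtain ⟨qv, h1, h2, h3, h4⟩ := hr n
    refine ⟨qv, h1, h2, h3, fun DQ => ?_⟩
    exact exists_surjective_flat hp hp2 hp𝒪 hM hmin DQ r fun Z _ hZ =>
      h4 Z fun a ha => ⟨selC_of_selCond (hZ a ha).1, (hZ a ha).2⟩
  · refine ⟨0, fun n => ⟨Fin.elim0, fun i => i.elim0, fun i => i.elim0, fun i => i.elim0,
      fun DQ => ?_⟩⟩
    exact absurd (typeFlat_residual hp hM DQ).1.2.1 hflat

end Main

/-- **`S56` from its arithmetic inputs.** -/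
theorem s56_of_inputs
    {𝒪 : Type} [CommRing 𝒪] [IsDomain 𝒪] [IsDiscreteValuationRing 𝒪]
    [IsAdicComplete (maximalIdeal 𝒪) 𝒪] [Finite (ResidueField 𝒪)]
    (p : ℕ) [Fact p.Prime] (hp2 : p ≠ 2) (hp𝒪 : (p : 𝒪) ∈ maximalIdeal 𝒪)
    (ρbar : ResidualGaloisRep (ResidueField 𝒪))
    (habs : ρbar.IsAbsolutelyIrreducible)
    (hdet : (GaloisRepAdic.ofResidualGaloisRep ρbar).DetIsCyclotomic p)
    (hsplit : ∀ σ : AlgebraicClosure ℚ ≃ₐ[ℚ] AlgebraicClosure ℚ,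
      ∃ α β : ResidueField 𝒪, LinearMap.charpoly (ρbar.ρ σ) = (X - C α) * (X - C β))
    (hTW : ∀ (K : Type) [Field K] [Algebra (ResidueField 𝒪) K]
      (G : Subgroup (AlgebraicClosure ℚ ≃ₐ[ℚ] AlgebraicClosure ℚ)), G.index = 2 →
      ∀ V : Submodule K (ρbar.baseChange K).V,
        (∀ σ ∈ G, ∀ x ∈ V, (ρbar.baseChange K).ρ σ x ∈ V) → V = ⊥ ∨ V = ⊤)
    (S Smin : Finset ℕ) (hpSmin : p ∈ Smin) (hSmin : Smin ⊆ S) (_hS : ∀ q ∈ S, q.Prime)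
    (hmin : ∀ q : ℕ, q.Prime → q ≠ p → (q ∈ Smin ↔ ¬ ρbar.IsUnramifiedAt q))
    (inputs : ∀ [Algebra (ZMod p) (ResidueField 𝒪)] (M : ΓQ →* Matrix (Fin 2) (Fin 2) (ResidueField 𝒪)),
      UDef.IsModelR ρbar M → AdjHyp M →
      GWInput p M ∧ TWBound p M ∧ MinBound p M ∧
      (∀ u, OrdLine M p (primeLocalPlace (pPrime p)) u → HasLocal M (pPrime p) 4 (SelOrd M p)) ∧
      ((GaloisRepAdic.ofResidualGaloisRep ρbar).IsFlatAt p →
        HasLocal M (pPrime p) 4 (SelFlat M p))) :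
    (∃ r : ℕ, ∀ n : ℕ, ∃ qv : Fin r → ℕ, Function.Injective qv ∧
      (∀ i, (qv i).Prime ∧ qv i ∉ S ∧ p ^ (n + 1) ∣ qv i - 1) ∧
      (∀ i, ∀ P : ValuationSubring (AlgebraicClosure ℚ), P.LiesOverPrime (qv i) →
        ∀ φ : AlgebraicClosure ℚ ≃ₐ[ℚ] AlgebraicClosure ℚ, P.IsFrobeniusAt φ (qv i) →
          ∃ α β : ResidueField 𝒪, α ≠ β ∧ LinearMap.charpoly (ρbar.ρ φ) = (X - C α) * (X - C β)) ∧
      ∀ DQ : GaloisRep.DeformationRingData 𝒪 ρbar (fun _A _ _ _ ρ =>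
          GaloisRep.strictOrdinaryCondition 𝒪 p (Smin ∪ Finset.univ.image qv) ρ ∧
            ∀ q ∈ Smin, q.Prime → q ≠ p → ρ.IsUnipotentOnInertiaAt q),
        ∃ γ : MvPowerSeries (Fin r) 𝒪 →ₐ[𝒪] DQ.R, Function.Surjective γ) ∧
    (∃ r : ℕ, ∀ n : ℕ, ∃ qv : Fin r → ℕ, Function.Injective qv ∧
      (∀ i, (qv i).Prime ∧ qv i ∉ S ∧ p ^ (n + 1) ∣ qv i - 1) ∧
      (∀ i, ∀ P : ValuationSubring (AlgebraicClosure ℚ), P.LiesOverPrime (qv i) →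
        ∀ φ : AlgebraicClosure ℚ ≃ₐ[ℚ] AlgebraicClosure ℚ, P.IsFrobeniusAt φ (qv i) →
          ∃ α β : ResidueField 𝒪, α ≠ β ∧ LinearMap.charpoly (ρbar.ρ φ) = (X - C α) * (X - C β)) ∧
      ∀ DQ : GaloisRep.DeformationRingData 𝒪 ρbar (fun _A _ _ _ ρ =>
          GaloisRep.flatCondition 𝒪 p (Smin ∪ Finset.univ.image qv) ρ ∧
            ∀ q ∈ Smin, q.Prime → q ≠ p → ρ.IsUnipotentOnInertiaAt q),
        ∃ γ : MvPowerSeries (Fin r) 𝒪 →ₐ[𝒪] DQ.R, Function.Surjective γ) := by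
  have hcp : CharP (ResidueField 𝒪) p := charP_of_det hdet
  let alg : Algebra (ZMod p) (ResidueField 𝒪) := ZMod.algebra (ResidueField 𝒪) p
  obtain ⟨M, hM⟩ := UDef.exists_modelR ρbar
  have h2 : (2 : ResidueField 𝒪) ≠ 0 := by
    intro h
    have h1 : ((2 : ℕ) : ResidueField 𝒪) = 0 := by exact_mod_cast h
    rw [CharP.cast_eq_zero_iff (ResidueField 𝒪) p] at h1
    exact hp2 ((Nat.prime_dvd_prime_iff_eq Fact.out Nat.prime_two).mp h1)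
  have hadj : AdjHyp M := adjHyp_of_isModelR hM h2 habs hTW
  obtain ⟨hGW, hTWb, hMin, hOrd, hFlat⟩ := inputs M hM hadj
  exact ⟨s56_ord hp2 hp𝒪 hM hadj hdet hsplit S Smin hpSmin hSmin hmin hGW hTWb hMin hOrd,
    s56_flat hp2 hp𝒪 hM hadj hdet hsplit S Smin hpSmin hSmin hmin hGW hTWb hMin hFlat⟩

end Fermat.Agent.TWP.Wiring
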