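import Mathlib
import Fermat.Agent.TWP.Wiring
import Fermat.Agent.TWP.FlatLoc.FrobDec

set_option autoImplicit false
set_option linter.style.haveILetI false
set_option linter.unusedVariables false
set_option linter.unusedSectionVars false

/-!
# The local bound at the primes `q ≠ p` where inertia classes are coboundaries
-/

open Module Matrix Pointwise

namespace Fermat.Agent.TWP.LocalMin

open Fermat.Agent.TWP.GW Fermat.Agent.CFT Fermat.Agent.CFT.LC ExtCitation

open Fermat.Agent.TWFlat (frob_iff mem_dec_of_inertia conj_inertia exists_frob_mul_inertia)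

local notation "ℚbar" => AlgebraicClosure ℚ
local notation "ΓQ" => (AlgebraicClosure ℚ ≃ₐ[ℚ] AlgebraicClosure ℚ)

variable {k : Type} [Field k]

section general

variable {G : Type} [Group G] (M : G →* Matrix (Fin 2) (Fin 2) k)

theorem adj_mul' (g h : G) (X : Matrix (Fin 2) (Fin 2) k) :
    adj M (g * h) X = adj M g (adj M h X) := by
  simp only [adj, _root_.mul_inv_rev, map_mul, mul_assoc]

theorem adj_add' (g : G) (X Y : Matrix (Fin 2) (Fin 2) k) :
    adj M g (X + Y) = adj M g X + adj M g Y := by simp only [adj, mul_add, add_mul]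

theorem adj_smul' (g : G) (c : k) (X : Matrix (Fin 2) (Fin 2) k) :
    adj M g (c • X) = c • adj M g X := by
  simp only [adj, mul_smul_comm, smul_mul_assoc]

theorem adj_one' (X : Matrix (Fin 2) (Fin 2) k) : adj M 1 X = X := by
  simp [adj]

/-- the coboundary map -/
def bd : Matrix (Fin 2) (Fin 2) k →ₗ[k] (G → Matrix (Fin 2) (Fin 2) k) where
  toFun X := fun g => adj M g X - X
  map_add' X Y := by
    funext g
    simp only [Pi.add_apply, adj_add']
    abel
  map_smul' c X := by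
    funext g
    simp only [Pi.smul_apply, adj_smul', RingHom.id_apply, smul_sub]

theorem bd_apply (X : Matrix (Fin 2) (Fin 2) k) (g : G) : bd M X g = adj M g X - X := rfl

theorem bd_mem {Lv : Lvl G} (hM : IsLC₁ Lv M) (X : Matrix (Fin 2) (Fin 2) k) :
    bd M X ∈ zAd M Lv := by
  refine ⟨fun g => ?_, fun g h => ?_, ?_⟩
  · rw [bd_apply, Matrix.trace_sub, trace_adj, sub_self]
  · rw [bd_apply, bd_apply, bd_apply, adj_mul']
    have : adj M g (adj M h X - X) = adj M g (adj M h X) - adj M g X := by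
      rw [sub_eq_add_neg, adj_add', sub_eq_add_neg]
      congr 1
      simp [adj]
    rw [this]; abel
  · obtain ⟨N, hN, h⟩ := hM
    refine ⟨N, hN, fun g s hs => ?_⟩
    have h1 : M s = 1 := by
      have := h 1 s hs
      rwa [one_mul, map_one] at this
    have h2 : M s⁻¹ = 1 := by
      have := h s⁻¹ s hs
      rw [inv_mul_cancel, map_one] at this
      exact this.symm
    rw [bd_apply, bd_apply, adj_mul']
    simp [adj, h1, h2]

end general

section loc

variable (M : ΓQ →* Matrix (Fin 2) (Fin 2) k) (q : Nat.Primes)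

/-- the restriction of `M` to the decomposition group -/
noncomputable abbrev MD : Dq q →* Matrix (Fin 2) (Fin 2) k := M.comp (Dq q).subtype

/-- inertia at `q` -/
noncomputable abbrev Iq : Subgroup ΓQ := (primeLocalPlace q).inertiaSubgroupIn ℚ

/-- cocycles vanishing on inertia -/
noncomputable def KI : Submodule k (Dq q → Matrix (Fin 2) (Fin 2) k) where
  carrier := {c | c ∈ zD M q ∧ ∀ σ : Dq q, (σ : ΓQ) ∈ Iq q → c σ = 0}
  zero_mem' := ⟨(zD M q).zero_mem, fun _ _ => rfl⟩
  add_mem' := fun ha hb => ⟨(zD M q).add_mem ha.1 hb.1, fun σ hσ => by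
    rw [Pi.add_apply, ha.2 σ hσ, hb.2 σ hσ, add_zero]⟩
  smul_mem' := fun c a ha => ⟨(zD M q).smul_mem c ha.1, fun σ hσ => by
    rw [Pi.smul_apply, ha.2 σ hσ, smul_zero]⟩

/-- invariants of inertia on `ad⁰` -/
noncomputable def AI : Submodule k (ad0 k) where
  carrier := {X | ∀ σ ∈ Iq q, adj M σ (X : Matrix (Fin 2) (Fin 2) k) = X}
  zero_mem' := fun σ _ => by simp [adj]
  add_mem' := fun {X Y} hX hY σ hσ => by
    rw [Submodule.coe_add, adj_add', hX σ hσ, hY σ hσ]
  smul_mem' := fun c X hX σ hσ => by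
    rw [Submodule.coe_smul, adj_smul', hX σ hσ]

/-- The local condition. -/
noncomputable def LL : Submodule k (Dq q → Matrix (Fin 2) (Fin 2) k) where
  carrier := {c | c ∈ zD M q ∧ ∃ X : Matrix (Fin 2) (Fin 2) k, X.trace = 0 ∧
    ∀ σ : Dq q, (σ : ΓQ) ∈ Iq q → c σ = adj M σ X - X}
  zero_mem' := ⟨(zD M q).zero_mem, 0, by simp, fun σ _ => by simp [adj]⟩
  add_mem' := by
    rintro a b ⟨ha, X, hX, hXa⟩ ⟨hb, Y, hY, hYb⟩
    refine ⟨(zD M q).add_mem ha hb, X + Y, by rw [Matrix.trace_add, hX, hY, add_zero],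
      fun σ hσ => ?_⟩
    rw [Pi.add_apply, hXa σ hσ, hYb σ hσ, adj_add']
    abel
  smul_mem' := by
    rintro c a ⟨ha, X, hX, hXa⟩
    refine ⟨(zD M q).smul_mem c ha, c • X, by rw [Matrix.trace_smul, hX, smul_zero],
      fun σ hσ => ?_⟩
    rw [Pi.smul_apply, hXa σ hσ, adj_smul', smul_sub]

variable {M q}

theorem coc {c : Dq q → Matrix (Fin 2) (Fin 2) k} (hc : c ∈ zD M q) (g h : Dq q) :
    c (g * h) = c g + adj M (g : ΓQ) (c h) := hc.2.1 g h

/-- evaluation at Frobenius is injective on classes trivial on inertia -/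
theorem finrank_KI : Module.Finite k (KI M q) ∧ finrank k (KI M q) ≤ finrank k (AI M q) := by
  have hP := primeLocalPlace_liesOverPrime q
  obtain ⟨φ, hφ⟩ := FrobExists.exists_isFrobeniusAt (primeLocalPlace q) q.2 hP
  have hφD := (frob_iff.mp hφ).1
  let Φ : Dq q := ⟨φ, hφD⟩
  let f : KI M q →ₗ[k] AI M q :=
    { toFun := fun c => ⟨⟨c.1 Φ, mem_ad0.mpr (c.2.1.1 Φ)⟩, by
        intro σ hσ
        have hσD := mem_dec_of_inertia hσ
        have hconj : φ⁻¹ * σ * φ ∈ (primeLocalPlace q).inertiaSubgroupIn ℚ := by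
          have := conj_inertia (inv_mem hφD) hσ
          rwa [inv_inv] at this
        have h1 := coc c.2.1 ⟨σ, hσD⟩ Φ
        have h2 := coc c.2.1 Φ ⟨φ⁻¹ * σ * φ, mem_dec_of_inertia hconj⟩
        have e : (⟨σ, hσD⟩ : Dq q) * Φ = Φ * ⟨φ⁻¹ * σ * φ, mem_dec_of_inertia hconj⟩ :=
          Subtype.ext (by show σ * φ = φ * (φ⁻¹ * σ * φ); group)
        rw [c.2.2 ⟨σ, hσD⟩ hσ, zero_add] at h1
        rw [c.2.2 ⟨φ⁻¹ * σ * φ, mem_dec_of_inertia hconj⟩ hconj] at h2
        rw [e, h2] at h1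
        have h3 : adj M (Φ : ΓQ) (0 : Matrix (Fin 2) (Fin 2) k) = 0 := by simp [adj]
        rw [h3, add_zero] at h1
        exact h1.symm⟩
      map_add' := fun _ _ => rfl
      map_smul' := fun _ _ => rfl }
  have hinj : Function.Injective f := by
    rw [injective_iff_map_eq_zero]
    intro c hc
    have h0 : c.1 Φ = 0 := congrArg (fun x : AI M q => ((x : ad0 k) : Matrix (Fin 2) (Fin 2) k)) hc
    have hone : c.1 1 = 0 := by
      have := coc c.2.1 1 1
      rw [mul_one, Subgroup.coe_one, adj_one'] at this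
      exact left_eq_add.mp this
    have hpow : ∀ n : ℕ, c.1 (Φ ^ n) = 0 := by
      intro n
      induction n with
      | zero => rw [pow_zero]; exact hone
      | succ n ih =>
        rw [pow_succ, coc c.2.1, ih, h0]
        simp [adj]
    apply Subtype.ext
    funext g
    obtain ⟨N, hN, hlev⟩ := c.2.1.2.2
    obtain ⟨N', hN', rfl⟩ := hN
    obtain ⟨L, hL, -, rfl⟩ := hN'
    haveI : FiniteDimensional ℚ L := hL
    obtain ⟨n, σ, hσ, h1⟩ := exists_frob_mul_inertia q.2 hP hφ g.2 L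
    have hσD := mem_dec_of_inertia hσ
    have e : g = (Φ ^ n * ⟨σ, hσD⟩) * ((Φ ^ n * ⟨σ, hσD⟩)⁻¹ * g) := by group
    have h2 : c.1 g = c.1 (Φ ^ n * ⟨σ, hσD⟩) := by
      conv_lhs => rw [e]
      refine hlev _ _ ?_
      show (((Φ ^ n * ⟨σ, hσD⟩)⁻¹ * g : Dq q) : ΓQ) ∈ L.fixingSubgroup
      rw [IntermediateField.mem_fixingSubgroup_iff]
      intro x hx
      show (φ ^ n * σ)⁻¹ ((g : ΓQ) x) = x
      rw [h1 x hx]
      have e1 : (φ ^ n * σ)⁻¹ ((φ ^ n * σ) x) = ((φ ^ n * σ)⁻¹ * (φ ^ n * σ)) x := rfl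
      rw [e1, inv_mul_cancel]; rfl
    rw [h2, coc c.2.1, hpow, c.2.2 _ hσ]
    simp [adj]
  exact ⟨Module.Finite.of_injective f hinj, LinearMap.finrank_le_finrank_of_injective hinj⟩

theorem isLC_MD (hM : IsLC₁ (krull ℚ ℚbar) M) : IsLC₁ ((krull ℚ ℚbar).comap (Dq q).subtype)
    (MD M q) := by
  obtain ⟨N, hN, h⟩ := hM
  exact ⟨_, ⟨N, hN, rfl⟩, fun g s hs => h g s hs⟩

theorem finrank_LL (hM : IsLC₁ (krull ℚ ℚbar) M) : finrank k (LL M q) ≤ 3 := by
  obtain ⟨hfin, hle⟩ := finrank_KI (M := M) (q := q)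
  have hbd : ∀ X : Matrix (Fin 2) (Fin 2) k, bd (MD M q) X ∈ zD M q := fun X =>
    bd_mem _ (isLC_MD hM) X
  -- the surjection
  let f : (ad0 k × KI M q) →ₗ[k] (Dq q → Matrix (Fin 2) (Fin 2) k) :=
    ((bd (MD M q)).comp (ad0 k).subtype).coprod (KI M q).subtype
  have hrange : LL M q ≤ LinearMap.range f := by
    rintro c ⟨hc, X, hX, hXc⟩
    refine ⟨(⟨X, mem_ad0.mpr hX⟩, ⟨c - bd (MD M q) X, (zD M q).sub_mem hc (hbd X), ?_⟩), ?_⟩
    · intro σ hσ
      rw [Pi.sub_apply, hXc σ hσ]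
      exact sub_self _
    · show bd (MD M q) X + (c - bd (MD M q) X) = c
      abel
  -- the kernel
  let g : AI M q →ₗ[k] LinearMap.ker f :=
    { toFun := fun X => ⟨((X : ad0 k), ⟨- bd (MD M q) (X : ad0 k), (zD M q).neg_mem (hbd _), by
        intro σ hσ
        rw [Pi.neg_apply, neg_eq_zero]
        exact sub_eq_zero.mpr (X.2 σ hσ)⟩), by
        rw [LinearMap.mem_ker]
        show bd (MD M q) (X : ad0 k) + (- bd (MD M q) (X : ad0 k)) = 0
        abel⟩
      map_add' := fun X Y => by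
        apply Subtype.ext
        refine Prod.ext rfl (Subtype.ext ?_)
        show - bd (MD M q) ((X : ad0 k) + (Y : ad0 k) : ad0 k) =
          - bd (MD M q) (X : ad0 k) + - bd (MD M q) (Y : ad0 k)
        rw [Submodule.coe_add, map_add]; abel
      map_smul' := fun c X => by
        apply Subtype.ext
        refine Prod.ext rfl (Subtype.ext ?_)
        show - bd (MD M q) (c • (X : ad0 k) : ad0 k) = c • (- bd (MD M q) (X : ad0 k))
        rw [Submodule.coe_smul, map_smul, smul_neg] }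
  have hg : Function.Injective g := by
    intro X Y h
    apply Subtype.ext
    exact congrArg (fun x : LinearMap.ker f => x.1.1) h
  have h1 := LinearMap.finrank_range_add_finrank_ker f
  have h2 : finrank k (AI M q) ≤ finrank k (LinearMap.ker f) :=
    LinearMap.finrank_le_finrank_of_injective hg
  have h3 : finrank k (LL M q) ≤ finrank k (LinearMap.range f) := Submodule.finrank_mono hrange
  rw [Module.finrank_prod, finrank_ad0] at h1
  omega

/-- The bound at primes of `Smin`. -/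
theorem hasLocal_cobInertia (hM : IsLC₁ (krull ℚ ℚbar) M) :
    HasLocal M q 3 (CobInertia M q) := by
  refine ⟨LL M q, fun c hc => hc.1, fun X hX => ⟨bd_mem (MD M q) (isLC_MD hM) X, X, hX,
    fun σ _ => rfl⟩, finrank_LL hM, ?_⟩
  rintro a ha ⟨X, hX, hXa⟩
  exact ⟨restrict_mem_zD ha, X, hX, fun σ hσ => hXa σ hσ⟩

theorem minBound [Finite k] (p : ℕ) (hM : IsLC₁ (krull ℚ ℚbar) M) : Wiring.MinBound p M :=
  fun _ _ => hasLocal_cobInertia hM

end loc

end Fermat.Agent.TWP.LocalMin
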