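import Mathlib
import Fermat.Agent.QbarInst
import Fermat.Agent.EXT.KummerElt

/-!
# Kummer theory for infinite extensions

Hilbert 90 for level-constant cocycles with values in `μ_p` over an infinite Galois extension.
-/

set_option autoImplicit false

open IntermediateField

namespace Fermat.Agent.TWP.LocalDimP

open Fermat.Agent.EXT.KummerElt (pow_val_add pow_val_natCast)

/-- Hilbert 90, elementary form. -/
theorem h90_fin {k M : Type*} [Field k] [Field M] [Algebra k M] [FiniteDimensional k M]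
    (c : (M ≃ₐ[k] M) → M) (hc0 : ∀ g, c g ≠ 0)
    (hc : ∀ g h, c (g * h) = c g * g (c h)) :
    ∃ a : M, a ≠ 0 ∧ ∀ h, h a = c h * a := by
  classical
  have : Fintype (M ≃ₐ[k] M) := Fintype.ofFinite _
  let φ : (M ≃ₐ[k] M) → (M →* M) := fun g => (g : M →* M)
  have hφ : Function.Injective φ := by
    intro g h hgh
    ext x
    exact DFunLike.congr_fun hgh x
  have hli : LinearIndependent M (fun g : (M ≃ₐ[k] M) => (φ g : M → M)) :=
    (linearIndependent_monoidHom M M).comp φ hφ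
  have hne : ∑ g : (M ≃ₐ[k] M), c g • (φ g : M → M) ≠ 0 := by
    intro h0
    have h1 := Fintype.linearIndependent_iff.mp hli (fun g => c g) h0 1
    exact hc0 _ h1
  obtain ⟨x, hx⟩ := Function.ne_iff.mp hne
  have hx' : ∑ g : (M ≃ₐ[k] M), c g * g x ≠ 0 := by
    intro h
    apply hx
    rw [Finset.sum_apply]
    exact h
  have key : ∀ h : M ≃ₐ[k] M, c h * h (∑ g : (M ≃ₐ[k] M), c g * g x) =
      ∑ g : (M ≃ₐ[k] M), c g * g x := by
    intro h
    rw [map_sum, Finset.mul_sum]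
    rw [← Equiv.sum_comp (Equiv.mulLeft h) (fun g : (M ≃ₐ[k] M) => c g * g x)]
    refine Finset.sum_congr rfl fun g _ => ?_
    show c h * h (c g * g x) = c (h * g) * (h * g) x
    rw [hc, map_mul, AlgEquiv.mul_apply, mul_assoc]
  refine ⟨(∑ g : (M ≃ₐ[k] M), c g * g x)⁻¹, inv_ne_zero hx', fun h => ?_⟩
  rw [map_inv₀]
  have h1 := key h
  have h2 : h (∑ g : (M ≃ₐ[k] M), c g * g x) ≠ 0 := by
    rw [Ne, EmbeddingLike.map_eq_zero_iff]
    exact hx'
  rw [← h1]
  rw [mul_inv]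
  rw [h1, ← mul_assoc, mul_inv_cancel₀ (hc0 h), one_mul]

section H90

variable {k E : Type*} [Field k] [Field E] [Algebra k E] [IsGalois k E]

/-- Hilbert 90 for cocycles with values in `μ_p`, infinite Galois extensions. -/
theorem exists_kummer {p : ℕ} [Fact p.Prime] {ζ : E} (hζ : IsPrimitiveRoot ζ p)
    (χ : (E ≃ₐ[k] E) → ZMod p) (hχ : ∀ σ : E ≃ₐ[k] E, σ ζ = ζ ^ (χ σ).val)
    (z : (E ≃ₐ[k] E) → ZMod p) (hz : ∀ σ τ, z (σ * τ) = z σ + χ σ * z τ)
    (F : IntermediateField k E) [FiniteDimensional k F]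
    (hF : ∀ σ τ : E ≃ₐ[k] E, (∀ x ∈ F, τ x = x) → z (σ * τ) = z σ) :
    ∃ a : E, a ≠ 0 ∧ ∀ σ : E ≃ₐ[k] E, σ a = ζ ^ (z σ).val * a := by
  have hζp : ζ ^ p = 1 := hζ.pow_eq_one
  have hζint : IsIntegral k ζ := Algebra.IsIntegral.isIntegral ζ
  have hfin1 : FiniteDimensional k k⟮ζ⟯ := adjoin.finiteDimensional hζint
  let M : IntermediateField k E := normalClosure k (F ⊔ k⟮ζ⟯ : IntermediateField k E) E
  have hle : F ⊔ k⟮ζ⟯ ≤ M := le_normalClosure _
  have hζM : ζ ∈ M := hle (le_sup_right (a := F) (mem_adjoin_simple_self k ζ))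
  have hFM : ∀ x ∈ F, x ∈ M := fun x hx => hle (le_sup_left (b := k⟮ζ⟯) hx)
  have : Normal k M := normalClosure.normal k _ E
  have : FiniteDimensional k M := normalClosure.is_finiteDimensional k _ E
  have hagree : ∀ σ σ' : E ≃ₐ[k] E, (∀ x ∈ M, σ x = σ' x) → z σ = z σ' := by
    intro σ σ' h
    have hu : ∀ x ∈ F, (σ⁻¹ * σ') x = x := by
      intro x hx
      rw [AlgEquiv.mul_apply, ← h x (hFM x hx)]
      exact σ.symm_apply_apply x
    have h1 := hF σ (σ⁻¹ * σ') hu
    rw [mul_inv_cancel_left] at h1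
    exact h1.symm
  let ζM : M := ⟨ζ, hζM⟩
  have hζMp : ζM ^ p = 1 := Subtype.ext (by simpa [ζM] using hζp)
  have hζM0 : ζM ≠ 0 := by
    intro h
    rw [h, zero_pow (Fact.out : p.Prime).ne_zero] at hζMp
    exact zero_ne_one hζMp
  let lift : (M ≃ₐ[k] M) → (E ≃ₐ[k] E) := fun g => g.liftNormal E
  have hlift : ∀ (g : M ≃ₐ[k] M) (x : M), lift g (x : E) = ((g x : M) : E) := fun g x =>
    g.liftNormal_commutes E x
  let c : (M ≃ₐ[k] M) → M := fun g => ζM ^ (z (lift g)).val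
  have hgu : ∀ g : M ≃ₐ[k] M, g ζM = ζM ^ (χ (lift g)).val := by
    intro g
    apply Subtype.ext
    have h1 := hlift g ζM
    rw [show ((ζM : M) : E) = ζ from rfl, hχ] at h1
    rw [← h1]
    rfl
  obtain ⟨b, hb0, hb⟩ := h90_fin c (fun g => pow_ne_zero _ hζM0) (fun g h => by
    have h1 : z (lift (g * h)) = z (lift g * lift h) := by
      apply hagree
      intro x hx
      rw [AlgEquiv.mul_apply]
      have e1 := hlift (g * h) ⟨x, hx⟩
      have e2 := hlift h ⟨x, hx⟩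
      have e3 := hlift g (h ⟨x, hx⟩)
      simp only at e1 e2 e3
      rw [e1, e2, e3]
      rfl
    show ζM ^ (z (lift (g * h))).val = ζM ^ (z (lift g)).val * g (ζM ^ (z (lift h)).val)
    rw [h1, hz, pow_val_add hζMp, map_pow, hgu, ← pow_mul]
    congr 1
    have h5 : χ (lift g) * z (lift h) = (((χ (lift g)).val * (z (lift h)).val : ℕ) : ZMod p) := by
      rw [Nat.cast_mul, ZMod.natCast_zmod_val, ZMod.natCast_zmod_val]
    rw [h5, pow_val_natCast hζMp])
  refine ⟨((b : M) : E), fun h => hb0 (Subtype.ext h), fun σ => ?_⟩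
  let g : M ≃ₐ[k] M := σ.restrictNormal M
  have hg : ∀ x : M, ((g x : M) : E) = σ x := fun x => σ.restrictNormal_commutes M x
  have h4 : z (lift g) = z σ := hagree _ _ fun x hx => by
    have e1 := hlift g ⟨x, hx⟩
    rw [hg] at e1
    exact e1
  rw [← hg, hb g]
  show ((ζM ^ (z (lift g)).val * b : M) : E) = _
  rw [h4]
  rfl

end H90

end Fermat.Agent.TWP.LocalDimP
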