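import Mathlib
import Fermat.Agent.TWP.LocalKummer

/-!
# Counting cocycles with values in `μ_p` over a local field
-/

set_option autoImplicit false

open IntermediateField

namespace Fermat.Agent.TWP.LocalDimP

open Fermat.Agent.EXT.KummerElt (pow_val_add pow_val_natCast)

section Count

variable {k E : Type*} [Field k] [Field E] [Algebra k E] [IsGalois k E]

/-- Level-constant cocycles with values in `μ_p`. -/
def ZK (p : ℕ) (k E : Type*) [Field k] [Field E] [Algebra k E]
    (χ : (E ≃ₐ[k] E) → ZMod p) : Set ((E ≃ₐ[k] E) → ZMod p) :=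
  {z | (∀ σ τ, z (σ * τ) = z σ + χ σ * z τ) ∧ ∃ F : IntermediateField k E,
    FiniteDimensional k F ∧ ∀ σ τ : E ≃ₐ[k] E, (∀ x ∈ F, τ x = x) → z (σ * τ) = z σ}

theorem exists_unit_of_mem_ZK {p : ℕ} [Fact p.Prime] {ζ : E} (hζ : IsPrimitiveRoot ζ p)
    {χ : (E ≃ₐ[k] E) → ZMod p} (hχ : ∀ σ : E ≃ₐ[k] E, σ ζ = ζ ^ (χ σ).val)
    {z : (E ≃ₐ[k] E) → ZMod p} (hz : z ∈ ZK p k E χ) :
    ∃ (a : E) (b : (⊥ : IntermediateField k E)ˣ), a ≠ 0 ∧
      (∀ σ : E ≃ₐ[k] E, σ a = ζ ^ (z σ).val * a) ∧ (((b : (⊥ : IntermediateField k E)) : E)) = a ^ p := by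
  obtain ⟨h1, F, hF, h2⟩ := hz
  obtain ⟨a, ha, h⟩ := exists_kummer hζ χ hχ z h1 F h2
  have h3 : a ^ p ∈ (⊥ : IntermediateField k E) := by
    rw [IntermediateField.mem_bot, InfiniteGalois.mem_range_algebraMap_iff_fixed]
    intro σ
    rw [map_pow, h, mul_pow, ← pow_mul, mul_comm _ p, pow_mul, hζ.pow_eq_one, one_pow, one_mul]
  refine ⟨a, Units.mk0 ⟨a ^ p, h3⟩ ?_, ha, h, rfl⟩
  intro h4
  exact pow_ne_zero p ha (congrArg Subtype.val h4)

theorem pow_val_inj {p : ℕ} [Fact p.Prime] {ζ : E} (hζ : IsPrimitiveRoot ζ p) {a b : ZMod p}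
    (h : ζ ^ a.val = ζ ^ b.val) : a = b :=
  ZMod.val_injective p (hζ.pow_inj (ZMod.val_lt a) (ZMod.val_lt b) h)

theorem card_ZK {p : ℕ} [Fact p.Prime] {ζ : E} (hζ : IsPrimitiveRoot ζ p)
    {χ : (E ≃ₐ[k] E) → ZMod p} (hχ : ∀ σ : E ≃ₐ[k] E, σ ζ = ζ ^ (χ σ).val)
    (hidx : (powMonoidHom p : (⊥ : IntermediateField k E)ˣ →* (⊥ : IntermediateField k E)ˣ).range.index =
      p * Nat.card (powMonoidHom p : (⊥ : IntermediateField k E)ˣ →*
        (⊥ : IntermediateField k E)ˣ).ker * p) :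
    Finite (ZK p k E χ) ∧ Nat.card (ZK p k E χ) ≤ p ^ 3 := by
  classical
  have hp : p.Prime := Fact.out
  have hζp : ζ ^ p = 1 := hζ.pow_eq_one
  have hζ0 : ζ ≠ 0 := hζ.ne_zero hp.ne_zero
  set K := (⊥ : IntermediateField k E) with hK
  set N := (powMonoidHom p : Kˣ →* Kˣ).range with hN
  set C := (powMonoidHom p : Kˣ →* Kˣ).ker with hC
  have hfix : ∀ (σ : E ≃ₐ[k] E) (x : K), σ (x : E) = x := by
    intro σ x
    obtain ⟨y, hy⟩ := IntermediateField.mem_bot.mp x.2
    rw [← hy, σ.commutes]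
  choose a b ha hσa hb using fun z : ZK p k E χ => exists_unit_of_mem_ZK hζ hχ z.2
  -- comparison of cocycles in the same class
  have key : ∀ z z' : ZK p k E χ, (QuotientGroup.mk (b z) : Kˣ ⧸ N) = QuotientGroup.mk (b z') →
      ∃ i : ZMod p, ∀ σ, z'.1 σ = z.1 σ + i * (χ σ - 1) := by
    intro z z' h
    rw [QuotientGroup.eq] at h
    obtain ⟨c, hc⟩ := h
    have hc' : (b z : Kˣ) * c ^ p = b z' := by
      rw [← powMonoidHom_apply p c, hc, mul_inv_cancel_left]
    have hc2 : (a z) ^ p * ((c : K) : E) ^ p = (a z') ^ p := by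
      have := congrArg (fun x : Kˣ => ((x : K) : E)) hc'
      simpa [hb] using this
    -- `a z' = ζ^i * a z * c`
    have hc0 : ((c : K) : E) ≠ 0 := fun h => c.ne_zero (Subtype.ext h)
    have h1 : (a z' / (a z * ((c : K) : E))) ^ p = 1 := by
      rw [div_pow, mul_pow, hc2, div_self (pow_ne_zero _ (ha z'))]
    obtain ⟨i, -, hi⟩ := hζ.eq_pow_of_pow_eq_one h1
    have h2 : a z' = ζ ^ ((i : ZMod p)).val * (a z * ((c : K) : E)) := by
      rw [pow_val_natCast hζp, hi, div_mul_cancel₀]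
      exact mul_ne_zero (ha z) hc0
    refine ⟨(i : ZMod p), fun σ => ?_⟩
    have h3 := hσa z' σ
    rw [h2, map_mul, map_mul, map_pow, hχ, hfix, hσa, ← pow_mul] at h3
    have h4 : ζ ^ ((χ σ).val * ((i : ZMod p)).val) = ζ ^ ((i : ZMod p) * χ σ).val := by
      have h5 : (i : ZMod p) * χ σ = (((χ σ).val * ((i : ZMod p)).val : ℕ) : ZMod p) := by
        rw [Nat.cast_mul, ZMod.natCast_zmod_val, ZMod.natCast_zmod_val, mul_comm]
      rw [h5, pow_val_natCast hζp]
    rw [h4] at h3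
    have h6 : ζ ^ (((i : ZMod p) * χ σ).val) * ζ ^ (z.1 σ).val =
        ζ ^ (z'.1 σ).val * ζ ^ ((i : ZMod p)).val := by
      have h7 : a z * ((c : K) : E) ≠ 0 := mul_ne_zero (ha z) hc0
      apply mul_right_cancel₀ h7
      calc _ = ζ ^ (((i : ZMod p) * χ σ).val) * (ζ ^ (z.1 σ).val * a z * ((c : K) : E)) := by ring
        _ = _ := h3
        _ = _ := by ring
    rw [← pow_val_add hζp, ← pow_val_add hζp] at h6
    have h8 := pow_val_inj hζ h6
    linear_combination -h8
  have hidx0 : N.index ≠ 0 := by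
    intro h0
    rw [h0] at hidx
    have hC0 : Nat.card C ≠ 0 := by
      have hfin : Finite C := by
        have h1 : C = rootsOfUnity p K := by
          ext x
          rw [hC, MonoidHom.mem_ker, mem_rootsOfUnity]
          rfl
        rw [h1]
        infer_instance
      exact Nat.card_pos.ne'
    have := mul_ne_zero (mul_ne_zero hp.ne_zero hC0) hp.ne_zero
    exact this hidx.symm
  have hfinQ : Finite (Kˣ ⧸ N) := Nat.finite_of_card_ne_zero hidx0
  have hcardQ : Nat.card (Kˣ ⧸ N) = p * Nat.card C * p := hidx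
  let κ : ZK p k E χ → Kˣ ⧸ N := fun z => QuotientGroup.mk (b z)
  have : Nonempty (ZK p k E χ) := ⟨⟨fun _ => 0, fun _ _ => by simp, ⊥,
    inferInstanceAs (FiniteDimensional k (⊥ : IntermediateField k E)), fun _ _ _ => rfl⟩⟩
  by_cases hCtriv : C = ⊥
  · -- no roots of unity
    have hs : ∀ z : ZK p k E χ, ∃ i : ZMod p, ∀ σ, z.1 σ =
        (Function.invFun κ (κ z)).1 σ + i * (χ σ - 1) := by
      intro z
      apply key
      exact Function.invFun_eq (f := κ) ⟨z, rfl⟩
    choose i hi using hs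
    let φ : ZK p k E χ → (Kˣ ⧸ N) × ZMod p := fun z => (κ z, i z)
    have hφ : Function.Injective φ := by
      intro z z' h
      have h1 : κ z = κ z' := congrArg Prod.fst h
      have h2 : i z = i z' := congrArg Prod.snd h
      apply Subtype.ext
      funext σ
      rw [hi z, hi z', h1, h2]
    refine ⟨Finite.of_injective φ hφ, ?_⟩
    refine (Nat.card_le_card_of_injective φ hφ).trans ?_
    rw [Nat.card_prod, hcardQ, hCtriv, Nat.card_zmod]
    simp only [Subgroup.card_bot]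
    exact le_of_eq (by ring)
  · -- `ζ ∈ K`
    have hχ1 : ∀ σ, χ σ = 1 := by
      intro σ
      obtain ⟨⟨x, hxC⟩, hx1⟩ := (Subgroup.ne_bot_iff_exists_ne_one (H := C)).mp hCtriv
      rw [hC, MonoidHom.mem_ker, powMonoidHom_apply] at hxC
      have hx2 : ((x : K) : E) ^ p = 1 := by
        have := congrArg (fun x : Kˣ => ((x : K) : E)) hxC
        simpa using this
      have hx3 : ((x : K) : E) ≠ 1 := by
        intro h
        apply hx1
        apply Subtype.ext
        apply Units.ext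
        exact Subtype.ext h
      have hx4 : IsPrimitiveRoot ((x : K) : E) p := by
        rw [IsPrimitiveRoot.iff_orderOf]
        exact orderOf_eq_prime hx2 hx3
      obtain ⟨j, -, hj⟩ := hx4.eq_pow_of_pow_eq_one hζp
      have h5 : σ ζ = ζ := by
        rw [← hj, map_pow, hfix]
      rw [hχ] at h5
      have h6 : ζ ^ (χ σ).val = ζ ^ (1 : ZMod p).val := by
        have : Fact (1 < p) := ⟨hp.one_lt⟩
        rw [h5, ZMod.val_one, pow_one]
      exact pow_val_inj hζ h6
    have hφ : Function.Injective κ := by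
      intro z z' h
      obtain ⟨i, hi⟩ := key z z' h
      apply Subtype.ext
      funext σ
      rw [hi σ, hχ1, sub_self, mul_zero, add_zero]
    refine ⟨Finite.of_injective κ hφ, ?_⟩
    refine (Nat.card_le_card_of_injective κ hφ).trans ?_
    rw [hcardQ]
    have hC1 : Nat.card C ≤ p := by
      have h1 : C = rootsOfUnity p K := by
        ext x
        rw [hC, MonoidHom.mem_ker, mem_rootsOfUnity]
        rfl
      rw [h1]
      exact card_rootsOfUnity K p
    calc p * Nat.card C * p ≤ p * p * p := by gcongr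
      _ = p ^ 3 := by ring

end Count

end Fermat.Agent.TWP.LocalDimP
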