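import Mathlib
import Fermat.Agent.TWP.LocalCount
import Fermat.Agent.CFT.Local.PadicAlg
import Fermat.Agent.CFT.D2.Trans
import Fermat.Agent.CFT.Embed

/-!
# Cocycles of a decomposition group at `p` with values in `μ_p`

For `P` a place of `ℚ̄` above an odd prime `p` with decomposition group `D`, the group of
level-constant cocycles `D → 𝔽_p(1)` has at most `p ^ 3` elements.
-/

set_option autoImplicit false

open IntermediateField Pointwise NumberField IsDedekindDomain

namespace Fermat.Agent.TWP.LocalDimP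

open Fermat.Agent.CFT.W Fermat.Agent.CFT.D2 Fermat.Agent.FrobExists
open Fermat.Agent.EXT.KummerElt

variable (p : ℕ) [hp : Fact p.Prime]

/-- Density of the local Galois group in the decomposition group. -/
theorem exists_loc_mul (g : GQ) (L : IntermediateField ℚ (AlgebraicClosure ℚ))
    [FiniteDimensional ℚ L] (σ : GQ) (hσ : σ ∈ (g • padicPlace p).decompositionSubgroup ℚ) :
    ∃ τ : PadicAlgCl p ≃ₐ[ℚ_[p]] PadicAlgCl p, ∃ u ∈ L.fixingSubgroup,
      σ = g * localGaloisToGlobal p τ * g⁻¹ * u := by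
  have hlies : ∀ h : GQ, (h • padicPlace p).LiesOverPrime p := by
    intro h
    have h3 := (Fermat.Agent.TWP.Place.apply_mem_nonunits_smul (padicPlace p) h
      (x := ((p : ℕ) : AlgebraicClosure ℚ))).mpr (padicPlace_liesOverPrime p)
    rwa [map_natCast] at h3
  have h1 := placeL_smul_padicPlace p L g (hlies g)
  have h2 := placeL_smul_padicPlace p L (σ⁻¹ * g) (hlies _)
  have h3 : (σ⁻¹ * g) • padicPlace p = g • padicPlace p := by
    rw [mul_smul, inv_smul_eq_iff]
    exact ((MulAction.mem_stabilizer_iff).mp hσ).symm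
  have h4 : pl (emb p L g⁻¹) = pl (emb p L (σ⁻¹ * g)⁻¹) := by
    rw [← h1, ← h2]
    congr 1
    exact h3.symm
  rw [pl_emb_eq_iff] at h4
  obtain ⟨τ, u, hu, h5⟩ := h4
  refine ⟨τ, u, hu, ?_⟩
  rw [_root_.mul_inv_rev, inv_inv] at h5
  rw [mul_assoc, mul_assoc, ← mul_assoc (localGaloisToGlobal p τ), ← h5, mul_inv_cancel_left]

/-- Level-constant cocycles of the decomposition group with values in `μ_p`. -/
def ZD (P : ValuationSubring (AlgebraicClosure ℚ)) :
    Set (P.decompositionSubgroup ℚ → ZMod p) :=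
  {γ | (∀ σ τ : P.decompositionSubgroup ℚ, γ (σ * τ) = γ σ + chi p (σ : GQ) * γ τ) ∧
    ∃ L : IntermediateField ℚ (AlgebraicClosure ℚ), FiniteDimensional ℚ L ∧
      ∀ σ τ : P.decompositionSubgroup ℚ, (∀ x ∈ L, (τ : GQ) x = x) → γ (σ * τ) = γ σ}

theorem chi_conj (g h : GQ) : chi p (g * h * g⁻¹) = chi p h := by
  have h1 : chi p (g * g⁻¹) = 1 := by
    rw [mul_inv_cancel]
    simp [chi]
  rw [chi_mul] at h1
  rw [chi_mul, chi_mul]
  linear_combination (chi p h) * h1

theorem card_ZD_aux (hp2 : p ≠ 2) (g : GQ) :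
    Finite (ZD p (g • padicPlace p)) ∧ Nat.card (ZD p (g • padicPlace p)) ≤ p ^ 3 := by
  have hmem : ∀ τ : PadicAlgCl p ≃ₐ[ℚ_[p]] PadicAlgCl p,
      g * localGaloisToGlobal p τ * g⁻¹ ∈ (g • padicPlace p).decompositionSubgroup ℚ := by
    intro τ
    rw [MulAction.mem_stabilizer_iff, mul_smul, mul_smul, inv_smul_smul, loc_smul_padicPlace]
  obtain ⟨ζ, hζ⟩ := Fermat.Agent.Cyclotomic.exists_primitiveRoot p
  have hζp : ζ ^ p = 1 := hζ.pow_eq_one
  have hζ' : IsPrimitiveRoot (padicEmbedding p ζ) p :=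
    hζ.map_of_injective (padicEmbedding p).injective
  let lam : (PadicAlgCl p ≃ₐ[ℚ_[p]] PadicAlgCl p) → (g • padicPlace p).decompositionSubgroup ℚ :=
    fun τ => ⟨g * localGaloisToGlobal p τ * g⁻¹, hmem τ⟩
  have hlam : ∀ σ τ, lam (σ * τ) = lam σ * lam τ := by
    intro σ τ
    apply Subtype.ext
    show g * localGaloisToGlobal p (σ * τ) * g⁻¹ =
      (g * localGaloisToGlobal p σ * g⁻¹) * (g * localGaloisToGlobal p τ * g⁻¹)
    rw [map_mul]
    group
  let χ : (PadicAlgCl p ≃ₐ[ℚ_[p]] PadicAlgCl p) → ZMod p := fun τ =>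
    chi p (localGaloisToGlobal p τ)
  have hχ : ∀ τ : PadicAlgCl p ≃ₐ[ℚ_[p]] PadicAlgCl p,
      τ (padicEmbedding p ζ) = (padicEmbedding p ζ) ^ (χ τ).val := by
    intro τ
    rw [← padicEmbedding_localGaloisToGlobal, chi_spec _ hζp, map_pow]
  have hfin : FiniteDimensional ℚ_[p] (⊥ : IntermediateField ℚ_[p] (PadicAlgCl p)) :=
    inferInstanceAs (FiniteDimensional ℚ_[p] (⊥ : IntermediateField ℚ_[p] (PadicAlgCl p)))
  have hidx := Fermat.Agent.CFT.Local.index_pow_units_alg p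
    (⊥ : IntermediateField ℚ_[p] (PadicAlgCl p)) hp.out hp2
  rw [if_pos rfl, IntermediateField.finrank_bot, pow_one] at hidx
  obtain ⟨hF, hcard⟩ := card_ZK hζ' hχ hidx
  let Φ : ZD p (g • padicPlace p) → ZK p ℚ_[p] (PadicAlgCl p) χ := fun γ =>
    ⟨fun τ => γ.1 (lam τ), by
      obtain ⟨h1, L, hL, h2⟩ := γ.2
      refine ⟨fun σ τ => ?_, localField p L g⁻¹, ?_, fun σ τ hτ => ?_⟩
      · show γ.1 (lam (σ * τ)) = γ.1 (lam σ) + chi p (localGaloisToGlobal p σ) * γ.1 (lam τ)
        rw [hlam, h1]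
        show _ + chi p (g * localGaloisToGlobal p σ * g⁻¹) * _ = _
        rw [chi_conj]
      · exact Fermat.Agent.CFT.Embed.finiteDimensional_locF p (emb p L g⁻¹)
      · show γ.1 (lam (σ * τ)) = γ.1 (lam σ)
        rw [hlam]
        apply h2
        have h3 := (mem_fixingSubgroup_localField p L g⁻¹ τ).mp
          ((IntermediateField.mem_fixingSubgroup_iff _ _).mpr hτ)
        rw [inv_inv, IntermediateField.mem_fixingSubgroup_iff] at h3
        exact h3⟩
  have hΦ : Function.Injective Φ := by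
    intro γ γ' h
    obtain ⟨h1, L, hL, h2⟩ := γ.2
    obtain ⟨h1', L', hL', h2'⟩ := γ'.2
    apply Subtype.ext
    funext σ
    have hfd : FiniteDimensional ℚ (L ⊔ L' : IntermediateField ℚ (AlgebraicClosure ℚ)) :=
      IntermediateField.finiteDimensional_sup L L'
    obtain ⟨τ, u, hu, hσ⟩ := exists_loc_mul p g (L ⊔ L') σ σ.2
    rw [IntermediateField.mem_fixingSubgroup_iff] at hu
    have huD : u ∈ (g • padicPlace p).decompositionSubgroup ℚ := by
      have h5 : u = (g * localGaloisToGlobal p τ * g⁻¹)⁻¹ * σ := by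
        rw [hσ]; group
      rw [h5]
      exact mul_mem (inv_mem (hmem τ)) σ.2
    have h6 : σ = lam τ * ⟨u, huD⟩ := Subtype.ext hσ
    rw [h6, h2 _ _ (fun x hx => hu x ((le_sup_left : L ≤ L ⊔ L') hx)),
      h2' _ _ (fun x hx => hu x ((le_sup_right : L' ≤ L ⊔ L') hx))]
    exact congrFun (congrArg Subtype.val h) τ
  exact ⟨Finite.of_injective Φ hΦ, (Nat.card_le_card_of_injective Φ hΦ).trans hcard⟩

theorem card_ZD (hp2 : p ≠ 2) (P : ValuationSubring (AlgebraicClosure ℚ))
    (hP : P.LiesOverPrime p) :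
    Finite (ZD p P) ∧ Nat.card (ZD p P) ≤ p ^ 3 := by
  obtain ⟨g, rfl⟩ := exists_smul_eq (padicPlace p) P hp.out (padicPlace_liesOverPrime p) hP
  exact card_ZD_aux p hp2 g

end Fermat.Agent.TWP.LocalDimP
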