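import Mathlib
import Fermat.Agent.TWP.LocalTransfer
import Fermat.Agent.TWP.GW.Matrix
import Fermat.Agent.TWP.SelmerCond

/-!
# The local condition at `p` in the strictly ordinary case

`finrank_ordU` : the space of local cocycles at `P ∣ p` which are, up to a coboundary, with values
in the nilpotent line `n = Hom(ℚ̄²/ℓ, ℓ)` has dimension at most `4`.
-/

set_option autoImplicit false
set_option linter.unusedSectionVars false

namespace Fermat.Agent.TWP.LocalDimP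

open Matrix Module IsLocalRing
open Fermat.Agent.UDef (GalQ)
open Fermat.Agent.EXT.KummerElt
open Fermat.Agent.CFT.LC

section Scalar

variable (p : ℕ) [hp : Fact p.Prime] (P : ValuationSubring (AlgebraicClosure ℚ))
  (k : Type) [Field k]

/-- Level-constant cocycles of the decomposition group with values in `k(1)`. -/
def ordCoc : Submodule k (P.decompositionSubgroup ℚ → k) where
  carrier := {γ | (∀ σ τ : P.decompositionSubgroup ℚ,
      γ (σ * τ) = γ σ + ((chi p (σ : GalQ)).val : k) * γ τ) ∧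
    ∃ L : IntermediateField ℚ (AlgebraicClosure ℚ), FiniteDimensional ℚ L ∧
      ∀ σ τ : P.decompositionSubgroup ℚ, (∀ x ∈ L, (τ : GalQ) x = x) → γ (σ * τ) = γ σ}
  zero_mem' := ⟨fun σ τ => by simp, ⊥,
    inferInstanceAs (FiniteDimensional ℚ (⊥ : IntermediateField ℚ (AlgebraicClosure ℚ))),
    fun _ _ _ => rfl⟩
  add_mem' := by
    rintro a b ⟨h1, L, hL, h2⟩ ⟨h1', L', hL', h2'⟩
    refine ⟨fun σ τ => ?_, L ⊔ L', IntermediateField.finiteDimensional_sup L L',
      fun σ τ hτ => ?_⟩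
    · simp only [Pi.add_apply, h1 σ τ, h1' σ τ]
      ring
    · simp only [Pi.add_apply, h2 σ τ (fun x hx => hτ x ((le_sup_left : L ≤ L ⊔ L') hx)),
        h2' σ τ (fun x hx => hτ x ((le_sup_right : L' ≤ L ⊔ L') hx))]
  smul_mem' := by
    rintro c a ⟨h1, L, hL, h2⟩
    refine ⟨fun σ τ => ?_, L, hL, fun σ τ hτ => ?_⟩
    · simp only [Pi.smul_apply, h1 σ τ, smul_eq_mul]
      ring
    · simp only [Pi.smul_apply, h2 σ τ hτ]

variable {p P k}

theorem mem_ordCoc {γ : P.decompositionSubgroup ℚ → k} : γ ∈ ordCoc p P k ↔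
    (∀ σ τ : P.decompositionSubgroup ℚ,
      γ (σ * τ) = γ σ + ((chi p (σ : GalQ)).val : k) * γ τ) ∧
    ∃ L : IntermediateField ℚ (AlgebraicClosure ℚ), FiniteDimensional ℚ L ∧
      ∀ σ τ : P.decompositionSubgroup ℚ, (∀ x ∈ L, (τ : GalQ) x = x) → γ (σ * τ) = γ σ := Iff.rfl

theorem finrank_ordCoc [Finite k] (hp2 : p ≠ 2) (hpk : (p : k) = 0) (hP : P.LiesOverPrime p) :
    Module.Finite k (ordCoc p P k) ∧ finrank k (ordCoc p P k) ≤ 3 := by
  have hchar : CharP k p := (CharP.charP_iff_prime_eq_zero hp.out).mpr hpk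
  let alg : Algebra (ZMod p) k := ZMod.algebra k p
  have halg : ∀ a : ZMod p, algebraMap (ZMod p) k a = (a.val : k) := by
    intro a
    conv_lhs => rw [← ZMod.natCast_zmod_val a]
    rw [map_natCast]
  have hfd : Module.Finite (ZMod p) k := Module.Finite.of_finite
  let b := Module.finBasis (ZMod p) k
  obtain ⟨hF, hcard⟩ := card_ZD p hp2 P hP
  let Ψ : ordCoc p P k → (Fin (finrank (ZMod p) k) → ZD p P) := fun γ i =>
    ⟨fun σ => b.coord i (γ.1 σ), by
      obtain ⟨h1, L, hL, h2⟩ := γ.2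
      refine ⟨fun σ τ => ?_, L, hL, fun σ τ hτ => ?_⟩
      · show b.coord i (γ.1 (σ * τ)) = b.coord i (γ.1 σ) + chi p (σ : GalQ) * b.coord i (γ.1 τ)
        rw [h1, map_add, ← halg, ← Algebra.smul_def, map_smul, smul_eq_mul]
      · show b.coord i (γ.1 (σ * τ)) = b.coord i (γ.1 σ)
        rw [h2 σ τ hτ]⟩
  have hΨ : Function.Injective Ψ := by
    intro γ γ' h
    apply Subtype.ext
    funext σ
    apply b.ext_elem
    intro i
    exact congrFun (congrArg Subtype.val (congrFun h i)) σ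
  have hfin : Finite (ordCoc p P k) := Finite.of_injective Ψ hΨ
  have hmf : Module.Finite k (ordCoc p P k) := Module.Finite.of_finite
  refine ⟨hmf, ?_⟩
  have h1 := Nat.card_le_card_of_injective Ψ hΨ
  rw [Nat.card_fun, Nat.card_fin] at h1
  have h2 : Nat.card k = p ^ finrank (ZMod p) k := by
    rw [Module.natCard_eq_pow_finrank (K := ZMod p) (V := k), Nat.card_zmod]
  have h3 : Nat.card (ordCoc p P k) = Nat.card k ^ finrank k (ordCoc p P k) :=
    Module.natCard_eq_pow_finrank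
  have h4 : Nat.card k ^ finrank k (ordCoc p P k) ≤ Nat.card k ^ 3 := by
    rw [← h3]
    calc _ ≤ _ := h1
      _ ≤ (p ^ 3) ^ finrank (ZMod p) k := by gcongr
      _ = Nat.card k ^ 3 := by rw [h2, ← pow_mul, ← pow_mul, mul_comm]
  exact (Nat.pow_le_pow_iff_right (Finite.one_lt_card (α := k))).mp h4

end Scalar

section Nil

variable {k : Type} [Field k]

/-- The matrices killing `u` with image in the line of `u`. -/
def nSub (u : Fin 2 → k) : Submodule k (Matrix (Fin 2) (Fin 2) k) where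
  carrier := {Y | Y *ᵥ u = 0 ∧ ∀ v, ∃ s : k, Y *ᵥ v = s • u}
  zero_mem' := ⟨by simp, fun v => ⟨0, by simp⟩⟩
  add_mem' := by
    rintro a b ⟨h1, h2⟩ ⟨h1', h2'⟩
    refine ⟨by rw [Matrix.add_mulVec, h1, h1', add_zero], fun v => ?_⟩
    obtain ⟨s, hs⟩ := h2 v
    obtain ⟨t, ht⟩ := h2' v
    exact ⟨s + t, by rw [Matrix.add_mulVec, hs, ht, add_smul]⟩
  smul_mem' := by
    rintro c a ⟨h1, h2⟩
    refine ⟨by rw [Matrix.smul_mulVec, h1, smul_zero], fun v => ?_⟩
    obtain ⟨s, hs⟩ := h2 v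
    exact ⟨c * s, by rw [Matrix.smul_mulVec, hs, smul_smul]⟩

theorem mem_nSub {u : Fin 2 → k} {Y : Matrix (Fin 2) (Fin 2) k} :
    Y ∈ nSub u ↔ Y *ᵥ u = 0 ∧ ∀ v, ∃ s : k, Y *ᵥ v = s • u := Iff.rfl

/-- The generator `v ↦ det(u, v) u` of `nSub u`. -/
def Emat (u : Fin 2 → k) : Matrix (Fin 2) (Fin 2) k := vecMulVec u ![-u 1, u 0]

theorem Emat_mulVec (u v : Fin 2 → k) : Emat u *ᵥ v = (u 0 * v 1 - u 1 * v 0) • u := by
  ext i
  fin_cases i <;> simp [Emat, vecMulVec, Matrix.mulVec, dotProduct, Fin.sum_univ_two] <;> ring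

theorem Emat_mem (u : Fin 2 → k) : Emat u ∈ nSub u := by
  refine ⟨?_, fun v => ⟨_, Emat_mulVec u v⟩⟩
  rw [Emat_mulVec, mul_comm, sub_self, zero_smul]

theorem Emat_ne_zero {u : Fin 2 → k} (hu : u ≠ 0) : Emat u ≠ 0 := by
  intro h
  apply hu
  have h1 : ∀ v : Fin 2 → k, (u 0 * v 1 - u 1 * v 0) • u = 0 := by
    intro v
    rw [← Emat_mulVec, h, Matrix.zero_mulVec]
  by_contra hne
  have h2 : ∀ v : Fin 2 → k, u 0 * v 1 - u 1 * v 0 = 0 := fun v =>
    (smul_eq_zero.mp (h1 v)).resolve_right hne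
  apply hne
  funext i
  fin_cases i
  · simpa using h2 ![0, 1]
  · simpa using h2 ![1, 0]

theorem exists_compl {u : Fin 2 → k} (hu : u ≠ 0) : ∃ w : Fin 2 → k, u 0 * w 1 - u 1 * w 0 = 1 := by
  by_cases h0 : u 0 = 0
  · have h1 : u 1 ≠ 0 := by
      intro h
      apply hu
      funext i; fin_cases i
      · exact h0
      · exact h
    refine ⟨![-(u 1)⁻¹, 0], ?_⟩
    simp [h1]
  · refine ⟨![0, (u 0)⁻¹], ?_⟩
    simp [h0]

theorem decomp_vec {u w : Fin 2 → k} (h : u 0 * w 1 - u 1 * w 0 = 1) (v : Fin 2 → k) :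
    v = (v 0 * w 1 - v 1 * w 0) • u + (u 0 * v 1 - u 1 * v 0) • w := by
  funext i
  fin_cases i
  · simp only [Fin.zero_eta, Pi.add_apply, Pi.smul_apply, smul_eq_mul]
    linear_combination (-(v 0)) * h
  · simp only [Fin.mk_one, Pi.add_apply, Pi.smul_apply, smul_eq_mul]
    linear_combination (-(v 1)) * h

theorem exists_smul_of_mem_nSub {u : Fin 2 → k} (hu : u ≠ 0) {Y : Matrix (Fin 2) (Fin 2) k}
    (hY : Y ∈ nSub u) : ∃ c : k, Y = c • Emat u := by
  obtain ⟨w, hw⟩ := exists_compl hu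
  obtain ⟨s, hs⟩ := hY.2 w
  refine ⟨s, ?_⟩
  apply Matrix.toLin'.injective
  refine LinearMap.ext fun v => ?_
  rw [Matrix.toLin'_apply, Matrix.toLin'_apply, Matrix.smul_mulVec, Emat_mulVec]
  conv_lhs => rw [decomp_vec hw v]
  rw [Matrix.mulVec_add, Matrix.mulVec_smul, Matrix.mulVec_smul, hY.1, smul_zero, zero_add, hs,
    smul_smul, smul_smul, mul_comm]

/-- `diag(1,-1)` with respect to the basis `u, w`. -/
def Hmat (u w : Fin 2 → k) : Matrix (Fin 2) (Fin 2) k :=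
  vecMulVec u ![w 1, -w 0] - vecMulVec w ![-u 1, u 0]

theorem Hmat_mulVec (u w v : Fin 2 → k) : Hmat u w *ᵥ v =
    (v 0 * w 1 - v 1 * w 0) • u - (u 0 * v 1 - u 1 * v 0) • w := by
  ext i
  fin_cases i <;>
    simp [Hmat, vecMulVec, Matrix.mulVec, dotProduct, Fin.sum_univ_two] <;> ring

theorem trace_Hmat (u w : Fin 2 → k) : (Hmat u w).trace = 0 := by
  rw [Matrix.trace_fin_two]
  simp [Hmat, vecMulVec]
  ring

theorem trace_Emat (u : Fin 2 → k) : (Emat u).trace = 0 := by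
  rw [Matrix.trace_fin_two]
  simp [Emat, vecMulVec]
  ring

end Nil

section LinAlg

theorem finrank_range_le_of_ker {k V W : Type*} [Field k] [AddCommGroup V] [Module k V]
    [AddCommGroup W] [Module k W] [FiniteDimensional k V] (Φ : V →ₗ[k] W) {n : ℕ}
    (hV : finrank k V ≤ n + 2) {q₁ q₂ : V} (h₁ : Φ q₁ = 0) (h₂ : Φ q₂ = 0)
    (h : ∀ s t : k, s • q₁ + t • q₂ = 0 → s = 0 ∧ t = 0) :
    finrank k (LinearMap.range Φ) ≤ n := by
  have h1 := LinearMap.finrank_range_add_finrank_ker Φ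
  have h2 : LinearIndependent k ![(⟨q₁, h₁⟩ : LinearMap.ker Φ), ⟨q₂, h₂⟩] := by
    refine LinearIndependent.pair_iff.mpr fun s t hst => h s t ?_
    exact congrArg Subtype.val hst
  have h3 := h2.fintype_card_le_finrank
  rw [Fintype.card_fin] at h3
  omega

end LinAlg

section Main

open Fermat.Agent.TWP.GW

variable {𝒪 : Type} [CommRing 𝒪] [IsLocalRing 𝒪]
  {M : GalQ →* Matrix (Fin 2) (Fin 2) (ResidueField 𝒪)} {p : ℕ} [hp : Fact p.Prime]
  {P : ValuationSubring (AlgebraicClosure ℚ)} {u : Fin 2 → ResidueField 𝒪}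

theorem exists_of_ordLine (h : OrdLine M p P u) {σ : GalQ} (hσ : σ ∈ P.decompositionSubgroup ℚ) :
    ∃ z : ResidueField 𝒪, M σ *ᵥ u = (((chi p σ).val : ResidueField 𝒪) * z) • u ∧
      ∀ v, ∃ s : ResidueField 𝒪, M σ *ᵥ v = z • v + s • u := by
  obtain ⟨x, z, h1, h2, h3⟩ := h.decomp σ hσ
  refine ⟨z, ?_, fun v => ?_⟩
  · rw [h1, h3 (chi p σ).val]
    intro μ hμ
    rw [pow_one] at hμ
    exact chi_spec σ hμ
  · obtain ⟨s, hs⟩ := h2 v
    exact ⟨s, by rw [← hs]; abel⟩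

theorem M_mul_inv (σ : GalQ) : M σ * M σ⁻¹ = 1 := by rw [← map_mul, mul_inv_cancel, map_one]

theorem M_inv_mul (σ : GalQ) : M σ⁻¹ * M σ = 1 := by rw [← map_mul, inv_mul_cancel, map_one]

theorem conj_Emat (h : OrdLine M p P u) {σ : GalQ} (hσ : σ ∈ P.decompositionSubgroup ℚ) :
    M σ * Emat u * M σ⁻¹ = ((chi p σ).val : ResidueField 𝒪) • Emat u := by
  obtain ⟨z, h1, h2⟩ := exists_of_ordLine h hσ
  have h3 : M σ * Emat u = ((chi p σ).val : ResidueField 𝒪) • (Emat u * M σ) := by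
    apply Matrix.toLin'.injective
    refine LinearMap.ext fun v => ?_
    obtain ⟨s, hs⟩ := h2 v
    rw [Matrix.toLin'_apply, Matrix.toLin'_apply, Matrix.smul_mulVec, ← Matrix.mulVec_mulVec,
      ← Matrix.mulVec_mulVec, hs, Emat_mulVec, Emat_mulVec, Matrix.mulVec_smul, h1, smul_smul,
      smul_smul]
    congr 1
    simp only [Pi.add_apply, Pi.smul_apply, smul_eq_mul]
    ring
  rw [h3, smul_mul_assoc, mul_assoc, M_mul_inv, mul_one]

/-- Cocycles with values in the nilpotent line are scalar cocycles. -/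
theorem exists_ordCoc (h : OrdLine M p P u)
    {g : P.decompositionSubgroup ℚ → Matrix (Fin 2) (Fin 2) (ResidueField 𝒪)}
    (hg : ∀ σ, g σ ∈ nSub u)
    (hc : ∀ σ τ : P.decompositionSubgroup ℚ,
      g (σ * τ) = g σ + M (σ : GalQ) * g τ * M ((σ : GalQ))⁻¹)
    (hl : ∃ L : IntermediateField ℚ (AlgebraicClosure ℚ), FiniteDimensional ℚ L ∧
      ∀ σ τ : P.decompositionSubgroup ℚ, (∀ x ∈ L, (τ : GalQ) x = x) → g (σ * τ) = g σ) :
    ∃ γ ∈ ordCoc p P (ResidueField 𝒪), ∀ σ, g σ = γ σ • Emat u := by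
  choose γ hγ using fun σ => exists_smul_of_mem_nSub h.ne_zero (hg σ)
  have hinj : ∀ a b : ResidueField 𝒪, a • Emat u = b • Emat u → a = b := by
    intro a b hab
    have h1 : (a - b) • Emat u = 0 := by rw [sub_smul, hab, sub_self]
    exact sub_eq_zero.mp ((smul_eq_zero.mp h1).resolve_right (Emat_ne_zero h.ne_zero))
  obtain ⟨L, hL, hl⟩ := hl
  refine ⟨γ, ⟨fun σ τ => ?_, L, hL, fun σ τ hτ => ?_⟩, hγ⟩
  · apply hinj
    rw [← hγ, hc, hγ σ, hγ τ, mul_smul_comm, smul_mul_assoc, conj_Emat h σ.2, add_smul,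
      smul_smul, mul_comm]
  · apply hinj
    rw [← hγ, ← hγ, hl σ τ hτ]

/-- `X` acts on the line of `u` by `a` and on the quotient by `-a`: its coboundary is nilpotent. -/
theorem coboundary_mem (h : OrdLine M p P u) {X : Matrix (Fin 2) (Fin 2) (ResidueField 𝒪)}
    {a : ResidueField 𝒪} (h1 : X *ᵥ u = a • u)
    (h2 : ∀ v, ∃ s : ResidueField 𝒪, X *ᵥ v = -(a • v) + s • u) {σ : GalQ}
    (hσ : σ ∈ P.decompositionSubgroup ℚ) : X - M σ * X * M σ⁻¹ ∈ nSub u := by
  obtain ⟨z, h3, h4⟩ := exists_of_ordLine h hσ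
  obtain ⟨z', h3', h4'⟩ := exists_of_ordLine h (inv_mem hσ)
  have key : ∀ v, M σ *ᵥ (M σ⁻¹ *ᵥ v) = v := by
    intro v
    rw [Matrix.mulVec_mulVec, M_mul_inv, Matrix.one_mulVec]
  constructor
  · have h5 := key u
    rw [Matrix.sub_mulVec, ← Matrix.mulVec_mulVec, ← Matrix.mulVec_mulVec, h3', Matrix.mulVec_smul,
      h1, Matrix.mulVec_smul, Matrix.mulVec_smul]
    rw [h3', Matrix.mulVec_smul] at h5
    rw [smul_comm, h5, sub_self]
  · intro v
    obtain ⟨s, hs⟩ := h2 v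
    obtain ⟨t, ht⟩ := h2 (M σ⁻¹ *ᵥ v)
    refine ⟨s - t * (((chi p σ).val : ResidueField 𝒪) * z), ?_⟩
    rw [Matrix.sub_mulVec, ← Matrix.mulVec_mulVec, ← Matrix.mulVec_mulVec, hs, ht,
      Matrix.mulVec_add, Matrix.mulVec_neg, Matrix.mulVec_smul, Matrix.mulVec_smul, key, h3,
      sub_smul, smul_smul]
    abel

variable (M P u) in
/-- The strictly ordinary local condition at `P`. -/
def ordU : Submodule (ResidueField 𝒪)
    (P.decompositionSubgroup ℚ → Matrix (Fin 2) (Fin 2) (ResidueField 𝒪)) where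
  carrier := {f | f ∈ zAd (M.comp (P.decompositionSubgroup ℚ).subtype)
      ((krull ℚ (AlgebraicClosure ℚ)).restrict (P.decompositionSubgroup ℚ)) ∧
    ∃ X : Matrix (Fin 2) (Fin 2) (ResidueField 𝒪), X.trace = 0 ∧
      ∀ σ, f σ - (adj M (σ : GalQ) X - X) ∈ nSub u}
  zero_mem' := ⟨Submodule.zero_mem _, 0, by simp, fun σ => by
    have : (0 : P.decompositionSubgroup ℚ → Matrix (Fin 2) (Fin 2) (ResidueField 𝒪)) σ -
        (adj M (σ : GalQ) 0 - 0) = 0 := by simp [adj]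
    rw [this]; exact Submodule.zero_mem _⟩
  add_mem' := by
    rintro f g ⟨hf, X, hX, h1⟩ ⟨hg, Y, hY, h2⟩
    refine ⟨Submodule.add_mem _ hf hg, X + Y, by rw [Matrix.trace_add, hX, hY, add_zero],
      fun σ => ?_⟩
    have h3 := Submodule.add_mem _ (h1 σ) (h2 σ)
    convert h3 using 1
    simp only [Pi.add_apply, adj, mul_add, add_mul]
    abel
  smul_mem' := by
    rintro c f ⟨hf, X, hX, h1⟩
    refine ⟨Submodule.smul_mem _ c hf, c • X, by rw [Matrix.trace_smul, hX, smul_zero],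
      fun σ => ?_⟩
    have h3 := Submodule.smul_mem _ c (h1 σ)
    convert h3 using 1
    simp only [Pi.smul_apply, adj, smul_sub, mul_smul_comm, smul_mul_assoc]

theorem mem_ordU {f : P.decompositionSubgroup ℚ → Matrix (Fin 2) (Fin 2) (ResidueField 𝒪)} :
    f ∈ ordU M P u ↔ f ∈ zAd (M.comp (P.decompositionSubgroup ℚ).subtype)
      ((krull ℚ (AlgebraicClosure ℚ)).restrict (P.decompositionSubgroup ℚ)) ∧
    ∃ X : Matrix (Fin 2) (Fin 2) (ResidueField 𝒪), X.trace = 0 ∧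
      ∀ σ, f σ - (adj M (σ : GalQ) X - X) ∈ nSub u := Iff.rfl

/-- coboundary, restricted to the decomposition group -/
noncomputable def bdry (M : GalQ →* Matrix (Fin 2) (Fin 2) (ResidueField 𝒪))
    (P : ValuationSubring (AlgebraicClosure ℚ)) :
    Matrix (Fin 2) (Fin 2) (ResidueField 𝒪) →ₗ[ResidueField 𝒪]
      (P.decompositionSubgroup ℚ → Matrix (Fin 2) (Fin 2) (ResidueField 𝒪)) where
  toFun X σ := adj M (σ : GalQ) X - X
  map_add' X Y := by
    funext σ
    simp only [Pi.add_apply, adj, mul_add, add_mul]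
    abel
  map_smul' c X := by
    funext σ
    simp only [Pi.smul_apply, adj, RingHom.id_apply, smul_sub, mul_smul_comm, smul_mul_assoc]

theorem bdry_apply (X : Matrix (Fin 2) (Fin 2) (ResidueField 𝒪)) (σ : P.decompositionSubgroup ℚ) :
    bdry M P X σ = M (σ : GalQ) * X * M ((σ : GalQ))⁻¹ - X := rfl

theorem bdry_cocycle (X : Matrix (Fin 2) (Fin 2) (ResidueField 𝒪))
    (σ τ : P.decompositionSubgroup ℚ) :
    bdry M P X (σ * τ) = bdry M P X σ + M (σ : GalQ) * bdry M P X τ * M ((σ : GalQ))⁻¹ := by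
  simp only [bdry_apply, Subgroup.coe_mul, _root_.mul_inv_rev, map_mul, mul_sub, sub_mul, mul_assoc]
  abel

theorem bdry_level {L : IntermediateField ℚ (AlgebraicClosure ℚ)}
    (hL : ∀ τ : GalQ, (∀ x ∈ L, τ x = x) → M τ = 1) (X : Matrix (Fin 2) (Fin 2) (ResidueField 𝒪))
    (σ τ : P.decompositionSubgroup ℚ) (hτ : ∀ x ∈ L, (τ : GalQ) x = x) :
    bdry M P X (σ * τ) = bdry M P X σ := by
  have h1 := hL τ hτ
  have h2 : M ((τ : GalQ))⁻¹ = 1 := by
    have := M_mul_inv (M := M) (τ : GalQ)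
    rwa [h1, one_mul] at this
  simp only [bdry_apply, Subgroup.coe_mul, _root_.mul_inv_rev, map_mul, h1, h2, mul_one, one_mul]

variable (M P u) in
/-- The parametrisation of `ordU`. -/
noncomputable def ordMap (p : ℕ) [Fact p.Prime] : (ordCoc p P (ResidueField 𝒪) × ad0 (ResidueField 𝒪)) →ₗ[ResidueField 𝒪]
    (P.decompositionSubgroup ℚ → Matrix (Fin 2) (Fin 2) (ResidueField 𝒪)) where
  toFun q σ := q.1.1 σ • Emat u + bdry M P q.2.1 σ
  map_add' q q' := by
    funext σ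
    simp only [Prod.fst_add, Prod.snd_add, Submodule.coe_add, Pi.add_apply, map_add, add_smul]
    abel
  map_smul' c q := by
    funext σ
    simp only [Prod.smul_fst, Prod.smul_snd, Submodule.coe_smul, Pi.smul_apply, map_smul,
      RingHom.id_apply, smul_add, smul_smul, smul_eq_mul]

theorem ordMap_apply (q : ordCoc p P (ResidueField 𝒪) × ad0 (ResidueField 𝒪))
    (σ : P.decompositionSubgroup ℚ) :
    ordMap M P u p q σ = q.1.1 σ • Emat u + bdry M P q.2.1 σ := rfl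

theorem ordU_le (h : OrdLine M p P u)
    (hM : ∃ L : IntermediateField ℚ (AlgebraicClosure ℚ), FiniteDimensional ℚ L ∧
      ∀ τ : GalQ, (∀ x ∈ L, τ x = x) → M τ = 1) :
    ordU M P u ≤ LinearMap.range (ordMap M P u p) := by
  rintro f ⟨⟨h1, h2, N, hN, h3⟩, X, hX, h4⟩
  obtain ⟨_, ⟨F, hF, -, rfl⟩, rfl⟩ := hN
  obtain ⟨L, hL, hM⟩ := hM
  obtain ⟨γ, hγ, h5⟩ := exists_ordCoc (g := fun σ => f σ - bdry M P X σ) h h4 (fun σ τ => by
      have h6 : f (σ * τ) = f σ + M (σ : GalQ) * f τ * M ((σ : GalQ))⁻¹ := h2 σ τ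
      show f (σ * τ) - bdry M P X (σ * τ) = (f σ - bdry M P X σ) +
        M (σ : GalQ) * (f τ - bdry M P X τ) * M ((σ : GalQ))⁻¹
      rw [h6, bdry_cocycle, mul_sub, sub_mul]
      abel) (by
    have hF' : FiniteDimensional ℚ F := hF
    refine ⟨F ⊔ L, IntermediateField.finiteDimensional_sup F L, fun σ τ hτ => ?_⟩
    show f (σ * τ) - bdry M P X (σ * τ) = f σ - bdry M P X σ
    rw [bdry_level hM X σ τ (fun x hx => hτ x ((le_sup_right : L ≤ F ⊔ L) hx)), h3 σ τ]
    show (τ : GalQ) ∈ F.fixingSubgroup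
    rw [IntermediateField.mem_fixingSubgroup_iff]
    exact fun x hx => hτ x ((le_sup_left : F ≤ F ⊔ L) hx))
  refine ⟨(⟨γ, hγ⟩, ⟨X, mem_ad0.mpr hX⟩), ?_⟩
  funext σ
  rw [ordMap_apply]
  show γ σ • Emat u + bdry M P X σ = f σ
  rw [← h5, sub_add_cancel]

theorem exists_mem_ker (h : OrdLine M p P u)
    (hM : ∃ L : IntermediateField ℚ (AlgebraicClosure ℚ), FiniteDimensional ℚ L ∧
      ∀ τ : GalQ, (∀ x ∈ L, τ x = x) → M τ = 1)
    {X : Matrix (Fin 2) (Fin 2) (ResidueField 𝒪)}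
    {a : ResidueField 𝒪} (htr : X.trace = 0) (h1 : X *ᵥ u = a • u)
    (h2 : ∀ v, ∃ s : ResidueField 𝒪, X *ᵥ v = -(a • v) + s • u) :
    ∃ q ∈ LinearMap.ker (ordMap M P u p), q.2.1 = X := by
  obtain ⟨L, hL, hM⟩ := hM
  obtain ⟨γ, hγ, h5⟩ := exists_ordCoc (g := fun σ => - bdry M P X σ) h
    (fun σ => by
      have := coboundary_mem h h1 h2 σ.2
      rw [bdry_apply, neg_sub]
      exact this)
    (fun σ τ => by
      show - bdry M P X (σ * τ) = (- bdry M P X σ) +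
        M (σ : GalQ) * (- bdry M P X τ) * M ((σ : GalQ))⁻¹
      rw [bdry_cocycle, mul_neg, neg_mul]
      abel) ⟨L, hL, fun σ τ hτ => by
        show - bdry M P X (σ * τ) = - bdry M P X σ
        rw [bdry_level hM X σ τ hτ]⟩
  refine ⟨(⟨γ, hγ⟩, ⟨X, mem_ad0.mpr htr⟩), ?_, rfl⟩
  rw [LinearMap.mem_ker]
  funext σ
  rw [ordMap_apply]
  show γ σ • Emat u + bdry M P X σ = 0
  rw [← h5, neg_add_cancel]

/-- **The strictly ordinary local condition has dimension at most `4`.** -/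
theorem finrank_ordU [Finite (ResidueField 𝒪)] (hp2 : p ≠ 2) (hpk : (p : ResidueField 𝒪) = 0)
    (hP : P.LiesOverPrime p) (h : OrdLine M p P u)
    (hM : ∃ L : IntermediateField ℚ (AlgebraicClosure ℚ), FiniteDimensional ℚ L ∧
      ∀ τ : GalQ, (∀ x ∈ L, τ x = x) → M τ = 1) :
    Module.Finite (ResidueField 𝒪) (ordU M P u) ∧ finrank (ResidueField 𝒪) (ordU M P u) ≤ 4 := by
  obtain ⟨hfin, hdim⟩ := finrank_ordCoc (P := P) (k := ResidueField 𝒪) hp2 hpk hP
  obtain ⟨w, hw⟩ := exists_compl h.ne_zero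
  obtain ⟨q₁, hq₁, e1⟩ := exists_mem_ker (X := Emat u) (a := 0) h hM (trace_Emat u)
    (by rw [(Emat_mem u).1, zero_smul]) (fun v => by
      obtain ⟨s, hs⟩ := (Emat_mem u).2 v
      exact ⟨s, by rw [hs]; simp⟩)
  obtain ⟨q₂, hq₂, e2⟩ := exists_mem_ker (X := Hmat u w) (a := 1) h hM (trace_Hmat u w)
    (by
      rw [Hmat_mulVec, hw, mul_comm (u 0) (u 1), sub_self, zero_smul, sub_zero])
    (fun v => by
      refine ⟨2 * (v 0 * w 1 - v 1 * w 0), ?_⟩
      rw [Hmat_mulVec, one_smul]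
      funext i
      have hv := congrFun (decomp_vec hw v) i
      simp only [Pi.add_apply, Pi.sub_apply, Pi.neg_apply, Pi.smul_apply, smul_eq_mul] at hv ⊢
      linear_combination hv)
  have h4 : finrank (ResidueField 𝒪) (LinearMap.range (ordMap M P u p)) ≤ 4 := by
    refine finrank_range_le_of_ker (ordMap M P u p) (q₁ := q₁) (q₂ := q₂) ?_ hq₁ hq₂ ?_
    · rw [Module.finrank_prod, finrank_ad0]
      omega
    · intro s t hst
      have h3 : s • Emat u + t • Hmat u w = 0 := by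
        have h5 : s • q₁.2.1 + t • q₂.2.1 = 0 := congrArg (fun q : ordCoc p P (ResidueField 𝒪) ×
          ad0 (ResidueField 𝒪) => q.2.1) hst
        rwa [e1, e2] at h5
      have h4 : t • u = 0 := by
        have h5 := congrArg (fun Y : Matrix (Fin 2) (Fin 2) (ResidueField 𝒪) => Y *ᵥ u) h3
        have h6 : Hmat u w *ᵥ u = u := by
          rw [Hmat_mulVec, hw, mul_comm (u 0) (u 1), sub_self, zero_smul, sub_zero, one_smul]
        simpa only [Matrix.add_mulVec, Matrix.smul_mulVec, Matrix.zero_mulVec, (Emat_mem u).1,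
          smul_zero, zero_add, h6] using h5
      have ht : t = 0 := (smul_eq_zero.mp h4).resolve_right h.ne_zero
      rw [ht, zero_smul, add_zero] at h3
      exact ⟨(smul_eq_zero.mp h3).resolve_right (Emat_ne_zero h.ne_zero), ht⟩
  exact ⟨Submodule.finiteDimensional_of_le (ordU_le h hM),
    (Submodule.finrank_mono (ordU_le h hM)).trans h4⟩

/-- The restriction of a Selmer cocycle of the strictly ordinary deformation problem. -/
theorem mem_ordU_of_selOrd {Smin T : Finset ℕ}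
    {a : GalQ → Matrix (Fin 2) (Fin 2) (ResidueField 𝒪)} (ha : SelCond M p Smin T a)
    (ha' : SelOrd M p a) (hP : P.LiesOverPrime p) (hu : OrdLine M p P u) :
    a ∘ (P.decompositionSubgroup ℚ).subtype ∈ ordU M P u := by
  obtain ⟨X, hX, h⟩ := ha' P hP u hu
  refine ⟨⟨fun σ => ha.trace _, fun σ τ => ha.cocycle _ _, ?_⟩, -X, by rw [Matrix.trace_neg, hX, neg_zero], fun σ => ?_⟩
  · obtain ⟨L, hL, h1⟩ := ha.level
    obtain ⟨F, h2, h3, h4⟩ := exists_normal_ge (K := ℚ) (Ω := AlgebraicClosure ℚ) (F := L) hL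
    refine ⟨_, ⟨_, ⟨F, h3, h4, rfl⟩, rfl⟩, fun σ τ hτ => ?_⟩
    have h5 : (τ : GalQ) ∈ F.fixingSubgroup := hτ
    rw [IntermediateField.mem_fixingSubgroup_iff] at h5
    exact (h1 σ τ (fun x hx => h5 x (h2 hx))).2.2
  · have h1 := h σ σ.2
    have h2 : (a ∘ (P.decompositionSubgroup ℚ).subtype) σ - (adj M (σ : GalQ) (-X) - -X) =
        a σ - adBoundary M X σ := by
      show a σ - (M σ * (-X) * M (σ : GalQ)⁻¹ - -X) = a σ - (X - M σ * X * M (σ : GalQ)⁻¹)
      rw [mul_neg, neg_mul]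
      abel
    rw [h2]
    exact h1

/-- Coboundaries satisfy the local condition. -/
theorem bdry_mem_ordU (hM : ∃ L : IntermediateField ℚ (AlgebraicClosure ℚ), FiniteDimensional ℚ L ∧
      ∀ τ : GalQ, (∀ x ∈ L, τ x = x) → M τ = 1)
    {X : Matrix (Fin 2) (Fin 2) (ResidueField 𝒪)} (hX : X.trace = 0) :
    bdry M P X ∈ ordU M P u := by
  obtain ⟨L, hL, hM⟩ := hM
  refine ⟨⟨fun σ => ?_, fun σ τ => ?_, ?_⟩, X, hX, fun σ => ?_⟩
  · rw [bdry_apply, Matrix.trace_sub, hX, sub_zero]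
    have := trace_adj M (σ : GalQ) X
    rw [adj] at this
    rw [this, hX]
  · rw [bdry_cocycle]
    rfl
  · obtain ⟨F, h2, h3, h4⟩ := exists_normal_ge (K := ℚ) (Ω := AlgebraicClosure ℚ) (F := L) hL
    refine ⟨_, ⟨_, ⟨F, h3, h4, rfl⟩, rfl⟩, fun σ τ hτ => ?_⟩
    have h5 : (τ : GalQ) ∈ F.fixingSubgroup := hτ
    rw [IntermediateField.mem_fixingSubgroup_iff] at h5
    exact bdry_level hM X σ τ (fun x hx => h5 x (h2 hx))
  · have h1 : bdry M P X σ - (adj M (σ : GalQ) X - X) = 0 := sub_self _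
    rw [h1]
    exact Submodule.zero_mem _

end Main

end Fermat.Agent.TWP.LocalDimP
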