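import Fermat.Agent.TWP.GW.Final
import Fermat.Agent.TWP.LocalDimP

/-!
# The strictly ordinary input of `s56_of_inputs`
-/

set_option autoImplicit false
set_option linter.unusedSectionVars false

namespace Fermat.Agent.TWP.LocalOrd

open Module Matrix IsLocalRing Fermat.Agent.CFT Fermat.Agent.CFT.LC
  ExtCitation Fermat.Agent.TWP.GW Fermat.Agent.TWP.LocalDimP

local notation "ℚbar" => AlgebraicClosure ℚ
local notation "ΓQ" => (AlgebraicClosure ℚ ≃ₐ[ℚ] AlgebraicClosure ℚ)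

variable {𝒪 : Type} [CommRing 𝒪] [IsLocalRing 𝒪] [Finite (ResidueField 𝒪)]
  {M : ΓQ →* Matrix (Fin 2) (Fin 2) (ResidueField 𝒪)} {p : ℕ} [hp : Fact p.Prime]

/-- The local condition at `p` in the strictly ordinary case. -/
theorem hasLocal_ord (hp2 : p ≠ 2) (hpk : (p : ResidueField 𝒪) = 0)
    (hM : LocConst (fun g => M g)) {u : Fin 2 → ResidueField 𝒪}
    (hu : OrdLine M p (primeLocalPlace (pPrime p)) u) :
    HasLocal M (pPrime p) 4 (SelOrd M p) := by
  have hlies : (primeLocalPlace (pPrime p)).LiesOverPrime p :=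
    primeLocalPlace_liesOverPrime (pPrime p)
  have hM' : ∃ L : IntermediateField ℚ ℚbar, FiniteDimensional ℚ L ∧
      ∀ τ : ΓQ, (∀ x ∈ L, τ x = x) → M τ = 1 := by
    obtain ⟨L, hL, h⟩ := hM
    refine ⟨L, hL, fun τ hτ => ?_⟩
    have h1 : M (1 * τ) = M 1 := h 1 τ hτ
    rwa [one_mul, map_one] at h1
  refine ⟨ordU M (primeLocalPlace (pPrime p)) u, fun f hf => hf.1,
    fun X hX => bdry_mem_ordU hM' hX, (finrank_ordU hp2 hpk hlies hu hM').2, fun a ha ha' => ?_⟩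
  obtain ⟨X, hX, h⟩ := ha' _ hlies u hu
  refine ⟨restrict_mem_zD ha, -X, by rw [Matrix.trace_neg, hX, neg_zero], fun σ => ?_⟩
  have h1 := h σ σ.2
  have h2 : a σ - (adj M (σ : ΓQ) (-X) - -X) = a σ - adBoundary M X σ := by
    show a σ - (M σ * (-X) * M (σ : ΓQ)⁻¹ - -X) = a σ - (X - M σ * X * M (σ : ΓQ)⁻¹)
    rw [mul_neg, neg_mul]
    abel
  show a σ - (adj M (σ : ΓQ) (-X) - -X) ∈ nSub u
  rw [h2]
  exact h1

/-- The strictly ordinary input of `Wiring.s56_of_inputs`. -/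
theorem ord_input (hp2 : p ≠ 2) (hp𝒪 : (p : 𝒪) ∈ maximalIdeal 𝒪)
    {ρbar : ResidualGaloisRep (ResidueField 𝒪)} (hM : UDef.IsModelR ρbar M) :
    ∀ u, OrdLine M p (primeLocalPlace (pPrime p)) u → HasLocal M (pPrime p) 4 (SelOrd M p) :=
  fun _ hu => hasLocal_ord hp2 (natCast_p hp𝒪) (locConst_of_isModelR hM) hu

end Fermat.Agent.TWP.LocalOrd
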