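import Fermat.Agent.TWP.Wiring
import Fermat.Agent.TWP.Tame
import Fermat.Agent.RT.SelTame
import Fermat.Agent.TWP.FlatLoc.FrobDec

/-!
# The local bound at Taylor–Wiles primes

`twBound` : if `q ≡ 1 mod p`, `M` is unramified at `q` and Frobenius has distinct eigenvalues, the
space of level-constant trace zero cocycles on the decomposition group has dimension at most `4`.
-/

set_option autoImplicit false
set_option linter.unusedSectionVars false

namespace Fermat.Agent.TWP.LocalTW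

open Module Matrix Pointwise Polynomial Fermat.Agent.CFT Fermat.Agent.CFT.LC ExtCitation
  Fermat.Agent.TWP.GW Fermat.Agent.TWP.Tame NumberField Fermat.Agent

local notation "Qb" => AlgebraicClosure ℚ
local notation "Γ" => (AlgebraicClosure ℚ ≃ₐ[ℚ] AlgebraicClosure ℚ)

section Tame

variable {A : ValuationSubring Qb}

/-- The tame element attached to a finite level. -/
theorem exists_tame_pi {q : ℕ} (hq : q.Prime) (hA : A.LiesOverPrime q)
    (L₀ : IntermediateField ℚ Qb) [FiniteDimensional ℚ L₀] :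
    ∃ π : Qb, π ≠ 0 ∧ ∀ σ ∈ A.inertiaSubgroupIn ℚ, TT A σ π →
      ∃ a : ℕ, ∀ x ∈ L₀, (σ ^ (q ^ a)) x = x := by
  classical
  let L : IntermediateField ℚ Qb := IntermediateField.normalClosure ℚ L₀ Qb
  have hLfin : FiniteDimensional ℚ L := normalClosure.is_finiteDimensional ℚ L₀ Qb
  have hLn : Normal ℚ L := normalClosure.normal ℚ L₀ Qb
  have hL₀L : L₀ ≤ L := IntermediateField.le_normalClosure L₀
  have hstab : ∀ (σ : Γ) (x : Qb), x ∈ L → σ x ∈ L := by
    intro σ x hx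
    have := (σ.restrictNormal L ⟨x, hx⟩).2
    have e : ((σ.restrictNormal L ⟨x, hx⟩ : L) : Qb) = σ x :=
      AlgEquiv.restrictNormal_commutes σ L ⟨x, hx⟩
    rwa [e] at this
  obtain ⟨π, hπL, hπ0, hπ⟩ := exists_uniformizer A hq hA L
  have hord : ∀ σ : Γ, ∃ N : ℕ, 0 < N ∧ ∀ x ∈ L, (σ ^ N) x = x := by
    intro σ
    obtain ⟨N, hN, hN'⟩ := (isOfFinOrder_of_finite (σ.restrictNormal L)).exists_pow_eq_one
    refine ⟨N, hN, fun x hx => ?_⟩
    have e : ((((σ ^ N).restrictNormal L) ⟨x, hx⟩ : L) : Qb) = (σ ^ N) x :=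
      AlgEquiv.restrictNormal_commutes (σ ^ N) L ⟨x, hx⟩
    have e2 : (σ ^ N).restrictNormal L = (σ.restrictNormal L) ^ N :=
      map_pow (AlgEquiv.restrictNormalHom L) σ N
    rw [← e, e2, hN']
    rfl
  refine ⟨π, hπ0, fun σ hσ hTT => ?_⟩
  have hall : ∀ y ∈ L, y ≠ 0 → TT A σ y := by
    intro y hy hy0
    obtain ⟨n, hn⟩ := hπ y hy hy0
    have hu : A.valuation (y * (π ^ n)⁻¹) = 1 := by
      rw [map_mul, map_inv₀, map_zpow₀, hn]
      exact mul_inv_cancel₀ (zpow_ne_zero _ ((A.valuation).ne_zero_iff.mpr hπ0))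
    have h1 := (TT.of_unit hσ hu).mul hσ (hTT.zpow hσ n)
    have e : y * (π ^ n)⁻¹ * π ^ n = y := by
      rw [mul_assoc, inv_mul_cancel₀ (zpow_ne_zero _ hπ0), mul_one]
    rwa [e] at h1
  obtain ⟨N, hN, hN'⟩ := hord σ
  obtain ⟨a, m, hm, hNm⟩ := Nat.exists_eq_pow_mul_and_not_dvd hN.ne' q hq.ne_one
  have hmq : m.Coprime q := ((Nat.Prime.coprime_iff_not_dvd hq).mpr hm).symm
  have hτ : σ ^ (q ^ a) ∈ A.inertiaSubgroupIn ℚ := pow_mem hσ _
  refine ⟨a, fun x hx => ?_⟩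
  have hx := hL₀L hx
  by_contra hne
  have hy0 : (σ ^ (q ^ a)) x - x ≠ 0 := sub_ne_zero.mpr hne
  have hyL : (σ ^ (q ^ a)) x - x ∈ L := L.sub_mem (hstab _ _ hx) hx
  have h1 : TT A (σ ^ (q ^ a)) ((σ ^ (q ^ a)) x - x) :=
    (hall _ hyL hy0).pow_left hσ _
  apply pow_apply_ne hA hτ h1 hmq
  rw [← pow_mul, ← hNm]
  exact hN' x hx

/-- A topological generator of tame inertia modulo the kernel of the tame character of `π`. -/
theorem exists_tame_gen (π : Qb) (hπ0 : π ≠ 0) :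
    ∃ τ ∈ A.inertiaSubgroupIn ℚ, ∀ σ ∈ A.inertiaSubgroupIn ℚ, ∃ n : ℕ,
      ∃ w ∈ A.inertiaSubgroupIn ℚ, TT A w π ∧ σ = τ ^ n * w := by
  classical
  let θ := thHom (A := A) π hπ0
  have hfin : Finite θ.range := by
    have hroots : Set.Finite {y : Qb | ∃ σ : Γ, σ π = y} := by
      have hint : IsIntegral ℚ π := Algebra.IsIntegral.isIntegral π
      refine ((minpoly ℚ π).rootSet_finite Qb).subset ?_
      rintro _ ⟨σ, rfl⟩
      rw [Polynomial.mem_rootSet]
      refine ⟨minpoly.ne_zero hint, ?_⟩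
      have := minpoly.aeval ℚ π
      have h1 : Polynomial.aeval (σ π) (minpoly ℚ π) = σ (Polynomial.aeval π (minpoly ℚ π)) :=
        Polynomial.aeval_algHom_apply (σ : Qb →ₐ[ℚ] Qb) π (minpoly ℚ π)
      rw [h1, this, map_zero]
    have hθ : ∀ σ τ : A.inertiaSubgroupIn ℚ, σ.1 π = τ.1 π → θ σ = θ τ := by
      intro σ τ h
      apply Units.ext
      show th π hπ0 σ = th π hπ0 τ
      simp only [th, h]
    have : Set.Finite (Set.range θ) := by
      have hS := hroots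
      have h1 : Set.range θ ⊆ (fun y : Qb => if h : ∃ σ : A.inertiaSubgroupIn ℚ, σ.1 π = y then
          θ h.choose else 1) '' {y : Qb | ∃ σ : Γ, σ π = y} := by
        rintro _ ⟨σ, rfl⟩
        refine ⟨σ.1 π, ⟨σ.1, rfl⟩, ?_⟩
        have hex : ∃ σ' : A.inertiaSubgroupIn ℚ, σ'.1 π = σ.1 π := ⟨σ, rfl⟩
        beta_reduce
        rw [dif_pos hex]
        exact hθ _ _ hex.choose_spec
      exact (hS.image _).subset h1
    exact this
  have : IsCyclic θ.range := isCyclic_subgroup_units _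
  obtain ⟨⟨_, ⟨τ, rfl⟩⟩, hτ⟩ := IsCyclic.exists_generator (α := θ.range)
  refine ⟨τ.1, τ.2, fun σ hσ => ?_⟩
  obtain ⟨n, hn⟩ := (mem_powers_iff_mem_zpowers.mpr (hτ ⟨θ ⟨σ, hσ⟩, ⟨_, rfl⟩⟩))
  have hn' : θ τ ^ n = θ ⟨σ, hσ⟩ := congrArg Subtype.val hn
  let w : A.inertiaSubgroupIn ℚ := (τ ^ n)⁻¹ * ⟨σ, hσ⟩
  have hw : θ w = 1 := by rw [map_mul, map_inv, map_pow, hn', inv_mul_cancel]
  refine ⟨n, w.1, w.2, (thHom_eq_one_iff π hπ0 w).mp hw, ?_⟩
  show σ = τ.1 ^ n * ((τ ^ n)⁻¹ * ⟨σ, hσ⟩ : A.inertiaSubgroupIn ℚ).1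
  simp

/-- The Frobenius relation on tame inertia. -/
theorem frob_rel {q : ℕ} {φ σ : Γ} (hφ : A.IsFrobeniusAt φ q)
    (hσ : σ ∈ A.inertiaSubgroupIn ℚ) (π : Qb) (hπ0 : π ≠ 0) :
    ∃ w ∈ A.inertiaSubgroupIn ℚ, TT A w π ∧ φ * σ * φ⁻¹ = σ ^ q * w := by
  let τ' : A.inertiaSubgroupIn ℚ := ⟨σ, hσ⟩
  let σ' : A.inertiaSubgroupIn ℚ :=
    ⟨φ * σ * φ⁻¹, RT.SelTame.conj_mem_inertia hφ.mem_decompositionSubgroup hσ⟩
  let w : A.inertiaSubgroupIn ℚ := (τ' ^ q)⁻¹ * σ'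
  have h1 : thHom (A := A) π hπ0 σ' = thHom π hπ0 τ' ^ q := by
    apply Units.ext
    rw [Units.val_pow_eq_pow_val]
    exact RT.SelTame.th_conj hφ hπ0 τ'
  have hw : thHom (A := A) π hπ0 w = 1 := by
    rw [map_mul, map_inv, map_pow, h1, inv_mul_cancel]
  refine ⟨w.1, w.2, (thHom_eq_one_iff π hπ0 w).mp hw, ?_⟩
  show φ * σ * φ⁻¹ = σ ^ q * ((σ ^ q)⁻¹ * (φ * σ * φ⁻¹))
  rw [mul_inv_cancel_left]

end Tame

section Cent

variable {k : Type} [Field k]

/-- trace zero matrices commuting with `A` -/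
def cent (A : Matrix (Fin 2) (Fin 2) k) : Submodule k (Matrix (Fin 2) (Fin 2) k) where
  carrier := {X | X.trace = 0 ∧ A * X = X * A}
  zero_mem' := ⟨by simp, by simp⟩
  add_mem' := fun {X Y} hX hY =>
    ⟨by rw [Matrix.trace_add, hX.1, hY.1, add_zero], by rw [mul_add, add_mul, hX.2, hY.2]⟩
  smul_mem' := fun c X hX =>
    ⟨by rw [Matrix.trace_smul, hX.1, smul_zero], by rw [mul_smul_comm, smul_mul_assoc, hX.2]⟩

theorem finrank_cent (h2 : (2 : k) ≠ 0) {A : Matrix (Fin 2) (Fin 2) k} {α β : k} (hαβ : α ≠ β)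
    (hA : A.charpoly = (X - C α) * (X - C β)) : finrank k (cent A) ≤ 1 := by
  have hns : ¬ (A 0 0 - A 1 1 = 0 ∧ A 0 1 = 0 ∧ A 1 0 = 0) := by
    rintro ⟨h1, h2', h3⟩
    rw [Matrix.charpoly_fin_two] at hA
    have e1 := congrArg (Polynomial.eval α) hA
    have e2 := congrArg (Polynomial.eval β) hA
    simp only [eval_add, eval_sub, eval_mul, eval_pow, eval_X, eval_C, sub_self, zero_mul,
      mul_zero, Matrix.trace_fin_two, Matrix.det_fin_two, h2', h3] at e1 e2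
    have h4 : A 1 1 = A 0 0 := by linear_combination -h1
    rw [h4] at e1 e2
    have e3 : (α - A 0 0) ^ 2 = 0 := by linear_combination e1
    have e4 : (β - A 0 0) ^ 2 = 0 := by linear_combination e2
    have e5 := pow_eq_zero_iff (two_ne_zero) |>.mp e3
    have e6 := pow_eq_zero_iff (two_ne_zero) |>.mp e4
    exact hαβ (by linear_combination e5 - e6)
  let X0 : Matrix (Fin 2) (Fin 2) k := !![(A 0 0 - A 1 1) / 2, A 0 1; A 1 0, -((A 0 0 - A 1 1) / 2)]
  have hX0 : X0 ∈ cent A := by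
    refine ⟨by simp [X0, Matrix.trace_fin_two], ?_⟩
    ext i j
    fin_cases i <;> fin_cases j <;>
      simp [X0, Matrix.mul_apply, Fin.sum_univ_two] <;> field_simp <;> ring
  refine finrank_le_one (⟨X0, hX0⟩ : cent A) fun ⟨Y, hY, hYA⟩ => ?_
  have e00 := congrFun (congrFun hYA 0) 0
  have e01 := congrFun (congrFun hYA 0) 1
  have e10 := congrFun (congrFun hYA 1) 0
  rw [Matrix.trace_fin_two] at hY
  simp only [Matrix.mul_apply, Fin.sum_univ_two] at e00 e01 e10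
  have hY1 : Y 1 1 = - Y 0 0 := by linear_combination hY
  rw [hY1] at e01 e10
  -- (2 Y00, Y01, Y10) is parallel to (a - d, b, c)
  have r1 : (A 0 0 - A 1 1) * Y 0 1 = 2 * A 0 1 * Y 0 0 := by linear_combination e01
  have r2 : (A 0 0 - A 1 1) * Y 1 0 = 2 * A 1 0 * Y 0 0 := by linear_combination -e10
  have r3 : A 0 1 * Y 1 0 = A 1 0 * Y 0 1 := by linear_combination e00
  obtain ⟨t, ht1, ht2, ht3⟩ : ∃ t : k, t * ((A 0 0 - A 1 1) / 2) = Y 0 0 ∧ t * A 0 1 = Y 0 1 ∧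
      t * A 1 0 = Y 1 0 := by
    by_cases hb : A 0 1 = 0
    · by_cases hc : A 1 0 = 0
      · have hd : A 0 0 - A 1 1 ≠ 0 := fun h => hns ⟨h, hb, hc⟩
        refine ⟨2 * Y 0 0 / (A 0 0 - A 1 1), by field_simp, ?_, ?_⟩
        · rw [hb] at r1 ⊢
          have : Y 0 1 = 0 := by
            have : (A 0 0 - A 1 1) * Y 0 1 = 0 := by rw [r1]; ring
            exact (mul_eq_zero.mp this).resolve_left hd
          rw [this, mul_zero]
        · rw [hc] at r2 ⊢
          have : Y 1 0 = 0 := by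
            have : (A 0 0 - A 1 1) * Y 1 0 = 0 := by rw [r2]; ring
            exact (mul_eq_zero.mp this).resolve_left hd
          rw [this, mul_zero]
      · refine ⟨Y 1 0 / A 1 0, ?_, ?_, by field_simp⟩
        · field_simp
          linear_combination r2
        · field_simp
          linear_combination r3
    · refine ⟨Y 0 1 / A 0 1, ?_, by field_simp, ?_⟩
      · field_simp
        linear_combination r1
      · field_simp
        linear_combination -r3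
  refine ⟨t, Subtype.ext ?_⟩
  show t • X0 = Y
  ext i j
  fin_cases i <;> fin_cases j
  · simpa [X0] using ht1
  · simpa [X0] using ht2
  · simpa [X0] using ht3
  · have : t * (-((A 0 0 - A 1 1) / 2)) = Y 1 1 := by rw [hY1, ← ht1]; ring
    simpa [X0] using this

end Cent

section Main

variable {k : Type} [Field k] (M : Γ →* Matrix (Fin 2) (Fin 2) k) (q : Nat.Primes)

open Classical in
/-- extension by zero of a function on the decomposition group. -/
noncomputable def ex (c : Dq q → Matrix (Fin 2) (Fin 2) k) (g : Γ) : Matrix (Fin 2) (Fin 2) k :=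
  if h : g ∈ Dq q then c ⟨g, h⟩ else 0

variable {M q} {c : Dq q → Matrix (Fin 2) (Fin 2) k}

theorem ex_of_mem {g : Γ} (h : g ∈ Dq q) : ex q c g = c ⟨g, h⟩ := dif_pos h

theorem ex_mul (hc : c ∈ zD M q) {g h : Γ} (hg : g ∈ Dq q) (hh : h ∈ Dq q) :
    ex q c (g * h) = ex q c g + M g * ex q c h * M g⁻¹ := by
  rw [ex_of_mem hg, ex_of_mem hh, ex_of_mem (mul_mem hg hh)]
  exact hc.2.1 ⟨g, hg⟩ ⟨h, hh⟩

theorem ex_one (hc : c ∈ zD M q) : ex q c 1 = 0 := by
  have h := ex_mul hc (one_mem (Dq q)) (one_mem (Dq q))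
  rw [mul_one, inv_one, map_one, one_mul, mul_one] at h
  exact left_eq_add.mp h

theorem ex_pow_zero (hc : c ∈ zD M q) {g : Γ} (hg : g ∈ Dq q) (h0 : ex q c g = 0) (n : ℕ) :
    ex q c (g ^ n) = 0 := by
  induction n with
  | zero => rw [pow_zero, ex_one hc]
  | succ n ih => rw [pow_succ, ex_mul hc (pow_mem hg n) hg, ih, h0, mul_zero, zero_mul, add_zero]

section Unram

variable (hI : ∀ σ ∈ (primeLocalPlace q).inertiaSubgroupIn ℚ, M σ = 1)

include hI

theorem ex_inertia_mul (hc : c ∈ zD M q) {σ h : Γ}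
    (hσ : σ ∈ (primeLocalPlace q).inertiaSubgroupIn ℚ) (hh : h ∈ Dq q) :
    ex q c (σ * h) = ex q c σ + ex q c h := by
  rw [ex_mul hc (LOC.mem_decomposition_of_inertia _ hσ) hh, hI σ hσ, hI σ⁻¹ (inv_mem hσ), one_mul,
    mul_one]

theorem ex_inertia_pow (hc : c ∈ zD M q) {σ : Γ}
    (hσ : σ ∈ (primeLocalPlace q).inertiaSubgroupIn ℚ) (n : ℕ) :
    ex q c (σ ^ n) = n • ex q c σ := by
  induction n with
  | zero => rw [pow_zero, ex_one hc, zero_smul]
  | succ n ih =>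
    rw [pow_succ, ex_inertia_mul hI hc (pow_mem hσ n) (LOC.mem_decomposition_of_inertia _ hσ), ih,
      succ_nsmul]

theorem ex_conj (hc : c ∈ zD M q) {φ σ : Γ} (hφ : φ ∈ Dq q)
    (hσ : σ ∈ (primeLocalPlace q).inertiaSubgroupIn ℚ) :
    ex q c (φ * σ * φ⁻¹) = M φ * ex q c σ * M φ⁻¹ := by
  have hσD := LOC.mem_decomposition_of_inertia _ hσ
  have h1 := ex_mul hc hφ (inv_mem hφ)
  rw [mul_inv_cancel, ex_one hc] at h1
  rw [mul_assoc, ex_mul hc hφ (mul_mem hσD (inv_mem hφ)), ex_inertia_mul hI hc hσ (inv_mem hφ),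
    mul_add, add_mul]
  have h2 : M φ * ex q c φ⁻¹ * M φ⁻¹ = - ex q c φ := by
    rw [eq_neg_iff_add_eq_zero, add_comm]
    exact h1.symm
  rw [h2]
  abel

variable {p : ℕ} [Fact p.Prime] [CharP k p] (hqp : (q : ℕ) ≠ p)

include hqp

theorem ex_eq_zero_of_TT (hc : c ∈ zD M q) {F : IntermediateField ℚ Qb}
    (hF : ∀ s ∈ Dq q, (∀ x ∈ F, s x = x) → ex q c s = 0) {π : Qb}
    (hπ : ∀ σ ∈ (primeLocalPlace q).inertiaSubgroupIn ℚ, TT (primeLocalPlace q) σ π →
      ∃ a : ℕ, ∀ x ∈ F, (σ ^ ((q : ℕ) ^ a)) x = x) {σ : Γ}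
    (hσ : σ ∈ (primeLocalPlace q).inertiaSubgroupIn ℚ) (hTT : TT (primeLocalPlace q) σ π) :
    ex q c σ = 0 := by
  obtain ⟨a, ha⟩ := hπ σ hσ hTT
  have h1 := hF _ (pow_mem (LOC.mem_decomposition_of_inertia _ hσ) _) ha
  rw [ex_inertia_pow hI hc hσ, ← Nat.cast_smul_eq_nsmul k] at h1
  refine (smul_eq_zero.mp h1).resolve_left ?_
  rw [Nat.cast_pow]
  refine pow_ne_zero _ fun h => ?_
  rw [CharP.cast_eq_zero_iff k p] at h
  exact hqp ((Nat.prime_dvd_prime_iff_eq Fact.out q.2).mp h).symm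

end Unram

/-- A common level for the cocycles of a finite-dimensional space. -/
theorem exists_common_level [FiniteDimensional k (zD M q)] :
    ∃ F : IntermediateField ℚ Qb, FiniteDimensional ℚ F ∧ ∀ c ∈ zD M q, ∀ s ∈ Dq q,
      (∀ x ∈ F, s x = x) → ex q c s = 0 := by
  let b := Module.finBasis k (zD M q)
  have h1 : ∀ i, ∃ N ∈ ((krull ℚ Qb).comap (Dq q).subtype).levels, ∀ g, ∀ s ∈ N,
      (b i).1 (g * s) = (b i).1 g := fun i => (b i).2.2.2
  choose N hN h1 using h1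
  obtain ⟨_, ⟨_, ⟨F, hF, -, rfl⟩, rfl⟩, hW⟩ :=
    ((krull ℚ Qb).comap (Dq q).subtype).exists_level_le_finite N hN
  refine ⟨F, hF, fun c hc s hs hsF => ?_⟩
  have h2 : (⟨c, hc⟩ : zD M q) ∈ Submodule.span k (Set.range b) := by
    rw [b.span_eq]; trivial
  have h3 : (⟨s, hs⟩ : Dq q) ∈ (F.fixingSubgroup).comap (Dq q).subtype := by
    rw [Subgroup.mem_comap]
    show s ∈ F.fixingSubgroup
    rw [IntermediateField.mem_fixingSubgroup_iff]
    exact hsF
  have h4 : ∀ c' ∈ Submodule.span k (Set.range b), c'.1 ⟨s, hs⟩ = 0 := by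
    intro c' hc'
    induction hc' using Submodule.span_induction with
    | mem x hx =>
      obtain ⟨i, rfl⟩ := hx
      have h5 := h1 i 1 ⟨s, hs⟩ (hW i h3)
      rw [one_mul] at h5
      have h6 := ex_one (b i).2
      rw [ex_of_mem (one_mem _)] at h6
      rw [h5]
      exact h6
    | zero => rfl
    | add x y _ _ hx hy =>
      show x.1 ⟨s, hs⟩ + y.1 ⟨s, hs⟩ = 0
      rw [hx, hy, add_zero]
    | smul a x _ hx =>
      show a • x.1 ⟨s, hs⟩ = 0
      rw [hx, smul_zero]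
  rw [ex_of_mem hs]
  exact h4 _ h2

/-- **The local bound at Taylor–Wiles primes.** -/
theorem twBound {p : ℕ} [Fact p.Prime] [CharP k p] (h2 : (2 : k) ≠ 0)
    (M : Γ →* Matrix (Fin 2) (Fin 2) k) : Wiring.TWBound p M := by
  intro q hqp hqp1 hI hφ
  by_cases hfd : FiniteDimensional k (zD M q)
  swap
  · rw [finrank_of_infinite_dimensional hfd]; omega
  obtain ⟨F, hFfin, hF⟩ := exists_common_level (M := M) (q := q)
  have hP := primeLocalPlace_liesOverPrime q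
  have hI' := hI _ hP
  obtain ⟨φ, hφF⟩ := FrobExists.exists_isFrobeniusAt (primeLocalPlace q) q.2 hP
  obtain ⟨α, β, hαβ, hchar⟩ := hφ _ hP φ hφF
  have hφD : φ ∈ Dq q := hφF.mem_decompositionSubgroup
  obtain ⟨π, hπ0, hπ⟩ := exists_tame_pi q.2 hP F
  obtain ⟨τ, hτ, hgen⟩ := exists_tame_gen (A := primeLocalPlace q) π hπ0
  have hτD := LOC.mem_decomposition_of_inertia _ hτ
  have hqk : ((q : ℕ) : k) = 1 := by
    have h3 : (((q : ℕ) - 1 : ℕ) : k) = 0 := (CharP.cast_eq_zero_iff k p _).mpr hqp1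
    rw [Nat.cast_sub q.2.one_le, Nat.cast_one, sub_eq_zero] at h3
    exact h3
  have hTTz : ∀ c ∈ zD M q, ∀ σ ∈ (primeLocalPlace q).inertiaSubgroupIn ℚ,
      TT (primeLocalPlace q) σ π → ex q c σ = 0 := fun c hc σ hσ hTT =>
    ex_eq_zero_of_TT hI' hqp hc (hF c hc) hπ hσ hTT
  have hcomm : ∀ c ∈ zD M q, M φ * ex q c τ = ex q c τ * M φ := by
    intro c hc
    obtain ⟨w, hw, hwTT, hrel⟩ := frob_rel hφF hτ π hπ0
    have h3 := ex_conj hI' hc hφD hτ
    rw [hrel, ex_inertia_mul hI' hc (pow_mem hτ _) (LOC.mem_decomposition_of_inertia _ hw),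
      hTTz c hc w hw hwTT, add_zero, ex_inertia_pow hI' hc hτ, ← Nat.cast_smul_eq_nsmul k, hqk,
      one_smul] at h3
    have h4 : M φ⁻¹ * M φ = 1 := by rw [← map_mul, inv_mul_cancel, map_one]
    conv_rhs => rw [h3]
    rw [mul_assoc, h4, mul_one]
  let Φ : zD M q →ₗ[k] (ad0 k × cent (M φ)) :=
    { toFun := fun c => (⟨c.1 ⟨φ, hφD⟩, mem_ad0.mpr (c.2.1 _)⟩,
        ⟨ex q c.1 τ, by rw [ex_of_mem hτD]; exact c.2.1 _, hcomm c.1 c.2⟩)
      map_add' := fun c d => by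
        refine Prod.ext (Subtype.ext rfl) (Subtype.ext ?_)
        show ex q (c.1 + d.1) τ = ex q c.1 τ + ex q d.1 τ
        rw [ex_of_mem hτD, ex_of_mem hτD, ex_of_mem hτD]
        rfl
      map_smul' := fun a c => by
        refine Prod.ext (Subtype.ext rfl) (Subtype.ext ?_)
        show ex q (a • c.1) τ = a • ex q c.1 τ
        rw [ex_of_mem hτD, ex_of_mem hτD]
        rfl }
  have hinj : Function.Injective Φ := by
    rw [← LinearMap.ker_eq_bot, LinearMap.ker_eq_bot']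
    rintro ⟨c, hc⟩ h
    have hφ0 : ex q c φ = 0 := by
      rw [ex_of_mem hφD]
      exact congrArg (fun x => (x.1 : Matrix (Fin 2) (Fin 2) k)) h
    have hτ0 : ex q c τ = 0 := congrArg (fun x => (x.2 : Matrix (Fin 2) (Fin 2) k)) h
    have hIz : ∀ σ ∈ (primeLocalPlace q).inertiaSubgroupIn ℚ, ex q c σ = 0 := by
      intro σ hσ
      obtain ⟨n, w, hw, hwTT, rfl⟩ := hgen σ hσ
      rw [ex_inertia_mul hI' hc (pow_mem hτ _) (LOC.mem_decomposition_of_inertia _ hw),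
        hTTz c hc w hw hwTT, ex_inertia_pow hI' hc hτ, hτ0, smul_zero, add_zero]
    refine Subtype.ext (funext fun d => ?_)
    show c d = 0
    obtain ⟨n, σ, hσ, hd⟩ := TWFlat.exists_frob_mul_inertia q.2 hP hφF d.2 F
    have hσD := LOC.mem_decomposition_of_inertia _ hσ
    have h3 : (d : Γ) = (φ ^ n * σ) * ((φ ^ n * σ)⁻¹ * d) := (mul_inv_cancel_left _ _).symm
    have h4 : (φ ^ n * σ)⁻¹ * (d : Γ) ∈ Dq q :=
      mul_mem (inv_mem (mul_mem (pow_mem hφD n) hσD)) d.2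
    have h5 : ex q c ((φ ^ n * σ)⁻¹ * (d : Γ)) = 0 := by
      refine hF c hc _ h4 fun x hx => ?_
      show (φ ^ n * σ)⁻¹ ((d : Γ) x) = x
      rw [hd x hx]
      show ((φ ^ n * σ)⁻¹ * (φ ^ n * σ)) x = x
      rw [inv_mul_cancel]
      rfl
    have h6 : ex q c (d : Γ) = 0 := by
      rw [h3, ex_mul hc (mul_mem (pow_mem hφD n) hσD) h4, h5, mul_zero, zero_mul, add_zero,
        ex_mul hc (pow_mem hφD n) hσD, hIz σ hσ, mul_zero, zero_mul, add_zero,
        ex_pow_zero hc hφD hφ0]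
    rw [ex_of_mem d.2] at h6
    exact h6
  have hfin3 : finrank k (ad0 k) = 3 := finrank_ad0
  have hfd3 : FiniteDimensional k (ad0 k) := Module.finite_of_finrank_pos (by omega)
  have h7 := LinearMap.finrank_le_finrank_of_injective hinj
  rw [Module.finrank_prod, hfin3] at h7
  have h8 := finrank_cent h2 hαβ hchar
  omega

end Main

end Fermat.Agent.TWP.LocalTW
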