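import Fermat.Agent.TWP.GW.FromRec
import Fermat.Agent.TWP.LocalTW
import Fermat.Agent.TWP.LocalOrd
import Fermat.Agent.TWP.LocalMin
import Fermat.Agent.TWP.FlatLoc.Final

/-!
# `S56` from reciprocity, the Euler characteristic inequality and two local bounds
-/

set_option autoImplicit false
set_option linter.unusedSectionVars false

namespace Fermat.Agent.TWP.Wiring

open Module Matrix Pointwise Polynomial IsLocalRing Fermat.Agent.CFT Fermat.Agent.CFT.LC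
  ExtCitation Fermat.Agent.TWP.GW

local notation "ℚbar" => AlgebraicClosure ℚ
local notation "ΓQ" => (AlgebraicClosure ℚ ≃ₐ[ℚ] AlgebraicClosure ℚ)

section

variable {k : Type} [Field k] [Finite k] {p : ℕ} [Fact p.Prime] {ρbar : ResidualGaloisRep k}
  {M : ΓQ →* Matrix (Fin 2) (Fin 2) k}

theorem two_ne_zero_of_charP [CharP k p] (hp2 : p ≠ 2) : (2 : k) ≠ 0 := by
  intro h
  have h1 : ((2 : ℕ) : k) = 0 := by exact_mod_cast h
  rw [CharP.cast_eq_zero_iff k p] at h1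
  exact hp2 ((Nat.prime_dvd_prime_iff_eq Fact.out Nat.prime_two).mp h1)

/-- The Greenberg–Wiles inputs for a residual representation. -/
theorem gwInput_residual [Algebra (ZMod p) k] (hp2 : p ≠ 2) (hM : UDef.IsModelR ρbar M)
    (hdet : (GaloisRepAdic.ofResidualGaloisRep ρbar).DetIsCyclotomic p) (hrec : RecInput p)
    (hec : ∀ S : Finset Nat.Primes, pPrime p ∈ S → ECIneq p S) : GWInput p M := by
  have hcp : CharP k p := charP_of_det hdet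
  exact gwInput_of_rec hp2 (two_ne_zero_of_charP (p := p) hp2) (algebraMap_cycloChar hM hdet) hrec hec

end

/-- **`S56`** from the remaining inputs. -/
theorem s56_reduced
    {𝒪 : Type} [CommRing 𝒪] [IsDomain 𝒪] [IsDiscreteValuationRing 𝒪]
    [IsAdicComplete (maximalIdeal 𝒪) 𝒪] [Finite (ResidueField 𝒪)]
    (p : ℕ) [Fact p.Prime] (hp2 : p ≠ 2) (hp𝒪 : (p : 𝒪) ∈ maximalIdeal 𝒪)
    (ρbar : ResidualGaloisRep (ResidueField 𝒪))
    (habs : ρbar.IsAbsolutelyIrreducible)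
    (hdet : (GaloisRepAdic.ofResidualGaloisRep ρbar).DetIsCyclotomic p)
    (hsplit : ∀ σ : AlgebraicClosure ℚ ≃ₐ[ℚ] AlgebraicClosure ℚ,
      ∃ α β : ResidueField 𝒪, LinearMap.charpoly (ρbar.ρ σ) = (X - C α) * (X - C β))
    (hTW : ∀ (K : Type) [Field K] [Algebra (ResidueField 𝒪) K]
      (G : Subgroup (AlgebraicClosure ℚ ≃ₐ[ℚ] AlgebraicClosure ℚ)), G.index = 2 →
      ∀ V : Submodule K (ρbar.baseChange K).V,
        (∀ σ ∈ G, ∀ x ∈ V, (ρbar.baseChange K).ρ σ x ∈ V) → V = ⊥ ∨ V = ⊤)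
    (S Smin : Finset ℕ) (hpSmin : p ∈ Smin) (hSmin : Smin ⊆ S) (hS : ∀ q ∈ S, q.Prime)
    (hmin : ∀ q : ℕ, q.Prime → q ≠ p → (q ∈ Smin ↔ ¬ ρbar.IsUnramifiedAt q))
    (hrec : RecInput p) (hec : ∀ S : Finset Nat.Primes, pPrime p ∈ S → ECIneq p S) :
    (∃ r : ℕ, ∀ n : ℕ, ∃ qv : Fin r → ℕ, Function.Injective qv ∧
      (∀ i, (qv i).Prime ∧ qv i ∉ S ∧ p ^ (n + 1) ∣ qv i - 1) ∧
      (∀ i, ∀ P : ValuationSubring (AlgebraicClosure ℚ), P.LiesOverPrime (qv i) →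
        ∀ φ : AlgebraicClosure ℚ ≃ₐ[ℚ] AlgebraicClosure ℚ, P.IsFrobeniusAt φ (qv i) →
          ∃ α β : ResidueField 𝒪, α ≠ β ∧ LinearMap.charpoly (ρbar.ρ φ) = (X - C α) * (X - C β)) ∧
      ∀ DQ : GaloisRep.DeformationRingData 𝒪 ρbar (fun _A _ _ _ ρ =>
          GaloisRep.strictOrdinaryCondition 𝒪 p (Smin ∪ Finset.univ.image qv) ρ ∧
            ∀ q ∈ Smin, q.Prime → q ≠ p → ρ.IsUnipotentOnInertiaAt q),
        ∃ γ : MvPowerSeries (Fin r) 𝒪 →ₐ[𝒪] DQ.R, Function.Surjective γ) ∧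
    (∃ r : ℕ, ∀ n : ℕ, ∃ qv : Fin r → ℕ, Function.Injective qv ∧
      (∀ i, (qv i).Prime ∧ qv i ∉ S ∧ p ^ (n + 1) ∣ qv i - 1) ∧
      (∀ i, ∀ P : ValuationSubring (AlgebraicClosure ℚ), P.LiesOverPrime (qv i) →
        ∀ φ : AlgebraicClosure ℚ ≃ₐ[ℚ] AlgebraicClosure ℚ, P.IsFrobeniusAt φ (qv i) →
          ∃ α β : ResidueField 𝒪, α ≠ β ∧ LinearMap.charpoly (ρbar.ρ φ) = (X - C α) * (X - C β)) ∧
      ∀ DQ : GaloisRep.DeformationRingData 𝒪 ρbar (fun _A _ _ _ ρ =>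
          GaloisRep.flatCondition 𝒪 p (Smin ∪ Finset.univ.image qv) ρ ∧
            ∀ q ∈ Smin, q.Prime → q ≠ p → ρ.IsUnipotentOnInertiaAt q),
        ∃ γ : MvPowerSeries (Fin r) 𝒪 →ₐ[𝒪] DQ.R, Function.Surjective γ) := by
  have hcp : CharP (ResidueField 𝒪) p := charP_of_det hdet
  have h2 : (2 : ResidueField 𝒪) ≠ 0 := two_ne_zero_of_charP (p := p) hp2
  refine s56_of_inputs p hp2 hp𝒪 ρbar habs hdet hsplit hTW S Smin hpSmin hSmin hS hmin
    fun M hM _ => ⟨gwInput_residual hp2 hM hdet hrec hec, LocalTW.twBound h2 M,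
      LocalMin.minBound p (locConst_iff.mp (locConst_of_isModelR hM)),
      LocalOrd.ord_input hp2 hp𝒪 hM, TWFlat.hasLocal_flat hp2 hM hdet hsplit⟩

end Fermat.Agent.TWP.Wiring
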