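import Mathlib.LinearAlgebra.Matrix.GeneralLinearGroup.Defs
import Mathlib.LinearAlgebra.Matrix.Adjugate
import Mathlib.LinearAlgebra.Matrix.Trace
import Mathlib.LinearAlgebra.Matrix.CharP
import Mathlib.LinearAlgebra.Matrix.Charpoly.Coeff
import Mathlib.GroupTheory.Index
import Mathlib.GroupTheory.Sylow
import Mathlib.Algebra.CharP.Basic
import Mathlib.FieldTheory.Finite.Basic
import Mathlib.Tactic

/-!
Vanishing of `H¹(G, ad⁰ ⊗ det)` for an irreducible subgroup `G` of `GL₂(k)` with determinants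
exactly the units of the prime field.
-/

set_option autoImplicit false

namespace Fermat.Agent.TWP.AdCoh

open Matrix

section Index

/-- If a cocycle vanishes on a subgroup of index invertible in `k`, it is a coboundary. -/
theorem exists_coboundary_of_index {Γ : Type*} [Group Γ] {k : Type*} [Field k] {M : Type*}
    [AddCommGroup M] [Module k M] (ρ : Γ → M →ₗ[k] M)
    (Q : Subgroup Γ) [Q.FiniteIndex] (hQ : (Q.index : k) ≠ 0)
    (c : Γ → M) (hc : ∀ g h, c (g * h) = c g + ρ g (c h)) (h0 : ∀ q ∈ Q, c q = 0) :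
    ∃ m : M, m ∈ Submodule.span k (Set.range c) ∧ ∀ g, c g = ρ g m - m := by
  classical
  have hwell : ∀ a b : Γ, QuotientGroup.leftRel Q a b → c a = c b := by
    intro a b hab
    rw [QuotientGroup.leftRel_apply] at hab
    have h1 := hc a (a⁻¹ * b)
    rw [mul_inv_cancel_left, h0 _ hab, map_zero, add_zero] at h1
    exact h1.symm
  let cb : Γ ⧸ Q → M := fun x => Quotient.lift c hwell x
  have hcb : ∀ g : Γ, cb (QuotientGroup.mk g) = c g := fun g => rfl
  have : Fintype (Γ ⧸ Q) := Fintype.ofFinite _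
  let m' : M := ∑ x, cb x
  have hm' : m' ∈ Submodule.span k (Set.range c) := by
    refine Submodule.sum_mem _ fun x _ => ?_
    induction x using QuotientGroup.induction_on with
    | H g => exact Submodule.subset_span ⟨g, rfl⟩
  have key : ∀ g, m' = (Q.index : k) • c g + ρ g m' := by
    intro g
    have h1 : m' = ∑ x : Γ ⧸ Q, cb (g • x) :=
      (Fintype.sum_equiv (MulAction.toPerm g) _ _ (fun x => rfl)).symm
    have h2 : ∀ x : Γ ⧸ Q, cb (g • x) = c g + ρ g (cb x) := by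
      intro x
      induction x using QuotientGroup.induction_on with
      | H y => exact hc g y
    calc m' = ∑ x : Γ ⧸ Q, cb (g • x) := h1
      _ = ∑ x : Γ ⧸ Q, (c g + ρ g (cb x)) := Finset.sum_congr rfl fun x _ => h2 x
      _ = (Q.index : k) • c g + ρ g m' := by
        rw [Finset.sum_add_distrib, Finset.sum_const, Finset.card_univ, ← map_sum,
          Subgroup.index, Nat.card_eq_fintype_card, Nat.cast_smul_eq_nsmul]
  refine ⟨-((Q.index : k)⁻¹ • m'), Submodule.neg_mem _ (Submodule.smul_mem _ _ hm'), fun g => ?_⟩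
  have h3 : (Q.index : k) • c g = m' - ρ g m' := by
    rw [eq_sub_iff_add_eq]; exact (key g).symm
  have h4 : c g = (Q.index : k)⁻¹ • (m' - ρ g m') := by
    rw [← h3, smul_smul, inv_mul_cancel₀ hQ, one_smul]
  rw [h4, map_neg, map_smul, smul_sub]
  abel

end Index

section Act

variable {k : Type*} [Field k]

/-- The twisted adjoint action `g ↦ (X ↦ g X adj(g)) = det g · Ad(g)` on `2 × 2` matrices. -/
def act (g : Matrix (Fin 2) (Fin 2) k) : Matrix (Fin 2) (Fin 2) k →ₗ[k] Matrix (Fin 2) (Fin 2) k where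
  toFun X := g * X * g.adjugate
  map_add' X Y := by rw [mul_add, add_mul]
  map_smul' a X := by simp

theorem act_apply (g X : Matrix (Fin 2) (Fin 2) k) : act g X = g * X * g.adjugate := rfl

theorem act_mul (g h X : Matrix (Fin 2) (Fin 2) k) : act (g * h) X = act g (act h X) := by
  simp only [act_apply, Matrix.adjugate_mul_distrib, mul_assoc]

theorem act_one (X : Matrix (Fin 2) (Fin 2) k) : act 1 X = X := by
  simp [act_apply]

theorem act_eq_smul (g : GL (Fin 2) k) (X : Matrix (Fin 2) (Fin 2) k) :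
    act (g : Matrix (Fin 2) (Fin 2) k) X =
      (g : Matrix (Fin 2) (Fin 2) k).det • ((g : Matrix (Fin 2) (Fin 2) k) * X *
        ((g⁻¹ : GL (Fin 2) k) : Matrix (Fin 2) (Fin 2) k)) := by
  have h : (g : Matrix (Fin 2) (Fin 2) k).adjugate =
      (g : Matrix (Fin 2) (Fin 2) k).det • ((g⁻¹ : GL (Fin 2) k) : Matrix (Fin 2) (Fin 2) k) := by
    have h1 : (g : Matrix (Fin 2) (Fin 2) k) * ((g⁻¹ : GL (Fin 2) k) : Matrix (Fin 2) (Fin 2) k) = 1 := by
      rw [← Units.val_mul, mul_inv_cancel, Units.val_one]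
    calc (g : Matrix (Fin 2) (Fin 2) k).adjugate
        = (g : Matrix (Fin 2) (Fin 2) k).adjugate * ((g : Matrix (Fin 2) (Fin 2) k) *
            ((g⁻¹ : GL (Fin 2) k) : Matrix (Fin 2) (Fin 2) k)) := by rw [h1, mul_one]
      _ = _ := by rw [← mul_assoc, Matrix.adjugate_mul, smul_mul_assoc, one_mul]
  rw [act_apply, h, mul_smul_comm]

theorem trace_act (g X : Matrix (Fin 2) (Fin 2) k) : (act g X).trace = g.det * X.trace := by
  rw [act_apply, Matrix.trace_mul_comm, ← mul_assoc, Matrix.adjugate_mul, smul_mul_assoc, one_mul,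
    Matrix.trace_smul, smul_eq_mul]

/-- The unipotent matrix. -/
def nn (u : k) : GL (Fin 2) k :=
  ⟨!![1, u; 0, 1], !![1, -u; 0, 1], by ext i j; fin_cases i <;> fin_cases j <;> simp,
    by ext i j; fin_cases i <;> fin_cases j <;> simp⟩

@[simp] theorem nn_val (u : k) : ((nn u : GL (Fin 2) k) : Matrix (Fin 2) (Fin 2) k) = !![1, u; 0, 1] := rfl

theorem nn_add (u v : k) : nn (u + v) = nn u * nn v := by
  ext i j
  fin_cases i <;> fin_cases j <;> simp [add_comm]

theorem nn_zero : nn (0 : k) = 1 := by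
  ext i j
  fin_cases i <;> fin_cases j <;> simp

theorem nn_neg (u : k) : nn (-u) = (nn u)⁻¹ := by
  rw [eq_inv_iff_mul_eq_one, ← nn_add, neg_add_cancel, nn_zero]

theorem nn_injective : Function.Injective (nn : k → GL (Fin 2) k) := by
  intro u v h
  have := congrArg (fun g : GL (Fin 2) k => (g : Matrix (Fin 2) (Fin 2) k) 0 1) h
  simpa using this

theorem act_nn (u a b c : k) : act (nn u : Matrix (Fin 2) (Fin 2) k) !![b, a; c, -b] =
    !![b + u * c, a - 2 * u * b - u ^ 2 * c; c, -(b + u * c)] := by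
  rw [act_apply, nn_val, Matrix.adjugate_fin_two_of]
  ext i j
  fin_cases i <;> fin_cases j <;> simp [Matrix.mul_apply, Fin.sum_univ_two] <;> ring

theorem act_upper (a s d al be ga : k) : act !![a, s; 0, d] !![be, al; ga, -be] =
    !![a * d * be + s * d * ga, a ^ 2 * al - 2 * a * s * be - s ^ 2 * ga;
      d ^ 2 * ga, -(a * d * be + s * d * ga)] := by
  rw [act_apply, Matrix.adjugate_fin_two_of]
  ext i j
  fin_cases i <;> fin_cases j <;> simp [Matrix.mul_apply, Fin.sum_univ_two] <;> ring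

end Act

section Count

variable {k : Type*} [Field k] [Finite k]

/-- Counting unipotent elements: if `H ≤ GL₂(k)` is not upper triangular, then
`|U| (|U| - 1) ≤ |B|` where `U` is the group of upper unipotents of `H` and `B` the group of upper
triangular matrices of `H`. -/
theorem card_upper_ge (H : Subgroup (GL (Fin 2) k))
    (hlow : ∃ w ∈ H, (w : Matrix (Fin 2) (Fin 2) k) 1 0 ≠ 0) :
    Nat.card {u : k // nn u ∈ H} * (Nat.card {u : k // nn u ∈ H} - 1) ≤
      Nat.card {g : GL (Fin 2) k // g ∈ H ∧ (g : Matrix (Fin 2) (Fin 2) k) 1 0 = 0} := by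
  classical
  have : Fintype k := Fintype.ofFinite k
  let U : Finset k := Finset.univ.filter fun u => nn u ∈ H
  let B : Finset (GL (Fin 2) k) := Finset.univ.filter fun g =>
    g ∈ H ∧ (g : Matrix (Fin 2) (Fin 2) k) 1 0 = 0
  let L : Finset (GL (Fin 2) k) := Finset.univ.filter fun g =>
    g ∈ H ∧ (g : Matrix (Fin 2) (Fin 2) k) 1 0 ≠ 0
  let W : Finset (GL (Fin 2) k) := Finset.univ.filter fun g =>
    g ∈ H ∧ (g : Matrix (Fin 2) (Fin 2) k) 1 0 ≠ 0 ∧ (g : Matrix (Fin 2) (Fin 2) k).trace = 2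
  have hUcard : Nat.card {u : k // nn u ∈ H} = U.card := by
    rw [Nat.card_eq_fintype_card, Fintype.card_subtype]
  have hBcard : Nat.card {g : GL (Fin 2) k // g ∈ H ∧ (g : Matrix (Fin 2) (Fin 2) k) 1 0 = 0} =
      B.card := by
    rw [Nat.card_eq_fintype_card, Fintype.card_subtype]
  have h0U : (0 : k) ∈ U := by
    simp only [U, Finset.mem_filter, Finset.mem_univ, true_and, nn_zero]
    exact H.one_mem
  have hUs : (U.erase 0).card = U.card - 1 := Finset.card_erase_of_mem h0U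
  -- first map
  have h1 : (L ×ˢ (U.erase 0)).card ≤ B.card * W.card := by
    refine Finset.card_le_mul_card_image_of_maps_to
      (f := fun x : GL (Fin 2) k × k => x.1 * nn x.2 * x.1⁻¹) ?_ _ ?_
    · rintro ⟨g, u⟩ hgu
      simp only [Finset.mem_product, L, U, Finset.mem_filter, Finset.mem_univ, true_and,
        Finset.mem_erase] at hgu
      obtain ⟨⟨hg, hg1⟩, hu0, hu⟩ := hgu
      simp only [W, Finset.mem_filter, Finset.mem_univ, true_and]
      refine ⟨H.mul_mem (H.mul_mem hg hu) (H.inv_mem hg), ?_, ?_⟩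
      · intro h10
        set w := g * nn u * g⁻¹ with hw
        have hwg : (w : Matrix (Fin 2) (Fin 2) k) * (g : Matrix (Fin 2) (Fin 2) k) =
            (g : Matrix (Fin 2) (Fin 2) k) * !![1, u; 0, 1] := by
          rw [← nn_val, ← Units.val_mul, ← Units.val_mul, hw, inv_mul_cancel_right]
        have e10 := congrFun (congrFun hwg 1) 0
        have e11 := congrFun (congrFun hwg 1) 1
        simp only [Matrix.mul_apply, Fin.sum_univ_two, h10, zero_mul, zero_add, Matrix.of_apply,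
          Matrix.cons_val', Matrix.cons_val_zero, Matrix.cons_val_one, Matrix.cons_val_fin_one,
          mul_one, mul_zero, add_zero] at e10 e11
        have hw11 : (w : Matrix (Fin 2) (Fin 2) k) 1 1 = 1 := by
          have : ((w : Matrix (Fin 2) (Fin 2) k) 1 1 - 1) * (g : Matrix (Fin 2) (Fin 2) k) 1 0 = 0 := by
            linear_combination e10
          rcases mul_eq_zero.mp this with h | h
          · exact sub_eq_zero.mp h
          · exact absurd h hg1
        rw [hw11, one_mul] at e11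
        have : (g : Matrix (Fin 2) (Fin 2) k) 1 0 * u = 0 := by linear_combination -e11
        rcases mul_eq_zero.mp this with h | h
        · exact hg1 h
        · exact hu0 h
      · rw [Units.val_mul, Units.val_mul, Matrix.trace_mul_comm, ← mul_assoc, ← Units.val_mul,
          inv_mul_cancel, Units.val_one, one_mul, nn_val]
        simp [Matrix.trace, Fin.sum_univ_two]
        norm_num
    · intro w hw
      by_cases hne : ((L ×ˢ (U.erase 0)).filter fun x : GL (Fin 2) k × k =>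
          x.1 * nn x.2 * x.1⁻¹ = w).Nonempty
      · obtain ⟨⟨g0, u0⟩, h0⟩ := hne
        simp only [Finset.mem_filter, Finset.mem_product, L, U, Finset.mem_univ, true_and,
          Finset.mem_erase] at h0
        obtain ⟨⟨⟨hg0, hg01⟩, hu00, hu0⟩, hw0⟩ := h0
        refine Finset.card_le_card_of_injOn (fun x => g0⁻¹ * x.1) ?_ ?_
        · rintro ⟨g, u⟩ hgu
          simp only [Finset.coe_filter, Set.mem_ofPred_eq, Finset.mem_product, L, U,
            Finset.mem_filter, Finset.mem_univ, true_and, Finset.mem_erase] at hgu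
          obtain ⟨⟨⟨hg, hg1⟩, hu0', hu⟩, hw1⟩ := hgu
          simp only [B, Finset.coe_filter, Set.mem_ofPred_eq, Finset.mem_univ, true_and]
          refine ⟨H.mul_mem (H.inv_mem hg0) hg, ?_⟩
          set b := g0⁻¹ * g with hb
          have hcomm : nn u0 * b = b * nn u := by
            have : g0 * nn u0 * g0⁻¹ = g * nn u * g⁻¹ := hw0.trans hw1.symm
            rw [hb]
            calc nn u0 * (g0⁻¹ * g) = g0⁻¹ * (g0 * nn u0 * g0⁻¹) * g := by group
              _ = g0⁻¹ * (g * nn u * g⁻¹) * g := by rw [this]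
              _ = _ := by group
          have e00 := congrArg (fun g : GL (Fin 2) k => (g : Matrix (Fin 2) (Fin 2) k) 0 0) hcomm
          simp only [Units.val_mul, nn_val, Matrix.mul_apply, Fin.sum_univ_two, Matrix.of_apply,
            Matrix.cons_val', Matrix.cons_val_zero, Matrix.cons_val_one, Matrix.cons_val_fin_one,
            one_mul, mul_one, mul_zero, add_zero] at e00
          have : u0 * (b : Matrix (Fin 2) (Fin 2) k) 1 0 = 0 := by linear_combination e00
          exact (mul_eq_zero.mp this).resolve_left hu00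
        · rintro ⟨g, u⟩ hgu ⟨g', u'⟩ hgu' heq
          simp only [Finset.coe_filter, Set.mem_ofPred_eq] at hgu hgu'
          have hgg : g = g' := mul_left_cancel heq
          subst hgg
          have : g * nn u * g⁻¹ = g * nn u' * g⁻¹ := hgu.2.trans hgu'.2.symm
          have h2 : nn u = nn u' := mul_left_cancel (mul_right_cancel this)
          rw [nn_injective h2]
      · rw [Finset.not_nonempty_iff_eq_empty.mp hne]
        simp
  -- second map
  have h2 : (W ×ˢ U).card ≤ L.card := by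
    refine Finset.card_le_card_of_injOn (fun x => x.1 * nn x.2) ?_ ?_
    · rintro ⟨w, u⟩ hwu
      simp only [Finset.coe_product, Set.mem_prod, W, U, Finset.coe_filter, Set.mem_ofPred_eq,
        Finset.mem_univ, true_and] at hwu
      simp only [L, Finset.coe_filter, Set.mem_ofPred_eq, Finset.mem_univ, true_and]
      refine ⟨H.mul_mem hwu.1.1 hwu.2, ?_⟩
      have := hwu.1.2.1
      simpa [Matrix.mul_apply, Fin.sum_univ_two] using this
    · rintro ⟨w, u⟩ hwu ⟨w', u'⟩ hwu' heq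
      simp only [Finset.coe_product, Set.mem_prod, W, U, Finset.coe_filter, Set.mem_ofPred_eq,
        Finset.mem_univ, true_and] at hwu hwu'
      simp only at heq
      have e10 := congrArg (fun g : GL (Fin 2) k => (g : Matrix (Fin 2) (Fin 2) k) 1 0) heq
      have etr := congrArg (fun g : GL (Fin 2) k => (g : Matrix (Fin 2) (Fin 2) k).trace) heq
      simp only [Units.val_mul, nn_val, Matrix.mul_apply, Fin.sum_univ_two, Matrix.of_apply,
        Matrix.cons_val', Matrix.cons_val_zero, Matrix.cons_val_one, Matrix.cons_val_fin_one,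
        one_mul, mul_one, mul_zero, add_zero, Matrix.trace, Matrix.diag_apply] at e10 etr
      have t1 := hwu.1.2.2
      have t2 := hwu'.1.2.2
      simp only [Matrix.trace, Matrix.diag_apply, Fin.sum_univ_two] at t1 t2
      rw [← e10] at etr
      have : (w : Matrix (Fin 2) (Fin 2) k) 1 0 * (u - u') = 0 := by
        linear_combination etr - t1 + t2
      have huu : u = u' := sub_eq_zero.mp ((mul_eq_zero.mp this).resolve_left hwu.1.2.1)
      subst huu
      have hww : w = w' := mul_right_cancel heq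
      rw [hww]
  have hLpos : 0 < L.card := by
    obtain ⟨w, hw, hw1⟩ := hlow
    refine Finset.card_pos.mpr ⟨w, ?_⟩
    simp only [L, Finset.mem_filter, Finset.mem_univ, true_and]
    exact ⟨hw, hw1⟩
  rw [Finset.card_product] at h1 h2
  rw [hUs] at h1
  rw [hUcard, hBcard]
  refine Nat.le_of_mul_le_mul_left ?_ hLpos
  calc L.card * (U.card * (U.card - 1)) = (L.card * (U.card - 1)) * U.card := by ring
    _ ≤ (B.card * W.card) * U.card := Nat.mul_le_mul_right _ h1
    _ = B.card * (W.card * U.card) := by ring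
    _ ≤ B.card * L.card := Nat.mul_le_mul_left _ h2
    _ = L.card * B.card := by ring

end Count

section Coc

variable {k : Type*} [Field k]

/-- A cocycle on the subgroup `G` with values in trace zero matrices with twisted adjoint action. -/
structure Coc (G : Subgroup (GL (Fin 2) k)) (c : GL (Fin 2) k → Matrix (Fin 2) (Fin 2) k) : Prop where
  tr : ∀ g ∈ G, (c g).trace = 0
  mul : ∀ g ∈ G, ∀ h ∈ G, c (g * h) = c g + act (g : Matrix (Fin 2) (Fin 2) k) (c h)

namespace Coc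

variable {G : Subgroup (GL (Fin 2) k)} {c : GL (Fin 2) k → Matrix (Fin 2) (Fin 2) k}

theorem sub_cob (h : Coc G c) (X : Matrix (Fin 2) (Fin 2) k) (hX : X.trace = 0) :
    Coc G (fun g => c g - (act (g : Matrix (Fin 2) (Fin 2) k) X - X)) where
  tr g hg := by
    rw [Matrix.trace_sub, Matrix.trace_sub, h.tr g hg, trace_act, hX]
    simp
  mul g hg g' hg' := by
    rw [h.mul g hg g' hg', Units.val_mul, act_mul, map_sub, map_sub]
    abel

theorem one (h : Coc G c) : c 1 = 0 := by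
  have := h.mul 1 G.one_mem 1 G.one_mem
  rw [mul_one, Units.val_one, act_one] at this
  simpa using this

theorem form (h : Coc G c) {g : GL (Fin 2) k} (hg : g ∈ G) :
    c g = !![c g 0 0, c g 0 1; c g 1 0, -(c g 0 0)] := by
  have h1 := h.tr g hg
  rw [Matrix.trace_fin_two] at h1
  ext i j
  fin_cases i <;> fin_cases j <;> simp
  linear_combination h1

theorem nn_add (h : Coc G c) {u v : k} (hu : nn u ∈ G) (hv : nn v ∈ G) :
    c (nn (u + v)) 1 0 = c (nn u) 1 0 + c (nn v) 1 0 ∧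
    c (nn (u + v)) 0 0 = c (nn u) 0 0 + c (nn v) 0 0 + u * c (nn v) 1 0 ∧
    c (nn (u + v)) 0 1 = c (nn u) 0 1 + c (nn v) 0 1 - 2 * u * c (nn v) 0 0 - u ^ 2 * c (nn v) 1 0 := by
  have h1 := h.mul _ hu _ hv
  rw [← AdCoh.nn_add, h.form hv, act_nn] at h1
  rw [h1]
  refine ⟨?_, ?_, ?_⟩ <;> simp <;> ring

theorem conj_mem {b : GL (Fin 2) k} (hb : b ∈ G)
    (hb0 : (b : Matrix (Fin 2) (Fin 2) k) 1 0 = 0) {u : k} (hu : nn u ∈ G) :
    (b : Matrix (Fin 2) (Fin 2) k) 0 0 ≠ 0 ∧ (b : Matrix (Fin 2) (Fin 2) k) 1 1 ≠ 0 ∧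
    nn ((b : Matrix (Fin 2) (Fin 2) k) 0 0 / (b : Matrix (Fin 2) (Fin 2) k) 1 1 * u) ∈ G ∧
    nn ((b : Matrix (Fin 2) (Fin 2) k) 0 0 / (b : Matrix (Fin 2) (Fin 2) k) 1 1 * u) * b =
      b * nn u := by
  have hdet : (b : Matrix (Fin 2) (Fin 2) k).det ≠ 0 := by
    have := (Matrix.isUnit_iff_isUnit_det _).mp b.isUnit
    exact this.ne_zero
  rw [Matrix.det_fin_two, hb0, mul_zero, sub_zero] at hdet
  have h0 := left_ne_zero_of_mul hdet
  have h1 := right_ne_zero_of_mul hdet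
  have hcomm : nn ((b : Matrix (Fin 2) (Fin 2) k) 0 0 / (b : Matrix (Fin 2) (Fin 2) k) 1 1 * u) * b =
      b * nn u := by
    ext i j
    fin_cases i <;> fin_cases j <;> simp [Matrix.mul_apply, Fin.sum_univ_two, hb0]
    field_simp
    ring
  refine ⟨h0, h1, ?_, hcomm⟩
  rw [← eq_mul_inv_iff_mul_eq] at hcomm
  rw [hcomm]
  exact G.mul_mem (G.mul_mem hb hu) (G.inv_mem hb)

theorem upper (h : Coc G c) {b : GL (Fin 2) k} (hb : b ∈ G)
    (hb0 : (b : Matrix (Fin 2) (Fin 2) k) 1 0 = 0) {u : k} (hu : nn u ∈ G)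
    {a s d x : k} (ha : (b : Matrix (Fin 2) (Fin 2) k) 0 0 = a)
    (hs : (b : Matrix (Fin 2) (Fin 2) k) 0 1 = s) (hd : (b : Matrix (Fin 2) (Fin 2) k) 1 1 = d)
    (hx : x = a / d) :
    c (nn (x * u)) 1 0 = d ^ 2 * c (nn u) 1 0 ∧
    c (nn (x * u)) 0 0 = a * d * c (nn u) 0 0 + s * d * c (nn u) 1 0 - x * u * c b 1 0 ∧
    c (nn (x * u)) 0 1 = a ^ 2 * c (nn u) 0 1 - 2 * a * s * c (nn u) 0 0 - s ^ 2 * c (nn u) 1 0 +
      2 * (x * u) * c b 0 0 + (x * u) ^ 2 * c b 1 0 := by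
  obtain ⟨h0, h1, h2, h3⟩ := conj_mem hb hb0 hu
  rw [ha, hd, ← hx] at h2 h3
  have hbm : (b : Matrix (Fin 2) (Fin 2) k) = !![a, s; 0, d] := by
    ext i j
    fin_cases i <;> fin_cases j <;> simp [ha, hs, hd, hb0]
  have e1 := h.mul _ h2 _ hb
  have e2 := h.mul _ hb _ hu
  rw [h3, e2, h.form hu, hbm, act_upper, h.form hb, act_nn] at e1
  have e3 : c (nn (x * u)) = !![c b 0 0, c b 0 1; c b 1 0, -c b 0 0] +
      !![a * d * c (nn u) 0 0 + s * d * c (nn u) 1 0, a ^ 2 * c (nn u) 0 1 - 2 * a * s * c (nn u) 0 0 - s ^ 2 * c (nn u) 1 0;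
        d ^ 2 * c (nn u) 1 0, -(a * d * c (nn u) 0 0 + s * d * c (nn u) 1 0)] -
      !![c b 0 0 + x * u * c b 1 0, c b 0 1 - 2 * (x * u) * c b 0 0 - (x * u) ^ 2 * c b 1 0;
        c b 1 0, -(c b 0 0 + x * u * c b 1 0)] := by
    rw [e1, add_sub_cancel_right]
  rw [e3]
  refine ⟨?_, ?_, ?_⟩ <;> simp <;> ring

end Coc

end Coc

section Count2

variable {k : Type*} [Field k] [Finite k]

omit [Finite k] in
theorem conj_nn_low {g : GL (Fin 2) k} (hg1 : (g : Matrix (Fin 2) (Fin 2) k) 1 0 ≠ 0) {u : k}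
    (hu0 : u ≠ 0) : ((g * nn u * g⁻¹ : GL (Fin 2) k) : Matrix (Fin 2) (Fin 2) k) 1 0 ≠ 0 := by
  intro h10
  set w := g * nn u * g⁻¹ with hw
  have hwg : (w : Matrix (Fin 2) (Fin 2) k) * (g : Matrix (Fin 2) (Fin 2) k) =
      (g : Matrix (Fin 2) (Fin 2) k) * !![1, u; 0, 1] := by
    rw [← nn_val, ← Units.val_mul, ← Units.val_mul, hw, inv_mul_cancel_right]
  have e10 := congrFun (congrFun hwg 1) 0
  have e11 := congrFun (congrFun hwg 1) 1
  simp only [Matrix.mul_apply, Fin.sum_univ_two, h10, zero_mul, zero_add, Matrix.of_apply,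
    Matrix.cons_val', Matrix.cons_val_zero, Matrix.cons_val_one, Matrix.cons_val_fin_one,
    mul_one, mul_zero, add_zero] at e10 e11
  have hw11 : (w : Matrix (Fin 2) (Fin 2) k) 1 1 = 1 := by
    have : ((w : Matrix (Fin 2) (Fin 2) k) 1 1 - 1) * (g : Matrix (Fin 2) (Fin 2) k) 1 0 = 0 := by
      linear_combination e10
    rcases mul_eq_zero.mp this with h | h
    · exact sub_eq_zero.mp h
    · exact absurd h hg1
  rw [hw11, one_mul] at e11
  have : (g : Matrix (Fin 2) (Fin 2) k) 1 0 * u = 0 := by linear_combination -e11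
  rcases mul_eq_zero.mp this with h | h
  · exact hg1 h
  · exact hu0 h

/-- The number of upper triangular elements of `H ≤ SL₂` is at most `|U|` times the number of
possible top left entries. -/
theorem card_upper_le (H : Subgroup (GL (Fin 2) k))
    (hdet : ∀ g ∈ H, (g : Matrix (Fin 2) (Fin 2) k).det = 1) (D : Finset k)
    (hD : ∀ g ∈ H, (g : Matrix (Fin 2) (Fin 2) k) 1 0 = 0 → (g : Matrix (Fin 2) (Fin 2) k) 0 0 ∈ D) :
    Nat.card {g : GL (Fin 2) k // g ∈ H ∧ (g : Matrix (Fin 2) (Fin 2) k) 1 0 = 0} ≤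
      Nat.card {u : k // nn u ∈ H} * D.card := by
  classical
  have : Fintype k := Fintype.ofFinite k
  let U : Finset k := Finset.univ.filter fun u => nn u ∈ H
  let B : Finset (GL (Fin 2) k) := Finset.univ.filter fun g =>
    g ∈ H ∧ (g : Matrix (Fin 2) (Fin 2) k) 1 0 = 0
  have hUcard : Nat.card {u : k // nn u ∈ H} = U.card := by
    rw [Nat.card_eq_fintype_card, Fintype.card_subtype]
  have hBcard : Nat.card {g : GL (Fin 2) k // g ∈ H ∧ (g : Matrix (Fin 2) (Fin 2) k) 1 0 = 0} =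
      B.card := by
    rw [Nat.card_eq_fintype_card, Fintype.card_subtype]
  rw [hUcard, hBcard]
  have hquot : ∀ g ∈ H, ∀ g' ∈ H, (g : Matrix (Fin 2) (Fin 2) k) 1 0 = 0 →
      (g' : Matrix (Fin 2) (Fin 2) k) 1 0 = 0 →
      (g : Matrix (Fin 2) (Fin 2) k) 0 0 = (g' : Matrix (Fin 2) (Fin 2) k) 0 0 →
      ∃ v, g' = g * nn v := by
    intro g hg g' hg' h1 h1' h0
    have hd := hdet g hg
    have hd' := hdet g' hg'
    rw [Matrix.det_fin_two, h1, mul_zero, sub_zero] at hd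
    rw [Matrix.det_fin_two, h1', mul_zero, sub_zero, ← h0] at hd'
    have hne : (g : Matrix (Fin 2) (Fin 2) k) 0 0 ≠ 0 := by
      intro h; rw [h, zero_mul] at hd; exact zero_ne_one hd
    have h11 : (g : Matrix (Fin 2) (Fin 2) k) 1 1 = (g' : Matrix (Fin 2) (Fin 2) k) 1 1 :=
      mul_left_cancel₀ hne (hd.trans hd'.symm)
    refine ⟨((g' : Matrix (Fin 2) (Fin 2) k) 0 1 - (g : Matrix (Fin 2) (Fin 2) k) 0 1) /
      (g : Matrix (Fin 2) (Fin 2) k) 0 0, ?_⟩
    ext i j
    fin_cases i <;> fin_cases j <;> simp [Matrix.mul_apply, Fin.sum_univ_two, h1, h1', h0, h11]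
    rw [← h0]
    field_simp
    ring
  refine Finset.card_le_mul_card_image_of_maps_to
    (f := fun g : GL (Fin 2) k => (g : Matrix (Fin 2) (Fin 2) k) 0 0) ?_ _ ?_
  · intro g hg
    simp only [B, Finset.mem_filter, Finset.mem_univ, true_and] at hg
    exact hD g hg.1 hg.2
  · intro a _
    by_cases hne : (B.filter fun g : GL (Fin 2) k => (g : Matrix (Fin 2) (Fin 2) k) 0 0 = a).Nonempty
    · obtain ⟨g0, h0⟩ := hne
      simp only [B, Finset.mem_filter, Finset.mem_univ, true_and] at h0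
      obtain ⟨⟨hg0, hg01⟩, hg00⟩ := h0
      refine Finset.card_le_card_of_injOn
        (fun g => ((g0⁻¹ * g : GL (Fin 2) k) : Matrix (Fin 2) (Fin 2) k) 0 1) ?_ ?_
      · intro g hg
        simp only [Finset.coe_filter, Set.mem_ofPred_eq, B, Finset.mem_filter, Finset.mem_univ,
          true_and] at hg
        obtain ⟨⟨hgH, hg1⟩, hga⟩ := hg
        obtain ⟨v, hv⟩ := hquot g0 hg0 g hgH hg01 hg1 (hg00.trans hga.symm)
        simp only [U, Finset.coe_filter, Set.mem_ofPred_eq, Finset.mem_univ, true_and]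
        have h2 : g0⁻¹ * g = nn v := by rw [hv, inv_mul_cancel_left]
        have h3 : ((g0⁻¹ * g : GL (Fin 2) k) : Matrix (Fin 2) (Fin 2) k) 0 1 = v := by
          rw [h2]; simp
        rw [h3, ← h2]
        exact H.mul_mem (H.inv_mem hg0) hgH
      · intro g hg g' hg' heq
        simp only [Finset.coe_filter, Set.mem_ofPred_eq, B, Finset.mem_filter, Finset.mem_univ,
          true_and] at hg hg'
        obtain ⟨⟨hgH, hg1⟩, hga⟩ := hg
        obtain ⟨⟨hgH', hg1'⟩, hga'⟩ := hg'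
        obtain ⟨v, hv⟩ := hquot g0 hg0 g hgH hg01 hg1 (hg00.trans hga.symm)
        obtain ⟨v', hv'⟩ := hquot g0 hg0 g' hgH' hg01 hg1' (hg00.trans hga'.symm)
        have : v = v' := by simpa [hv, hv', inv_mul_cancel_left] using heq
        rw [hv, hv', this]
    · rw [Finset.not_nonempty_iff_eq_empty.mp hne]
      simp

theorem card_unipotent_sub_one_le (H : Subgroup (GL (Fin 2) k))
    (hdet : ∀ g ∈ H, (g : Matrix (Fin 2) (Fin 2) k).det = 1)
    (hlow : ∃ w ∈ H, (w : Matrix (Fin 2) (Fin 2) k) 1 0 ≠ 0) (D : Finset k)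
    (hD : ∀ g ∈ H, (g : Matrix (Fin 2) (Fin 2) k) 1 0 = 0 → (g : Matrix (Fin 2) (Fin 2) k) 0 0 ∈ D) :
    Nat.card {u : k // nn u ∈ H} - 1 ≤ D.card := by
  have h1 := card_upper_ge H hlow
  have h2 := card_upper_le H hdet D hD
  have h3 : 0 < Nat.card {u : k // nn u ∈ H} := by
    have : Nonempty {u : k // nn u ∈ H} := ⟨⟨0, by rw [nn_zero]; exact H.one_mem⟩⟩
    exact Nat.card_pos
  exact Nat.le_of_mul_le_mul_left (h1.trans h2) h3

end Count2

section Vanish

variable {k : Type*} [Field k]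

/-- The additive group `U` of upper unipotents of `G`. -/
def UU (G : Subgroup (GL (Fin 2) k)) : AddSubgroup k where
  carrier := {u | nn u ∈ G}
  add_mem' {u v} hu hv := by
    change nn (u + v) ∈ G
    rw [AdCoh.nn_add]; exact G.mul_mem hu hv
  zero_mem' := by
    change nn 0 ∈ G
    rw [nn_zero]; exact G.one_mem
  neg_mem' {u} hu := by
    change nn (-u) ∈ G
    rw [nn_neg]; exact G.inv_mem hu

theorem mem_UU {G : Subgroup (GL (Fin 2) k)} {u : k} : u ∈ UU G ↔ nn u ∈ G := Iff.rfl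

/-- The determinant one part. -/
def SS (G : Subgroup (GL (Fin 2) k)) : Subgroup (GL (Fin 2) k) where
  carrier := {g | g ∈ G ∧ (g : Matrix (Fin 2) (Fin 2) k).det = 1}
  mul_mem' {g h} hg hh := ⟨G.mul_mem hg.1 hh.1, by rw [Units.val_mul, Matrix.det_mul, hg.2, hh.2, one_mul]⟩
  one_mem' := ⟨G.one_mem, by simp⟩
  inv_mem' {g} hg := ⟨G.inv_mem hg.1, by
    have h1 : (g : Matrix (Fin 2) (Fin 2) k).det * ((g⁻¹ : GL (Fin 2) k) : Matrix (Fin 2) (Fin 2) k).det = 1 := by
      rw [← Matrix.det_mul, ← Units.val_mul, mul_inv_cancel, Units.val_one, Matrix.det_one]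
    rwa [hg.2, one_mul] at h1⟩

theorem mem_SS {G : Subgroup (GL (Fin 2) k)} {g : GL (Fin 2) k} :
    g ∈ SS G ↔ g ∈ G ∧ (g : Matrix (Fin 2) (Fin 2) k).det = 1 := Iff.rfl

theorem det_nn (u : k) : ((nn u : GL (Fin 2) k) : Matrix (Fin 2) (Fin 2) k).det = 1 := by
  simp [Matrix.det_fin_two]

theorem nn_mem_SS {G : Subgroup (GL (Fin 2) k)} {u : k} : nn u ∈ SS G ↔ nn u ∈ G := by
  rw [mem_SS]
  exact ⟨fun h => h.1, fun h => ⟨h, det_nn u⟩⟩

theorem exists_low_SS {G : Subgroup (GL (Fin 2) k)} (h1 : nn 1 ∈ G)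
    (hlow : ∃ w ∈ G, (w : Matrix (Fin 2) (Fin 2) k) 1 0 ≠ 0) :
    ∃ w ∈ SS G, (w : Matrix (Fin 2) (Fin 2) k) 1 0 ≠ 0 := by
  obtain ⟨w, hw, hw1⟩ := hlow
  refine ⟨w * nn 1 * w⁻¹, ⟨G.mul_mem (G.mul_mem hw h1) (G.inv_mem hw), ?_⟩, conj_nn_low hw1 one_ne_zero⟩
  rw [Units.val_mul, Units.val_mul, Matrix.det_mul, Matrix.det_mul, det_nn, mul_one,
    ← Matrix.det_mul, ← Units.val_mul, mul_inv_cancel, Units.val_one, Matrix.det_one]

theorem count_SS [Finite k] {G : Subgroup (GL (Fin 2) k)} (h1 : nn 1 ∈ G)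
    (hlow : ∃ w ∈ G, (w : Matrix (Fin 2) (Fin 2) k) 1 0 ≠ 0) (D : Finset k)
    (hD : ∀ g ∈ G, (g : Matrix (Fin 2) (Fin 2) k).det = 1 →
      (g : Matrix (Fin 2) (Fin 2) k) 1 0 = 0 → (g : Matrix (Fin 2) (Fin 2) k) 0 0 ∈ D) :
    Nat.card (UU G) ≤ D.card + 1 := by
  have h2 := card_unipotent_sub_one_le (SS G) (fun g hg => hg.2) (exists_low_SS h1 hlow) D
    (fun g hg h => hD g hg.1 hg.2 h)
  have h3 : Nat.card {u : k // nn u ∈ SS G} = Nat.card (UU G) :=
    Nat.card_congr (Equiv.subtypeEquivRight fun u => by rw [nn_mem_SS]; rfl)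
  rw [h3] at h2
  omega

theorem natCast_mem_UU {G : Subgroup (GL (Fin 2) k)} (h1 : nn 1 ∈ G) (m : ℕ) : (m : k) ∈ UU G := by
  have : (m : k) = m • (1 : k) := by simp
  rw [this]
  exact AddSubgroup.nsmul_mem _ h1 m

namespace Coc

variable {G : Subgroup (GL (Fin 2) k)} {c : GL (Fin 2) k → Matrix (Fin 2) (Fin 2) k}

theorem ga_eq (h : Coc G c) (h1 : nn 1 ∈ G) {u : k} (hu : nn u ∈ G) :
    c (nn u) 1 0 = u * c (nn 1) 1 0 := by
  have e1 := (h.nn_add hu h1).2.1
  have e2 := (h.nn_add h1 hu).2.1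
  rw [add_comm 1 u] at e2
  rw [e1] at e2
  linear_combination -e2

theorem be_eq (h : Coc G c) (h1 : nn 1 ∈ G) (hga : c (nn 1) 1 0 = 0) {u : k} (hu : nn u ∈ G) :
    c (nn u) 1 0 = 0 := by
  rw [h.ga_eq h1 hu, hga, mul_zero]

theorem ga_one_eq_zero [Finite k] {p : ℕ} [Fact p.Prime] [CharP k p] (hp2 : p ≠ 2)
    (h : Coc G c) (h1 : nn 1 ∈ G) (hlow : ∃ w ∈ G, (w : Matrix (Fin 2) (Fin 2) k) 1 0 ≠ 0)
    (hB : ∀ g ∈ G, ∃ b ∈ G, (b : Matrix (Fin 2) (Fin 2) k) 1 0 = 0 ∧
      (b : Matrix (Fin 2) (Fin 2) k).det = (g : Matrix (Fin 2) (Fin 2) k).det)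
    (hdet5 : p = 5 → ∃ g ∈ G, (g : Matrix (Fin 2) (Fin 2) k).det ≠ 1 ∧
      (g : Matrix (Fin 2) (Fin 2) k).det ≠ -1) :
    c (nn 1) 1 0 = 0 := by
  classical
  by_contra hγ
  have hpp : p.Prime := Fact.out
  -- relation on the torus
  have hrel : ∀ b ∈ G, (b : Matrix (Fin 2) (Fin 2) k) 1 0 = 0 →
      (b : Matrix (Fin 2) (Fin 2) k) 0 0 / (b : Matrix (Fin 2) (Fin 2) k) 1 1 =
        (b : Matrix (Fin 2) (Fin 2) k) 1 1 ^ 2 := by
    intro b hb hb0
    obtain ⟨hn0, hn1, hm, -⟩ := conj_mem hb hb0 h1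
    have e1 := (h.upper hb hb0 h1 rfl rfl rfl rfl).1
    rw [mul_one] at e1 hm
    rw [h.ga_eq h1 hm] at e1
    exact mul_right_cancel₀ hγ e1
  by_cases hp3 : p = 3
  · subst hp3
    have h3 : (3 : k) = 0 := by exact_mod_cast CharP.cast_eq_zero k 3
    have h2 : nn (1 + 1 : k) ∈ G := by
      rw [AdCoh.nn_add]; exact G.mul_mem h1 h1
    have e1 := h.nn_add h1 h1
    have e2 := (h.nn_add h2 h1).2.2
    have h0 : (1 + 1 + 1 : k) = 0 := by linear_combination h3
    rw [h0, nn_zero, h.one, e1.2.2] at e2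
    apply hγ
    have e3 : (0 : Matrix (Fin 2) (Fin 2) k) 0 1 = 0 := rfl
    rw [e3] at e2
    linear_combination (-1) * e2 + (2 * c (nn 1) 1 0 - c (nn 1) 0 1 + 2 * c (nn 1) 0 0) * h3
  · have hp5 : 5 ≤ p := by
      have := hpp.two_le
      have h4 : p ≠ 4 := by rintro rfl; exact absurd hpp (by norm_num)
      omega
    -- count
    have : Fintype k := Fintype.ofFinite k
    have hcount := count_SS h1 hlow (Polynomial.nthRoots 4 (1 : k)).toFinset (by
      intro g hg hd hg0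
      have hr := hrel g hg hg0
      rw [Matrix.det_fin_two, hg0, mul_zero, sub_zero] at hd
      rw [Multiset.mem_toFinset, Polynomial.mem_nthRoots (by norm_num)]
      have hn : (g : Matrix (Fin 2) (Fin 2) k) 1 1 ≠ 0 := by
        intro h; rw [h, mul_zero] at hd; exact zero_ne_one hd
      rw [div_eq_iff hn] at hr
      set a := (g : Matrix (Fin 2) (Fin 2) k) 0 0
      set d := (g : Matrix (Fin 2) (Fin 2) k) 1 1
      have h4 : d ^ 4 = 1 := by rw [← hd, hr]; ring
      calc a ^ 4 = a ^ 4 * d ^ 4 := by rw [h4, mul_one]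
        _ = (a * d) ^ 4 := by ring
        _ = 1 := by rw [hd, one_pow])
    have hD4 : (Polynomial.nthRoots 4 (1 : k)).toFinset.card ≤ 4 :=
      (Multiset.toFinset_card_le _).trans (Polynomial.card_nthRoots 4 1)
    -- the prime field inside U
    let f : Fin p → UU G := fun m => ⟨((m : ℕ) : k), natCast_mem_UU h1 m⟩
    have hf : Function.Injective f := by
      intro m m' hmm
      have h2 : ((m : ℕ) : k) = ((m' : ℕ) : k) := congrArg Subtype.val hmm
      exact Fin.ext (CharP.natCast_injOn_Iio k p m.2 m'.2 h2)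
    have hcard := Nat.card_le_card_of_injective f hf
    rw [Nat.card_eq_fintype_card, Fintype.card_fin] at hcard
    have hp5' : p = 5 := by omega
    have hsurj : Function.Surjective f := by
      have : Fintype (UU G) := Fintype.ofFinite _
      have h6 : Fintype.card (Fin p) = Fintype.card (UU G) := by
        rw [Fintype.card_fin, ← Nat.card_eq_fintype_card]; omega
      exact ((Fintype.bijective_iff_injective_and_card f).mpr ⟨hf, h6⟩).2
    obtain ⟨g, hg, hg1, hg2⟩ := hdet5 hp5'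
    obtain ⟨b, hb, hb0, hbd⟩ := hB g hg
    obtain ⟨hn0, hn1, hm, -⟩ := conj_mem hb hb0 h1
    rw [mul_one] at hm
    obtain ⟨m, hm'⟩ := hsurj ⟨_, hm⟩
    have hm2 : ((m : ℕ) : k) =
      (b : Matrix (Fin 2) (Fin 2) k) 0 0 / (b : Matrix (Fin 2) (Fin 2) k) 1 1 :=
      congrArg Subtype.val hm'
    have hr := hrel b hb hb0
    rw [Matrix.det_fin_two, hb0, mul_zero, sub_zero] at hbd
    set a := (b : Matrix (Fin 2) (Fin 2) k) 0 0
    set d := (b : Matrix (Fin 2) (Fin 2) k) 1 1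
    have hdet : (g : Matrix (Fin 2) (Fin 2) k).det = ((m : ℕ) : k) ^ 2 := by
      have h7 : (a / d) ^ 2 = (d ^ 2) ^ 2 := by rw [hr]
      rw [← hbd, hm2, h7]
      rw [div_eq_iff hn1] at hr
      rw [hr]; ring
    have h5 : (5 : k) = 0 := by
      have := CharP.cast_eq_zero k p
      rw [hp5'] at this
      exact_mod_cast this
    have hm5 : (m : ℕ) < 5 := by rw [← hp5']; exact m.2
    have hm0 : ((m : ℕ) : k) ≠ 0 := by
      rw [hm2]; exact div_ne_zero hn0 hn1
    interval_cases hmm : (m : ℕ)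
    · simp at hm0
    · apply hg1; rw [hdet]; norm_num
    · apply hg2; rw [hdet]; push_cast; linear_combination h5
    · apply hg2; rw [hdet]; push_cast; linear_combination 2 * h5
    · apply hg1; rw [hdet]; push_cast; linear_combination 3 * h5

/-- The key vanishing: a suitable additive function on `U` is zero. -/
theorem al_eq_zero [Finite k]
    (h1 : nn 1 ∈ G) (hlow : ∃ w ∈ G, (w : Matrix (Fin 2) (Fin 2) k) 1 0 ≠ 0)
    (al : k → k) (hadd : ∀ u ∈ UU G, ∀ v ∈ UU G, al (u + v) = al u + al v)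
    (hmul : ∀ b ∈ G, (b : Matrix (Fin 2) (Fin 2) k) 1 0 = 0 → ∀ u ∈ UU G,
      al ((b : Matrix (Fin 2) (Fin 2) k) 0 0 / (b : Matrix (Fin 2) (Fin 2) k) 1 1 * u) =
        (b : Matrix (Fin 2) (Fin 2) k) 0 0 ^ 2 * al u)
    (hb0 : ∃ b ∈ G, (b : Matrix (Fin 2) (Fin 2) k) 1 0 = 0 ∧
      (b : Matrix (Fin 2) (Fin 2) k).det ≠ 1) :
    ∀ u ∈ UU G, al u = 0 := by
  classical
  by_contra hcon
  push Not at hcon
  obtain ⟨u0, hu0, hal0⟩ := hcon
  have : Fintype k := Fintype.ofFinite k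
  have hal_zero : al 0 = 0 := by
    have := hadd 0 (UU G).zero_mem 0 (UU G).zero_mem
    rw [add_zero] at this
    simpa using this
  have hal_neg : ∀ u ∈ UU G, al (-u) = -al u := by
    intro u hu
    have := hadd u hu (-u) ((UU G).neg_mem hu)
    rw [add_neg_cancel, hal_zero] at this
    exact (neg_eq_of_add_eq_zero_right this.symm).symm
  have hu0ne : u0 ≠ 0 := by rintro rfl; exact hal0 hal_zero
  let R : Subring k :=
    { carrier := {y | ∀ u ∈ UU G, y * u ∈ UU G ∧ al (y * u) = y * al u}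
      mul_mem' := by
        intro y z hy hz u hu
        obtain ⟨hz1, hz2⟩ := hz u hu
        obtain ⟨hy1, hy2⟩ := hy _ hz1
        rw [mul_assoc]
        exact ⟨hy1, by rw [hy2, hz2]; ring⟩
      one_mem' := by
        intro u hu
        rw [one_mul, one_mul]; exact ⟨hu, rfl⟩
      add_mem' := by
        intro y z hy hz u hu
        obtain ⟨hz1, hz2⟩ := hz u hu
        obtain ⟨hy1, hy2⟩ := hy u hu
        rw [add_mul]
        exact ⟨(UU G).add_mem hy1 hz1, by rw [hadd _ hy1 _ hz1, hy2, hz2]; ring⟩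
      zero_mem' := by
        intro u hu
        rw [zero_mul, zero_mul]; exact ⟨(UU G).zero_mem, hal_zero⟩
      neg_mem' := by
        intro y hy u hu
        obtain ⟨hy1, hy2⟩ := hy u hu
        rw [neg_mul]
        exact ⟨(UU G).neg_mem hy1, by rw [hal_neg _ hy1, hy2]; ring⟩ }
  have hRmem : ∀ y, y ∈ R ↔ ∀ u ∈ UU G, y * u ∈ UU G ∧ al (y * u) = y * al u := fun y => Iff.rfl
  have hRinv : ∀ y ∈ R, y ≠ 0 → y⁻¹ ∈ R := by
    intro y hy hy0
    have h2 : y ^ (Fintype.card k - 1) = 1 := FiniteField.pow_card_sub_one_eq_one y hy0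
    have hcard2 : 2 ≤ Fintype.card k := Fintype.one_lt_card
    have h3 : y⁻¹ = y ^ (Fintype.card k - 2) := by
      rw [inv_eq_iff_eq_inv, ← one_div, eq_div_iff (pow_ne_zero _ hy0), ← pow_succ']
      rw [← h2]; congr 1; omega
    rw [h3]; exact R.pow_mem hy _
  obtain ⟨b, hb, hbl, hbd⟩ := hb0
  obtain ⟨hn0, hn1, -, -⟩ := conj_mem hb hbl h1
  have hxU : ∀ u ∈ UU G, (b : Matrix (Fin 2) (Fin 2) k) 0 0 / (b : Matrix (Fin 2) (Fin 2) k) 1 1 * u ∈ UU G :=
    fun u hu => (conj_mem hb hbl hu).2.2.1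
  have hxal := hmul b hb hbl
  rw [Matrix.det_fin_two, hbl, mul_zero, sub_zero] at hbd
  set a := (b : Matrix (Fin 2) (Fin 2) k) 0 0
  set d := (b : Matrix (Fin 2) (Fin 2) k) 1 1
  -- `a / d` is not in `R`
  have hxR : a / d ∉ R := by
    intro hx
    have h2 := ((hRmem _).mp hx u0 hu0).2
    rw [hxal u0 hu0] at h2
    have h3 := mul_right_cancel₀ hal0 h2
    apply hbd
    have h4 : a ^ 2 * d = a := by
      rw [h3]; field_simp
    have : a * (a * d - 1) = 0 := by linear_combination h4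
    rcases mul_eq_zero.mp this with h5 | h5
    · exact absurd h5 hn0
    · exact sub_eq_zero.mp h5
  -- `|R|^2 ≤ |U|`
  have hcard1 : Nat.card R * Nat.card R ≤ Nat.card (UU G) := by
    rw [← Nat.card_prod]
    refine Nat.card_le_card_of_injective (fun x : R × R =>
      (⟨x.1 * u0 + x.2 * (a / d * u0), (UU G).add_mem ((hRmem _).mp x.1.2 u0 hu0).1
        ((hRmem _).mp x.2.2 _ (hxU u0 hu0)).1⟩ : UU G)) ?_
    rintro ⟨r, s⟩ ⟨r', s'⟩ heq
    have h2 : (r : k) * u0 + s * (a / d * u0) = r' * u0 + s' * (a / d * u0) :=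
      congrArg Subtype.val heq
    have h3 : ((r : k) - r') + (s - s') * (a / d) = 0 := by
      have : u0 * (((r : k) - r') + (s - s') * (a / d)) = 0 := by linear_combination h2
      exact (mul_eq_zero.mp this).resolve_left hu0ne
    by_cases hs : (s : k) - s' = 0
    · rw [hs, zero_mul, add_zero] at h3
      have h4 : r = r' := Subtype.ext (sub_eq_zero.mp h3)
      have h5 : s = s' := Subtype.ext (sub_eq_zero.mp hs)
      rw [h4, h5]
    · exfalso
      apply hxR
      have h4 : a / d = -(((r : k) - r') * ((s : k) - s')⁻¹) := by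
        have h6 : ((s : k) - s') * (a / d) = -((r : k) - r') := by linear_combination h3
        have h7 : a / d = ((s : k) - s')⁻¹ * (((s : k) - s') * (a / d)) := by
          rw [← mul_assoc, inv_mul_cancel₀ hs, one_mul]
        rw [h7, h6]; ring
      rw [h4]
      exact R.neg_mem (R.mul_mem (R.sub_mem r.2 r'.2) (hRinv _ (R.sub_mem s.2 s'.2) hs))
  -- counting
  let R0 : Finset k := Finset.univ.filter fun y => y ∈ R ∧ y ≠ 0
  let D : Finset k := Finset.univ.filter fun y => y ^ 2 ∈ R ∧ y ≠ 0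
  have hR0 : R0.card = Nat.card R - 1 := by
    have h2 : R0 = (Finset.univ.filter fun y => y ∈ R).erase 0 := by
      ext y; simp [R0, and_comm]
    rw [h2, Finset.card_erase_of_mem (by simp)]
    congr 1
    rw [Nat.card_eq_fintype_card]
    exact (Fintype.card_subtype _).symm
  have hD2 : D.card ≤ 2 * R0.card := by
    refine Finset.card_le_mul_card_image_of_maps_to (f := fun y : k => y ^ 2) ?_ _ ?_
    · intro y hy
      simp only [D, Finset.mem_filter, Finset.mem_univ, true_and] at hy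
      simp only [R0, Finset.mem_filter, Finset.mem_univ, true_and]
      exact ⟨hy.1, pow_ne_zero 2 hy.2⟩
    · intro z _
      have h2 : (D.filter fun y => y ^ 2 = z) ⊆ (Polynomial.nthRoots 2 z).toFinset := by
        intro y hy
        rw [Finset.mem_filter] at hy
        rw [Multiset.mem_toFinset, Polynomial.mem_nthRoots (by norm_num)]
        exact hy.2
      exact (Finset.card_le_card h2).trans ((Multiset.toFinset_card_le _).trans
        (Polynomial.card_nthRoots 2 z))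
  have hcount := count_SS h1 hlow D (by
    intro g hg hd hg0
    simp only [D, Finset.mem_filter, Finset.mem_univ, true_and]
    obtain ⟨hg0', hg1', -, -⟩ := conj_mem hg hg0 h1
    have hx : (g : Matrix (Fin 2) (Fin 2) k) 0 0 / (g : Matrix (Fin 2) (Fin 2) k) 1 1 =
        (g : Matrix (Fin 2) (Fin 2) k) 0 0 ^ 2 := by
      rw [Matrix.det_fin_two, hg0, mul_zero, sub_zero] at hd
      rw [div_eq_iff hg1']
      linear_combination (-(g : Matrix (Fin 2) (Fin 2) k) 0 0) * hd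
    refine ⟨?_, hg0'⟩
    rw [hRmem]
    intro u hu
    have h2 := (conj_mem hg hg0 hu).2.2.1
    have h3 := hmul g hg hg0 u hu
    rw [hx] at h2 h3
    exact ⟨h2, h3⟩)
  have hR2 : 2 ≤ Nat.card R := by
    have : Nontrivial R := inferInstance
    exact Finite.one_lt_card
  have h8 : Nat.card R * Nat.card R ≤ 2 * (Nat.card R - 1) + 1 := by
    rw [← hR0]; omega
  obtain ⟨m, hm⟩ : ∃ m, Nat.card R = m + 2 := ⟨Nat.card R - 2, by omega⟩
  rw [hm] at h8
  have h9 : m + 2 - 1 = m + 1 := by omega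
  rw [h9] at h8
  nlinarith

/-- Second normalisation step. -/
theorem exists_vanish_aux [Finite k]
    (h : Coc G c) (h1 : nn 1 ∈ G) (hlow : ∃ w ∈ G, (w : Matrix (Fin 2) (Fin 2) k) 1 0 ≠ 0)
    (hbe : ∀ u ∈ UU G, c (nn u) 0 0 = 0) (hga : ∀ u ∈ UU G, c (nn u) 1 0 = 0)
    (hb0 : ∃ b ∈ G, (b : Matrix (Fin 2) (Fin 2) k) 1 0 = 0 ∧
      (b : Matrix (Fin 2) (Fin 2) k).det ≠ 1) (h2 : (2 : k) ≠ 0) :
    ∃ y : k, ∀ u ∈ UU G, c (nn u) - (act (nn u : Matrix (Fin 2) (Fin 2) k) !![y, 0; 0, -y] -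
      !![y, 0; 0, -y]) = 0 := by
  -- for any cocycle vanishing on `U` up to the top right entry, `c b 1 0 = 0`
  have hy2 : ∀ c' : GL (Fin 2) k → Matrix (Fin 2) (Fin 2) k, Coc G c' →
      (∀ u ∈ UU G, c' (nn u) 0 0 = 0) → (∀ u ∈ UU G, c' (nn u) 1 0 = 0) →
      ∀ b ∈ G, (b : Matrix (Fin 2) (Fin 2) k) 1 0 = 0 → c' b 1 0 = 0 := by
    intro c' h' hbe' hga' b hb hbl
    obtain ⟨hn0, hn1, hm, -⟩ := conj_mem hb hbl h1
    have e1 := (h'.upper hb hbl h1 rfl rfl rfl rfl).2.1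
    rw [hbe' _ hm, hbe' _ h1, hga' _ h1] at e1
    have h3 : (b : Matrix (Fin 2) (Fin 2) k) 0 0 / (b : Matrix (Fin 2) (Fin 2) k) 1 1 * c' b 1 0 = 0 := by
      linear_combination e1
    exact (mul_eq_zero.mp h3).resolve_left (div_ne_zero hn0 hn1)
  obtain ⟨b0, hb0, hb0l, hb0d⟩ := hb0
  set y : k := c b0 0 0 / ((b0 : Matrix (Fin 2) (Fin 2) k).det - 1) with hy
  have hd1 : (b0 : Matrix (Fin 2) (Fin 2) k).det - 1 ≠ 0 := sub_ne_zero.mpr hb0d
  refine ⟨y, ?_⟩
  have hX : (!![y, 0; 0, -y] : Matrix (Fin 2) (Fin 2) k).trace = 0 := by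
    simp [Matrix.trace_fin_two]
  have h' := h.sub_cob _ hX
  set c2 : GL (Fin 2) k → Matrix (Fin 2) (Fin 2) k := fun g =>
    c g - (act (g : Matrix (Fin 2) (Fin 2) k) !![y, 0; 0, -y] - !![y, 0; 0, -y]) with hc2
  have hval : ∀ u ∈ UU G, c2 (nn u) = !![0, c (nn u) 0 1 + 2 * u * y; 0, 0] := by
    intro u hu
    have e1 := act_nn u 0 y 0
    rw [hc2]
    simp only
    rw [e1, h.form hu, hbe u hu, hga u hu]
    ext i j
    fin_cases i <;> fin_cases j <;> simp
  have hbe' : ∀ u ∈ UU G, c2 (nn u) 0 0 = 0 := fun u hu => by rw [hval u hu]; rfl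
  have hga' : ∀ u ∈ UU G, c2 (nn u) 1 0 = 0 := fun u hu => by rw [hval u hu]; rfl
  have hb00 : c2 b0 0 0 = 0 := by
    have hbm : (b0 : Matrix (Fin 2) (Fin 2) k) = !![(b0 : Matrix (Fin 2) (Fin 2) k) 0 0,
        (b0 : Matrix (Fin 2) (Fin 2) k) 0 1; 0, (b0 : Matrix (Fin 2) (Fin 2) k) 1 1] := by
      ext i j
      fin_cases i <;> fin_cases j <;> simp [hb0l]
    have e1 : (act (b0 : Matrix (Fin 2) (Fin 2) k) !![y, 0; 0, -y]) 0 0 =
        (b0 : Matrix (Fin 2) (Fin 2) k).det * y := by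
      rw [hbm, act_upper, Matrix.det_fin_two_of]; simp
    have e2 : c2 b0 0 0 = c b0 0 0 - ((b0 : Matrix (Fin 2) (Fin 2) k).det * y - y) := by
      rw [hc2]
      simp only [Matrix.sub_apply]
      rw [e1]; simp
    rw [e2, hy]
    field_simp
    ring
  have hadd : ∀ u ∈ UU G, ∀ v ∈ UU G, c2 (nn (u + v)) 0 1 = c2 (nn u) 0 1 + c2 (nn v) 0 1 := by
    intro u hu v hv
    rw [(h'.nn_add hu hv).2.2, hbe' v hv, hga' v hv]
    ring
  have hmul0 : ∀ b ∈ G, (b : Matrix (Fin 2) (Fin 2) k) 1 0 = 0 → ∀ u ∈ UU G,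
      c2 (nn ((b : Matrix (Fin 2) (Fin 2) k) 0 0 / (b : Matrix (Fin 2) (Fin 2) k) 1 1 * u)) 0 1 =
        (b : Matrix (Fin 2) (Fin 2) k) 0 0 ^ 2 * c2 (nn u) 0 1 +
        2 * ((b : Matrix (Fin 2) (Fin 2) k) 0 0 / (b : Matrix (Fin 2) (Fin 2) k) 1 1 * u) * c2 b 0 0 := by
    intro b hb hbl u hu
    rw [(h'.upper hb hbl hu rfl rfl rfl rfl).2.2, hbe' u hu, hga' u hu, hy2 c2 h' hbe' hga' b hb hbl]
    ring
  have hy1 : ∀ b ∈ G, (b : Matrix (Fin 2) (Fin 2) k) 1 0 = 0 → c2 b 0 0 = 0 := by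
    intro b hb hbl
    obtain ⟨hn0, hn1, hm, -⟩ := conj_mem hb hbl h1
    obtain ⟨hn0', hn1', hm', -⟩ := conj_mem hb0 hb0l h1
    have e1 := hmul0 b hb hbl 1 h1
    have e2 := hmul0 b0 hb0 hb0l 1 h1
    have e3 := hmul0 b0 hb0 hb0l _ hm
    have e4 := hmul0 b hb hbl _ hm'
    rw [hb00] at e2 e3
    have hd : (b0 : Matrix (Fin 2) (Fin 2) k).det = (b0 : Matrix (Fin 2) (Fin 2) k) 0 0 *
      (b0 : Matrix (Fin 2) (Fin 2) k) 1 1 := by
      rw [Matrix.det_fin_two, hb0l, mul_zero, sub_zero]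
    rw [hd] at hd1
    set a := (b : Matrix (Fin 2) (Fin 2) k) 0 0
    set d := (b : Matrix (Fin 2) (Fin 2) k) 1 1
    set a' := (b0 : Matrix (Fin 2) (Fin 2) k) 0 0
    set d' := (b0 : Matrix (Fin 2) (Fin 2) k) 1 1
    rw [e1] at e3
    rw [e2] at e4
    have e5 : a' / d' * (a / d * 1) = a / d * (a' / d' * 1) := by ring
    rw [e5, e4] at e3
    have e6 : (2 * (a / d) * (a' / d')) * (1 - a' * d') * c2 b 0 0 = 0 := by
      have : a' ^ 2 = a' / d' * (a' * d') := by field_simp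
      linear_combination e3 + 2 * (a / d) * c2 b 0 0 * this
    have e7 : (2 * (a / d) * (a' / d')) * (1 - a' * d') ≠ 0 := by
      refine mul_ne_zero (mul_ne_zero (mul_ne_zero h2 (div_ne_zero hn0 hn1))
        (div_ne_zero hn0' hn1')) ?_
      intro h3
      apply hd1
      linear_combination -h3
    exact (mul_eq_zero.mp e6).resolve_left e7
  have hal := al_eq_zero h1 hlow (fun u => c2 (nn u) 0 1) hadd (by
    intro b hb hbl u hu
    have := hmul0 b hb hbl u hu
    rw [hy1 b hb hbl, mul_zero, add_zero] at this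
    exact this) ⟨b0, hb0, hb0l, hb0d⟩
  intro u hu
  have e1 : c2 (nn u) = !![c2 (nn u) 0 0, c2 (nn u) 0 1; c2 (nn u) 1 0, -(c2 (nn u) 0 0)] :=
    h'.form hu
  change c2 (nn u) = 0
  rw [e1, hbe' u hu, hga' u hu, hal u hu]
  ext i j
  fin_cases i <;> fin_cases j <;> simp

/-- A cocycle becomes trivial on the upper unipotents after subtracting a coboundary. -/
theorem exists_vanish [Finite k] {p : ℕ} [Fact p.Prime] [CharP k p] (hp2 : p ≠ 2)
    (h : Coc G c) (h1 : nn 1 ∈ G) (hlow : ∃ w ∈ G, (w : Matrix (Fin 2) (Fin 2) k) 1 0 ≠ 0)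
    (hB : ∀ g ∈ G, ∃ b ∈ G, (b : Matrix (Fin 2) (Fin 2) k) 1 0 = 0 ∧
      (b : Matrix (Fin 2) (Fin 2) k).det = (g : Matrix (Fin 2) (Fin 2) k).det)
    (hdet1 : ∃ g ∈ G, (g : Matrix (Fin 2) (Fin 2) k).det ≠ 1)
    (hdet5 : p = 5 → ∃ g ∈ G, (g : Matrix (Fin 2) (Fin 2) k).det ≠ 1 ∧
      (g : Matrix (Fin 2) (Fin 2) k).det ≠ -1) :
    ∃ X : Matrix (Fin 2) (Fin 2) k, X.trace = 0 ∧
      ∀ u ∈ UU G, c (nn u) - (act (nn u : Matrix (Fin 2) (Fin 2) k) X - X) = 0 := by
  have hga := h.ga_one_eq_zero hp2 h1 hlow hB hdet5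
  have h2 : (2 : k) ≠ 0 := by
    intro h2
    have h3 : ((2 : ℕ) : k) = 0 := by exact_mod_cast h2
    rw [CharP.cast_eq_zero_iff k p] at h3
    have := (Nat.prime_dvd_prime_iff_eq Fact.out Nat.prime_two).mp h3
    exact hp2 this
  obtain ⟨g, hg, hg1⟩ := hdet1
  obtain ⟨b0, hb0, hb0l, hb0d⟩ := hB g hg
  rw [← hb0d] at hg1
  -- first normalisation
  set z := c (nn 1) 0 0 with hz
  have hbe : ∀ u ∈ UU G, c (nn u) 0 0 = u * z := by
    intro u hu
    have e1 := (h.nn_add hu h1).2.2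
    have e2 := (h.nn_add h1 hu).2.2
    rw [add_comm 1 u, e1] at e2
    rw [h.be_eq h1 hga hu, hga] at e2
    have h3 : 2 * (c (nn u) 0 0 - u * z) = 0 := by rw [hz]; linear_combination e2
    exact sub_eq_zero.mp ((mul_eq_zero.mp h3).resolve_left h2)
  have hX : (!![0, 0; z, 0] : Matrix (Fin 2) (Fin 2) k).trace = 0 := by
    simp [Matrix.trace_fin_two]
  have h' := h.sub_cob _ hX
  have hval : ∀ u ∈ UU G, (c (nn u) - (act (nn u : Matrix (Fin 2) (Fin 2) k) !![0, 0; z, 0] -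
      !![0, 0; z, 0])) = !![0, c (nn u) 0 1 + u ^ 2 * z; 0, 0] := by
    intro u hu
    have e1 := act_nn u 0 0 z
    rw [neg_zero] at e1
    rw [e1, h.form hu, hbe u hu, h.be_eq h1 hga hu]
    ext i j
    fin_cases i <;> fin_cases j <;> simp
  obtain ⟨y, hy⟩ := h'.exists_vanish_aux h1 hlow
    (fun u hu => congrFun (congrFun (hval u hu) 0) 0)
    (fun u hu => congrFun (congrFun (hval u hu) 1) 0) ⟨b0, hb0, hb0l, hg1⟩ h2
  refine ⟨!![0, 0; z, 0] + !![y, 0; 0, -y], by simp [Matrix.trace_fin_two], fun u hu => ?_⟩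
  have := hy u hu
  rw [map_add]
  rw [← this]
  abel

end Coc

end Vanish

section Sylow

variable {k : Type*} [Field k]

theorem isNilpotent_sub_one {p : ℕ} [Fact p.Prime] [CharP k p] {g : GL (Fin 2) k} {n : ℕ}
    (hg : g ^ p ^ n = 1) : IsNilpotent ((g : Matrix (Fin 2) (Fin 2) k) - 1) := by
  refine ⟨p ^ n, ?_⟩
  have h1 : ((g : Matrix (Fin 2) (Fin 2) k)) ^ p ^ n = 1 := by
    rw [← Units.val_pow_eq_pow_val, hg, Units.val_one]
  have hc : CharP (Matrix (Fin 2) (Fin 2) k) p := inferInstance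
  have := sub_pow_char_pow_of_commute p n (Commute.one_right (g : Matrix (Fin 2) (Fin 2) k))
  rw [this, h1, one_pow, sub_self]

theorem trace_eq_two {p : ℕ} [Fact p.Prime] [CharP k p] {g : GL (Fin 2) k} {n : ℕ}
    (hg : g ^ p ^ n = 1) : (g : Matrix (Fin 2) (Fin 2) k).trace = 2 := by
  have h1 := (Matrix.isNilpotent_trace_of_isNilpotent (isNilpotent_sub_one (p := p) hg)).eq_zero
  rw [Matrix.trace_sub, Matrix.trace_one, Fintype.card_fin] at h1
  push_cast at h1
  exact sub_eq_zero.mp h1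

theorem det_eq_one {p : ℕ} [Fact p.Prime] [CharP k p] {g : GL (Fin 2) k} {n : ℕ}
    (hg : g ^ p ^ n = 1) : (g : Matrix (Fin 2) (Fin 2) k).det = 1 := by
  have h1 : (g : Matrix (Fin 2) (Fin 2) k).det ^ p ^ n = 1 := by
    rw [← Matrix.det_pow, ← Units.val_pow_eq_pow_val, hg, Units.val_one, Matrix.det_one]
  have h2 : ((g : Matrix (Fin 2) (Fin 2) k).det - 1) ^ p ^ n = 0 := by
    rw [sub_pow_char_pow, h1, one_pow, sub_self]
  exact sub_eq_zero.mp (pow_eq_zero_iff (pow_pos (Fact.out : p.Prime).pos n).ne' |>.mp h2)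

theorem eq_nn_of_isPGroup {p : ℕ} [Fact p.Prime] [CharP k p] {Q : Subgroup (GL (Fin 2) k)}
    (hQ : ∀ g ∈ Q, ∃ n : ℕ, g ^ p ^ n = 1) (h1 : nn 1 ∈ Q) {q : GL (Fin 2) k} (hq : q ∈ Q) :
    ∃ u, q = nn u := by
  obtain ⟨n, hn⟩ := hQ q hq
  obtain ⟨n', hn'⟩ := hQ _ (Q.mul_mem hq h1)
  have t1 := trace_eq_two hn
  have t2 := trace_eq_two hn'
  have d1 := det_eq_one hn
  rw [Matrix.trace_fin_two] at t1 t2
  rw [Matrix.det_fin_two] at d1
  simp only [Units.val_mul, nn_val, Matrix.mul_apply, Fin.sum_univ_two, Matrix.of_apply,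
    Matrix.cons_val', Matrix.cons_val_zero, Matrix.cons_val_one, Matrix.cons_val_fin_one,
    mul_one, mul_zero, add_zero] at t2
  have h10 : (q : Matrix (Fin 2) (Fin 2) k) 1 0 = 0 := by linear_combination t2 - t1
  rw [h10, mul_zero, sub_zero] at d1
  have h00 : (q : Matrix (Fin 2) (Fin 2) k) 0 0 = 1 := by
    have : ((q : Matrix (Fin 2) (Fin 2) k) 0 0 - 1) ^ 2 = 0 := by
      linear_combination (q : Matrix (Fin 2) (Fin 2) k) 0 0 * t1 - d1
    exact sub_eq_zero.mp (pow_eq_zero_iff two_ne_zero |>.mp this)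
  have h11 : (q : Matrix (Fin 2) (Fin 2) k) 1 1 = 1 := by
    rw [h00, one_mul] at d1; exact d1
  refine ⟨(q : Matrix (Fin 2) (Fin 2) k) 0 1, ?_⟩
  ext i j
  fin_cases i <;> fin_cases j <;> simp [h10, h00, h11]

theorem nn_pow (u : k) (n : ℕ) : nn u ^ n = nn (n * u) := by
  induction n with
  | zero => simp [nn_zero]
  | succ n ih => rw [pow_succ, ih, ← nn_add]; congr 1; push_cast; ring

theorem nn_pow_char {p : ℕ} [CharP k p] (u : k) : nn u ^ p = 1 := by
  rw [nn_pow, CharP.cast_eq_zero, zero_mul, nn_zero]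

/-- Frattini argument. -/
theorem exists_upper_det [Finite k] {p : ℕ} [Fact p.Prime] [CharP k p]
    {G : Subgroup (GL (Fin 2) k)} (h1 : nn 1 ∈ G) :
    ∀ g ∈ G, ∃ b ∈ G, (b : Matrix (Fin 2) (Fin 2) k) 1 0 = 0 ∧
      (b : Matrix (Fin 2) (Fin 2) k).det = (g : Matrix (Fin 2) (Fin 2) k).det := by
  intro g hg
  let N : Subgroup G := (SS G).subgroupOf G
  have hmemN : ∀ x : G, x ∈ N ↔ ((x : GL (Fin 2) k) : Matrix (Fin 2) (Fin 2) k).det = 1 := by
    intro x
    rw [Subgroup.mem_subgroupOf, mem_SS]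
    exact ⟨fun h => h.2, fun h => ⟨x.2, h⟩⟩
  have hNn : N.Normal := by
    refine ⟨fun n hn x => ?_⟩
    rw [hmemN] at hn ⊢
    rw [Subgroup.coe_mul, Subgroup.coe_mul, Units.val_mul, Units.val_mul, Matrix.det_mul,
      Matrix.det_mul, hn, mul_one, ← Matrix.det_mul, ← Units.val_mul, ← Subgroup.coe_mul,
      mul_inv_cancel, Subgroup.coe_one, Units.val_one, Matrix.det_one]
  let x1 : N := ⟨⟨nn 1, h1⟩, by rw [hmemN]; exact det_nn 1⟩
  have hx1 : x1 ^ p = 1 := by
    apply Subtype.ext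
    apply Subtype.ext
    exact nn_pow_char 1
  have hz : IsPGroup p (Subgroup.zpowers x1) := by
    refine IsPGroup.of_card (n := if orderOf x1 = 1 then 0 else 1) ?_
    rw [Nat.card_zpowers]
    rcases (Nat.dvd_prime Fact.out).mp (orderOf_dvd_of_pow_eq_one hx1) with h | h
    · simp [h]
    · have : p ≠ 1 := (Fact.out : p.Prime).ne_one
      simp [h, this]
  obtain ⟨P, hP⟩ := hz.exists_le_sylow
  have hx1P : x1 ∈ P := hP (Subgroup.mem_zpowers x1)
  have htop := Sylow.normalizer_sup_eq_top P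
  have hgt : (⟨g, hg⟩ : G) ∈ (⊤ : Subgroup G) := Subgroup.mem_top _
  rw [← htop] at hgt
  obtain ⟨b, hb, n, hn, hbn⟩ := Subgroup.mem_sup_of_normal_right.mp hgt
  rw [hmemN] at hn
  refine ⟨b, b.2, ?_, ?_⟩
  · have hm1 : (⟨nn 1, h1⟩ : G) ∈ (P : Subgroup N).map N.subtype := ⟨x1, hx1P, rfl⟩
    have hm2 := (Subgroup.mem_normalizer_iff.mp hb _).mp hm1
    have hQ : ∀ q ∈ ((P : Subgroup N).map N.subtype).map G.subtype, ∃ m : ℕ, q ^ p ^ m = 1 := by
      rintro _ ⟨_, ⟨z, hz, rfl⟩, rfl⟩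
      obtain ⟨m, hm⟩ := P.isPGroup' ⟨z, hz⟩
      refine ⟨m, ?_⟩
      have := congrArg (fun t : P => ((t : N) : G)) hm
      have h3 := congrArg (fun t : G => (t : GL (Fin 2) k)) this
      exact h3
    have hq1 : nn 1 ∈ ((P : Subgroup N).map N.subtype).map G.subtype :=
      Subgroup.mem_map_of_mem G.subtype hm1
    have hq2 : G.subtype (b * ⟨nn 1, h1⟩ * b⁻¹) ∈ ((P : Subgroup N).map N.subtype).map G.subtype :=
      Subgroup.mem_map_of_mem G.subtype hm2
    obtain ⟨u, hu⟩ := eq_nn_of_isPGroup hQ hq1 hq2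
    by_contra hne
    have h4 := conj_nn_low hne (one_ne_zero (α := k))
    apply h4
    have h5 : ((b : GL (Fin 2) k) * nn 1 * (b : GL (Fin 2) k)⁻¹) = nn u := hu
    rw [h5]; simp
  · have h3 := congrArg (fun t : G => ((t : GL (Fin 2) k) : Matrix (Fin 2) (Fin 2) k).det) hbn
    simp only [Subgroup.coe_mul, Units.val_mul, Matrix.det_mul, hn, mul_one] at h3
    exact h3

end Sylow

section Final

variable {k : Type*} [Field k]

/-- Vanishing of `H¹(G, ad⁰ ⊗ det)` when `G` contains the standard unipotent. -/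
theorem Coc.cob_of_nn_mem [Finite k] {p : ℕ} [Fact p.Prime] [CharP k p] (hp2 : p ≠ 2)
    {G : Subgroup (GL (Fin 2) k)} {c : GL (Fin 2) k → Matrix (Fin 2) (Fin 2) k}
    (h : Coc G c) (h1 : nn 1 ∈ G) (hlow : ∃ w ∈ G, (w : Matrix (Fin 2) (Fin 2) k) 1 0 ≠ 0)
    (hdet1 : ∃ g ∈ G, (g : Matrix (Fin 2) (Fin 2) k).det ≠ 1)
    (hdet5 : p = 5 → ∃ g ∈ G, (g : Matrix (Fin 2) (Fin 2) k).det ≠ 1 ∧
      (g : Matrix (Fin 2) (Fin 2) k).det ≠ -1) :
    ∃ X : Matrix (Fin 2) (Fin 2) k, X.trace = 0 ∧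
      ∀ g ∈ G, c g = act (g : Matrix (Fin 2) (Fin 2) k) X - X := by
  obtain ⟨X, hX, hvan⟩ := h.exists_vanish hp2 h1 hlow (exists_upper_det (p := p) h1) hdet1 hdet5
  have h' := h.sub_cob X hX
  set c' : GL (Fin 2) k → Matrix (Fin 2) (Fin 2) k :=
    fun g => c g - (act (g : Matrix (Fin 2) (Fin 2) k) X - X) with hc'
  let x1 : G := ⟨nn 1, h1⟩
  have hx1 : x1 ^ p = 1 := Subtype.ext (nn_pow_char 1)
  have hz : IsPGroup p (Subgroup.zpowers x1) := by
    refine IsPGroup.of_card (n := if orderOf x1 = 1 then 0 else 1) ?_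
    rw [Nat.card_zpowers]
    rcases (Nat.dvd_prime Fact.out).mp (orderOf_dvd_of_pow_eq_one hx1) with h | h
    · simp [h]
    · have : p ≠ 1 := (Fact.out : p.Prime).ne_one
      simp [h, this]
  obtain ⟨P, hP⟩ := hz.exists_le_sylow
  have hx1P : x1 ∈ P := hP (Subgroup.mem_zpowers x1)
  have hQ : ∀ q ∈ (P : Subgroup G).map G.subtype, ∃ m : ℕ, q ^ p ^ m = 1 := by
    rintro _ ⟨z, hz, rfl⟩
    obtain ⟨m, hm⟩ := P.isPGroup' ⟨z, hz⟩
    refine ⟨m, ?_⟩
    have := congrArg (fun t : P => ((t : G) : GL (Fin 2) k)) hm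
    exact this
  have hq1 : nn 1 ∈ (P : Subgroup G).map G.subtype := Subgroup.mem_map_of_mem G.subtype hx1P
  obtain ⟨m, hm, hm2⟩ := exists_coboundary_of_index (k := k)
    (fun g : G => act ((g : GL (Fin 2) k) : Matrix (Fin 2) (Fin 2) k)) (P : Subgroup G)
    (by
      rw [Ne, CharP.cast_eq_zero_iff k p]
      exact P.not_dvd_index) (fun g : G => c' g)
    (fun g g' => h'.mul g g.2 g' g'.2) (by
      intro q hq
      obtain ⟨u, hu⟩ := eq_nn_of_isPGroup hQ hq1 (Subgroup.mem_map_of_mem G.subtype hq)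
      have hu' : (q : GL (Fin 2) k) = nn u := hu
      have huG : u ∈ UU G := by
        rw [mem_UU, ← hu']; exact q.2
      have := hvan u huG
      simp only [hc']
      rw [hu']
      exact this)
  have hmtr : m.trace = 0 := by
    refine Submodule.span_induction (p := fun (m : Matrix (Fin 2) (Fin 2) k) _ => m.trace = 0)
      ?_ ?_ ?_ ?_ hm
    · rintro _ ⟨g, rfl⟩
      exact h'.tr g g.2
    · simp
    · intro x y _ _ hx hy
      rw [Matrix.trace_add, hx, hy, add_zero]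
    · intro a x _ hx
      rw [Matrix.trace_smul, hx, smul_zero]
  refine ⟨X + m, by rw [Matrix.trace_add, hX, hmtr, add_zero], fun g hg => ?_⟩
  have e1 := hm2 ⟨g, hg⟩
  simp only [hc'] at e1
  rw [map_add]
  have e2 : c g = (act (g : Matrix (Fin 2) (Fin 2) k) X - X) +
      (act (g : Matrix (Fin 2) (Fin 2) k) m - m) := by
    rw [← e1]; abel
  rw [e2]; abel

/-- Transport of cocycles along conjugation. -/
theorem Coc.conj {G : Subgroup (GL (Fin 2) k)} {c : GL (Fin 2) k → Matrix (Fin 2) (Fin 2) k}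
    (h : Coc G c) (S : GL (Fin 2) k) :
    Coc (G.map (MulAut.conj S⁻¹).toMonoidHom) (fun g =>
      act ((S⁻¹ : GL (Fin 2) k) : Matrix (Fin 2) (Fin 2) k) (c (S * g * S⁻¹))) where
  tr := by
    rintro _ ⟨g, hg, rfl⟩
    have e1 : S * ((MulAut.conj S⁻¹).toMonoidHom g) * S⁻¹ = g := by
      simp [MulAut.conj_apply, mul_assoc]
    rw [e1, trace_act, h.tr g hg, mul_zero]
  mul := by
    rintro _ ⟨g, hg, rfl⟩ _ ⟨g', hg', rfl⟩
    have e1 : S * ((MulAut.conj S⁻¹).toMonoidHom g) * S⁻¹ = g := by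
      simp [MulAut.conj_apply, mul_assoc]
    have e2 : S * ((MulAut.conj S⁻¹).toMonoidHom g') * S⁻¹ = g' := by
      simp [MulAut.conj_apply, mul_assoc]
    have e3 : S * ((MulAut.conj S⁻¹).toMonoidHom g * (MulAut.conj S⁻¹).toMonoidHom g') * S⁻¹ =
        g * g' := by
      simp [MulAut.conj_apply, mul_assoc]
    rw [e1, e2, e3, h.mul g hg g' hg', map_add, ← act_mul, ← act_mul, ← Units.val_mul,
      ← Units.val_mul]
    congr 3
    simp [MulAut.conj_apply, mul_assoc]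

theorem exists_conj_nn {p : ℕ} [Fact p.Prime] [CharP k p] {x : GL (Fin 2) k} (hx : x ≠ 1)
    (hxp : x ^ p = 1) : ∃ S : GL (Fin 2) k, S⁻¹ * x * S = nn 1 := by
  have hx' : x ^ p ^ 1 = 1 := by rwa [pow_one]
  have htr := trace_eq_two hx'
  have hdet := det_eq_one hx'
  rw [Matrix.trace_fin_two] at htr
  rw [Matrix.det_fin_two] at hdet
  set a := (x : Matrix (Fin 2) (Fin 2) k) 0 0 with ha
  set b := (x : Matrix (Fin 2) (Fin 2) k) 0 1 with hb
  set c := (x : Matrix (Fin 2) (Fin 2) k) 1 0 with hc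
  set d := (x : Matrix (Fin 2) (Fin 2) k) 1 1 with hd
  have hxm : (x : Matrix (Fin 2) (Fin 2) k) = !![a, b; c, d] := by
    ext i j
    fin_cases i <;> fin_cases j <;> simp [ha, hb, hc, hd]
  -- it suffices to find an invertible `S` with `x S = S n(1)`
  suffices ∃ S : Matrix (Fin 2) (Fin 2) k, S.det ≠ 0 ∧
      (x : Matrix (Fin 2) (Fin 2) k) * S = S * !![1, 1; 0, 1] by
    obtain ⟨S, hS, hxS⟩ := this
    refine ⟨Matrix.GeneralLinearGroup.mkOfDetNeZero S hS, ?_⟩
    rw [mul_assoc, inv_mul_eq_iff_eq_mul]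
    ext i j
    exact congrFun (congrFun hxS i) j
  by_cases hc0 : c = 0
  · rw [hc0, mul_zero, sub_zero] at hdet
    have ha1 : a = 1 := by
      have : (a - 1) ^ 2 = 0 := by linear_combination a * htr - hdet
      exact sub_eq_zero.mp (pow_eq_zero_iff two_ne_zero |>.mp this)
    have hd1 : d = 1 := by rw [ha1, one_mul] at hdet; exact hdet
    have hb0 : b ≠ 0 := by
      intro hb0
      apply hx
      ext i j
      rw [hxm]
      fin_cases i <;> fin_cases j <;> simp [ha1, hb0, hc0, hd1]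
    refine ⟨!![b, 0; 0, 1], by simp [Matrix.det_fin_two, hb0], ?_⟩
    rw [hxm]
    ext i j
    fin_cases i <;> fin_cases j <;> simp [Matrix.mul_apply, Fin.sum_univ_two, ha1, hc0, hd1]
  · refine ⟨!![a - 1, 1; c, 0], by simp [Matrix.det_fin_two, hc0], ?_⟩
    rw [hxm]
    have hd' : d = 2 - a := by linear_combination htr
    rw [hd'] at hdet
    have hbc : b * c = 2 * a - a ^ 2 - 1 := by linear_combination -hdet
    ext i j
    fin_cases i <;> fin_cases j <;> simp [Matrix.mul_apply, Fin.sum_univ_two, hd']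
    · linear_combination hbc
    · ring

/-- **Vanishing of `H¹(G, ad⁰ ⊗ det)`** for an irreducible subgroup `G` of `GL₂(k)`, `k` finite of
odd characteristic, whose determinants are not all trivial (and not all `±1` if `p = 5`). -/
theorem Coc.cob [Finite k] {p : ℕ} [Fact p.Prime] [CharP k p] (hp2 : p ≠ 2)
    {G : Subgroup (GL (Fin 2) k)} {c : GL (Fin 2) k → Matrix (Fin 2) (Fin 2) k}
    (h : Coc G c)
    (hirr : ∀ v : Fin 2 → k, v ≠ 0 → ∃ g ∈ G, ∀ a : k,
      (g : Matrix (Fin 2) (Fin 2) k).mulVec v ≠ a • v)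
    (hdet1 : ∃ g ∈ G, (g : Matrix (Fin 2) (Fin 2) k).det ≠ 1)
    (hdet5 : p = 5 → ∃ g ∈ G, (g : Matrix (Fin 2) (Fin 2) k).det ≠ 1 ∧
      (g : Matrix (Fin 2) (Fin 2) k).det ≠ -1) :
    ∃ X : Matrix (Fin 2) (Fin 2) k, X.trace = 0 ∧
      ∀ g ∈ G, c g = act (g : Matrix (Fin 2) (Fin 2) k) X - X := by
  by_cases hpG : p ∣ Nat.card G
  · obtain ⟨x, hx⟩ := exists_prime_orderOf_dvd_card' p hpG
    have hx1 : (x : GL (Fin 2) k) ≠ 1 := by
      intro h1
      have : x = 1 := Subtype.ext h1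
      rw [this, orderOf_one] at hx
      exact (Fact.out : p.Prime).ne_one hx.symm
    have hxp : (x : GL (Fin 2) k) ^ p = 1 := by
      have := pow_orderOf_eq_one x
      rw [hx] at this
      exact congrArg Subtype.val this
    obtain ⟨S, hS⟩ := exists_conj_nn hx1 hxp
    have hc := h.conj S
    set G' := G.map (MulAut.conj S⁻¹).toMonoidHom with hG'
    have hmem : ∀ g ∈ G, S⁻¹ * g * S ∈ G' := by
      intro g hg
      refine ⟨g, hg, ?_⟩
      simp [MulAut.conj_apply]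
    have hdetc : ∀ g : GL (Fin 2) k, ((S⁻¹ * g * S : GL (Fin 2) k) : Matrix (Fin 2) (Fin 2) k).det =
        (g : Matrix (Fin 2) (Fin 2) k).det := by
      intro g
      rw [Units.val_mul, Matrix.det_mul, mul_comm, ← Matrix.det_mul, ← Units.val_mul]
      simp
    obtain ⟨X, hX, hcob⟩ := hc.cob_of_nn_mem hp2 (by rw [← hS]; exact hmem _ x.2) (by
      by_contra hcon
      push Not at hcon
      obtain ⟨g, hg, hg2⟩ := hirr (fun i => (S : Matrix (Fin 2) (Fin 2) k) i 0) (by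
        intro h0
        have hd := (Matrix.isUnit_iff_isUnit_det _).mp S.isUnit
        rw [Matrix.det_fin_two] at hd
        have e1 := congrFun h0 0
        have e2 := congrFun h0 1
        simp only [Pi.zero_apply] at e1 e2
        rw [e1, e2] at hd
        simp at hd)
      have h10 := hcon _ (hmem g hg)
      set w := S⁻¹ * g * S with hw
      have e1 : g * S = S * w := by rw [hw]; group
      apply hg2 ((w : Matrix (Fin 2) (Fin 2) k) 0 0)
      ext i
      have e2 := congrArg (fun t : GL (Fin 2) k => (t : Matrix (Fin 2) (Fin 2) k) i 0) e1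
      simp only [Units.val_mul, Matrix.mul_apply, Fin.sum_univ_two, h10, mul_zero, add_zero] at e2
      simp only [Matrix.mulVec, dotProduct, Fin.sum_univ_two, Pi.smul_apply, smul_eq_mul]
      rw [e2, mul_comm])
      (by
        obtain ⟨g, hg, hg1⟩ := hdet1
        exact ⟨_, hmem g hg, by rwa [hdetc]⟩)
      (by
        intro h5
        obtain ⟨g, hg, hg1, hg2⟩ := hdet5 h5
        exact ⟨_, hmem g hg, by rwa [hdetc], by rwa [hdetc]⟩)
    refine ⟨act (S : Matrix (Fin 2) (Fin 2) k) X, by rw [trace_act, hX, mul_zero], fun g hg => ?_⟩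
    have e1 := hcob _ (hmem g hg)
    have e2 : S * (S⁻¹ * g * S) * S⁻¹ = g := by group
    rw [e2] at e1
    have e3 := congrArg (act (S : Matrix (Fin 2) (Fin 2) k)) e1
    rw [← act_mul, ← Units.val_mul, mul_inv_cancel, Units.val_one, act_one, map_sub, ← act_mul,
      ← Units.val_mul] at e3
    rw [e3, ← act_mul, ← Units.val_mul]
    congr 4
    group
  · obtain ⟨m, hm, hm2⟩ := exists_coboundary_of_index (k := k)
      (fun g : G => act ((g : GL (Fin 2) k) : Matrix (Fin 2) (Fin 2) k)) (⊥ : Subgroup G)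
      (by
        rw [Ne, CharP.cast_eq_zero_iff k p, Subgroup.index_bot]
        exact hpG) (fun g : G => c g)
      (fun g g' => h.mul g g.2 g' g'.2) (by
        intro q hq
        rw [Subgroup.mem_bot] at hq
        rw [hq]
        exact h.one)
    refine ⟨m, ?_, fun g hg => hm2 ⟨g, hg⟩⟩
    refine Submodule.span_induction (p := fun (m : Matrix (Fin 2) (Fin 2) k) _ => m.trace = 0)
      ?_ ?_ ?_ ?_ hm
    · rintro _ ⟨g, rfl⟩
      exact h.tr g g.2
    · simp
    · intro x y _ _ hx hy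
      rw [Matrix.trace_add, hx, hy, add_zero]
    · intro a x _ hx
      rw [Matrix.trace_smul, hx, smul_zero]

/-- The version for a representation of an arbitrary group, for cocycles trivial on the kernel. -/
theorem exists_cob_of_ker {Γ : Type*} [Group Γ] [Finite k] {p : ℕ} [Fact p.Prime] [CharP k p]
    (hp2 : p ≠ 2) (ρ : Γ →* GL (Fin 2) k)
    (hirr : ∀ v : Fin 2 → k, v ≠ 0 → ∃ g, ∀ a : k,
      (ρ g : Matrix (Fin 2) (Fin 2) k).mulVec v ≠ a • v)
    (hdet1 : ∃ g, (ρ g : Matrix (Fin 2) (Fin 2) k).det ≠ 1)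
    (hdet5 : p = 5 → ∃ g, (ρ g : Matrix (Fin 2) (Fin 2) k).det ≠ 1 ∧
      (ρ g : Matrix (Fin 2) (Fin 2) k).det ≠ -1)
    (ψ : Γ → Matrix (Fin 2) (Fin 2) k) (htr : ∀ g, (ψ g).trace = 0)
    (hψ : ∀ g h, ψ (g * h) = ψ g + act (ρ g : Matrix (Fin 2) (Fin 2) k) (ψ h))
    (hker : ∀ g, ρ g = 1 → ψ g = 0) :
    ∃ X : Matrix (Fin 2) (Fin 2) k, X.trace = 0 ∧
      ∀ g, ψ g = act (ρ g : Matrix (Fin 2) (Fin 2) k) X - X := by
  classical
  have hwell : ∀ g g', ρ g = ρ g' → ψ g = ψ g' := by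
    intro g g' hgg
    have h1 : ρ (g⁻¹ * g') = 1 := by rw [map_mul, map_inv, hgg, inv_mul_cancel]
    have h2 := hψ g (g⁻¹ * g')
    rw [mul_inv_cancel_left, hker _ h1, map_zero, add_zero] at h2
    exact h2.symm
  let c : GL (Fin 2) k → Matrix (Fin 2) (Fin 2) k := fun x =>
    if hx : ∃ g, ρ g = x then ψ hx.choose else 0
  have hcρ : ∀ g, c (ρ g) = ψ g := by
    intro g
    have hx : ∃ g', ρ g' = ρ g := ⟨g, rfl⟩
    simp only [c, dif_pos hx]
    exact hwell _ _ hx.choose_spec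
  have hc : Coc ρ.range c := by
    refine ⟨?_, ?_⟩
    · rintro _ ⟨g, rfl⟩
      rw [hcρ]; exact htr g
    · rintro _ ⟨g, rfl⟩ _ ⟨g', rfl⟩
      rw [← map_mul, hcρ, hcρ, hcρ]; exact hψ g g'
  obtain ⟨X, hX, hcob⟩ := hc.cob hp2 (by
      intro v hv
      obtain ⟨g, hg⟩ := hirr v hv
      exact ⟨ρ g, ⟨g, rfl⟩, hg⟩) (by
      obtain ⟨g, hg⟩ := hdet1
      exact ⟨ρ g, ⟨g, rfl⟩, hg⟩) (by
      intro h5
      obtain ⟨g, hg⟩ := hdet5 h5
      exact ⟨ρ g, ⟨g, rfl⟩, hg⟩)
  refine ⟨X, hX, fun g => ?_⟩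
  rw [← hcρ]
  exact hcob _ ⟨g, rfl⟩

end Final

end Fermat.Agent.TWP.AdCoh
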