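import Fermat.Agent.TWP.ArtinInd

/-!
# Representations in characteristic zero are determined by their character
-/

set_option autoImplicit false

namespace Fermat.Agent.TWP.ArtinInd

open Module Representation

section Char

variable {F : Type} [Field F] [CharZero F] {Γ : Type} [Group Γ] [Finite Γ]

theorem exists_compl {V : Type} [AddCommGroup V] [Module F V] (ρ : Representation F Γ V)
    (U : Submodule F V) (hU : ∀ g, ∀ u ∈ U, ρ g u ∈ U) :
    ∃ U' : Submodule F V, (∀ g, ∀ u ∈ U', ρ g u ∈ U') ∧ IsCompl U U' := by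
  have : NeZero (Nat.card Γ : F) := ⟨Nat.cast_ne_zero.mpr Nat.card_pos.ne'⟩
  obtain ⟨U', hU'⟩ := exists_isCompl (⟨U, fun g v hv => hU g v hv⟩ : Subrepresentation ρ)
  refine ⟨U'.toSubmodule, fun g u hu => U'.apply_mem_toSubmodule g hu, ?_⟩
  rw [isCompl_iff, disjoint_iff, codisjoint_iff] at hU' ⊢
  constructor
  · have := congrArg Subrepresentation.toSubmodule hU'.1
    exact this
  · have := congrArg Subrepresentation.toSubmodule hU'.2
    exact this

omit [CharZero F] [Finite Γ] in
theorem trace_compl {V : Type} [AddCommGroup V] [Module F V] [FiniteDimensional F V]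
    (ρ : Representation F Γ V)
    {U U' : Submodule F V} (hU : ∀ g, ∀ u ∈ U, ρ g u ∈ U) (hU' : ∀ g, ∀ u ∈ U', ρ g u ∈ U')
    (h : IsCompl U U') (g : Γ) : LinearMap.trace F V (ρ g) =
      LinearMap.trace F U (res ρ U hU g) + LinearMap.trace F U' (res ρ U' hU' g) := by
  rw [← LinearMap.trace_prodMap', ← LinearMap.trace_conj' (LinearMap.prodMap _ _)
    (Submodule.prodEquivOfIsCompl U U' h)]
  congr 1
  refine LinearMap.ext fun v => ?_
  obtain ⟨⟨a, b⟩, rfl⟩ := (Submodule.prodEquivOfIsCompl U U' h).surjective v
  rw [LinearEquiv.conj_apply_apply, LinearEquiv.symm_apply_apply, LinearMap.prodMap_apply]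
  simp

theorem exists_equiv_of_trace_eq : ∀ (n : ℕ) {V W : Type} [AddCommGroup V] [Module F V]
    [FiniteDimensional F V] [AddCommGroup W] [Module F W] [FiniteDimensional F W]
    (ρ : Representation F Γ V) (σ : Representation F Γ W), finrank F V = n →
    (∀ g, LinearMap.trace F V (ρ g) = LinearMap.trace F W (σ g)) →
    ∃ φ : V ≃ₗ[F] W, ∀ g v, φ (ρ g v) = σ g (φ v) := by
  intro n
  induction n using Nat.strong_induction_on with
  | _ n ih =>
    intro V W _ _ _ _ _ _ ρ σ hn htr
    have hdim : finrank F V = finrank F W := by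
      have := htr 1
      rw [map_one ρ, map_one σ, LinearMap.trace_one, LinearMap.trace_one] at this
      exact_mod_cast this
    by_cases h0 : n = 0
    · have h1 : Subsingleton V := finrank_zero_iff.mp (hn.trans h0)
      have h2 : Subsingleton W := finrank_zero_iff.mp (hdim ▸ hn.trans h0)
      exact ⟨LinearEquiv.ofFinrankEq V W hdim, fun g v => Subsingleton.elim _ _⟩
    -- a non-zero intertwining map
    obtain ⟨f, hf, hf0⟩ : ∃ f : V →ₗ[F] W, (∀ g v, f (ρ g v) = σ g (f v)) ∧ f ≠ 0 := by
      have := Fintype.ofFinite Γ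
      have hinv : Invertible (Nat.card Γ : F) :=
        invertibleOfNonzero (Nat.cast_ne_zero.mpr Nat.card_pos.ne')
      have e1 := card_inv_mul_sum_char_mul_char_eq_finrank ρ σ
      have e2 := card_inv_mul_sum_char_mul_char_eq_finrank ρ ρ
      have e3 : σ.character = ρ.character := funext fun g => (htr g).symm
      rw [e3, e2] at e1
      have e4 : finrank F (IntertwiningMap ρ ρ) = finrank F (IntertwiningMap ρ σ) := by
        exact_mod_cast e1
      have hfr : FiniteDimensional F (IntertwiningMap ρ ρ) := by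
        refine FiniteDimensional.of_injective
          ({ toFun := fun f => f.toLinearMap
             map_add' := fun _ _ => rfl
             map_smul' := fun _ _ => rfl } : IntertwiningMap ρ ρ →ₗ[F] (V →ₗ[F] V)) ?_
        exact IntertwiningMap.toLinearMap_injective ρ ρ
      have hV : Nontrivial V := Module.nontrivial_of_finrank_pos (R := F) (by omega)
      have e5 : Nontrivial (IntertwiningMap ρ ρ) := by
        refine ⟨⟨⟨LinearMap.id, fun g => rfl⟩, 0, fun h => ?_⟩⟩
        obtain ⟨v, hv⟩ := exists_ne (0 : V)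
        exact hv (LinearMap.congr_fun (congrArg IntertwiningMap.toLinearMap h) v)
      have e6 : 0 < finrank F (IntertwiningMap ρ σ) := by
        rw [← e4]
        exact finrank_pos
      have e7 : Nontrivial (IntertwiningMap ρ σ) := Module.nontrivial_of_finrank_pos e6
      obtain ⟨f, hf⟩ := exists_ne (0 : IntertwiningMap ρ σ)
      refine ⟨f.toLinearMap, fun g v => f.isIntertwining _ _ g v, fun h => hf ?_⟩
      exact IntertwiningMap.ext h
    have hker := ker_stable f hf
    have hran := range_stable f hf
    obtain ⟨K', hK', hKc⟩ := exists_compl ρ (LinearMap.ker f) hker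
    obtain ⟨S', hS', hSc⟩ := exists_compl σ (LinearMap.range f) hran
    -- `f` induces an isomorphism `K' ≃ range f`
    let ψ : K' ≃ₗ[F] LinearMap.range f := LinearEquiv.ofBijective
      (f.restrict (p := K') (q := LinearMap.range f) fun v _ => ⟨v, rfl⟩) (by
      constructor
      · rw [← LinearMap.ker_eq_bot, LinearMap.ker_eq_bot']
        rintro ⟨v, hv⟩ h
        have h1 : f v = 0 := congrArg Subtype.val h
        have h2 : v ∈ LinearMap.ker f ⊓ K' := ⟨h1, hv⟩
        rw [hKc.inf_eq_bot, Submodule.mem_bot] at h2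
        exact Subtype.ext h2
      · rintro ⟨_, ⟨v, rfl⟩⟩
        have h1 : v ∈ LinearMap.ker f ⊔ K' := by rw [hKc.sup_eq_top]; trivial
        obtain ⟨a, ha, b, hb, rfl⟩ := Submodule.mem_sup.mp h1
        refine ⟨⟨b, hb⟩, Subtype.ext ?_⟩
        change f b = f (a + b)
        rw [map_add, LinearMap.mem_ker.mp ha, zero_add])
    have hψ : ∀ g v, ψ (res ρ K' hK' g v) = res σ _ hran g (ψ v) := fun g v =>
      Subtype.ext (hf g v)
    have htr' : ∀ g, LinearMap.trace F K' (res ρ K' hK' g) =
        LinearMap.trace F (LinearMap.range f) (res σ _ hran g) := by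
      intro g
      rw [← LinearMap.trace_conj' _ ψ]
      congr 1
      refine LinearMap.ext fun v => ?_
      obtain ⟨v, rfl⟩ := ψ.surjective v
      rw [LinearEquiv.conj_apply_apply, LinearEquiv.symm_apply_apply, hψ]
    have hlt : finrank F (LinearMap.ker f) < n := by
      rw [← hn]
      refine Submodule.finrank_lt ?_
      intro h
      exact hf0 (LinearMap.ker_eq_top.mp h)
    obtain ⟨θ, hθ⟩ := ih _ hlt (res ρ (LinearMap.ker f) hker) (res σ S' hS') rfl (by
      intro g
      have e1 := trace_compl ρ hker hK' hKc g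
      have e2 := trace_compl σ hran hS' hSc g
      rw [htr g, e2, htr' g, add_comm] at e1
      exact (add_right_cancel e1).symm)
    let α := Submodule.prodEquivOfIsCompl (LinearMap.ker f) K' hKc
    let β := Submodule.prodEquivOfIsCompl (LinearMap.range f) S' hSc
    refine ⟨α.symm.trans ((θ.prodCongr ψ).trans ((LinearEquiv.prodComm F _ _).trans β)), ?_⟩
    intro g v
    obtain ⟨⟨a, b⟩, rfl⟩ := α.surjective v
    have hα : ρ g (α (a, b)) = α (res ρ _ hker g a, res ρ _ hK' g b) := by
      simp [α]
    rw [hα]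
    simp only [LinearEquiv.trans_apply, LinearEquiv.symm_apply_apply]
    have hβ : ∀ c d, σ g (β (c, d)) = β (res σ _ hran g c, res σ _ hS' g d) := by
      intro c d
      simp [β]
    change β (ψ (res ρ _ hK' g b), θ (res ρ _ hker g a)) = σ g (β (ψ b, θ a))
    rw [hβ, hψ, hθ]

end Char

end Fermat.Agent.TWP.ArtinInd
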