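import Mathlib
import Fermat.Agent.CFT.LC.FunRep

/-!
# Artin induction for additive functions on representations

Let `Γ` be a finite group and `k` a field of characteristic `p`. An integer valued function `e` on
finite-dimensional `k`-representations of `Γ`, additive on short exact sequences, and vanishing on
the representations `ρ^{Γ/H}` for all cyclic subgroups `H` of order prime to `p`, vanishes.
-/

set_option autoImplicit false

namespace Fermat.Agent.TWP.ArtinInd

open Module Fermat.Agent.CFT.LC

section API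

/-- An additive function on finite-dimensional representations. -/
structure AddFn (k : Type) [Field k] (Γ : Type) [Group Γ] where
  /-- the function -/
  e : ∀ {V : Type} [AddCommGroup V] [Module k V] [FiniteDimensional k V],
    Representation k Γ V → ℤ
  add : ∀ {V₁ V₂ V₃ : Type} [AddCommGroup V₁] [Module k V₁] [FiniteDimensional k V₁]
    [AddCommGroup V₂] [Module k V₂] [FiniteDimensional k V₂]
    [AddCommGroup V₃] [Module k V₃] [FiniteDimensional k V₃]
    (ρ₁ : Representation k Γ V₁) (ρ₂ : Representation k Γ V₂) (ρ₃ : Representation k Γ V₃)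
    (f : V₁ →ₗ[k] V₂) (g : V₂ →ₗ[k] V₃), Function.Injective f → Function.Surjective g →
    Function.Exact f g → (∀ x v, f (ρ₁ x v) = ρ₂ x (f v)) → (∀ x v, g (ρ₂ x v) = ρ₃ x (g v)) →
    e ρ₂ = e ρ₁ + e ρ₃

variable {k : Type} [Field k] {Γ : Type} [Group Γ] (E : AddFn k Γ)
variable {V W : Type} [AddCommGroup V] [Module k V] [FiniteDimensional k V]
  [AddCommGroup W] [Module k W] [FiniteDimensional k W]
  (ρ : Representation k Γ V) (σ : Representation k Γ W)

theorem AddFn.zero [Subsingleton V] : E.e ρ = 0 := by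
  have := E.add ρ ρ ρ (0 : V →ₗ[k] V) (0 : V →ₗ[k] V) (Function.injective_of_subsingleton _)
    (Function.surjective_to_subsingleton _) (fun x => ⟨fun _ => ⟨0, Subsingleton.elim _ _⟩,
      fun _ => Subsingleton.elim _ _⟩) (fun _ _ => Subsingleton.elim _ _)
      (fun _ _ => Subsingleton.elim _ _)
  omega

variable {ρ σ} in
theorem AddFn.congr (φ : V ≃ₗ[k] W) (h : ∀ x v, φ (ρ x v) = σ x (φ v)) : E.e ρ = E.e σ := by
  have := E.add ρ σ (1 : Representation k Γ PUnit.{1}) φ.toLinearMap (0 : W →ₗ[k] PUnit.{1})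
    φ.injective (Function.surjective_to_subsingleton _)
    (fun x => ⟨fun _ => φ.surjective x, fun _ => Subsingleton.elim _ _⟩) h
    (fun _ _ => Subsingleton.elim _ _)
  rw [E.zero (1 : Representation k Γ PUnit.{1})] at this
  omega

/-- restriction to a stable subspace -/
def res (U : Submodule k V) (hU : ∀ g, ∀ u ∈ U, ρ g u ∈ U) : Representation k Γ U where
  toFun g := (ρ g).restrict (hU g)
  map_one' := by ext; simp
  map_mul' x y := by ext; simp

omit [FiniteDimensional k V] in
@[simp] theorem res_apply (U : Submodule k V) (hU : ∀ g, ∀ u ∈ U, ρ g u ∈ U) (g : Γ) (u : U) :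
    ((res ρ U hU g u : U) : V) = ρ g u := rfl

theorem AddFn.res_top (hU : ∀ g, ∀ u ∈ (⊤ : Submodule k V), ρ g u ∈ (⊤ : Submodule k V)) :
    E.e (res ρ ⊤ hU) = E.e ρ :=
  E.congr Submodule.topEquiv fun _ _ => rfl

omit [FiniteDimensional k V] in
theorem AddFn.res_bot (hU : ∀ g, ∀ u ∈ (⊥ : Submodule k V), ρ g u ∈ (⊥ : Submodule k V)) :
    E.e (res ρ ⊥ hU) = 0 :=
  E.zero _

theorem AddFn.res_congr {U U' : Submodule k V} (h : U = U') (hU : ∀ g, ∀ u ∈ U, ρ g u ∈ U)
    (hU' : ∀ g, ∀ u ∈ U', ρ g u ∈ U') : E.e (res ρ U hU) = E.e (res ρ U' hU') := by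
  subst h; rfl

omit [FiniteDimensional k V] [FiniteDimensional k W] in
variable {ρ σ} in
theorem ker_stable (f : V →ₗ[k] W) (hf : ∀ x v, f (ρ x v) = σ x (f v)) (g : Γ) :
    ∀ u ∈ LinearMap.ker f, ρ g u ∈ LinearMap.ker f := by
  intro u hu
  rw [LinearMap.mem_ker] at hu ⊢
  rw [hf, hu, map_zero]

omit [FiniteDimensional k V] [FiniteDimensional k W] in
variable {ρ σ} in
theorem range_stable (f : V →ₗ[k] W) (hf : ∀ x v, f (ρ x v) = σ x (f v)) (g : Γ) :
    ∀ u ∈ LinearMap.range f, σ g u ∈ LinearMap.range f := by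
  rintro _ ⟨v, rfl⟩
  exact ⟨ρ g v, hf g v⟩

omit [FiniteDimensional k W] in
variable {ρ σ} in
theorem AddFn.ker_range (f : V →ₗ[k] W) (hf : ∀ x v, f (ρ x v) = σ x (f v)) :
    E.e ρ = E.e (res ρ (LinearMap.ker f) (ker_stable f hf)) +
      E.e (res σ (LinearMap.range f) (range_stable f hf)) := by
  refine E.add _ _ _ (LinearMap.ker f).subtype f.rangeRestrict Subtype.val_injective
    f.surjective_rangeRestrict ?_ (fun _ _ => rfl) (fun x v => Subtype.ext (hf x v))
  intro x
  constructor
  · intro h
    exact ⟨⟨x, by rw [LinearMap.mem_ker]; exact congrArg Subtype.val h⟩, rfl⟩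
  · rintro ⟨y, rfl⟩
    exact Subtype.ext y.2

/-- product representation -/
def prodRep : Representation k Γ (V × W) where
  toFun g := (ρ g).prodMap (σ g)
  map_one' := by ext <;> simp
  map_mul' x y := by ext <;> simp

omit [FiniteDimensional k V] [FiniteDimensional k W] in
@[simp] theorem prodRep_apply (g : Γ) (x : V × W) : prodRep ρ σ g x = (ρ g x.1, σ g x.2) := rfl

theorem AddFn.prod : E.e (prodRep ρ σ) = E.e ρ + E.e σ :=
  E.add ρ (prodRep ρ σ) σ (LinearMap.inl k V W) (LinearMap.snd k V W) LinearMap.inl_injective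
    LinearMap.snd_surjective (fun x => by
      constructor
      · intro h
        exact ⟨x.1, Prod.ext rfl h.symm⟩
      · rintro ⟨y, rfl⟩
        rfl) (fun x v => by simp) (fun _ _ => rfl)

/-- Goursat, first projection -/
theorem AddFn.goursat_fst (Z : Submodule k (V × W)) (hZ : ∀ g, ∀ z ∈ Z, prodRep ρ σ g z ∈ Z)
    (h1 : ∀ g, ∀ u ∈ Z.map (LinearMap.fst k V W), ρ g u ∈ Z.map (LinearMap.fst k V W))
    (h2 : ∀ g, ∀ u ∈ Z.comap (LinearMap.inr k V W), σ g u ∈ Z.comap (LinearMap.inr k V W)) :
    E.e (res (prodRep ρ σ) Z hZ) = E.e (res ρ (Z.map (LinearMap.fst k V W)) h1) +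
      E.e (res σ (Z.comap (LinearMap.inr k V W)) h2) := by
  rw [add_comm]
  refine E.add _ _ _
    ((LinearMap.inr k V W).restrict (p := Z.comap (LinearMap.inr k V W)) (q := Z) fun x hx => hx)
    ((LinearMap.fst k V W).restrict (p := Z) (q := Z.map (LinearMap.fst k V W))
      fun x hx => Submodule.mem_map_of_mem hx) ?_ ?_ ?_ ?_ ?_
  · intro a b hab
    have h := congrArg (fun t : Z => (t : V × W).2) hab
    exact Subtype.ext h
  · rintro ⟨_, ⟨z, hz, rfl⟩⟩
    exact ⟨⟨z, hz⟩, rfl⟩
  · rintro ⟨z, hz⟩
    constructor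
    · intro h
      have h' : z.1 = 0 := congrArg Subtype.val h
      refine ⟨⟨z.2, ?_⟩, Subtype.ext (Prod.ext h'.symm rfl)⟩
      rw [Submodule.mem_comap, LinearMap.inr_apply, ← h']
      exact hz
    · rintro ⟨y, hy⟩
      rw [← hy]
      rfl
  · intro x v
    refine Subtype.ext (Prod.ext ?_ rfl)
    exact (map_zero (ρ x)).symm
  · intro x v
    rfl

/-- Goursat, second projection -/
theorem AddFn.goursat_snd (Z : Submodule k (V × W)) (hZ : ∀ g, ∀ z ∈ Z, prodRep ρ σ g z ∈ Z)
    (h1 : ∀ g, ∀ u ∈ Z.map (LinearMap.snd k V W), σ g u ∈ Z.map (LinearMap.snd k V W))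
    (h2 : ∀ g, ∀ u ∈ Z.comap (LinearMap.inl k V W), ρ g u ∈ Z.comap (LinearMap.inl k V W)) :
    E.e (res (prodRep ρ σ) Z hZ) = E.e (res σ (Z.map (LinearMap.snd k V W)) h1) +
      E.e (res ρ (Z.comap (LinearMap.inl k V W)) h2) := by
  rw [add_comm]
  refine E.add _ _ _
    ((LinearMap.inl k V W).restrict (p := Z.comap (LinearMap.inl k V W)) (q := Z) fun x hx => hx)
    ((LinearMap.snd k V W).restrict (p := Z) (q := Z.map (LinearMap.snd k V W))
      fun x hx => Submodule.mem_map_of_mem hx) ?_ ?_ ?_ ?_ ?_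
  · intro a b hab
    have h := congrArg (fun t : Z => (t : V × W).1) hab
    exact Subtype.ext h
  · rintro ⟨_, ⟨z, hz, rfl⟩⟩
    exact ⟨⟨z, hz⟩, rfl⟩
  · rintro ⟨z, hz⟩
    constructor
    · intro h
      have h' : z.2 = 0 := congrArg Subtype.val h
      refine ⟨⟨z.1, ?_⟩, Subtype.ext (Prod.ext rfl h'.symm)⟩
      rw [Submodule.mem_comap, LinearMap.inl_apply, ← h']
      exact hz
    · rintro ⟨y, hy⟩
      rw [← hy]
      rfl
  · intro x v
    refine Subtype.ext (Prod.ext rfl ?_)
    exact (map_zero (σ x)).symm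
  · intro x v
    rfl

end API

section Nilp

variable {k : Type} [Field k] {Γ : Type} [Group Γ] (E : AddFn k Γ)
variable {V : Type} [AddCommGroup V] [Module k V] [FiniteDimensional k V]
  (ρ : Representation k Γ V)

omit [FiniteDimensional k V] in
variable {ρ} in
theorem comm_pow {T : V →ₗ[k] V} (hT : ∀ x v, T (ρ x v) = ρ x (T v)) (i : ℕ) (x : Γ) (v : V) :
    (T ^ i) (ρ x v) = ρ x ((T ^ i) v) := by
  induction i with
  | zero => rfl
  | succ i ih => rw [pow_succ', Module.End.mul_apply, ih, hT, Module.End.mul_apply]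

theorem AddFn.nilp (T : V →ₗ[k] V) (hT : ∀ x v, T (ρ x v) = ρ x (T v)) {n : ℕ}
    (h0 : T ^ n = 0) (hker : LinearMap.ker T ≤ LinearMap.range (T ^ (n - 1))) :
    E.e ρ = n * E.e (res ρ (LinearMap.ker T) (ker_stable T hT)) := by
  have key : ∀ i ≤ n, E.e (res ρ (LinearMap.ker (T ^ i)) (ker_stable _ (comm_pow hT i))) =
      i * E.e (res ρ (LinearMap.ker T) (ker_stable T hT)) := by
    intro i
    induction i with
    | zero =>
      intro _
      have : LinearMap.ker (T ^ 0) = ⊥ := by
        rw [pow_zero]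
        exact LinearMap.ker_id
      rw [E.res_congr ρ this _ (fun g u hu => by
        rw [Submodule.mem_bot] at hu ⊢; rw [hu, map_zero]), E.res_bot]
      simp
    | succ i ih =>
      intro hi
      have h1 := ih (by omega)
      have hle : LinearMap.ker (T ^ i) ≤ LinearMap.ker (T ^ (i + 1)) := by
        intro v hv
        rw [LinearMap.mem_ker] at hv ⊢
        rw [pow_succ', Module.End.mul_apply, hv, map_zero]
      have hmap : ∀ v ∈ LinearMap.ker (T ^ (i + 1)), (T ^ i) v ∈ LinearMap.ker T := by
        intro v hv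
        rw [LinearMap.mem_ker] at hv ⊢
        rw [← Module.End.mul_apply, ← pow_succ', hv]
      rw [E.add (res ρ _ (ker_stable _ (comm_pow hT i))) (res ρ _ (ker_stable _ (comm_pow hT (i + 1))))
        (res ρ _ (ker_stable T hT)) (Submodule.inclusion hle) ((T ^ i).restrict hmap)
        (Submodule.inclusion_injective hle) ?_ ?_ (fun _ _ => rfl) ?_, h1]
      · push_cast; ring
      · rintro ⟨w, hw⟩
        obtain ⟨v, hv⟩ := hker hw
        refine ⟨⟨(T ^ (n - 1 - i)) v, ?_⟩, Subtype.ext ?_⟩
        · rw [LinearMap.mem_ker, ← Module.End.mul_apply, ← pow_add,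
            show i + 1 + (n - 1 - i) = n by omega, h0, LinearMap.zero_apply]
        · change (T ^ i) ((T ^ (n - 1 - i)) v) = w
          rw [← Module.End.mul_apply, ← pow_add, show i + (n - 1 - i) = n - 1 by omega, hv]
      · rintro ⟨x, hx⟩
        constructor
        · intro h
          exact ⟨⟨x, by rw [LinearMap.mem_ker]; exact congrArg Subtype.val h⟩, rfl⟩
        · rintro ⟨y, hy⟩
          rw [← hy]
          exact Subtype.ext y.2
      · intro x v
        exact Subtype.ext (comm_pow hT i x v)
  have h2 := key n le_rfl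
  have h3 : LinearMap.ker (T ^ n) = ⊤ := by rw [h0, LinearMap.ker_zero]
  rw [E.res_congr ρ h3 _ (fun g u hu => Submodule.mem_top), E.res_top] at h2
  exact h2

end Nilp

section Tens

variable {k : Type} [Field k] {Γ : Type} [Group Γ] (E : AddFn k Γ)
variable {V : Type} [AddCommGroup V] [Module k V] [FiniteDimensional k V]
  (ρ : Representation k Γ V) {p : ℕ} [Fact p.Prime]

/-- The representation on additive maps `T → V`. -/
def homRep {T : Type} [AddCommGroup T] [Module (ZMod p) T] (τ : Representation (ZMod p) Γ T) :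
    Representation k Γ (T →+ V) where
  toFun g :=
    { toFun := fun φ => (ρ g).toAddMonoidHom.comp (φ.comp (τ g⁻¹).toAddMonoidHom)
      map_add' := fun φ ψ => by ext; simp
      map_smul' := fun c φ => by ext; simp }
  map_one' := by ext; simp
  map_mul' x y := by ext; simp

omit [FiniteDimensional k V] in
@[simp] theorem homRep_apply {T : Type} [AddCommGroup T] [Module (ZMod p) T]
    (τ : Representation (ZMod p) Γ T) (g : Γ) (φ : T →+ V) (t : T) :
    homRep ρ τ g φ t = ρ g (φ (τ g⁻¹ t)) := rfl

variable (k V p) in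
theorem finiteDimensional_hom (T : Type) [AddCommGroup T] [Module (ZMod p) T]
    [FiniteDimensional (ZMod p) T] : FiniteDimensional k (T →+ V) := by
  have : Finite T := Module.finite_of_finite (ZMod p)
  let f : (T →+ V) →ₗ[k] (T → V) :=
    { toFun := fun φ => φ
      map_add' := fun _ _ => rfl
      map_smul' := fun _ _ => rfl }
  exact FiniteDimensional.of_injective f DFunLike.coe_injective

/-- The additive function `τ ↦ e (Hom(τ, ρ))`. -/
def AddFn.tens : AddFn (ZMod p) Γ where
  e {T} _ _ _ τ :=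
    haveI := finiteDimensional_hom k V p T
    E.e (homRep ρ τ)
  add {T₁ T₂ T₃} _ _ _ _ _ _ _ _ _ τ₁ τ₂ τ₃ f g hf hg hfg h1 h2 := by
    have := finiteDimensional_hom k V p T₁
    have := finiteDimensional_hom k V p T₂
    have := finiteDimensional_hom k V p T₃
    rw [add_comm]
    refine E.add (homRep ρ τ₃) (homRep ρ τ₂) (homRep ρ τ₁)
      { toFun := fun φ => φ.comp g.toAddMonoidHom
        map_add' := fun _ _ => rfl
        map_smul' := fun _ _ => rfl }
      { toFun := fun φ => φ.comp f.toAddMonoidHom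
        map_add' := fun _ _ => rfl
        map_smul' := fun _ _ => rfl } ?_ ?_ ?_ ?_ ?_
    · intro φ ψ h
      ext t
      obtain ⟨t, rfl⟩ := hg t
      exact DFunLike.congr_fun h t
    · intro φ
      obtain ⟨r, hr⟩ := f.exists_leftInverse_of_injective (LinearMap.ker_eq_bot.mpr hf)
      refine ⟨φ.comp r.toAddMonoidHom, ?_⟩
      ext t
      exact congrArg φ (LinearMap.congr_fun hr t)
    · intro φ
      constructor
      · intro h
        obtain ⟨s, hs⟩ := g.exists_rightInverse_of_surjective (LinearMap.range_eq_top.mpr hg)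
        refine ⟨φ.comp s.toAddMonoidHom, ?_⟩
        ext t
        change φ (s (g t)) = φ t
        have h3 : g (s (g t) - t) = 0 := by
          rw [map_sub, sub_eq_zero]
          exact LinearMap.congr_fun hs (g t)
        obtain ⟨u, hu⟩ := (hfg _).mp h3
        have h4 : φ (f u) = 0 := DFunLike.congr_fun h u
        rw [hu, map_sub, sub_eq_zero] at h4
        exact h4
      · rintro ⟨ψ, rfl⟩
        ext t
        change ψ (g (f t)) = 0
        rw [(hfg _).mpr ⟨t, rfl⟩, map_zero]
    · intro x φ
      ext t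
      change ρ x (φ (τ₃ x⁻¹ (g t))) = ρ x (φ (g (τ₂ x⁻¹ t)))
      rw [h2]
    · intro x φ
      ext t
      change ρ x (φ (τ₂ x⁻¹ (f t))) = ρ x (φ (f (τ₁ x⁻¹ t)))
      rw [h1]

theorem AddFn.tens_e {T : Type} [AddCommGroup T] [Module (ZMod p) T]
    [FiniteDimensional (ZMod p) T] (τ : Representation (ZMod p) Γ T)
    {W : Type} [AddCommGroup W] [Module k W] [FiniteDimensional k W] (σ : Representation k Γ W)
    (φ : (T →+ V) ≃ₗ[k] W) (h : ∀ x v, φ (homRep ρ τ x v) = σ x (φ v)) :
    (E.tens ρ (p := p)).e τ = E.e σ :=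
  haveI := finiteDimensional_hom k V p T
  E.congr φ h

end Tens

section Perm

variable {Γ : Type} [Group Γ]

/-- The permutation representation on functions `X → F`. -/
def perm (F : Type) [Field F] (X : Type) [MulAction Γ X] : Representation F Γ (X → F) where
  toFun g :=
    { toFun := fun f x => f (g⁻¹ • x)
      map_add' := fun _ _ => rfl
      map_smul' := fun _ _ => rfl }
  map_one' := by ext; simp
  map_mul' x y := by
    refine LinearMap.ext fun f => funext fun z => ?_
    change f ((x * y)⁻¹ • z) = f (y⁻¹ • x⁻¹ • z)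
    rw [mul_inv_rev, mul_smul]

@[simp] theorem perm_apply (F : Type) [Field F] (X : Type) [MulAction Γ X] (g : Γ) (f : X → F)
    (x : X) : perm F X g f x = f (g⁻¹ • x) := rfl

variable {k : Type} [Field k] (E : AddFn k Γ)
variable {V : Type} [AddCommGroup V] [Module k V] [FiniteDimensional k V]
  (ρ : Representation k Γ V) {p : ℕ} [Fact p.Prime]

/-- additive maps out of a permutation module -/
noncomputable def evalEquiv [CharP k p] (X : Type) [Fintype X] [DecidableEq X] :
    ((X → ZMod p) →+ V) ≃ₗ[k] (X → V) :=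
  LinearEquiv.ofBijective
    { toFun := fun φ x => φ (Pi.single x 1)
      map_add' := fun _ _ => rfl
      map_smul' := fun _ _ => rfl } (by
    have hsum : ∀ t : X → ZMod p, t = ∑ x, (t x).val • (Pi.single x 1 : X → ZMod p) := by
      intro t
      ext y
      rw [Finset.sum_apply, Finset.sum_eq_single y]
      · simp
      · intro b _ hb
        simp [hb.symm]
      · simp
    constructor
    · intro φ ψ h
      refine DFunLike.ext _ _ fun t => ?_
      rw [hsum t, map_sum, map_sum]
      refine Finset.sum_congr rfl fun x _ => ?_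
      rw [map_nsmul, map_nsmul]
      congr 1
      exact congrFun h x
    · intro f
      let c : ZMod p →+* k := ZMod.castHom dvd_rfl k
      refine ⟨{ toFun := fun t => ∑ x, c (t x) • f x
                map_zero' := by simp
                map_add' := fun s t => by
                  simp [add_smul, Finset.sum_add_distrib] }, ?_⟩
      ext x
      change ∑ y, c ((Pi.single x 1 : X → ZMod p) y) • f y = f x
      rw [Finset.sum_eq_single x]
      · simp
      · intro b _ hb
        simp [hb]
      · simp)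

omit [FiniteDimensional k V] in
theorem evalEquiv_apply [CharP k p] (X : Type) [Fintype X] [DecidableEq X]
    (φ : (X → ZMod p) →+ V) (x : X) : evalEquiv (k := k) X φ x = φ (Pi.single x 1) := rfl

theorem AddFn.tens_perm [CharP k p] (X : Type) [Finite X] [MulAction Γ X] :
    (E.tens ρ (p := p)).e (perm (ZMod p) X) = E.e (funRep (MulAction.toPermHom Γ X) ρ) := by
  classical
  have := Fintype.ofFinite X
  refine E.tens_e ρ _ _ (evalEquiv X) ?_
  intro g φ
  ext x
  rw [evalEquiv_apply, homRep_apply, funRep_apply, evalEquiv_apply]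
  congr 2
  ext y
  rw [perm_apply, inv_inv, Pi.single_apply, Pi.single_apply]
  congr 1
  rw [← map_inv, MulAction.toPermHom_apply, MulAction.toPerm_apply, eq_iff_iff, eq_inv_smul_iff]

end Perm

end Fermat.Agent.TWP.ArtinInd
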