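import Fermat.Agent.TWP.ArtinChar

/-!
# Permutation modules modulo `p` with isogenous lattices have the same class
-/

set_option autoImplicit false

namespace Fermat.Agent.TWP.ArtinInd

open Module

section Stab

variable {k : Type} [Field k] {Γ : Type} [Group Γ]
variable {V W : Type} [AddCommGroup V] [Module k V] [AddCommGroup W] [Module k W]
  {ρ : Representation k Γ V} {σ : Representation k Γ W} {Z : Submodule k (V × W)}

theorem map_fst_stable (hZ : ∀ g, ∀ z ∈ Z, prodRep ρ σ g z ∈ Z) :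
    ∀ g, ∀ u ∈ Z.map (LinearMap.fst k V W), ρ g u ∈ Z.map (LinearMap.fst k V W) := by
  rintro g _ ⟨z, hz, rfl⟩
  exact ⟨_, hZ g z hz, rfl⟩

theorem map_snd_stable (hZ : ∀ g, ∀ z ∈ Z, prodRep ρ σ g z ∈ Z) :
    ∀ g, ∀ u ∈ Z.map (LinearMap.snd k V W), σ g u ∈ Z.map (LinearMap.snd k V W) := by
  rintro g _ ⟨z, hz, rfl⟩
  exact ⟨_, hZ g z hz, rfl⟩

theorem comap_inl_stable (hZ : ∀ g, ∀ z ∈ Z, prodRep ρ σ g z ∈ Z) :
    ∀ g, ∀ u ∈ Z.comap (LinearMap.inl k V W), ρ g u ∈ Z.comap (LinearMap.inl k V W) := by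
  intro g u hu
  have := hZ g _ hu
  rw [prodRep_apply] at this
  simpa using this

theorem comap_inr_stable (hZ : ∀ g, ∀ z ∈ Z, prodRep ρ σ g z ∈ Z) :
    ∀ g, ∀ u ∈ Z.comap (LinearMap.inr k V W), σ g u ∈ Z.comap (LinearMap.inr k V W) := by
  intro g u hu
  have := hZ g _ hu
  rw [prodRep_apply] at this
  simpa using this

end Stab

section Red

variable {p : ℕ} {X Y : Type}

variable (p) in
/-- reduction modulo `p` -/
def red {X : Type} (v : X → ℤ) : X → ZMod p := fun x => (v x : ZMod p)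

theorem red_add {X : Type} (v w : X → ℤ) : red p (v + w) = red p v + red p w := by
  ext x; simp [red]

theorem red_smul {X : Type} (n : ℤ) (v : X → ℤ) : red p (n • v) = (n : ZMod p) • red p v := by
  ext x; simp [red]

theorem red_zero {X : Type} : red p (0 : X → ℤ) = 0 := by
  ext x; simp [red]

theorem red_surj {X : Type} (v : X → ZMod p) : ∃ w : X → ℤ, red p w = v := by
  choose w hw using fun x => ZMod.intCast_surjective (v x)
  exact ⟨w, funext hw⟩

theorem red_eq_zero {X : Type} {v : X → ℤ} (h : red p v = 0) : ∃ w : X → ℤ, v = (p : ℤ) • w := by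
  have : ∀ x, (p : ℤ) ∣ v x := fun x => (ZMod.intCast_zmod_eq_zero_iff_dvd _ _).mp (congrFun h x)
  choose w hw using this
  exact ⟨w, funext hw⟩

variable (p) in
/-- the correspondence -/
def ZZ (A : (X → ℤ) →ₗ[ℤ] (Y → ℤ)) (i : ℕ) :
    Submodule (ZMod p) ((X → ZMod p) × (Y → ZMod p)) where
  carrier := {z | ∃ v w, A v = ((p : ℤ) ^ i) • w ∧ (red p v, red p w) = z}
  add_mem' := by
    rintro _ _ ⟨v, w, h, rfl⟩ ⟨v', w', h', rfl⟩
    exact ⟨v + v', w + w', by rw [map_add, h, h', smul_add], by rw [red_add, red_add]; rfl⟩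
  zero_mem' := ⟨0, 0, by rw [map_zero, smul_zero], by rw [red_zero, red_zero]; rfl⟩
  smul_mem' := by
    rintro c _ ⟨v, w, h, rfl⟩
    obtain ⟨c, rfl⟩ := ZMod.intCast_surjective c
    exact ⟨c • v, c • w, by rw [map_smul, h, smul_comm], by rw [red_smul, red_smul]; rfl⟩

theorem mem_ZZ {A : (X → ℤ) →ₗ[ℤ] (Y → ℤ)} {i : ℕ} {z : (X → ZMod p) × (Y → ZMod p)} :
    z ∈ ZZ p A i ↔ ∃ v w, A v = ((p : ℤ) ^ i) • w ∧ (red p v, red p w) = z := Iff.rfl

end Red

section Star

variable {Γ : Type} [Group Γ] {p : ℕ} [Fact p.Prime] (E : AddFn (ZMod p) Γ)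
variable {X Y : Type} [Fintype X] [Fintype Y] [MulAction Γ X] [MulAction Γ Y]

theorem AddFn.perm_eq_of_isogeny (A : (X → ℤ) →ₗ[ℤ] (Y → ℤ)) (B : (Y → ℤ) →ₗ[ℤ] (X → ℤ))
    (hA : ∀ (g : Γ) (v : X → ℤ), A (fun x => v (g⁻¹ • x)) = fun y => A v (g⁻¹ • y))
    {N : ℤ} (hN : N ≠ 0) (hBA : ∀ v, B (A v) = N • v) (hAB : ∀ w, A (B w) = N • w) :
    E.e (perm (ZMod p) X : Representation (ZMod p) Γ _) = E.e (perm (ZMod p) Y) := by
  have hp : (p : ℤ) ≠ 0 := Nat.cast_ne_zero.mpr (Fact.out : p.Prime).ne_zero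
  have hpp : ∀ n : ℕ, (p : ℤ) ^ n ≠ 0 := fun n => pow_ne_zero n hp
  have hsm : ∀ {X : Type} {n : ℤ} (_ : n ≠ 0) {v w : X → ℤ}, n • v = n • w → v = w := by
    intro X n hn v w h
    exact smul_right_injective _ hn h
  obtain ⟨a, m, hm, hNam⟩ : ∃ (a : ℕ) (m : ℤ), ¬ (p : ℤ) ∣ m ∧ N = (p : ℤ) ^ a * m := by
    obtain ⟨m, h1, h2⟩ := (Int.finiteMultiplicity_iff.mpr
      ⟨by rw [Int.natAbs_natCast]; exact (Fact.out : p.Prime).ne_one, hN⟩ :
        FiniteMultiplicity (p : ℤ) N).exists_eq_pow_mul_and_not_dvd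
    exact ⟨_, m, h2, h1⟩
  have hZ : ∀ i, ∀ g : Γ, ∀ z ∈ ZZ p A i, prodRep (perm (ZMod p) X) (perm (ZMod p) Y) g z ∈
      ZZ p A i := by
    rintro i g _ ⟨v, w, h, rfl⟩
    refine ⟨fun x => v (g⁻¹ • x), fun y => w (g⁻¹ • y), ?_, rfl⟩
    rw [hA, h]
    rfl
  let α : ℕ → ℤ := fun i => E.e (res (perm (ZMod p) X) _ (map_fst_stable (hZ i)))
  let β : ℕ → ℤ := fun i => E.e (res (perm (ZMod p) Y) _ (map_snd_stable (hZ i)))
  have h1 : ∀ i, β i + α (i + 1) =
      E.e (res (prodRep (perm (ZMod p) X) (perm (ZMod p) Y)) _ (hZ i)) := by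
    intro i
    rw [E.goursat_snd _ _ _ (hZ i) (map_snd_stable (hZ i)) (comap_inl_stable (hZ i))]
    congr 1
    refine E.res_congr _ ?_ _ _
    ext v
    rw [Submodule.mem_map, Submodule.mem_comap]
    constructor
    · rintro ⟨_, ⟨v, w, h, rfl⟩, rfl⟩
      refine ⟨v, (p : ℤ) • w, ?_, Prod.ext rfl ?_⟩
      · rw [h, smul_smul, pow_succ]
      · change red p ((p : ℤ) • w) = 0
        rw [red_smul]
        simp
    · rintro ⟨v', w, h, h2⟩
      have h3 : red p w = 0 := congrArg Prod.snd h2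
      have h4 : red p v' = v := congrArg Prod.fst h2
      obtain ⟨w, rfl⟩ := red_eq_zero h3
      exact ⟨_, ⟨v', w, by rw [h, smul_smul, pow_succ], rfl⟩, h4⟩
  have h2 : ∀ i, α (i + 1) + β i =
      E.e (res (prodRep (perm (ZMod p) X) (perm (ZMod p) Y)) _ (hZ (i + 1))) := by
    intro i
    rw [E.goursat_fst _ _ _ (hZ (i + 1)) (map_fst_stable (hZ (i + 1)))
      (comap_inr_stable (hZ (i + 1)))]
    congr 1
    refine E.res_congr _ ?_ _ _
    ext w
    rw [Submodule.mem_map, Submodule.mem_comap]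
    constructor
    · rintro ⟨_, ⟨v, w, h, rfl⟩, rfl⟩
      refine ⟨(p : ℤ) • v, w, ?_, Prod.ext ?_ rfl⟩
      · rw [map_smul, h, smul_smul, pow_succ']
      · change red p ((p : ℤ) • v) = 0
        rw [red_smul]
        simp
    · rintro ⟨v, w', h, h2⟩
      have h3 : red p v = 0 := congrArg Prod.fst h2
      have h4 : red p w' = w := congrArg Prod.snd h2
      obtain ⟨v, rfl⟩ := red_eq_zero h3
      refine ⟨_, ⟨v, w', ?_, rfl⟩, h4⟩
      apply hsm hp
      rw [← map_smul, h, smul_smul, pow_succ']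
  have h0 : α 0 = E.e (res (prodRep (perm (ZMod p) X) (perm (ZMod p) Y)) _ (hZ 0)) := by
    rw [E.goursat_fst _ _ _ (hZ 0) (map_fst_stable (hZ 0)) (comap_inr_stable (hZ 0))]
    have : (ZZ p A 0).comap (LinearMap.inr (ZMod p) (X → ZMod p) (Y → ZMod p)) = ⊥ := by
      rw [eq_bot_iff]
      rintro w ⟨v, w', h, h2⟩
      have h3 : red p v = 0 := congrArg Prod.fst h2
      have h4 : red p w' = w := congrArg Prod.snd h2
      obtain ⟨v, rfl⟩ := red_eq_zero h3
      rw [pow_zero, one_smul, map_smul] at h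
      rw [Submodule.mem_bot, ← h4, ← h, red_smul]
      simp
    rw [E.res_congr _ this _ (fun g u hu => by
      rw [Submodule.mem_bot] at hu ⊢; rw [hu, map_zero]), E.res_bot, add_zero]
  have key : ∀ n, α 0 = β n + α (n + 1) := by
    intro n
    induction n with
    | zero => rw [h0, h1]
    | succ n ih => rw [ih, add_comm, h2, h1]
  -- the ends
  have e0 : α 0 = E.e (perm (ZMod p) X : Representation (ZMod p) Γ _) := by
    have : (ZZ p A 0).map (LinearMap.fst (ZMod p) (X → ZMod p) (Y → ZMod p)) = ⊤ := by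
      rw [eq_top_iff]
      intro v _
      obtain ⟨v, rfl⟩ := red_surj v
      exact ⟨_, ⟨v, A v, by rw [pow_zero, one_smul], rfl⟩, rfl⟩
    change E.e (res _ _ (map_fst_stable (hZ 0))) = _
    rw [E.res_congr _ this _ (fun _ _ _ => Submodule.mem_top), E.res_top]
  have e1 : β a = E.e (perm (ZMod p) Y : Representation (ZMod p) Γ _) := by
    have : (ZZ p A a).map (LinearMap.snd (ZMod p) (X → ZMod p) (Y → ZMod p)) = ⊤ := by
      rw [eq_top_iff]
      intro w _
      obtain ⟨w, rfl⟩ := red_surj w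
      have hm0 : (m : ZMod p) ≠ 0 := by
        rw [Ne, ZMod.intCast_zmod_eq_zero_iff_dvd]
        exact hm
      have h3 : red p (m • w) ∈
          (ZZ p A a).map (LinearMap.snd (ZMod p) (X → ZMod p) (Y → ZMod p)) := by
        refine ⟨_, ⟨B w, m • w, ?_, rfl⟩, rfl⟩
        rw [hAB, smul_smul, hNam]
      rw [red_smul] at h3
      have h4 := Submodule.smul_mem _ ((m : ZMod p)⁻¹) h3
      rwa [smul_smul, inv_mul_cancel₀ hm0, one_smul] at h4
    change E.e (res _ _ (map_snd_stable (hZ a))) = _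
    rw [E.res_congr _ this _ (fun _ _ _ => Submodule.mem_top), E.res_top]
  have e2 : α (a + 1) = 0 := by
    have : (ZZ p A (a + 1)).map (LinearMap.fst (ZMod p) (X → ZMod p) (Y → ZMod p)) = ⊥ := by
      rw [eq_bot_iff]
      rintro _ ⟨_, ⟨v, w, h, rfl⟩, rfl⟩
      rw [Submodule.mem_bot]
      change red p v = 0
      have h3 := congrArg B h
      rw [hBA, map_smul, hNam, pow_succ, mul_smul, mul_smul] at h3
      have h4 := hsm (hpp a) h3
      have hm0 : (m : ZMod p) ≠ 0 := by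
        rw [Ne, ZMod.intCast_zmod_eq_zero_iff_dvd]
        exact hm
      have h5 := congrArg (red p) h4
      rw [red_smul, red_smul, Int.cast_natCast, ZMod.natCast_self, zero_smul] at h5
      exact (smul_eq_zero.mp h5).resolve_left hm0
    change E.e (res _ _ (map_fst_stable (hZ (a + 1)))) = _
    rw [E.res_congr _ this _ (fun g u hu => by
      rw [Submodule.mem_bot] at hu ⊢; rw [hu, map_zero]), E.res_bot]
  rw [← e0, key a, e1, e2, add_zero]

end Star

section Marks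

theorem exists_int_map {X Y : Type} [Fintype X] [Finite Y] (φ : (X → ℚ) →ₗ[ℚ] (Y → ℚ)) :
    ∃ (n : ℤ) (A : (X → ℤ) →ₗ[ℤ] (Y → ℤ)), n ≠ 0 ∧
      ∀ (v : X → ℤ) (y : Y), ((A v y : ℤ) : ℚ) = n * φ (fun x => (v x : ℚ)) y := by
  classical
  obtain ⟨b, hb⟩ := IsLocalization.exist_integer_multiples_of_finite (nonZeroDivisors ℤ)
    (fun z : X × Y => φ (Pi.single z.1 1) z.2)
  choose a ha using hb
  refine ⟨b, Matrix.mulVecLin (Matrix.of fun y x => a (x, y)), nonZeroDivisors.coe_ne_zero b, ?_⟩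
  intro v y
  have h1 : (fun x => (v x : ℚ)) = ∑ x, (v x : ℚ) • (Pi.single x 1 : X → ℚ) := by
    ext z
    rw [Finset.sum_apply, Finset.sum_eq_single z]
    · simp
    · intro c _ hc
      simp [hc.symm]
    · simp
  rw [h1, map_sum, Finset.sum_apply, Finset.mul_sum]
  rw [Matrix.mulVecLin_apply]
  simp only [Matrix.mulVec, dotProduct, Matrix.of_apply]
  rw [Int.cast_sum]
  refine Finset.sum_congr rfl fun x _ => ?_
  have h2 := ha (x, y)
  rw [map_smul, Pi.smul_apply, smul_eq_mul]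
  simp only [algebraMap_int_eq, eq_intCast, zsmul_eq_mul] at h2
  rw [Int.cast_mul, h2]
  ring

variable {Γ : Type} [Group Γ]

theorem trace_perm (F : Type) [Field F] (X : Type) [Finite X] [MulAction Γ X] (g : Γ) :
    LinearMap.trace F (X → F) (perm F X g) = (Nat.card (MulAction.fixedBy X g) : F) := by
  classical
  have := Fintype.ofFinite X
  rw [LinearMap.trace_eq_matrix_trace F (Pi.basisFun F X), Matrix.trace]
  have : ∀ x, (LinearMap.toMatrix (Pi.basisFun F X) (Pi.basisFun F X) (perm F X g)).diag x =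
      if x ∈ MulAction.fixedBy X g then 1 else 0 := by
    intro x
    rw [Matrix.diag_apply, LinearMap.toMatrix_apply, Pi.basisFun_apply, Pi.basisFun_repr,
      perm_apply, Pi.single_apply]
    congr 1
    rw [eq_iff_iff, MulAction.mem_fixedBy, inv_smul_eq_iff, eq_comm]
  rw [Finset.sum_congr rfl fun x _ => this x, Finset.sum_boole, Nat.card_eq_fintype_card,
    Fintype.card_subtype]

theorem AddFn.perm_eq_of_marks {p : ℕ} [Fact p.Prime] [Finite Γ] (E : AddFn (ZMod p) Γ)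
    {X Y : Type} [Finite X] [Finite Y] [MulAction Γ X] [MulAction Γ Y]
    (h : ∀ g : Γ, Nat.card (MulAction.fixedBy X g) = Nat.card (MulAction.fixedBy Y g)) :
    E.e (perm (ZMod p) X : Representation (ZMod p) Γ _) = E.e (perm (ZMod p) Y) := by
  have := Fintype.ofFinite X
  have := Fintype.ofFinite Y
  obtain ⟨φ, hφ⟩ := exists_equiv_of_trace_eq _ (perm ℚ X : Representation ℚ Γ _)
    (perm ℚ Y : Representation ℚ Γ _) rfl (fun g => by rw [trace_perm, trace_perm, h])
  obtain ⟨n, A, hn, hA⟩ := exists_int_map φ.toLinearMap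
  obtain ⟨m, B, hm, hB⟩ := exists_int_map φ.symm.toLinearMap
  have hA' : ∀ v : X → ℤ, (fun y => (A v y : ℚ)) = (n : ℚ) • φ (fun x => (v x : ℚ)) :=
    fun v => funext fun y => hA v y
  have hB' : ∀ v : Y → ℤ, (fun y => (B v y : ℚ)) = (m : ℚ) • φ.symm (fun x => (v x : ℚ)) :=
    fun v => funext fun y => hB v y
  have inj : ∀ {X : Type} {v w : X → ℤ}, (fun x => (v x : ℚ)) = (fun x => (w x : ℚ)) → v = w := by
    intro X v w h
    ext x
    exact_mod_cast congrFun h x
  refine E.perm_eq_of_isogeny A B ?_ (mul_ne_zero hn hm) ?_ ?_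
  · intro g v
    apply inj
    rw [hA']
    have h1 := hφ g (fun x => (v x : ℚ))
    have h2 : (perm ℚ X g fun x => (v x : ℚ)) = fun x => ((v (g⁻¹ • x) : ℤ) : ℚ) := rfl
    rw [h2] at h1
    rw [h1]
    ext y
    have h3 := congrFun (hA' v) (g⁻¹ • y)
    simp only [Pi.smul_apply, perm_apply] at h3 ⊢
    exact h3.symm
  · intro v
    apply inj
    rw [hB', hA', map_smul, LinearEquiv.symm_apply_apply, smul_smul]
    ext x
    simp only [Pi.smul_apply, smul_eq_mul, Int.cast_mul]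
    ring
  · intro v
    apply inj
    rw [hA', hB', map_smul, LinearEquiv.apply_symm_apply, smul_smul]
    ext x
    simp

end Marks

end Fermat.Agent.TWP.ArtinInd
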