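import Fermat.Agent.TWP.Assembly

/-!
# Taylor–Wiles primes with a set `Sg` of auxiliary scalar primes

The statements `exists_TW_sigma_ord` and `exists_TW_sigma_flat` bound the Selmer cocycles which vanish
on the decomposition groups at the primes of `Sg`, where the residual representation is scalar.
-/

set_option autoImplicit false
set_option linter.unusedSectionVars false

namespace Fermat.Agent.TWP.Wiring

open Module Matrix Pointwise Polynomial IsLocalRing Fermat.Agent.CFT Fermat.Agent.CFT.LC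
  ExtCitation Fermat.Agent.TWP.GW

local notation "ℚbar" => AlgebraicClosure ℚ
local notation "ΓQ" => (AlgebraicClosure ℚ ≃ₐ[ℚ] AlgebraicClosure ℚ)

variable {𝒪 : Type} [CommRing 𝒪] [IsDomain 𝒪] [IsDiscreteValuationRing 𝒪]
    [IsAdicComplete (maximalIdeal 𝒪) 𝒪] [Finite (ResidueField 𝒪)]
    {p : ℕ} [Fact p.Prime] {ρbar : ResidualGaloisRep (ResidueField 𝒪)}
    {M : ΓQ →* Matrix (Fin 2) (Fin 2) (ResidueField 𝒪)}

/-- The common form of the two statements. -/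
theorem exists_TW_sigma_aux (hp2 : p ≠ 2)
    (hM : UDef.IsModelR ρbar M) (habs : ρbar.IsAbsolutelyIrreducible)
    (hdet : (GaloisRepAdic.ofResidualGaloisRep ρbar).DetIsCyclotomic p)
    (hsplit : ∀ σ : ΓQ, ∃ α β : ResidueField 𝒪,
      LinearMap.charpoly (ρbar.ρ σ) = (X - C α) * (X - C β))
    (hTW : ∀ (K : Type) [Field K] [Algebra (ResidueField 𝒪) K]
      (G : Subgroup (AlgebraicClosure ℚ ≃ₐ[ℚ] AlgebraicClosure ℚ)), G.index = 2 →
      ∀ V : Submodule K (ρbar.baseChange K).V,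
        (∀ σ ∈ G, ∀ x ∈ V, (ρbar.baseChange K).ρ σ x ∈ V) → V = ⊥ ∨ V = ⊤)
    (S Smin Sg : Finset ℕ) (hpSmin : p ∈ Smin) (hSmin : Smin ⊆ S) (hSg : Sg ⊆ S)
    (hSgp : ∀ q ∈ Sg, q.Prime) (hdj : Disjoint Smin Sg)
    (hscal : ∀ q ∈ Sg, ∀ P : ValuationSubring ℚbar, P.LiesOverPrime q →
      ∀ d ∈ P.decompositionSubgroup ℚ, ∃ c : ResidueField 𝒪, M d = c • 1)
    (hmin : ∀ q : ℕ, q.Prime → q ≠ p → (q ∈ Smin ↔ ¬ ρbar.IsUnramifiedAt q))
    (hrec : RecInput p) (hec : ∀ S : Finset Nat.Primes, pPrime p ∈ S → ECIneq p S)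
    (CondP : (ΓQ → Matrix (Fin 2) (Fin 2) (ResidueField 𝒪)) → Prop)
    (hP : HasLocal M (pPrime p) 4 CondP) :
    ∃ r : ℕ, 3 * Sg.card ≤ r ∧ ∀ n : ℕ, ∃ qv : Fin r → ℕ, Function.Injective qv ∧
      (∀ i, (qv i).Prime ∧ qv i ∉ S ∧ p ^ (n + 1) ∣ qv i - 1) ∧
      (∀ i, ∀ P : ValuationSubring (AlgebraicClosure ℚ), P.LiesOverPrime (qv i) →
        ∀ φ : ΓQ, P.IsFrobeniusAt φ (qv i) →
          ∃ α β : ResidueField 𝒪, α ≠ β ∧ LinearMap.charpoly (ρbar.ρ φ) = (X - C α) * (X - C β)) ∧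
      ∀ Z : Submodule (ResidueField 𝒪) (ΓQ → Matrix (Fin 2) (Fin 2) (ResidueField 𝒪)),
        (∀ a ∈ Z, SelCond M p Smin (Sg ∪ Finset.univ.image qv) a ∧ CondP a ∧
          ∀ v ∈ Sg, ∀ P : ValuationSubring ℚbar, P.LiesOverPrime v →
            ∀ σ ∈ P.decompositionSubgroup ℚ, a σ = 0) →
        Module.Finite (ResidueField 𝒪) Z ∧
          finrank (ResidueField 𝒪) Z + 3 * Sg.card ≤ r + 3 := by
  have hcp : CharP (ResidueField 𝒪) p := charP_of_det hdet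
  have h2 : (2 : ResidueField 𝒪) ≠ 0 := two_ne_zero_of_charP (p := p) hp2
  let alg : Algebra (ZMod p) (ResidueField 𝒪) := ZMod.algebra (ResidueField 𝒪) p
  have : FiniteDimensional (ZMod p) (ResidueField 𝒪) := Module.Finite.of_finite
  have hadj : AdjHyp M := adjHyp_of_isModelR hM h2 habs hTW
  obtain ⟨r, hr3, hr⟩ := exists_TW_sigma hp2 hM hadj hdet hsplit S Smin Sg hpSmin hSmin hSg hSgp hdj
    (fun q hq d hd => hscal q hq _ (primeLocalPlace_liesOverPrime q) d hd) hmin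
    (gwInput_residual hp2 hM hdet hrec hec inferInstance) (LocalTW.twBound h2 M)
    (LocalMin.minBound p (locConst_iff.mp (locConst_of_isModelR hM))) CondP hP
  refine ⟨r, hr3, fun n => ?_⟩
  obtain ⟨qv, h1, h2, h3, h4⟩ := hr n
  exact ⟨qv, h1, h2, h3, fun Z hZ => h4 Z fun a ha =>
    ⟨selC_of_selCond (hZ a ha).1, (hZ a ha).2.1, fun q hq d hd =>
      (hZ a ha).2.2 q hq _ (primeLocalPlace_liesOverPrime q) d hd⟩⟩

/-- **Taylor–Wiles primes with auxiliary scalar primes**, strictly ordinary case. -/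
theorem exists_TW_sigma_ord (hp2 : p ≠ 2) (hp𝒪 : (p : 𝒪) ∈ maximalIdeal 𝒪)
    (hM : UDef.IsModelR ρbar M) (habs : ρbar.IsAbsolutelyIrreducible)
    (hdet : (GaloisRepAdic.ofResidualGaloisRep ρbar).DetIsCyclotomic p)
    (hsplit : ∀ σ : ΓQ, ∃ α β : ResidueField 𝒪,
      LinearMap.charpoly (ρbar.ρ σ) = (X - C α) * (X - C β))
    (hTW : ∀ (K : Type) [Field K] [Algebra (ResidueField 𝒪) K]
      (G : Subgroup (AlgebraicClosure ℚ ≃ₐ[ℚ] AlgebraicClosure ℚ)), G.index = 2 →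
      ∀ V : Submodule K (ρbar.baseChange K).V,
        (∀ σ ∈ G, ∀ x ∈ V, (ρbar.baseChange K).ρ σ x ∈ V) → V = ⊥ ∨ V = ⊤)
    (S Smin Sg : Finset ℕ) (hpSmin : p ∈ Smin) (hSmin : Smin ⊆ S) (hSg : Sg ⊆ S)
    (hSgp : ∀ q ∈ Sg, q.Prime) (hdj : Disjoint Smin Sg)
    (hscal : ∀ q ∈ Sg, ∀ P : ValuationSubring ℚbar, P.LiesOverPrime q →
      ∀ d ∈ P.decompositionSubgroup ℚ, ∃ c : ResidueField 𝒪, M d = c • 1)
    (hmin : ∀ q : ℕ, q.Prime → q ≠ p → (q ∈ Smin ↔ ¬ ρbar.IsUnramifiedAt q))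
    (hrec : RecInput p) (hec : ∀ S : Finset Nat.Primes, pPrime p ∈ S → ECIneq p S)
    (hline : ∃ u, OrdLine M p (primeLocalPlace (pPrime p)) u) :
    ∃ r : ℕ, 3 * Sg.card ≤ r ∧ ∀ n : ℕ, ∃ qv : Fin r → ℕ, Function.Injective qv ∧
      (∀ i, (qv i).Prime ∧ qv i ∉ S ∧ p ^ (n + 1) ∣ qv i - 1) ∧
      (∀ i, ∀ P : ValuationSubring (AlgebraicClosure ℚ), P.LiesOverPrime (qv i) →
        ∀ φ : ΓQ, P.IsFrobeniusAt φ (qv i) →
          ∃ α β : ResidueField 𝒪, α ≠ β ∧ LinearMap.charpoly (ρbar.ρ φ) = (X - C α) * (X - C β)) ∧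
      ∀ Z : Submodule (ResidueField 𝒪) (ΓQ → Matrix (Fin 2) (Fin 2) (ResidueField 𝒪)),
        (∀ a ∈ Z, SelCond M p Smin (Sg ∪ Finset.univ.image qv) a ∧ SelOrd M p a ∧
          ∀ v ∈ Sg, ∀ P : ValuationSubring ℚbar, P.LiesOverPrime v →
            ∀ σ ∈ P.decompositionSubgroup ℚ, a σ = 0) →
        Module.Finite (ResidueField 𝒪) Z ∧
          finrank (ResidueField 𝒪) Z + 3 * Sg.card ≤ r + 3 := by
  obtain ⟨u, hu⟩ := hline
  exact exists_TW_sigma_aux hp2 hM habs hdet hsplit hTW S Smin Sg hpSmin hSmin hSg hSgp hdj hscal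
    hmin hrec hec (SelOrd M p) (LocalOrd.ord_input hp2 hp𝒪 hM u hu)

/-- **Taylor–Wiles primes with auxiliary scalar primes**, flat case. -/
theorem exists_TW_sigma_flat (hp2 : p ≠ 2)
    (hM : UDef.IsModelR ρbar M) (habs : ρbar.IsAbsolutelyIrreducible)
    (hdet : (GaloisRepAdic.ofResidualGaloisRep ρbar).DetIsCyclotomic p)
    (hsplit : ∀ σ : ΓQ, ∃ α β : ResidueField 𝒪,
      LinearMap.charpoly (ρbar.ρ σ) = (X - C α) * (X - C β))
    (hTW : ∀ (K : Type) [Field K] [Algebra (ResidueField 𝒪) K]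
      (G : Subgroup (AlgebraicClosure ℚ ≃ₐ[ℚ] AlgebraicClosure ℚ)), G.index = 2 →
      ∀ V : Submodule K (ρbar.baseChange K).V,
        (∀ σ ∈ G, ∀ x ∈ V, (ρbar.baseChange K).ρ σ x ∈ V) → V = ⊥ ∨ V = ⊤)
    (S Smin Sg : Finset ℕ) (hpSmin : p ∈ Smin) (hSmin : Smin ⊆ S) (hSg : Sg ⊆ S)
    (hSgp : ∀ q ∈ Sg, q.Prime) (hdj : Disjoint Smin Sg)
    (hscal : ∀ q ∈ Sg, ∀ P : ValuationSubring ℚbar, P.LiesOverPrime q →
      ∀ d ∈ P.decompositionSubgroup ℚ, ∃ c : ResidueField 𝒪, M d = c • 1)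
    (hmin : ∀ q : ℕ, q.Prime → q ≠ p → (q ∈ Smin ↔ ¬ ρbar.IsUnramifiedAt q))
    (hrec : RecInput p) (hec : ∀ S : Finset Nat.Primes, pPrime p ∈ S → ECIneq p S)
    (hflat : (GaloisRepAdic.ofResidualGaloisRep ρbar).IsFlatAt p) :
    ∃ r : ℕ, 3 * Sg.card ≤ r ∧ ∀ n : ℕ, ∃ qv : Fin r → ℕ, Function.Injective qv ∧
      (∀ i, (qv i).Prime ∧ qv i ∉ S ∧ p ^ (n + 1) ∣ qv i - 1) ∧
      (∀ i, ∀ P : ValuationSubring (AlgebraicClosure ℚ), P.LiesOverPrime (qv i) →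
        ∀ φ : ΓQ, P.IsFrobeniusAt φ (qv i) →
          ∃ α β : ResidueField 𝒪, α ≠ β ∧ LinearMap.charpoly (ρbar.ρ φ) = (X - C α) * (X - C β)) ∧
      ∀ Z : Submodule (ResidueField 𝒪) (ΓQ → Matrix (Fin 2) (Fin 2) (ResidueField 𝒪)),
        (∀ a ∈ Z, SelCond M p Smin (Sg ∪ Finset.univ.image qv) a ∧ SelFlat M p a ∧
          ∀ v ∈ Sg, ∀ P : ValuationSubring ℚbar, P.LiesOverPrime v →
            ∀ σ ∈ P.decompositionSubgroup ℚ, a σ = 0) →
        Module.Finite (ResidueField 𝒪) Z ∧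
          finrank (ResidueField 𝒪) Z + 3 * Sg.card ≤ r + 3 :=
  exists_TW_sigma_aux hp2 hM habs hdet hsplit hTW S Smin Sg hpSmin hSmin hSg hSgp hdj hscal
    hmin hrec hec (SelFlat M p) (TWFlat.hasLocal_flat hp2 hM hdet hsplit hflat)

end Fermat.Agent.TWP.Wiring
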