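import Fermat.Agent.TWP.AssemblySigma
import Fermat.Agent.TWP.GW.Uncond

/-!
# Taylor–Wiles primes with auxiliary scalar primes, unconditionally
-/

set_option autoImplicit false
set_option linter.unusedSectionVars false

namespace Fermat.Agent.TWP.Sigma

open Module Matrix Pointwise Polynomial IsLocalRing Fermat.Agent.CFT Fermat.Agent.CFT.LC
  ExtCitation Fermat.Agent.TWP.GW Fermat.Agent.TWP.Wiring

local notation "ℚbar" => AlgebraicClosure ℚ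
local notation "ΓQ" => (AlgebraicClosure ℚ ≃ₐ[ℚ] AlgebraicClosure ℚ)

variable {𝒪 : Type} [CommRing 𝒪] [IsDomain 𝒪] [IsDiscreteValuationRing 𝒪]
    [IsAdicComplete (maximalIdeal 𝒪) 𝒪] [Finite (ResidueField 𝒪)]
    {p : ℕ} [Fact p.Prime] {ρbar : ResidualGaloisRep (ResidueField 𝒪)}
    {M : ΓQ →* Matrix (Fin 2) (Fin 2) (ResidueField 𝒪)}

/-- **Taylor–Wiles primes with auxiliary scalar primes**, strictly ordinary case. -/
theorem exists_TW_sigma_ord (hp2 : p ≠ 2) (hp𝒪 : (p : 𝒪) ∈ maximalIdeal 𝒪)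
    (hM : UDef.IsModelR ρbar M) (habs : ρbar.IsAbsolutelyIrreducible)
    (hdet : (GaloisRepAdic.ofResidualGaloisRep ρbar).DetIsCyclotomic p)
    (hsplit : ∀ σ : ΓQ, ∃ α β : ResidueField 𝒪,
      LinearMap.charpoly (ρbar.ρ σ) = (X - C α) * (X - C β))
    (hTW : ∀ (K : Type) [Field K] [Algebra (ResidueField 𝒪) K]
      (G : Subgroup (AlgebraicClosure ℚ ≃ₐ[ℚ] AlgebraicClosure ℚ)), G.index = 2 →
      ∀ V : Submodule K (ρbar.baseChange K).V,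
        (∀ σ ∈ G, ∀ x ∈ V, (ρbar.baseChange K).ρ σ x ∈ V) → V = ⊥ ∨ V = ⊤)
    (S Smin Sg : Finset ℕ) (hpSmin : p ∈ Smin) (hSmin : Smin ⊆ S) (hSg : Sg ⊆ S)
    (hSgp : ∀ q ∈ Sg, q.Prime) (hdj : Disjoint Smin Sg)
    (hscal : ∀ q ∈ Sg, ∀ P : ValuationSubring ℚbar, P.LiesOverPrime q →
      ∀ d ∈ P.decompositionSubgroup ℚ, ∃ c : ResidueField 𝒪, M d = c • 1)
    (hmin : ∀ q : ℕ, q.Prime → q ≠ p → (q ∈ Smin ↔ ¬ ρbar.IsUnramifiedAt q))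
    (hline : ∃ u, OrdLine M p (primeLocalPlace (pPrime p)) u) :
    ∃ r : ℕ, 3 * Sg.card ≤ r ∧ ∀ n : ℕ, ∃ qv : Fin r → ℕ, Function.Injective qv ∧
      (∀ i, (qv i).Prime ∧ qv i ∉ S ∧ p ^ (n + 1) ∣ qv i - 1) ∧
      (∀ i, ∀ P : ValuationSubring (AlgebraicClosure ℚ), P.LiesOverPrime (qv i) →
        ∀ φ : ΓQ, P.IsFrobeniusAt φ (qv i) →
          ∃ α β : ResidueField 𝒪, α ≠ β ∧ LinearMap.charpoly (ρbar.ρ φ) = (X - C α) * (X - C β)) ∧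
      ∀ Z : Submodule (ResidueField 𝒪) (ΓQ → Matrix (Fin 2) (Fin 2) (ResidueField 𝒪)),
        (∀ a ∈ Z, SelCond M p Smin (Sg ∪ Finset.univ.image qv) a ∧ SelOrd M p a ∧
          ∀ v ∈ Sg, ∀ P : ValuationSubring ℚbar, P.LiesOverPrime v →
            ∀ σ ∈ P.decompositionSubgroup ℚ, a σ = 0) →
        Module.Finite (ResidueField 𝒪) Z ∧
          finrank (ResidueField 𝒪) Z + 3 * Sg.card ≤ r + 3 := by
  exact Wiring.exists_TW_sigma_ord hp2 hp𝒪 hM habs hdet hsplit hTW S Smin Sg hpSmin hSmin hSg hSgp hdj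
    hscal hmin (recInput hp2) (ecIneq hp2) hline

/-- **Taylor–Wiles primes with auxiliary scalar primes**, flat case. -/
theorem exists_TW_sigma_flat (hp2 : p ≠ 2)
    (hM : UDef.IsModelR ρbar M) (habs : ρbar.IsAbsolutelyIrreducible)
    (hdet : (GaloisRepAdic.ofResidualGaloisRep ρbar).DetIsCyclotomic p)
    (hsplit : ∀ σ : ΓQ, ∃ α β : ResidueField 𝒪,
      LinearMap.charpoly (ρbar.ρ σ) = (X - C α) * (X - C β))
    (hTW : ∀ (K : Type) [Field K] [Algebra (ResidueField 𝒪) K]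
      (G : Subgroup (AlgebraicClosure ℚ ≃ₐ[ℚ] AlgebraicClosure ℚ)), G.index = 2 →
      ∀ V : Submodule K (ρbar.baseChange K).V,
        (∀ σ ∈ G, ∀ x ∈ V, (ρbar.baseChange K).ρ σ x ∈ V) → V = ⊥ ∨ V = ⊤)
    (S Smin Sg : Finset ℕ) (hpSmin : p ∈ Smin) (hSmin : Smin ⊆ S) (hSg : Sg ⊆ S)
    (hSgp : ∀ q ∈ Sg, q.Prime) (hdj : Disjoint Smin Sg)
    (hscal : ∀ q ∈ Sg, ∀ P : ValuationSubring ℚbar, P.LiesOverPrime q →
      ∀ d ∈ P.decompositionSubgroup ℚ, ∃ c : ResidueField 𝒪, M d = c • 1)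
    (hmin : ∀ q : ℕ, q.Prime → q ≠ p → (q ∈ Smin ↔ ¬ ρbar.IsUnramifiedAt q))
    (hflat : (GaloisRepAdic.ofResidualGaloisRep ρbar).IsFlatAt p) :
    ∃ r : ℕ, 3 * Sg.card ≤ r ∧ ∀ n : ℕ, ∃ qv : Fin r → ℕ, Function.Injective qv ∧
      (∀ i, (qv i).Prime ∧ qv i ∉ S ∧ p ^ (n + 1) ∣ qv i - 1) ∧
      (∀ i, ∀ P : ValuationSubring (AlgebraicClosure ℚ), P.LiesOverPrime (qv i) →
        ∀ φ : ΓQ, P.IsFrobeniusAt φ (qv i) →
          ∃ α β : ResidueField 𝒪, α ≠ β ∧ LinearMap.charpoly (ρbar.ρ φ) = (X - C α) * (X - C β)) ∧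
      ∀ Z : Submodule (ResidueField 𝒪) (ΓQ → Matrix (Fin 2) (Fin 2) (ResidueField 𝒪)),
        (∀ a ∈ Z, SelCond M p Smin (Sg ∪ Finset.univ.image qv) a ∧ SelFlat M p a ∧
          ∀ v ∈ Sg, ∀ P : ValuationSubring ℚbar, P.LiesOverPrime v →
            ∀ σ ∈ P.decompositionSubgroup ℚ, a σ = 0) →
        Module.Finite (ResidueField 𝒪) Z ∧
          finrank (ResidueField 𝒪) Z + 3 * Sg.card ≤ r + 3 :=
  Wiring.exists_TW_sigma_flat hp2 hM habs hdet hsplit hTW S Smin Sg hpSmin hSmin hSg hSgp hdj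
    hscal hmin (recInput hp2) (ecIneq hp2) hflat

end Fermat.Agent.TWP.Sigma
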