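import Fermat.Agent.TWP.Wiring
import Fermat.Agent.TWP.LocalDimP

/-!
# The ordinary local condition in the form used by the wiring
-/

set_option autoImplicit false

namespace Fermat.Agent.TWP.Wiring

open Module Matrix Pointwise Polynomial IsLocalRing Fermat.Agent.CFT Fermat.Agent.CFT.LC
  ExtCitation Fermat.Agent.TWP.GW Fermat.Agent.TWP.LocalDimP

local notation "ℚbar" => AlgebraicClosure ℚ
local notation "ΓQ" => (AlgebraicClosure ℚ ≃ₐ[ℚ] AlgebraicClosure ℚ)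

variable {𝒪 : Type} [CommRing 𝒪] [IsLocalRing 𝒪]
  {M : ΓQ →* Matrix (Fin 2) (Fin 2) (ResidueField 𝒪)} {p : ℕ} [hp : Fact p.Prime]

theorem hasLocal_ord [Finite (ResidueField 𝒪)] (hp2 : p ≠ 2) (hpk : (p : ResidueField 𝒪) = 0)
    (hM : ∃ L : IntermediateField ℚ (AlgebraicClosure ℚ), FiniteDimensional ℚ L ∧
      ∀ τ : ΓQ, (∀ x ∈ L, τ x = x) → M τ = 1) {u : Fin 2 → ResidueField 𝒪}
    (hu : OrdLine M p (primeLocalPlace (pPrime p)) u) :
    HasLocal M (pPrime p) 4 (SelOrd M p) := by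
  have hP := primeLocalPlace_liesOverPrime (pPrime p)
  obtain ⟨h1, h2⟩ := finrank_ordU hp2 hpk hP hu hM
  refine ⟨ordU M (primeLocalPlace (pPrime p)) u, fun f hf => hf.1, fun X hX => bdry_mem_ordU hM hX,
    h2, fun a ha ha' => ?_⟩
  obtain ⟨X, hX, h⟩ := ha' _ hP u hu
  refine ⟨⟨fun σ => ha.1 _, fun σ τ => ha.2.1 _ _, ?_⟩, -X, by rw [Matrix.trace_neg, hX, neg_zero],
    fun σ => ?_⟩
  · obtain ⟨N, hN, h3⟩ := ha.2.2
    exact ⟨_, ⟨N, hN, rfl⟩, fun σ τ hτ => h3 σ τ hτ⟩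
  · have h1 := h σ σ.2
    have h2 : a σ - (adj M (σ : ΓQ) (-X) - -X) = a σ - adBoundary M X σ := by
      show a σ - (M σ * (-X) * M (σ : ΓQ)⁻¹ - -X) = a σ - (X - M σ * X * M (σ : ΓQ)⁻¹)
      rw [mul_neg, neg_mul]
      abel
    rw [h2]
    exact h1

end Fermat.Agent.TWP.Wiring
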